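import Fermat.Agent.CFT.Rel3
import Fermat.Agent.CFTSec.Kummer
import Fermat.Agent.CFT.Herbrand

set_option autoImplicit false
set_option maxHeartbeats 400000

/-! Definitions for the global Euler characteristic. -/

namespace Fermat.Agent.EulerC

open Fermat.Agent.CFT Fermat.Agent.CFTSec

section lev

variable (T : Finset Nat.Primes) {U : Type*} [Group U] (π : U →* GQ)

/-- level constant functions -/
def Lv1 {Y : Type*} (b : U → Y) : Prop :=
  ∃ E : IntermediateField ℚ Qb, E.IsUnramifiedOutside T ∧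
    ∀ g s, π s ∈ E.fixingSubgroup → b (g * s) = b g

/-- level constant functions of two variables -/
def Lv2 {Y : Type*} (x : U → U → Y) : Prop :=
  ∃ E : IntermediateField ℚ Qb, E.IsUnramifiedOutside T ∧
    ∀ g h s s', π s ∈ E.fixingSubgroup → π s' ∈ E.fixingSubgroup → x (g * s) (h * s') = x g h

variable {T π}

theorem Lv1.const {Y : Type*} (y : Y) : Lv1 T π (fun _ => y) :=
  ⟨⊥, IntermediateField.isUnramifiedOutside_bot T, fun _ _ _ => rfl⟩

theorem Lv1.comp {Y Z : Type*} {b : U → Y} (h : Lv1 T π b) (F : Y → Z) :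
    Lv1 T π (fun g => F (b g)) := by
  obtain ⟨E, hE, h1⟩ := h
  exact ⟨E, hE, fun g s hs => congrArg F (h1 g s hs)⟩

theorem Lv1.map₂ {X Y Z : Type*} {b : U → X} {b' : U → Y} (h : Lv1 T π b) (h' : Lv1 T π b')
    (F : X → Y → Z) : Lv1 T π (fun g => F (b g) (b' g)) := by
  obtain ⟨E, hE, h1⟩ := h
  obtain ⟨E', hE', h1'⟩ := h'
  refine ⟨E ⊔ E', hE.sup hE', fun g s hs => ?_⟩
  show F (b (g * s)) (b' (g * s)) = F (b g) (b' g)
  rw [h1 g s (IntermediateField.fixingSubgroup_antitone le_sup_left hs),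
    h1' g s (IntermediateField.fixingSubgroup_antitone le_sup_right hs)]

theorem Lv2.const {Y : Type*} (y : Y) : Lv2 T π (fun _ _ => y) :=
  ⟨⊥, IntermediateField.isUnramifiedOutside_bot T, fun _ _ _ _ _ _ => rfl⟩

theorem Lv2.comp {Y Z : Type*} {b : U → U → Y} (h : Lv2 T π b) (F : Y → Z) :
    Lv2 T π (fun g h => F (b g h)) := by
  obtain ⟨E, hE, h1⟩ := h
  exact ⟨E, hE, fun g h s s' hs hs' => congrArg F (h1 g h s s' hs hs')⟩

theorem Lv2.map₂ {X Y Z : Type*} {b : U → U → X} {b' : U → U → Y} (h : Lv2 T π b)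
    (h' : Lv2 T π b') (F : X → Y → Z) : Lv2 T π (fun g k => F (b g k) (b' g k)) := by
  obtain ⟨E, hE, h1⟩ := h
  obtain ⟨E', hE', h1'⟩ := h'
  refine ⟨E ⊔ E', hE.sup hE', fun g k s s' hs hs' => ?_⟩
  show F (b (g * s) (k * s')) (b' (g * s) (k * s')) = F (b g k) (b' g k)
  rw [h1 g k s s' (IntermediateField.fixingSubgroup_antitone le_sup_left hs)
      (IntermediateField.fixingSubgroup_antitone le_sup_left hs'),
    h1' g k s s' (IntermediateField.fixingSubgroup_antitone le_sup_right hs)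
      (IntermediateField.fixingSubgroup_antitone le_sup_right hs')]

end lev

section groups

variable (T : Finset Nat.Primes) {U : Type*} [Group U] (π : U →* GQ) (N : Type*) [AddCommGroup N]
  [DistribMulAction U N]

/-- 1-cocycles of level `T` -/
def Z1L : AddSubgroup (U → N) where
  carrier := {c | c ∈ Z1 U N ∧ Lv1 T π c}
  zero_mem' := ⟨(Z1 U N).zero_mem, Lv1.const 0⟩
  add_mem' := fun ha hb => ⟨(Z1 U N).add_mem ha.1 hb.1, ha.2.map₂ hb.2 (· + ·)⟩
  neg_mem' := fun ha => ⟨(Z1 U N).neg_mem ha.1, ha.2.comp (- ·)⟩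

/-- 2-cocycles of level `T` -/
def Z2L : AddSubgroup (U → U → N) where
  carrier := {x | x ∈ Z2 U N ∧ Lv2 T π x}
  zero_mem' := ⟨(Z2 U N).zero_mem, Lv2.const 0⟩
  add_mem' := fun ha hb => ⟨(Z2 U N).add_mem ha.1 hb.1, ha.2.map₂ hb.2 (· + ·)⟩
  neg_mem' := fun ha => ⟨(Z2 U N).neg_mem ha.1, ha.2.comp (- ·)⟩

/-- coboundaries of cochains of level `T` -/
def B2L : AddSubgroup (U → U → N) where
  carrier := {x | ∃ b : U → N, Lv1 T π b ∧ ∀ g h, x g h = b g + g • b h - b (g * h)}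
  zero_mem' := ⟨0, Lv1.const 0, by intro g h; simp⟩
  add_mem' := by
    rintro a b ⟨x, hx, hx'⟩ ⟨y, hy, hy'⟩
    exact ⟨x + y, hx.map₂ hy (· + ·), fun g h => by
      simp only [Pi.add_apply, hx', hy', smul_add]; abel⟩
  neg_mem' := by
    rintro a ⟨x, hx, hx'⟩
    exact ⟨-x, hx.comp (- ·), fun g h => by
      simp only [Pi.neg_apply, hx', smul_neg]; abel⟩

variable {T π N}

theorem mem_Z1L {c : U → N} : c ∈ Z1L T π N ↔ c ∈ Z1 U N ∧ Lv1 T π c := Iff.rfl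
theorem mem_Z2L {x : U → U → N} : x ∈ Z2L T π N ↔ x ∈ Z2 U N ∧ Lv2 T π x := Iff.rfl
theorem mem_B2L {x : U → U → N} : x ∈ B2L T π N ↔
    ∃ b : U → N, Lv1 T π b ∧ ∀ g h, x g h = b g + g • b h - b (g * h) := Iff.rfl

theorem dd_mem_B2L {b : U → N} (hb : Lv1 T π b) : dd b ∈ B2L T π N := ⟨b, hb, fun _ _ => rfl⟩

theorem B2L_le_B2 : B2L T π N ≤ B2 U N := fun _ ⟨b, _, h⟩ => ⟨b, h⟩

variable (T π N)

/-- the order of `H⁰` -/
noncomputable def h0 (U N : Type*) [Group U] [AddCommGroup N] [DistribMulAction U N] : ℕ :=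
  Nat.card (fix N (⊤ : Subgroup U))

/-- the order of `H¹` (`0` if infinite) -/
noncomputable def h1 : ℕ := (B1 U N).relIndex (Z1L T π N)

/-- the order of `H²` (`0` if infinite) -/
noncomputable def h2 : ℕ := (B2L T π N).relIndex (Z2L T π N)

/-- the module has a level -/
def LvM : Prop := ∃ E : IntermediateField ℚ Qb, E.IsUnramifiedOutside T ∧
  ∀ s : U, π s ∈ E.fixingSubgroup → ∀ n : N, s • n = n

end groups

section uc

variable (T : Finset Nat.Primes) (M : IntermediateField ℚ Qb) (p : ℕ) (Γ : Subgroup GQ)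
  (Q : Type*) [AddCommGroup Q] [DistribMulAction Γ Q]

/-- `Γ`-equivariant homomorphisms from `Q` to the `T`-units of `M` modulo `p` -/
def KH : Type _ := {θ : Q →+ (↥(SU T M) ⧸ (mulN ↥(SU T M) p).range) //
  ∀ (γ : Γ) (x : Q) (u u' : SU T M), u'.1 = (γ : GQ) • u.1 →
    θ x = QuotientAddGroup.mk u → θ (γ • x) = QuotientAddGroup.mk u'}

/-- `Γ`-equivariant homomorphisms from `Q` to the `p`-torsion of `QS T` -/
def MH : Type _ := {θ : Q →+ QS T // (∀ x, p • θ x = 0) ∧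
  ∀ (γ : Γ) (x : Q), θ (γ • x) = (γ : GQ) • θ x}

/-- `Γ`-equivariant functions on `GQ / D` -/
def MD (D : Subgroup GQ) : Type _ :=
  {F : GQ → Q // ∀ (γ : Γ) (g : GQ), ∀ d ∈ D, F ((γ : GQ) * g * d) = γ • F g}

/-- Higman's criterion for `Γ / Γ_M` -/
def HigM : Prop := ∃ φ : Q →+ Q, ∀ [Fintype (Γ ⧸ M.fixingSubgroup.subgroupOf Γ)] (x : Q),
  ∑ y : Γ ⧸ M.fixingSubgroup.subgroupOf Γ, y.out • φ ((y.out)⁻¹ • x) = x

/-- the decomposition group at `q` -/
noncomputable abbrev Dq (q : Nat.Primes) : Subgroup GQ := (localGaloisToGlobal (q : ℕ)).range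

/-- **the equivariant unit theorem, final form** -/
def UnitCount [Fact p.Prime] : Prop :=
  2 < p → pP p ∈ T → M.IsUnramifiedOutside T → (∃ ζ : Qb, IsPrimitiveRoot ζ p ∧ ζ ∈ M) →
  M.fixingSubgroup ≤ Γ → (∀ g ∈ Γ, ∀ k ∈ M.fixingSubgroup, g * k * g⁻¹ ∈ M.fixingSubgroup) →
  Finite Q → (∀ x : Q, p • x = 0) →
  (∀ γ : Γ, (γ : GQ) ∈ M.fixingSubgroup → ∀ x : Q, γ • x = x) → HigM M Γ Q →
  ∀ (ι : Qb →+* ℂ) (c : GQ), (∀ x, ι (c x) = (starRingEnd ℂ) (ι x)) →
    Nat.card (KH T M p Γ Q) * Nat.card (MD Γ Q ⊤) =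
      Nat.card (MH T p Γ Q) * ((∏ q ∈ T, Nat.card (MD Γ Q (Dq q))) *
        Nat.card (MD Γ Q (Subgroup.zpowers c)))

end uc

end Fermat.Agent.EulerC
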