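import Fermat.Agent.EulerC.Pair2
import Fermat.Agent.CFT.Sha4

set_option autoImplicit false
set_option maxHeartbeats 400000

/-! Duality between coinduced modules. -/

namespace Fermat.Agent.EulerC

open Finset Fermat.Agent.CFT Fermat.Agent.CFTSec Fermat.Agent.TWLocal

noncomputable section

section chi

variable {p : ℕ} [hp : Fact p.Prime] {ζ : Qb} (hζ : IsPrimitiveRoot ζ p)

/-- the cyclotomic character -/
def chi : GQ →* (ZMod p)ˣ := hζ.autToPow ℚ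

theorem chi_spec (g : GQ) : g ζ = ζ ^ (chi hζ g : ZMod p).val := (hζ.autToPow_spec ℚ g).symm

theorem chi_unique {g : GQ} {c : ZMod p} (h : g ζ = ζ ^ c.val) : c = (chi hζ g : ZMod p) := by
  rw [chi_spec hζ g] at h
  exact (zeta_val_inj hζ h).symm

theorem chi_eq_one {g : GQ} (h : g ζ = ζ) : chi hζ g = 1 := by
  have h1 : g ζ = ζ ^ (1 : ZMod p).val := by
    rw [h, ZMod.val_one, pow_one]
  exact Units.ext (chi_unique hζ h1).symm

end chi

section dl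

variable {p : ℕ} [hp : Fact p.Prime] {ζ : Qb} (hζ : IsPrimitiveRoot ζ p) (Γ : Subgroup GQ)
  (W : Type*) [AddCommGroup W] [DistribMulAction Γ W]

/-- the twisted dual -/
def Dl (_hζ : IsPrimitiveRoot ζ p) (W : Type*) [AddCommGroup W] : Type _ := W →+ ZMod p

instance : AddCommGroup (Dl hζ W) := inferInstanceAs (AddCommGroup (W →+ ZMod p))

/-- the underlying homomorphism -/
def dlH {W : Type*} [AddCommGroup W] (l : Dl hζ W) : W →+ ZMod p := l

/-- evaluation -/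
def dlE {W : Type*} [AddCommGroup W] (l : Dl hζ W) (w : W) : ZMod p := dlH hζ l w

variable {W}

theorem Dl.ext {l l' : Dl hζ W} (h : ∀ w, dlE hζ l w = dlE hζ l' w) : l = l' :=
  AddMonoidHom.ext (M := W) (N := ZMod p) h

theorem dlE_zero (w : W) : dlE hζ (0 : Dl hζ W) w = 0 := rfl
theorem dlE_add (l l' : Dl hζ W) (w : W) : dlE hζ (l + l') w = dlE hζ l w + dlE hζ l' w := rfl
theorem dlE_zero' (l : Dl hζ W) : dlE hζ l (0 : W) = 0 := map_zero (dlH hζ l)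
theorem dlE_add' (l : Dl hζ W) (w w' : W) : dlE hζ l (w + w') = dlE hζ l w + dlE hζ l w' :=
  map_add (dlH hζ l) w w'

instance dlAction : DistribMulAction Γ (Dl hζ W) where
  smul γ l := ((AddMonoidHom.mulLeft (chi hζ γ : ZMod p)).comp
    ((dlH hζ l).comp (DistribSMul.toAddMonoidHom W γ⁻¹)) : W →+ ZMod p)
  one_smul l := by
    apply Dl.ext
    intro w
    show (chi hζ ((1 : Γ) : GQ) : ZMod p) * dlE hζ l ((1 : Γ)⁻¹ • w) = dlE hζ l w
    rw [inv_one, one_smul, Subgroup.coe_one, map_one, Units.val_one, one_mul]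
  mul_smul γ δ l := by
    apply Dl.ext
    intro w
    show (chi hζ ((γ * δ : Γ) : GQ) : ZMod p) * dlE hζ l ((γ * δ)⁻¹ • w) =
      (chi hζ (γ : GQ) : ZMod p) * ((chi hζ (δ : GQ) : ZMod p) * dlE hζ l (δ⁻¹ • γ⁻¹ • w))
    rw [mul_inv_rev, mul_smul, Subgroup.coe_mul, map_mul, Units.val_mul, mul_assoc]
  smul_zero γ := by
    apply Dl.ext
    intro w
    show (chi hζ (γ : GQ) : ZMod p) * dlE hζ (0 : Dl hζ W) (γ⁻¹ • w) = 0
    rw [dlE_zero, mul_zero]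
  smul_add γ l l' := by
    apply Dl.ext
    intro w
    show (chi hζ (γ : GQ) : ZMod p) * dlE hζ (l + l') (γ⁻¹ • w) =
      (chi hζ (γ : GQ) : ZMod p) * dlE hζ l (γ⁻¹ • w) +
      (chi hζ (γ : GQ) : ZMod p) * dlE hζ l' (γ⁻¹ • w)
    rw [dlE_add, mul_add]

theorem dlE_smul (γ : Γ) (l : Dl hζ W) (w : W) :
    dlE hζ (γ • l) w = (chi hζ (γ : GQ) : ZMod p) * dlE hζ l (γ⁻¹ • w) := rfl

theorem dlE_smul' (γ : Γ) (l : Dl hζ W) (w : W) :
    dlE hζ (γ • l) (γ • w) = (chi hζ (γ : GQ) : ZMod p) * dlE hζ l w := by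
  rw [dlE_smul, inv_smul_smul]

theorem p_dl (l : Dl hζ W) : p • l = 0 := by
  apply Dl.ext
  intro w
  show p • dlE hζ l w = 0
  rw [nsmul_eq_mul, CharP.cast_eq_zero, zero_mul]

instance [Finite W] : Finite (Dl hζ W) :=
  Finite.of_injective (fun (l : Dl hζ W) (w : W) => dlE hζ l w)
    (fun _ _ h => Dl.ext hζ fun w => congrFun h w)

theorem dl_sep (hW : ∀ w : W, p • w = 0) {w : W} (h : ∀ l : Dl hζ W, dlE hζ l w = 0) : w = 0 := by
  letI : Module (ZMod p) W := AddCommGroup.zmodModule hW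
  exact eq_zero_of_dual (p := p) h

end dl

section delta

variable {Γ : Subgroup GQ} {A : Type*} [AddCommGroup A] [DistribMulAction Γ A]

open Classical in
/-- functions supported on one coset -/
def dltC (g₀ : GQ) (a : A) : CoInd Γ.subtype A :=
  ⟨fun x => if h : x * g₀⁻¹ ∈ Γ then (⟨x * g₀⁻¹, h⟩ : Γ) • a else 0, by
    intro d x
    show (if h : (d : GQ) * x * g₀⁻¹ ∈ Γ then _ else 0) = d • (if h : x * g₀⁻¹ ∈ Γ then _ else 0)
    by_cases h : x * g₀⁻¹ ∈ Γ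
    · have h' : (d : GQ) * x * g₀⁻¹ ∈ Γ := by
        rw [mul_assoc]; exact Γ.mul_mem d.2 h
      rw [dif_pos h, dif_pos h', smul_smul]
      exact congrArg (· • a) (Subtype.ext (mul_assoc _ _ _))
    · have h' : ¬ (d : GQ) * x * g₀⁻¹ ∈ Γ := by
        intro h2
        apply h
        have := Γ.mul_mem (Γ.inv_mem d.2) h2
        rwa [← mul_assoc, ← mul_assoc, inv_mul_cancel, one_mul] at this
      rw [dif_neg h, dif_neg h', smul_zero]⟩

open Classical in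
theorem dltC_self (g₀ : GQ) (a : A) : (dltC (Γ := Γ) g₀ a).1 g₀ = a := by
  have h : g₀ * g₀⁻¹ ∈ Γ := by rw [mul_inv_cancel]; exact Γ.one_mem
  have h1 : (dltC (Γ := Γ) g₀ a).1 g₀ = (⟨g₀ * g₀⁻¹, h⟩ : Γ) • a := dif_pos h
  rw [h1]
  have : (⟨g₀ * g₀⁻¹, h⟩ : Γ) = 1 := Subtype.ext (mul_inv_cancel g₀)
  rw [this, one_smul]

theorem dltC_ne {g₀ x : GQ} (a : A) (h : x * g₀⁻¹ ∉ Γ) : (dltC (Γ := Γ) g₀ a).1 x = 0 :=
  dif_neg h

end delta

theorem out_eq0 {Y : Type*} (P : Subgroup GQ) (F : GQ → Y) (hF : ∀ g, ∀ d ∈ P, F (g * d) = F g)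
    (g : GQ) : F (QuotientGroup.mk g : GQ ⧸ P).out = F g := by
  have h := hF g _ (mk_out_mem P g)
  rwa [mul_inv_cancel_left] at h

section pair

variable {p : ℕ} [hp : Fact p.Prime] {ζ : Qb} (hζ : IsPrimitiveRoot ζ p) (Γ : Subgroup GQ)
  [hΓ : Fintype (GQ ⧸ Γ)]
  (W : Type*) [AddCommGroup W] [DistribMulAction Γ W]

/-- the terms of the pairing -/
def tmB {Γ : Subgroup GQ} {W : Type*} [AddCommGroup W] [DistribMulAction Γ W]
    (v : CoInd Γ.subtype (Dl hζ W)) (w : CoInd Γ.subtype W) (g : GQ) : ZMod p :=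
  (chi hζ g : ZMod p) * dlE hζ (v.1 g⁻¹) (w.1 g⁻¹)

theorem tmB_mul {Γ : Subgroup GQ} {W : Type*} [AddCommGroup W] [DistribMulAction Γ W]
    (v : CoInd Γ.subtype (Dl hζ W)) (w : CoInd Γ.subtype W) (g : GQ) (d : GQ) (hd : d ∈ Γ) :
    tmB hζ v w (g * d) = tmB hζ v w g := by
  show (chi hζ (g * d) : ZMod p) * dlE hζ (v.1 (g * d)⁻¹) (w.1 (g * d)⁻¹) = _
  have h1 : (g * d)⁻¹ = Γ.subtype ⟨d⁻¹, Γ.inv_mem hd⟩ * g⁻¹ := by
    rw [mul_inv_rev]; rfl
  rw [h1, v.2, w.2, dlE_smul']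
  show (chi hζ (g * d) : ZMod p) * ((chi hζ d⁻¹ : ZMod p) * _) = _
  rw [← mul_assoc, ← Units.val_mul, ← map_mul, mul_inv_cancel_right]
  rfl

/-- the pairing between coinduced modules -/
def BB : CoInd Γ.subtype (Dl hζ W) →+ CoInd Γ.subtype W →+ ZMod p :=
  AddMonoidHom.mk' (fun v => AddMonoidHom.mk' (fun w => ∑ y : GQ ⧸ Γ, tmB hζ v w y.out)
    (fun w w' => by
      rw [← Finset.sum_add_distrib]
      refine Finset.sum_congr rfl fun y _ => ?_
      show (chi hζ y.out : ZMod p) * dlE hζ (v.1 (y.out)⁻¹) (w.1 (y.out)⁻¹ + w'.1 (y.out)⁻¹) = _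
      rw [dlE_add', mul_add]
      rfl)) (fun v v' => by
      refine AddMonoidHom.ext fun w => ?_
      show (∑ y : GQ ⧸ Γ, tmB hζ (v + v') w y.out) = (∑ y : GQ ⧸ Γ, tmB hζ v w y.out) +
        ∑ y : GQ ⧸ Γ, tmB hζ v' w y.out
      rw [← Finset.sum_add_distrib]
      refine Finset.sum_congr rfl fun y _ => ?_
      show (chi hζ y.out : ZMod p) * dlE hζ (v.1 (y.out)⁻¹ + v'.1 (y.out)⁻¹) (w.1 (y.out)⁻¹) = _
      rw [dlE_add, mul_add]
      rfl)

theorem BB_apply (v : CoInd Γ.subtype (Dl hζ W)) (w : CoInd Γ.subtype W) :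
    BB hζ Γ W v w = ∑ y : GQ ⧸ Γ, tmB hζ v w y.out := rfl

theorem BB_equi (g : GQ) (v : CoInd Γ.subtype (Dl hζ W)) (w : CoInd Γ.subtype W) :
    BB hζ Γ W (g • v) (g • w) = (chi hζ g : ZMod p) * BB hζ Γ W v w := by
  rw [BB_apply, BB_apply, Finset.mul_sum,
    ← Equiv.sum_comp (MulAction.toPerm g : Equiv.Perm (GQ ⧸ Γ))]
  refine Finset.sum_congr rfl fun y _ => ?_
  show tmB hζ (g • v) (g • w) (g • y).out = _
  induction y using QuotientGroup.induction_on with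
  | H k =>
  have e1 : (g • (QuotientGroup.mk k : GQ ⧸ Γ)) = QuotientGroup.mk (g * k) := rfl
  rw [e1, out_eq0 Γ (tmB hζ (g • v) (g • w)) (tmB_mul hζ (g • v) (g • w)),
    out_eq0 Γ (tmB hζ v w) (tmB_mul hζ v w)]
  show (chi hζ (g * k) : ZMod p) * dlE hζ (v.1 ((g * k)⁻¹ * g)) (w.1 ((g * k)⁻¹ * g)) =
    (chi hζ g : ZMod p) * ((chi hζ k : ZMod p) * dlE hζ (v.1 k⁻¹) (w.1 k⁻¹))
  rw [mul_inv_rev, inv_mul_cancel_right, map_mul, Units.val_mul, mul_assoc]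

/-- pairing with functions supported on one coset -/
theorem BB_dlt_left (g₀ : GQ) (l : Dl hζ W) (w : CoInd Γ.subtype W) :
    BB hζ Γ W (dltC g₀ l) w = (chi hζ g₀⁻¹ : ZMod p) * dlE hζ l (w.1 g₀) := by
  rw [BB_apply, Finset.sum_eq_single (QuotientGroup.mk g₀⁻¹ : GQ ⧸ Γ)]
  · rw [out_eq0 Γ (tmB hζ (dltC g₀ l) w) (tmB_mul hζ _ w)]
    show (chi hζ g₀⁻¹ : ZMod p) * dlE hζ ((dltC g₀ l).1 (g₀⁻¹)⁻¹) (w.1 (g₀⁻¹)⁻¹) = _
    rw [inv_inv, dltC_self]
  · intro y _ hy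
    show (chi hζ y.out : ZMod p) * dlE hζ ((dltC g₀ l).1 (y.out)⁻¹) (w.1 (y.out)⁻¹) = 0
    rw [dltC_ne, dlE_zero, mul_zero]
    intro hmem
    apply hy
    rw [← QuotientGroup.out_eq' y]
    refine QuotientGroup.eq.mpr ?_
    exact hmem
  · intro h
    exact absurd (Finset.mem_univ _) h

theorem BB_dlt_right (g₀ : GQ) (a : W) (v : CoInd Γ.subtype (Dl hζ W)) :
    BB hζ Γ W v (dltC g₀ a) = (chi hζ g₀⁻¹ : ZMod p) * dlE hζ (v.1 g₀) a := by
  rw [BB_apply, Finset.sum_eq_single (QuotientGroup.mk g₀⁻¹ : GQ ⧸ Γ)]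
  · rw [out_eq0 Γ (tmB hζ v (dltC g₀ a)) (tmB_mul hζ v _)]
    show (chi hζ g₀⁻¹ : ZMod p) * dlE hζ (v.1 (g₀⁻¹)⁻¹) ((dltC g₀ a).1 (g₀⁻¹)⁻¹) = _
    rw [inv_inv, dltC_self]
  · intro y _ hy
    show (chi hζ y.out : ZMod p) * dlE hζ (v.1 (y.out)⁻¹) ((dltC g₀ a).1 (y.out)⁻¹) = 0
    rw [dltC_ne, dlE_zero', mul_zero]
    intro hmem
    apply hy
    rw [← QuotientGroup.out_eq' y]
    refine QuotientGroup.eq.mpr ?_
    exact hmem
  · intro h
    exact absurd (Finset.mem_univ _) h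

theorem chi_mul_eq_zero {g : GQ} {a : ZMod p} (h : (chi hζ g : ZMod p) * a = 0) : a = 0 := by
  rcases mul_eq_zero.mp h with h1 | h1
  · exact absurd h1 (Units.ne_zero _)
  · exact h1

theorem BB_sep_right (hW : ∀ w : W, p • w = 0) {w : CoInd Γ.subtype W}
    (h : ∀ v, BB hζ Γ W v w = 0) : w = 0 := by
  apply Subtype.ext
  funext g
  refine dl_sep hζ hW fun l => ?_
  have h1 := h (dltC g l)
  rw [BB_dlt_left] at h1
  exact chi_mul_eq_zero hζ h1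

theorem BB_sep_left {v : CoInd Γ.subtype (Dl hζ W)} (h : ∀ w, BB hζ Γ W v w = 0) : v = 0 := by
  apply Subtype.ext
  funext g
  refine Dl.ext hζ fun a => ?_
  have h1 := h (dltC g a)
  rw [BB_dlt_right] at h1
  exact chi_mul_eq_zero hζ h1

instance finite_coind {A : Type*} [AddCommGroup A] [DistribMulAction Γ A] [Finite A] :
    Finite (CoInd Γ.subtype A) := by
  refine Finite.of_injective (fun (f : CoInd Γ.subtype A) (y : GQ ⧸ Γ) => f.1 (y.out)⁻¹) ?_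
  intro f f' h
  apply Subtype.ext
  funext g
  have h1 := congrFun h (QuotientGroup.mk g⁻¹ : GQ ⧸ Γ)
  have h2 : g * (QuotientGroup.mk g⁻¹ : GQ ⧸ Γ).out ∈ Γ := by
    have := mk_out_mem Γ g⁻¹
    rwa [inv_inv] at this
  have h3 : g = Γ.subtype ⟨_, h2⟩ * ((QuotientGroup.mk g⁻¹ : GQ ⧸ Γ).out)⁻¹ := by
    show g = g * (QuotientGroup.mk g⁻¹ : GQ ⧸ Γ).out * ((QuotientGroup.mk g⁻¹ : GQ ⧸ Γ).out)⁻¹
    rw [mul_inv_cancel_right]
  rw [h3, f.2, f'.2]
  exact congrArg _ h1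

theorem p_coind {A : Type*} [AddCommGroup A] [DistribMulAction Γ A] (hA : ∀ a : A, p • a = 0)
    (f : CoInd Γ.subtype A) : p • f = 0 := Subtype.ext (funext fun g => hA (f.1 g))

/-- the duality data -/
theorem pdata [Finite W] (hW : ∀ w : W, p • w = 0) : PData p ζ (BB hζ Γ W) where
  tors := p_coind Γ (p_dl hζ)
  equi g c hc v w := by
    rw [BB_equi, chi_unique hζ hc]
  sep w h := BB_sep_right hζ Γ W hW h
  surj f := by
    have h1 : Nat.card (CoInd Γ.subtype (Dl hζ W) →+ ZMod p) =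
        Nat.card (CoInd Γ.subtype (Dl hζ W)) := card_hom_zmod (p_coind Γ (p_dl hζ))
    have h2 : Nat.card (CoInd Γ.subtype W →+ ZMod p) = Nat.card (CoInd Γ.subtype W) :=
      card_hom_zmod (p_coind Γ hW)
    haveI : Finite (CoInd Γ.subtype W →+ ZMod p) :=
      Nat.finite_of_card_ne_zero (by rw [h2]; exact Nat.card_pos.ne')
    have h3 : Nat.card (CoInd Γ.subtype (Dl hζ W)) ≤ Nat.card (CoInd Γ.subtype W →+ ZMod p) :=
      Nat.card_le_card_of_injective (BB hζ Γ W) ((injective_iff_map_eq_zero _).mpr fun v hv =>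
        BB_sep_left hζ Γ W fun w => DFunLike.congr_fun hv w)
    obtain ⟨w, hw⟩ := surj_of_inj_dual (p_coind Γ (p_dl hζ))
      (fun w : CoInd Γ.subtype W => (BB hζ Γ W).flip w) ((injective_iff_map_eq_zero
        (BB hζ Γ W).flip).mpr fun w hw => BB_sep_right hζ Γ W hW fun v =>
        DFunLike.congr_fun hw v) (by rw [← h2]; exact h3) f
    exact ⟨w, fun v => (DFunLike.congr_fun hw v).symm⟩

end pair

end

end Fermat.Agent.EulerC
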