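import Fermat.Agent.EulerC.Dual

set_option autoImplicit false
set_option maxHeartbeats 400000

/-! Counting consequences of the duality. -/

namespace Fermat.Agent.EulerC

open Finset Fermat.Agent.CFT Fermat.Agent.CFTSec Fermat.Agent.TWLocal

noncomputable section

section pd

variable {p : ℕ} [hp : Fact p.Prime] {ζ : Qb} (hζ : IsPrimitiveRoot ζ p) {V W : Type*}
  [AddCommGroup V] [AddCommGroup W] [DistribMulAction GQ V] [DistribMulAction GQ W]

/-- homomorphisms twisted by the cyclotomic character -/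
def HomChi (D : Subgroup GQ) (W : Type*) [AddCommGroup W] [DistribMulAction GQ W] : Type _ :=
  {φ : W →+ ZMod p // ∀ d ∈ D, ∀ w, φ (d • w) = (chi hζ d : ZMod p) * φ w}

variable {B : V →+ W →+ ZMod p} (hB : PData p ζ B)

include hB in
theorem pd_sepL {v : V} (h : ∀ w, B v w = 0) : v = 0 := by
  letI : Module (ZMod p) V := AddCommGroup.zmodModule hB.tors
  refine eq_zero_of_dual (p := p) fun f => ?_
  obtain ⟨w, hw⟩ := hB.surj f
  rw [hw, h]

include hB in
theorem pd_torsW (w : W) : p • w = 0 := by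
  refine hB.sep _ fun v => ?_
  rw [map_nsmul, nsmul_eq_mul, CharP.cast_eq_zero, zero_mul]

include hB in
theorem pd_surjL [Finite V] [Finite W] (f : W →+ ZMod p) : ∃ v, ∀ w, f w = B v w := by
  have h1 : Nat.card (V →+ ZMod p) = Nat.card V := card_hom_zmod hB.tors
  have h2 : Nat.card (W →+ ZMod p) = Nat.card W := card_hom_zmod (pd_torsW hB)
  haveI : Finite (V →+ ZMod p) :=
    Nat.finite_of_card_ne_zero (by rw [h1]; exact Nat.card_pos.ne')
  have h3 : Nat.card W ≤ Nat.card V := by
    rw [← h1]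
    refine Nat.card_le_card_of_injective B.flip ((injective_iff_map_eq_zero B.flip).mpr ?_)
    intro w hw
    exact hB.sep w fun v => DFunLike.congr_fun hw v
  obtain ⟨v, hv⟩ := surj_of_inj_dual (pd_torsW hB) (fun v : V => B v)
    ((injective_iff_map_eq_zero B).mpr fun v hv => pd_sepL hB fun w => DFunLike.congr_fun hv w)
    h3 f
  exact ⟨v, fun w => (DFunLike.congr_fun hv w).symm⟩

include hB in
theorem pd_equi (g : GQ) (v : V) (w : W) : B (g • v) (g • w) = (chi hζ g : ZMod p) * B v w :=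
  hB.equi g _ (chi_spec hζ g) v w

include hB in
/-- invariants and twisted homomorphisms -/
theorem card_fix_eq [Finite V] [Finite W] (D : Subgroup GQ) :
    Nat.card (fix V D) = Nat.card (HomChi hζ D W) := by
  refine Nat.card_congr (Equiv.ofBijective (fun v => ⟨B v.1, fun d hd w => ?_⟩) ⟨?_, ?_⟩)
  · have h1 := pd_equi hζ hB d v.1 w
    rwa [v.2 d hd] at h1
  · intro v v' h
    apply Subtype.ext
    rw [← sub_eq_zero]
    refine pd_sepL hB fun w => ?_
    have h1 := DFunLike.congr_fun (congrArg Subtype.val h) w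
    rw [map_sub, AddMonoidHom.sub_apply, sub_eq_zero]
    exact h1
  · rintro ⟨φ, hφ⟩
    obtain ⟨v, hv⟩ := pd_surjL hB φ
    refine ⟨⟨v, fun d hd => ?_⟩, Subtype.ext (AddMonoidHom.ext fun w => (hv w).symm)⟩
    rw [← sub_eq_zero]
    refine pd_sepL hB fun w => ?_
    have h1 := pd_equi hζ hB d v (d⁻¹ • w)
    rw [smul_inv_smul] at h1
    rw [map_sub, AddMonoidHom.sub_apply, h1, ← hv, ← hφ d hd, smul_inv_smul, ← hv, sub_self]

end pd

section hom

variable {p : ℕ} [hp : Fact p.Prime] {ζ : Qb} (hζ : IsPrimitiveRoot ζ p) {W : Type*}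
  [AddCommGroup W] [DistribMulAction GQ W] (hW : ∀ w : W, p • w = 0) {T : Finset Nat.Primes}
  {L : IntermediateField ℚ Qb} (hL : L.IsUnramifiedOutside T) (hζL : ζ ∈ L)

include hW hL hζL in
/-- global homomorphisms -/
theorem card_HomEq_glob : Nat.card (HomEq GQ W (QS T)) = Nat.card (HomChi hζ (⊤ : Subgroup GQ) W) := by
  let F : HomChi hζ (⊤ : Subgroup GQ) W → HomEq GQ W (QS T) := fun φ =>
    ⟨(zQ hL hζ hζL).comp φ.1, fun g w => by
      show zQ hL hζ hζL (φ.1 (g • w)) = g • zQ hL hζ hζL (φ.1 w)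
      rw [φ.2 g trivial, zQ_smul hL hζ hζL g _ (chi_spec hζ g)]⟩
  refine (Nat.card_congr (Equiv.ofBijective F ⟨?_, ?_⟩)).symm
  · intro φ φ' h
    apply Subtype.ext
    refine AddMonoidHom.ext fun w => zQ_inj hL hζ hζL ?_
    exact DFunLike.congr_fun (congrArg Subtype.val h) w
  · rintro ⟨θ, hθ⟩
    have h1 : ∀ w, ∃ a, zQ hL hζ hζL a = θ w := fun w =>
      zQ_surj hL hζ hζL _ (by rw [← map_nsmul, hW, map_zero])
    choose a ha using h1
    refine ⟨⟨AddMonoidHom.mk' a fun w w' => zQ_inj hL hζ hζL (by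
      rw [map_add, ha, ha, ha, map_add]), fun d _ w => zQ_inj hL hζ hζL ?_⟩,
      Subtype.ext (AddMonoidHom.ext fun w => ha w)⟩
    show zQ hL hζ hζL (a (d • w)) = zQ hL hζ hζL ((chi hζ d : ZMod p) * a w)
    rw [← zQ_smul hL hζ hζL d _ (chi_spec hζ d), ha, ha]
    exact hθ d w

include hW hL hζL in
/-- local homomorphisms -/
theorem card_HomEq_loc (q : Nat.Primes) :
    Nat.card (HomEq (LG q) (Rs q W) (LM q)) = Nat.card (HomChi hζ (Dq q) W) := by
  have hinj : Function.Injective fun a : ZMod p => peQ T q (zQ hL hζ hζL a) := fun a b h =>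
    zQ_inj hL hζ hζL (peQ_inj q h)
  let F : HomChi hζ (Dq q) W → HomEq (LG q) (Rs q W) (LM q) := fun φ =>
    ⟨((peQ T q).comp (zQ hL hζ hζL)).comp φ.1, fun t w => by
      show peQ T q (zQ hL hζ hζL (φ.1 (localGaloisToGlobal (q : ℕ) t • (show W from w)))) =
        t • peQ T q (zQ hL hζ hζL (φ.1 w))
      rw [φ.2 _ ⟨t, rfl⟩, ← peQ_smul, zQ_smul hL hζ hζL _ _ (chi_spec hζ _)]⟩
  refine (Nat.card_congr (Equiv.ofBijective F ⟨?_, ?_⟩)).symm
  · intro φ φ' h
    apply Subtype.ext
    refine AddMonoidHom.ext fun w => hinj ?_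
    exact DFunLike.congr_fun (congrArg Subtype.val h) w
  · rintro ⟨θ, hθ⟩
    have h1 : ∀ w : W, ∃ a, peQ T q (zQ hL hζ hζL a) = θ w := fun w =>
      zL_surj hL hζ hζL q _ (by
        have h2 : p • (show Rs q W from w) = 0 := hW w
        have h3 := congrArg θ h2
        rw [map_nsmul, map_zero] at h3
        exact h3)
    choose a ha using h1
    refine ⟨⟨AddMonoidHom.mk' a fun w w' => hinj ?_, ?_⟩,
      Subtype.ext (AddMonoidHom.ext fun w => ha w)⟩
    · show peQ T q (zQ hL hζ hζL (a (w + w'))) = peQ T q (zQ hL hζ hζL (a w + a w'))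
      rw [map_add, map_add, ha, ha, ha]
      exact map_add θ w w'
    · rintro _ ⟨t, rfl⟩ w
      refine hinj ?_
      show peQ T q (zQ hL hζ hζL (a (localGaloisToGlobal (q : ℕ) t • w))) =
        peQ T q (zQ hL hζ hζL ((chi hζ (localGaloisToGlobal (q : ℕ) t) : ZMod p) * a w))
      rw [← zQ_smul hL hζ hζL _ _ (chi_spec hζ _), peQ_smul, ha, ha]
      exact hθ t w

end hom

section cc

variable {p : ℕ} [hp : Fact p.Prime] (hp2 : 2 < p) {ζ : Qb} (hζ : IsPrimitiveRoot ζ p) {W : Type*}
  [AddCommGroup W] [DistribMulAction GQ W] [Finite W] (hW : ∀ w : W, p • w = 0)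

include hp2 hW in
theorem exists_half (w : W) : ∃ w', w' + w' = w := by
  obtain ⟨k, hk⟩ : ∃ k, p = 2 * k + 1 := by
    rcases hp.out.eq_two_or_odd' with h | h
    · omega
    · obtain ⟨k, hk⟩ := h; exact ⟨k, hk⟩
  refine ⟨(k + 1) • w, ?_⟩
  rw [← add_smul]
  have : k + 1 + (k + 1) = p + 1 := by omega
  rw [this, add_smul, hW, one_smul, zero_add]

theorem conj_sq {ι : Qb →+* ℂ} {c : GQ} (hc : ∀ x, ι (c x) = (starRingEnd ℂ) (ι x)) : c * c = 1 := by
  apply AlgEquiv.ext
  intro x
  apply ι.injective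
  show ι (c (c x)) = ι x
  rw [hc, hc, Complex.conj_conj]

theorem chi_conj {ι : Qb →+* ℂ} {c : GQ} (hc : ∀ x, ι (c x) = (starRingEnd ℂ) (ι x)) :
    (chi hζ c : ZMod p) = -1 := by
  have h1 : c ζ = ζ⁻¹ := by
    apply ι.injective
    rw [hc, map_inv₀]
    have h2 : ‖ι ζ‖ = 1 := by
      have : (ι ζ) ^ p = 1 := by rw [← map_pow, hζ.pow_eq_one, map_one]
      exact Complex.norm_eq_one_of_pow_eq_one this hp.out.ne_zero
    rw [Complex.inv_def, Complex.normSq_eq_norm_sq, h2]
    simp
  have h3 : c ζ = ζ ^ (-1 : ZMod p).val := by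
    rw [h1]
    symm
    apply eq_inv_of_mul_eq_one_left
    rw [← pow_succ]
    have h4 : (((-1 : ZMod p).val + 1 : ℕ) : ZMod p) = 0 := by
      rw [Nat.cast_add, ZMod.natCast_zmod_val, Nat.cast_one, neg_add_cancel]
    exact (hζ.pow_eq_one_iff_dvd _).mpr ((ZMod.natCast_eq_zero_iff _ _).mp h4)
  exact (chi_unique hζ h3).symm

include hp2 hW in
/-- the count at infinity -/
theorem card_conj {ι : Qb →+* ℂ} {c : GQ} (hc : ∀ x, ι (c x) = (starRingEnd ℂ) (ι x)) :
    Nat.card W = Nat.card (fix W (Subgroup.zpowers c)) *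
      Nat.card (HomChi hζ (Subgroup.zpowers c) W) := by
  have hcc := conj_sq hc
  have hχ := chi_conj hζ hc
  let N : W →+ W := AddMonoidHom.id W + DistribSMul.toAddMonoidHom W c
  have hN : ∀ w, N w = w + c • w := fun w => rfl
  have h1 : N.range = fix W (Subgroup.zpowers c) := by
    ext w
    constructor
    · rintro ⟨w, rfl⟩ d ⟨k, rfl⟩
      have h2 : c • N w = N w := by
        rw [hN, smul_add, smul_smul, hcc, one_smul, add_comm]
      have h3 : c ∈ MulAction.stabilizer GQ (N w) := h2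
      exact (MulAction.stabilizer GQ (N w)).zpow_mem h3 k
    · intro hw
      obtain ⟨w', hw'⟩ := exists_half hp2 hW w
      have hcw : c • w = w := hw c (Subgroup.mem_zpowers c)
      refine ⟨w', ?_⟩
      -- w' is fixed as well
      have h2 : c • w' = w' := by
        obtain ⟨k, hk⟩ : ∃ k, p = 2 * k + 1 := by
          rcases hp.out.eq_two_or_odd' with h | h
          · omega
          · obtain ⟨k, hk⟩ := h; exact ⟨k, hk⟩
        have h4 : (k + 1) • w = w' := by
          rw [← hw', ← two_nsmul, smul_smul]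
          have : (k + 1) * 2 = p + 1 := by omega
          rw [this, add_smul, hW, one_smul, zero_add]
        rw [← h4, smul_comm, hcw]
      rw [hN, h2, hw']
  have h2 : Nat.card (HomChi hζ (Subgroup.zpowers c) W) = Nat.card (W ⧸ N.range →+ ZMod p) := by
    refine Nat.card_congr (Equiv.ofBijective (fun φ => QuotientAddGroup.lift N.range φ.1 ?_)
      ⟨?_, ?_⟩)
    · rintro _ ⟨w, rfl⟩
      show φ.1 (N w) = 0
      rw [hN, map_add, φ.2 c (Subgroup.mem_zpowers c), hχ]
      ring
    · intro φ φ' h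
      apply Subtype.ext
      refine AddMonoidHom.ext fun w => ?_
      exact DFunLike.congr_fun h (QuotientAddGroup.mk' N.range w)
    · intro f
      refine ⟨⟨f.comp (QuotientAddGroup.mk' N.range), ?_⟩, ?_⟩
      · intro d hd
        have hall : ∀ w, f (QuotientAddGroup.mk' N.range (c • w)) =
            - f (QuotientAddGroup.mk' N.range w) := by
          intro w
          rw [eq_neg_iff_add_eq_zero, ← map_add, ← map_add]
          have : QuotientAddGroup.mk' N.range (c • w + w) = 0 :=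
            (QuotientAddGroup.eq_zero_iff _).mpr ⟨w, by rw [hN, add_comm]⟩
          rw [this, map_zero]
        obtain ⟨k, rfl⟩ := hd
        rcases Int.even_or_odd' k with ⟨m, rfl | rfl⟩
        · intro w
          have e : c ^ (2 * m) = 1 := by
            rw [zpow_mul, zpow_ofNat, pow_two, hcc, one_zpow]
          show f (QuotientAddGroup.mk' N.range (c ^ (2 * m) • w)) = (chi hζ (c ^ (2 * m)) : ZMod p) * _
          rw [e, one_smul, map_one, Units.val_one, one_mul]
          rfl
        · intro w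
          have e : c ^ (2 * m + 1) = c := by
            rw [zpow_add, zpow_mul, zpow_ofNat, pow_two, hcc, one_zpow, one_mul, zpow_one]
          show f (QuotientAddGroup.mk' N.range (c ^ (2 * m + 1) • w)) =
            (chi hζ (c ^ (2 * m + 1)) : ZMod p) * f (QuotientAddGroup.mk' N.range w)
          rw [e, hall, hχ, neg_one_mul]
      · refine AddMonoidHom.ext fun x => ?_
        obtain ⟨w, rfl⟩ := QuotientAddGroup.mk'_surjective N.range x
        rfl
  have h3 : ∀ x : W ⧸ N.range, p • x = 0 := by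
    intro x
    obtain ⟨y, rfl⟩ := QuotientAddGroup.mk'_surjective _ x
    rw [← map_nsmul, hW, map_zero]
  rw [h2, card_hom_zmod h3, ← h1]
  exact (AddSubgroup.card_mul_index N.range).symm

end cc

end

end Fermat.Agent.EulerC
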