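import Fermat.Agent.EulerC.HLow

set_option autoImplicit false

/-! **The global Euler characteristic**, unconditional form. -/

namespace Fermat.Agent.EulerC

open Finset Fermat.Agent.CFT Fermat.Agent.CFTSec

/-- **the global Euler characteristic** for modules attached to a two-dimensional representation -/
theorem ec_rep {p : ℕ} [hp : Fact p.Prime] (hp2 : 2 < p) {S₀ : Finset Nat.Primes}
    (hpS : pP p ∈ S₀) {ζ : Qb} (hζ : IsPrimitiveRoot ζ p) {k : Type*} [Field k] [Finite k]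
    [CharP k p] (ρ : GQ →* GL (Fin 2) k)
    (hρ : ∃ E : IntermediateField ℚ Qb, E.IsUnramifiedOutside S₀ ∧ ∀ g ∈ E.fixingSubgroup, ρ g = 1) :
    ∃ T₁ : Finset Nat.Primes, S₀ ⊆ T₁ ∧ ∀ T, T₁ ⊆ T →
    ∀ (N : Type*) [AddCommGroup N] [DistribMulAction GQ N] [Finite N],
      (∀ x : N, p • x = 0) →
      (∀ g : GQ, (∃ c : k, (ρ g : Matrix (Fin 2) (Fin 2) k) = c • 1) → g ζ = ζ →
        ∀ x : N, g • x = x) →
      ∀ (ι : Qb →+* ℂ) (c : GQ), (∀ x, ι (c x) = (starRingEnd ℂ) (ι x)) → ECB T c N :=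
  euler_char_rep hp2 hpS hζ ρ hρ (h2LowAll hζ hp2)

end Fermat.Agent.EulerC
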