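import Fermat.Agent.EulerC.Sha2

set_option autoImplicit false
set_option maxHeartbeats 400000

/-! Extension of equivariant homomorphisms to cocycles. -/

namespace Fermat.Agent.EulerC

open Finset Fermat.Agent.CFT Fermat.Agent.CFTSec Fermat.Agent.TWLocal

noncomputable section

section ext

variable {M E : IntermediateField ℚ Qb} {Γ : Subgroup GQ} {W : Type*} [AddCommGroup W]
  [DistribMulAction Γ W]

theorem out_eqΓ {Y : Type*} {N : Subgroup Γ} (F : Γ → Y) (hF : ∀ g, ∀ d ∈ N, F (g * d) = F g)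
    (g : Γ) : F (QuotientGroup.mk g : Γ ⧸ N).out = F g := by
  have h1 : g⁻¹ * (QuotientGroup.mk g : Γ ⧸ N).out ∈ N :=
    QuotientGroup.eq.mp (QuotientGroup.out_eq' _).symm
  have h := hF g _ h1
  rwa [mul_inv_cancel_left] at h

/-- extension to `Γ` -/
theorem ext_Γ (hMf : FiniteDimensional ℚ M) (hMΓ : M.fixingSubgroup ≤ Γ)
    (htriv : ∀ γ : Γ, (γ : GQ) ∈ M.fixingSubgroup → ∀ x : W, γ • x = x)
    (hnorm : ∀ g ∈ Γ, ∀ k ∈ M.fixingSubgroup, g * k * g⁻¹ ∈ M.fixingSubgroup)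
    (hhig : HigM M Γ W) (hEn : E.fixingSubgroup.Normal) (hEM : E.fixingSubgroup ≤ M.fixingSubgroup)
    (f : GQ → W) (hf : ∀ g ∈ M.fixingSubgroup, ∀ g' ∈ M.fixingSubgroup, f (g * g') = f g + f g')
    (hfE : ∀ g ∈ E.fixingSubgroup, f g = 0)
    (hfΓ : ∀ (γ : Γ), ∀ g ∈ M.fixingSubgroup, f (γ * g * (γ : GQ)⁻¹) = γ • f g) :
    ∃ c : Γ → W, c ∈ Z1 Γ W ∧ (∀ γ : Γ, (γ : GQ) ∈ M.fixingSubgroup → c γ = f γ) ∧
      ∀ γ s : Γ, (s : GQ) ∈ E.fixingSubgroup → c (γ * s) = c γ := by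
  classical
  haveI := hMf
  haveI : M.fixingSubgroup.FiniteIndex := finiteIndex_fixingSubgroup M
  haveI : Fintype (Γ ⧸ M.fixingSubgroup.subgroupOf Γ) := Fintype.ofFinite _
  obtain ⟨φ, hφ⟩ := hhig
  obtain ⟨ρ, hρ⟩ := exists_retraction (Subgroup.inclusion hMΓ) (Subgroup.inclusion_injective hMΓ)
  have hf1 : f 1 = 0 := hfE 1 E.fixingSubgroup.one_mem
  have hfinv : ∀ g ∈ M.fixingSubgroup, f g⁻¹ = - f g := by
    intro g hg
    have := hf g hg g⁻¹ (M.fixingSubgroup.inv_mem hg)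
    rw [mul_inv_cancel, hf1] at this
    exact (neg_eq_of_add_eq_zero_right this.symm).symm
  -- retraction property with membership
  have hρ' : ∀ (m : GQ) (hm : m ∈ M.fixingSubgroup) (x : Γ),
      (ρ (⟨m, hMΓ hm⟩ * x) : GQ) = m * (ρ x : GQ) := by
    intro m hm x
    have := hρ ⟨m, hm⟩ x
    exact congrArg Subtype.val this
  let C : Γ → Γ → W := fun γ x => f ((ρ x : GQ)⁻¹ * (ρ (x * γ) : GQ))
  have hC : ∀ γ x, C γ x = f ((ρ x : GQ)⁻¹ * (ρ (x * γ) : GQ)) := fun _ _ => rfl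
  have hCval : ∀ γ x, C γ x = f (ρ (x * γ) : GQ) - f (ρ x : GQ) := by
    intro γ x
    rw [hC, hf _ (M.fixingSubgroup.inv_mem (ρ x).2) _ (ρ (x * γ)).2, hfinv _ (ρ x).2]
    abel
  have hCinv : ∀ (γ x : Γ) (m : GQ) (hm : m ∈ M.fixingSubgroup), C γ (⟨m, hMΓ hm⟩ * x) = C γ x := by
    intro γ x m hm
    rw [hC, hC, mul_assoc, hρ' m hm, hρ' m hm]
    congr 1
    group
  let G : Γ → Γ → W := fun γ y => y • φ (C γ y⁻¹)
  have hG : ∀ γ y, G γ y = y • φ (C γ y⁻¹) := fun _ _ => rfl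
  have hGinv : ∀ γ, ∀ y, ∀ n ∈ M.fixingSubgroup.subgroupOf Γ, G γ (y * n) = G γ y := by
    intro γ y n hn
    rw [hG, hG, mul_smul, mul_inv_rev]
    have h1 : C γ (n⁻¹ * y⁻¹) = C γ y⁻¹ :=
      hCinv γ y⁻¹ (n⁻¹ : Γ) (M.fixingSubgroup.inv_mem hn)
    rw [h1, htriv n hn]
  let c : Γ → W := fun γ => ∑ y : Γ ⧸ M.fixingSubgroup.subgroupOf Γ, G γ y.out
  refine ⟨c, ?_, ?_, ?_⟩
  · intro γ δ
    show ∑ y : Γ ⧸ M.fixingSubgroup.subgroupOf Γ, G (γ * δ) y.out =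
      ∑ y : Γ ⧸ M.fixingSubgroup.subgroupOf Γ, G γ y.out +
      γ • ∑ y : Γ ⧸ M.fixingSubgroup.subgroupOf Γ, G δ y.out
    have h1 : γ • ∑ y : Γ ⧸ M.fixingSubgroup.subgroupOf Γ, G δ y.out =
        ∑ y : Γ ⧸ M.fixingSubgroup.subgroupOf Γ, y.out • φ (C δ ((y.out)⁻¹ * γ)) := by
      rw [← Equiv.sum_comp (MulAction.toPerm γ : Equiv.Perm (Γ ⧸ M.fixingSubgroup.subgroupOf Γ))
        (fun y => y.out • φ (C δ ((y.out)⁻¹ * γ))), smul_sum]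
      refine Finset.sum_congr rfl fun y _ => ?_
      induction y using QuotientGroup.induction_on with
      | H k =>
      have e1 : ((MulAction.toPerm γ : Equiv.Perm (Γ ⧸ M.fixingSubgroup.subgroupOf Γ))
        (QuotientGroup.mk k)) = QuotientGroup.mk (γ * k) := rfl
      rw [e1, out_eqΓ (G δ) (hGinv δ)]
      have h2 := out_eqΓ (N := M.fixingSubgroup.subgroupOf Γ)
        (fun y => y • φ (C δ (y⁻¹ * γ))) (by
          intro y n hn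
          show (y * n) • φ (C δ ((y * n)⁻¹ * γ)) = y • φ (C δ (y⁻¹ * γ))
          rw [mul_smul, mul_inv_rev, mul_assoc]
          have h1 : C δ (n⁻¹ * (y⁻¹ * γ)) = C δ (y⁻¹ * γ) :=
            hCinv δ (y⁻¹ * γ) (n⁻¹ : Γ) (M.fixingSubgroup.inv_mem hn)
          rw [h1, htriv n hn]) (γ * k)
      refine Eq.trans ?_ h2.symm
      show γ • G δ k = (γ * k) • φ (C δ ((γ * k)⁻¹ * γ))
      rw [hG, mul_smul, mul_inv_rev, inv_mul_cancel_right]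
    rw [h1, ← Finset.sum_add_distrib]
    refine Finset.sum_congr rfl fun y _ => ?_
    show y.out • φ (C (γ * δ) (y.out)⁻¹) = y.out • φ (C γ (y.out)⁻¹) + _
    rw [← smul_add, ← map_add]
    congr 2
    rw [hCval, hCval, hCval, mul_assoc]
    abel
  · intro γ hγ
    show ∑ y : Γ ⧸ M.fixingSubgroup.subgroupOf Γ, y.out • φ (C γ (y.out)⁻¹) = f γ
    rw [← hφ (f γ)]
    refine Finset.sum_congr rfl fun y _ => ?_
    congr 2
    set x : Γ := (y.out)⁻¹ with hx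
    have hm : (x : GQ) * γ * (x : GQ)⁻¹ ∈ M.fixingSubgroup := hnorm _ x.2 _ hγ
    have h1 : x * γ = ⟨(x : GQ) * γ * (x : GQ)⁻¹, hMΓ hm⟩ * x := by
      apply Subtype.ext
      show (x : GQ) * γ = (x : GQ) * γ * (x : GQ)⁻¹ * x
      rw [inv_mul_cancel_right]
    rw [hCval, h1, hρ' _ hm, hf _ hm _ (ρ x).2, add_sub_cancel_right, hfΓ x _ hγ]
  · intro γ s hs
    show ∑ y : Γ ⧸ M.fixingSubgroup.subgroupOf Γ, y.out • φ (C (γ * s) (y.out)⁻¹) =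
      ∑ y : Γ ⧸ M.fixingSubgroup.subgroupOf Γ, y.out • φ (C γ (y.out)⁻¹)
    refine Finset.sum_congr rfl fun y _ => ?_
    congr 2
    set x : Γ := (y.out)⁻¹ with hx
    have hsE : (x * γ : Γ) * (s : GQ) * ((x * γ : Γ) : GQ)⁻¹ ∈ E.fixingSubgroup :=
      hEn.conj_mem _ hs _
    have h1 : x * (γ * s) = ⟨(x * γ : Γ) * (s : GQ) * ((x * γ : Γ) : GQ)⁻¹, hMΓ (hEM hsE)⟩ *
        (x * γ) := by
      apply Subtype.ext
      show (x : GQ) * ((γ : GQ) * s) = ((x : GQ) * γ) * s * ((x : GQ) * γ)⁻¹ * ((x : GQ) * γ)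
      rw [inv_mul_cancel_right, mul_assoc]
    rw [hCval, hCval, h1, hρ' _ (hEM hsE), hf _ (hEM hsE) _ (ρ _).2, hfE _ hsE, zero_add]

/-- extension to a cocycle with values in the coinduced module -/
theorem ext_GQ {T : Finset Nat.Primes} (hMf : FiniteDimensional ℚ M)
    (hMΓ : M.fixingSubgroup ≤ Γ)
    (htriv : ∀ γ : Γ, (γ : GQ) ∈ M.fixingSubgroup → ∀ x : W, γ • x = x)
    (hnorm : ∀ g ∈ Γ, ∀ k ∈ M.fixingSubgroup, g * k * g⁻¹ ∈ M.fixingSubgroup)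
    (hhig : HigM M Γ W) (hEn : E.fixingSubgroup.Normal) (hEM : E.fixingSubgroup ≤ M.fixingSubgroup)
    (hET : E.IsUnramifiedOutside T)
    (f : GQ → W) (hf : ∀ g ∈ M.fixingSubgroup, ∀ g' ∈ M.fixingSubgroup, f (g * g') = f g + f g')
    (hfE : ∀ g ∈ E.fixingSubgroup, f g = 0)
    (hfΓ : ∀ (γ : Γ), ∀ g ∈ M.fixingSubgroup, f (γ * g * (γ : GQ)⁻¹) = γ • f g) :
    ∃ c ∈ Z1L T (MonoidHom.id GQ) (CoInd Γ.subtype W),
      ∀ g ∈ M.fixingSubgroup, (c g).1 1 = f g := by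
  obtain ⟨c₀, h1, h2, h3⟩ := ext_Γ hMf hMΓ htriv hnorm hhig hEn hEM f hf hfE hfΓ
  obtain ⟨ρ, hρ⟩ := exists_retraction Γ.subtype Γ.subtype_injective
  have hρ' : ∀ (m : GQ) (hm : m ∈ Γ) (x : GQ), ρ (m * x) = ⟨m, hm⟩ * ρ x :=
    fun m hm x => hρ ⟨m, hm⟩ x
  let C : GQ → CoInd Γ.subtype W := fun g => ⟨fun x => ρ x • c₀ ((ρ x)⁻¹ * ρ (x * g)), by
    intro d x
    show ρ ((d : GQ) * x) • c₀ ((ρ ((d : GQ) * x))⁻¹ * ρ ((d : GQ) * x * g)) = _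
    rw [mul_assoc, hρ' _ d.2, hρ' _ d.2]
    show (d * ρ x) • c₀ ((d * ρ x)⁻¹ * (d * ρ (x * g))) = d • ρ x • c₀ ((ρ x)⁻¹ * ρ (x * g))
    rw [mul_smul]
    congr 3
    group⟩
  refine ⟨C, ⟨fun g h => ?_, E, hET, fun g s hs => ?_⟩, fun g hg => ?_⟩
  · apply Subtype.ext
    funext x
    show ρ x • c₀ ((ρ x)⁻¹ * ρ (x * (g * h))) = ρ x • c₀ ((ρ x)⁻¹ * ρ (x * g)) +
      ρ (x * g) • c₀ ((ρ (x * g))⁻¹ * ρ (x * g * h))
    have e1 : (ρ x)⁻¹ * ρ (x * (g * h)) =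
        ((ρ x)⁻¹ * ρ (x * g)) * ((ρ (x * g))⁻¹ * ρ (x * g * h)) := by
      rw [mul_assoc x g h]; group
    rw [e1, h1, smul_add, smul_smul]
    congr 3
    group
  · apply Subtype.ext
    funext x
    show ρ x • c₀ ((ρ x)⁻¹ * ρ (x * (g * s))) = ρ x • c₀ ((ρ x)⁻¹ * ρ (x * g))
    have hsE : (x * g) * s * (x * g)⁻¹ ∈ E.fixingSubgroup := hEn.conj_mem _ hs _
    have e1 : x * (g * s) = (x * g) * s * (x * g)⁻¹ * (x * g) := by
      rw [inv_mul_cancel_right, mul_assoc]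
    rw [e1, hρ' _ (hMΓ (hEM hsE))]
    have hsE' : ((ρ (x * g) : Γ) : GQ)⁻¹ * ((x * g) * s * (x * g)⁻¹) * (ρ (x * g) : GQ) ∈
        E.fixingSubgroup := by
      have := hEn.conj_mem _ hsE ((ρ (x * g) : Γ) : GQ)⁻¹
      rwa [inv_inv] at this
    have e2 : (ρ x)⁻¹ * (⟨(x * g) * s * (x * g)⁻¹, hMΓ (hEM hsE)⟩ * ρ (x * g)) =
        ((ρ x)⁻¹ * ρ (x * g)) *
          ((ρ (x * g))⁻¹ * ⟨(x * g) * s * (x * g)⁻¹, hMΓ (hEM hsE)⟩ * ρ (x * g)) := by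
      group
    rw [e2, h3 _ _ hsE']
  · show ρ 1 • c₀ ((ρ 1)⁻¹ * ρ (1 * g)) = f g
    rw [one_mul]
    have e1 : ρ g = ⟨g, hMΓ hg⟩ * ρ 1 := by
      have := hρ' g (hMΓ hg) 1
      rwa [mul_one] at this
    have e2 : c₀ (⟨g, hMΓ hg⟩ * ρ 1) = f g + c₀ (ρ 1) := by
      rw [h1, h2 _ hg, htriv _ hg]
    have e3 : c₀ (ρ 1 * ((ρ 1)⁻¹ * ρ g)) = c₀ (ρ 1) + ρ 1 • c₀ ((ρ 1)⁻¹ * ρ g) := h1 _ _
    rw [mul_inv_cancel_left, e1, e2] at e3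
    rw [e1]
    have e4 : f g + c₀ (ρ 1) = ρ 1 • c₀ ((ρ 1)⁻¹ * (⟨g, hMΓ hg⟩ * ρ 1)) + c₀ (ρ 1) := by
      rw [e3, add_comm]
    exact (add_right_cancel e4).symm

end ext

end

end Fermat.Agent.EulerC
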