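import Fermat.Agent.EulerC.Low

set_option autoImplicit false
set_option maxHeartbeats 400000

/-! Comparison of the counts. -/

namespace Fermat.Agent.EulerC

open Finset Fermat.Agent.CFT Fermat.Agent.CFTSec Fermat.Agent.TWLocal

noncomputable section

section mh

variable {p : ℕ} [hp : Fact p.Prime] {ζ : Qb} (hζ : IsPrimitiveRoot ζ p)
  {T : Finset Nat.Primes} {M : IntermediateField ℚ Qb} (hM : M.IsUnramifiedOutside T)
  (hζM : ζ ∈ M) {Γ : Subgroup GQ} {W : Type*} [AddCommGroup W] [DistribMulAction Γ W] [Finite W]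
  (hpW : ∀ w : W, p • w = 0)

include hM hζM hpW in
/-- global invariants -/
theorem card_MH : Nat.card (MH T p Γ (Dl hζ W)) = h0 GQ (CoInd Γ.subtype W) := by
  let F : fix (CoInd Γ.subtype W) (⊤ : Subgroup GQ) → MH T p Γ (Dl hζ W) := fun f =>
    ⟨(zQ hM hζ hζM).comp (AddMonoidHom.mk' (fun l => dlE hζ l (f.1.1 1)) (fun l l' => rfl)),
      fun l => by
        rw [← map_nsmul, p_dl, map_zero], fun γ l => by
      show zQ hM hζ hζM (dlE hζ (γ • l) (f.1.1 1)) = (γ : GQ) • zQ hM hζ hζM (dlE hζ l (f.1.1 1))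
      rw [zQ_smul hM hζ hζM _ _ (chi_spec hζ _), dlE_smul]
      have h1 : f.1.1 1 = γ⁻¹ • f.1.1 1 := by
        have h2 := f.1.2 γ⁻¹ 1
        have h3 : (((γ : GQ)⁻¹ • f.1 : CoInd Γ.subtype W) : GQ → W) 1 = f.1.1 1 := by
          rw [f.2 _ trivial]
        have h4 : (((γ : GQ)⁻¹ • f.1 : CoInd Γ.subtype W) : GQ → W) 1 =
            f.1.1 (1 * (γ : GQ)⁻¹) := rfl
        rw [one_mul] at h4
        have h5 : Γ.subtype γ⁻¹ * 1 = (γ : GQ)⁻¹ := mul_one _
        rw [h5] at h2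
        rw [← h2, ← h4, h3]
      rw [← h1]⟩
  refine (Nat.card_congr (Equiv.ofBijective F ⟨?_, ?_⟩)).symm
  · intro f f' h
    have h1 : f.1.1 1 = f'.1.1 1 := by
      refine dl_eq hζ hpW fun l => zQ_inj hM hζ hζM ?_
      exact DFunLike.congr_fun (congrArg Subtype.val h) l
    apply Subtype.ext
    apply Subtype.ext
    funext g
    have h2 : ∀ f : fix (CoInd Γ.subtype W) (⊤ : Subgroup GQ), f.1.1 g = f.1.1 1 := by
      intro f
      have h3 := congrArg (fun z : CoInd Γ.subtype W => z.1 1) (f.2 g trivial)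
      have h4 : f.1.1 (1 * g) = f.1.1 1 := h3
      rwa [one_mul] at h4
    rw [h2, h2, h1]
  · rintro ⟨θ, hθ1, hθ2⟩
    have h1 : ∀ l, ∃ a, zQ hM hζ hζM a = θ l := fun l => zQ_surj hM hζ hζM _ (hθ1 l)
    choose a ha using h1
    obtain ⟨w, hw⟩ := dd_surj hζ hpW (AddMonoidHom.mk' a fun l l' => zQ_inj hM hζ hζM (by
      rw [map_add, ha, ha, ha, map_add]))
    have hw' : ∀ l, a l = dlE hζ l w := hw
    have h2 : ∀ γ : Γ, γ • w = w := by
      intro γ
      refine dl_eq hζ hpW fun l => ?_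
      obtain ⟨l', rfl⟩ : ∃ l', l = γ • l' := ⟨γ⁻¹ • l, (smul_inv_smul γ l).symm⟩
      rw [dlE_smul', ← hw', ← hw']
      refine zQ_inj hM hζ hζM ?_
      show zQ hM hζ hζM ((chi hζ (γ : GQ) : ZMod p) * a l') = zQ hM hζ hζM (a (γ • l'))
      rw [← zQ_smul hM hζ hζM _ _ (chi_spec hζ _), ha, ha]
      exact (hθ2 γ l').symm
    refine ⟨⟨⟨fun _ => w, fun γ _ => (h2 γ).symm⟩, fun g _ => rfl⟩, ?_⟩
    apply Subtype.ext
    apply AddMonoidHom.ext
    intro l
    show zQ hM hζ hζM (dlE hζ l w) = θ l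
    rw [← hw', ha]

omit [Finite W] in
/-- `MD` as invariants in the coinduced module -/
theorem card_MD' {Q : Type*} [AddCommGroup Q] [DistribMulAction Γ Q] (D : Subgroup GQ) :
    Nat.card (MD Γ Q D) = Nat.card (fix (CoInd Γ.subtype Q) D) := by
  refine Nat.card_congr ⟨fun F => ⟨⟨F.1, fun γ g => ?_⟩, fun d hd => ?_⟩,
      fun F => ⟨F.1.1, fun γ g d hd => ?_⟩, fun F => rfl, fun F => rfl⟩
  · have := F.2 γ g 1 D.one_mem
    rwa [mul_one] at this
  · apply Subtype.ext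
    funext g
    have := F.2 1 g d hd
    rw [one_smul, Subgroup.coe_one, one_mul] at this
    exact this
  · have h2 := F.1.2 γ (g * d)
    have h3 := congrArg (fun z : CoInd Γ.subtype Q => z.1 g) (F.2 d hd)
    rw [mul_assoc]
    exact h2.trans (congrArg (γ • ·) h3)

include hM hpW in
theorem card_MD (hMΓ : M.fixingSubgroup ≤ Γ) (D : Subgroup GQ) :
    Nat.card (MD Γ (Dl hζ W) D) = Nat.card (HomChi hζ D (CoInd Γ.subtype W)) := by
  haveI := finiteIndex_Γ hM hMΓ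
  haveI : Fintype (GQ ⧸ Γ) := Fintype.ofFinite _
  rw [card_MD', card_fix_eq hζ (pdata hζ Γ W hpW) D]

end mh

section chain

variable {p : ℕ} [hp : Fact p.Prime] (hp2 : 2 < p) {ζ : Qb} (hζ : IsPrimitiveRoot ζ p)
  {T : Finset Nat.Primes} (hpT : pP p ∈ T)
  {M : IntermediateField ℚ Qb} (hM : M.IsUnramifiedOutside T)
  (hζM : ζ ∈ M) {Γ : Subgroup GQ} {W : Type*} [AddCommGroup W] [DistribMulAction Γ W] [Finite W]
  (hMΓ : M.fixingSubgroup ≤ Γ) (hpW : ∀ w : W, p • w = 0)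
  (htriv : ∀ γ : Γ, (γ : GQ) ∈ M.fixingSubgroup → ∀ x : W, γ • x = x)
  (hnorm : ∀ g ∈ Γ, ∀ k ∈ M.fixingSubgroup, g * k * g⁻¹ ∈ M.fixingSubgroup)
  (hhig : HigM M Γ W)

include hζM htriv in
theorem triv_dl (γ : Γ) (hγ : (γ : GQ) ∈ M.fixingSubgroup) (l : Dl hζ W) : γ • l = l := by
  apply Dl.ext
  intro w
  rw [dlE_smul, htriv _ (M.fixingSubgroup.inv_mem hγ)]
  have h1 : (γ : GQ) ζ = ζ := (IntermediateField.mem_fixingSubgroup_iff M _).mp hγ ζ hζM
  rw [chi_eq_one hζ h1, Units.val_one, one_mul]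

include hp2 hζ hpT hM hζM hMΓ hpW htriv hnorm hhig in
/-- the unit count for coinduced modules -/
theorem unit_coind (UC : UnitCount T M p Γ (Dl hζ W)) {ι : Qb →+* ℂ} {c : GQ}
    (hc : ∀ x, ι (c x) = (starRingEnd ℂ) (ι x)) :
    Nat.card (KH T M p Γ (Dl hζ W)) * Nat.card (MD Γ (Dl hζ W) ⊤) *
      Nat.card (fix (CoInd Γ.subtype W) (Subgroup.zpowers c)) =
    h0 GQ (CoInd Γ.subtype W) * (∏ q ∈ T, Nat.card (MD Γ (Dl hζ W) (Dq q))) *
      Nat.card (CoInd Γ.subtype W) := by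
  haveI := finiteIndex_Γ hM hMΓ
  haveI : Fintype (GQ ⧸ Γ) := Fintype.ofFinite _
  have h1 := UC hp2 hpT hM ⟨ζ, hζ, hζM⟩ hMΓ hnorm inferInstance (p_dl hζ)
    (fun γ hγ l => triv_dl hζ hζM htriv γ hγ l) (hig_dl hζ hhig) ι c hc
  rw [h1, card_MH hζ hM hζM hpW, card_MD hζ hM hpW hMΓ (Subgroup.zpowers c),
    card_conj hp2 hζ (p_coind Γ hpW) hc (W := CoInd Γ.subtype W)]
  ring

theorem card_MD_pos {T : Finset Nat.Primes} {M : IntermediateField ℚ Qb}
    (hM : M.IsUnramifiedOutside T) {Γ : Subgroup GQ} (hMΓ : M.fixingSubgroup ≤ Γ)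
    {Q : Type*} [AddCommGroup Q] [DistribMulAction Γ Q] [Finite Q]
    (D : Subgroup GQ) : 0 < Nat.card (MD Γ Q D) := by
  haveI := finiteIndex_Γ hM hMΓ
  haveI : Fintype (GQ ⧸ Γ) := Fintype.ofFinite _
  rw [card_MD']
  exact Nat.card_pos

include hp2 hζ hpT hM hζM hMΓ hpW htriv hnorm hhig in
/-- **the defect of coinduced modules is at most one** -/
theorem delta_coind_le (hcl : Hcl T M) (UC : UnitCount T M p Γ (Dl hζ W)) {ι : Qb →+* ℂ} {c : GQ}
    (hc : ∀ x, ι (c x) = (starRingEnd ℂ) (ι x)) :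
    h0 GQ (CoInd Γ.subtype W) * h2 T (MonoidHom.id GQ) (CoInd Γ.subtype W) *
      Nat.card (CoInd Γ.subtype W) ≤
    h1 T (MonoidHom.id GQ) (CoInd Γ.subtype W) *
      Nat.card (fix (CoInd Γ.subtype W) (Subgroup.zpowers c)) := by
  have e1 := unit_coind hp2 hζ hpT hM hζM hMΓ hpW htriv hnorm hhig UC hc
  have e2 := (h2_coind hp2 hζ hpT hM hζM hcl hMΓ hpW htriv hnorm hhig).2
  have e3 := (h1_coind hp2 hζ hpT hM hζM hMΓ hpW htriv hnorm hhig).2
  have e4 : 0 < Nat.card (MD Γ (Dl hζ W) ⊤) := card_MD_pos hM hMΓ _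
  refine Nat.le_of_mul_le_mul_right ?_ e4
  calc h0 GQ (CoInd Γ.subtype W) * h2 T (MonoidHom.id GQ) (CoInd Γ.subtype W) *
        Nat.card (CoInd Γ.subtype W) * Nat.card (MD Γ (Dl hζ W) ⊤)
      = h0 GQ (CoInd Γ.subtype W) * (h2 T (MonoidHom.id GQ) (CoInd Γ.subtype W) *
        Nat.card (MD Γ (Dl hζ W) ⊤)) * Nat.card (CoInd Γ.subtype W) := by ring
    _ ≤ h0 GQ (CoInd Γ.subtype W) * (∏ q ∈ T, Nat.card (MD Γ (Dl hζ W) (Dq q))) *
        Nat.card (CoInd Γ.subtype W) := by gcongr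
    _ = Nat.card (KH T M p Γ (Dl hζ W)) * Nat.card (MD Γ (Dl hζ W) ⊤) *
        Nat.card (fix (CoInd Γ.subtype W) (Subgroup.zpowers c)) := e1.symm
    _ ≤ h1 T (MonoidHom.id GQ) (CoInd Γ.subtype W) * Nat.card (MD Γ (Dl hζ W) ⊤) *
        Nat.card (fix (CoInd Γ.subtype W) (Subgroup.zpowers c)) := by gcongr
    _ = _ := by ring

include hp2 hζ hpT hM hζM hMΓ hpW htriv hnorm hhig in
/-- **the defect of coinduced modules is at least one**, from bounds in the other direction -/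
theorem delta_coind_ge (UC : UnitCount T M p Γ (Dl hζ W)) {ι : Qb →+* ℂ} {c : GQ}
    (hc : ∀ x, ι (c x) = (starRingEnd ℂ) (ι x))
    (e2 : ∏ q ∈ T, Nat.card (MD Γ (Dl hζ W) (Dq q)) ≤
      h2 T (MonoidHom.id GQ) (CoInd Γ.subtype W) * Nat.card (MD Γ (Dl hζ W) ⊤))
    (e3 : h1 T (MonoidHom.id GQ) (CoInd Γ.subtype W) ≤ Nat.card (KH T M p Γ (Dl hζ W))) :
    h1 T (MonoidHom.id GQ) (CoInd Γ.subtype W) *
      Nat.card (fix (CoInd Γ.subtype W) (Subgroup.zpowers c)) ≤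
    h0 GQ (CoInd Γ.subtype W) * h2 T (MonoidHom.id GQ) (CoInd Γ.subtype W) *
      Nat.card (CoInd Γ.subtype W) := by
  have e1 := unit_coind hp2 hζ hpT hM hζM hMΓ hpW htriv hnorm hhig UC hc
  have e4 : 0 < Nat.card (MD Γ (Dl hζ W) ⊤) := card_MD_pos hM hMΓ _
  refine Nat.le_of_mul_le_mul_right ?_ e4
  calc h1 T (MonoidHom.id GQ) (CoInd Γ.subtype W) *
        Nat.card (fix (CoInd Γ.subtype W) (Subgroup.zpowers c)) * Nat.card (MD Γ (Dl hζ W) ⊤)
      ≤ Nat.card (KH T M p Γ (Dl hζ W)) *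
        Nat.card (fix (CoInd Γ.subtype W) (Subgroup.zpowers c)) *
          Nat.card (MD Γ (Dl hζ W) ⊤) := by gcongr
    _ = Nat.card (KH T M p Γ (Dl hζ W)) * Nat.card (MD Γ (Dl hζ W) ⊤) *
        Nat.card (fix (CoInd Γ.subtype W) (Subgroup.zpowers c)) := by ring
    _ = h0 GQ (CoInd Γ.subtype W) * (∏ q ∈ T, Nat.card (MD Γ (Dl hζ W) (Dq q))) *
        Nat.card (CoInd Γ.subtype W) := e1
    _ ≤ h0 GQ (CoInd Γ.subtype W) * (h2 T (MonoidHom.id GQ) (CoInd Γ.subtype W) *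
        Nat.card (MD Γ (Dl hζ W) ⊤)) * Nat.card (CoInd Γ.subtype W) := by gcongr
    _ = _ := by ring

end chain

section free

variable {p : ℕ} [hp : Fact p.Prime] (hp2 : 2 < p) {ζ : Qb} (hζ : IsPrimitiveRoot ζ p)
  {T : Finset Nat.Primes} (hpT : pP p ∈ T)
  {M : IntermediateField ℚ Qb} (hM : M.IsUnramifiedOutside T)
  (hζM : ζ ∈ M) {W : Type*} [AddCommGroup W] [DistribMulAction M.fixingSubgroup W] [Finite W]
  (hpW : ∀ w : W, p • w = 0)
  (htriv : ∀ γ : M.fixingSubgroup, ∀ x : W, γ • x = x)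

include hp2 hpT hM hζ hζM in
theorem finite_KH {Γ : Subgroup GQ} {Q : Type*} [AddCommGroup Q] [DistribMulAction Γ Q] [Finite Q] :
    Finite (KH T M p Γ Q) := by
  have h1 := (index_J_le hp2 hpT hM hζ hζM).1
  haveI : Finite (↥(SU T M) ⧸ (mulN ↥(SU T M) p).range) := by
    haveI : (mulN ↥(SU T M) p).range.FiniteIndex := ⟨h1⟩
    infer_instance
  refine Finite.of_injective
    (fun (θ : KH T M p Γ Q) (x : Q) => θ.1 x) fun θ θ' h => ?_
  exact Subtype.ext (AddMonoidHom.ext fun x => congrFun h x)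

include hp2 hζ hpT hM hζM hpW htriv in
/-- the upper bound for `H¹`, free modules -/
theorem h1_free (hcl : Hcl T M) : h1 T (MonoidHom.id GQ) (CoInd M.fixingSubgroup.subtype W) ≤
    Nat.card (KH T M p M.fixingSubgroup (Dl hζ W)) := by
  haveI := finite_KH hp2 hζ hpT hM hζM (Γ := M.fixingSubgroup) (Q := Dl hζ W)
  let X := CoInd M.fixingSubgroup.subtype W
  -- the Kummer homomorphism
  have hex : ∀ c : Z1L T (MonoidHom.id GQ) X, ∃ θ : KH T M p M.fixingSubgroup (Dl hζ W),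
      ∀ (n : M.fixingSubgroup) (l : Dl hζ W), kq hζ hζM n (θ.1 l) =
        dlE hζ l ((c.1 n).1 1) := by
    intro c
    have hadd : ∀ n n' : M.fixingSubgroup, (c.1 (n * n' : GQ)).1 1 =
        (c.1 (n : GQ)).1 1 + (c.1 (n' : GQ)).1 1 := by
      intro n n'
      rw [c.2.1]
      show (c.1 n).1 1 + (c.1 n').1 (1 * n) = _
      have h1 := (c.1 n').2 n 1
      have h2 : M.fixingSubgroup.subtype n * 1 = 1 * (n : GQ) := by
        rw [one_mul]; exact mul_one _
      rw [h2] at h1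
      rw [h1, htriv]
    have h1 : ∀ l : Dl hζ W, ∃ y : ↥(SU T M) ⧸ (mulN ↥(SU T M) p).range,
        ∀ n : M.fixingSubgroup, kq hζ hζM n y = dlE hζ l ((c.1 n).1 1) := by
      intro l
      obtain ⟨x, ⟨D, hD⟩, hx⟩ := exists_kumm hζ hζM hM
        (⟨MonoidHom.mk' (fun g => Multiplicative.ofAdd (dlE hζ l ((c.1 g).1 1)))
          (fun g h => by
            show Multiplicative.ofAdd (dlE hζ l ((c.1 (g * h : GQ)).1 1)) =
              Multiplicative.ofAdd (dlE hζ l ((c.1 g).1 1) + dlE hζ l ((c.1 h).1 1))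
            rw [hadd, dlE_add']), by
          obtain ⟨E', hE', h1⟩ := c.2.2
          refine ⟨E', hE', fun g hg => ?_⟩
          have h2 : c.1 (1 * (g : GQ)) = c.1 1 := h1 1 g hg
          rw [one_mul, Z1.one c.2.1] at h2
          show Multiplicative.ofAdd (dlE hζ l ((c.1 g).1 1)) = 1
          rw [h2]
          show Multiplicative.ofAdd (dlE hζ l 0) = 1
          rw [dlE_zero']; rfl⟩ : HomS T M p)
      obtain ⟨y, hy, hyD⟩ := hcl D.1 D.2
      have hD' : divQ x.1 = p • D.1 := congrArg Subtype.val hD.symm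
      have hu : x.1 - p • y ∈ SU T M := by
        refine ⟨(fix _ _).sub_mem x.2 ((fix _ _).nsmul_mem hy p), ?_⟩
        have h2 : divH T (x.1 - p • y) = divH T x.1 - p • divH T y := by
          rw [map_sub, map_nsmul]
        have h3 : divH T (x.1 - p • y) = 0 := by
          rw [h2, divH_apply, divH_apply, hD', hyD, sub_self]
        exact h3
      refine ⟨QuotientAddGroup.mk ⟨_, hu⟩, fun n => ?_⟩
      rw [kq_mk]
      have h3 : kumm hζ hζM ⟨x.1 - p • y, hu.1⟩ = kumm hζ hζM x := by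
        rw [kumm_eq_iff hζ hζM hM]
        refine ⟨⟨y, hy⟩, ?_⟩
        apply Subtype.ext
        show p • y = -(x.1 - p • y) + x.1
        abel
      have h4 := DFunLike.congr_fun (h3.trans hx) n
      exact Multiplicative.ofAdd.injective h4
    choose y hy using h1
    refine ⟨⟨AddMonoidHom.mk' y fun l l' => ?_, fun γ l u u' huu hyu => ?_⟩, fun n l => hy l n⟩
    · rw [← sub_eq_zero]
      refine kq_sep hζ hM hζM fun n => ?_
      rw [map_sub, map_add, hy, hy, hy, dlE_add, sub_self]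
    · have h2 : γ • l = l := triv_dl hζ hζM (fun γ _ x => htriv γ x) γ γ.2 l
      have h3 : u' = u := by
        apply Subtype.ext
        rw [huu]
        exact u.2.1 γ γ.2
      rw [h2, h3]
      exact hyu
  choose θ hθ using hex
  have hinj : Function.Injective (fun c : ↥(Z1L T (MonoidHom.id GQ) X) ⧸
      (B1 GQ X).addSubgroupOf (Z1L T (MonoidHom.id GQ) X) => θ c.out) := by
    intro c c' h
    have h1 : ∀ n : M.fixingSubgroup, (c.out.1 n).1 1 = (c'.out.1 n).1 1 := by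
      intro n
      refine dl_eq hζ hpW fun l => ?_
      rw [← hθ, ← hθ]
      exact congrArg (fun z : KH T M p M.fixingSubgroup (Dl hζ W) => kq hζ hζM n (z.1 l)) h
    rw [← QuotientAddGroup.out_eq' c, ← QuotientAddGroup.out_eq' c', QuotientAddGroup.eq]
    show -c.out.1 + c'.out.1 ∈ B1 GQ X
    refine shapiro1 M.fixingSubgroup.subtype M.fixingSubgroup.subtype_injective
      ((Z1 GQ X).add_mem ((Z1 GQ X).neg_mem c.out.2.1) c'.out.2.1) ⟨0, fun d => ?_⟩
    show -(c.out.1 d).1 1 + (c'.out.1 d).1 1 = d • (0 : W) - 0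
    rw [h1, neg_add_cancel, smul_zero, sub_zero]
  exact Nat.card_le_card_of_injective _ hinj

end free

end

end Fermat.Agent.EulerC
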