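import Fermat.Agent.EulerC.TrW
import Fermat.Agent.EulerC.Mid
import Fermat.Agent.EqDir.EulerAbs

set_option autoImplicit false
set_option maxHeartbeats 400000

/-! Inflation of modules over a finite quotient of `GQ`. -/

namespace Fermat.Agent.EulerC

open Finset Fermat.Agent.CFT Fermat.Agent.CFTSec Fermat.Agent.EqDir

noncomputable section

/-- the inflated module -/
def Infl (_L : IntermediateField ℚ Qb) (M : Type*) : Type _ := M

variable (L : IntermediateField ℚ Qb)

instance (M : Type*) [AddCommGroup M] : AddCommGroup (Infl L M) :=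
  inferInstanceAs (AddCommGroup M)

instance (M : Type*) [Finite M] : Finite (Infl L M) := inferInstanceAs (Finite M)

variable [hN : L.fixingSubgroup.Normal]

instance inflAct (M : Type*) [AddCommGroup M] [DistribMulAction (GQ ⧸ L.fixingSubgroup) M] :
    DistribMulAction GQ (Infl L M) where
  smul g x := (QuotientGroup.mk g : GQ ⧸ L.fixingSubgroup) • (show M from x)
  one_smul x := one_smul (GQ ⧸ L.fixingSubgroup) (show M from x)
  mul_smul g h x := mul_smul (QuotientGroup.mk g : GQ ⧸ L.fixingSubgroup) (QuotientGroup.mk h)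
    (show M from x)
  smul_zero g := smul_zero (A := M) (QuotientGroup.mk g : GQ ⧸ L.fixingSubgroup)
  smul_add g x y := smul_add (QuotientGroup.mk g : GQ ⧸ L.fixingSubgroup) (show M from x) y

theorem infl_smul (M : Type*) [AddCommGroup M] [DistribMulAction (GQ ⧸ L.fixingSubgroup) M]
    (g : GQ) (x : Infl L M) :
    g • x = ((QuotientGroup.mk g : GQ ⧸ L.fixingSubgroup) • (show M from x) : M) := rfl

theorem infl_triv (M : Type*) [AddCommGroup M] [DistribMulAction (GQ ⧸ L.fixingSubgroup) M]
    {g : GQ} (hg : g ∈ L.fixingSubgroup) (x : Infl L M) : g • x = x := by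
  rw [infl_smul, (QuotientGroup.eq_one_iff g).mpr hg]
  exact one_smul _ (show M from x)

variable {L}

/-- values of elements of coinduced modules -/
theorem coind_congr {Γ : Subgroup GQ} {A : Type*} [AddCommGroup A] [DistribMulAction Γ A]
    (hL : L.fixingSubgroup ≤ Γ) (htr : ∀ γ : Γ, (γ : GQ) ∈ L.fixingSubgroup → ∀ a : A, γ • a = a)
    (F : CoInd Γ.subtype A) {σ σ' : GQ}
    (h : (QuotientGroup.mk σ : GQ ⧸ L.fixingSubgroup) = QuotientGroup.mk σ') :
    F.1 σ = F.1 σ' := by
  have h1 : σ⁻¹ * σ' ∈ L.fixingSubgroup := QuotientGroup.eq.mp h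
  have h2 : σ * (σ⁻¹ * σ') * σ⁻¹ ∈ L.fixingSubgroup := hN.conj_mem _ h1 σ
  have h3 : σ' = Γ.subtype ⟨_, hL h2⟩ * σ := by
    show σ' = σ * (σ⁻¹ * σ') * σ⁻¹ * σ
    group
  rw [h3, F.2, htr _ h2]

variable (L)

/-- free modules are coinduced -/
def fmEquiv (m p : ℕ) [Fact p.Prime] : Infl L (FM (GQ ⧸ L.fixingSubgroup) m p) ≃+
    CoInd L.fixingSubgroup.subtype (TrW m p) where
  toFun f := ⟨fun σ i => (show FM (GQ ⧸ L.fixingSubgroup) m p from f) i (QuotientGroup.mk σ⁻¹),
    fun n σ => by
      funext i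
      show (show FM (GQ ⧸ L.fixingSubgroup) m p from f) i (QuotientGroup.mk ((n : GQ) * σ)⁻¹) =
        (show FM (GQ ⧸ L.fixingSubgroup) m p from f) i (QuotientGroup.mk σ⁻¹)
      congr 1
      rw [mul_inv_rev, QuotientGroup.eq, mul_inv_rev, inv_inv, inv_inv, mul_assoc, mul_inv_cancel,
        mul_one]
      exact n.2⟩
  invFun F := (fun i x => F.1 x.out⁻¹ i : FM (GQ ⧸ L.fixingSubgroup) m p)
  left_inv f := by
    funext i x
    show (show FM (GQ ⧸ L.fixingSubgroup) m p from f) i (QuotientGroup.mk (x.out⁻¹)⁻¹) = _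
    rw [inv_inv, QuotientGroup.out_eq']
  right_inv F := by
    apply Subtype.ext
    funext σ i
    show F.1 ((QuotientGroup.mk σ⁻¹ : GQ ⧸ L.fixingSubgroup).out)⁻¹ i = F.1 σ i
    refine congrFun (coind_congr le_rfl (fun _ _ _ => rfl) F ?_) i
    rw [QuotientGroup.mk_inv, QuotientGroup.out_eq', ← QuotientGroup.mk_inv, inv_inv]
  map_add' f f' := rfl

theorem fmEquiv_smul (m p : ℕ) [Fact p.Prime] (g : GQ)
    (f : Infl L (FM (GQ ⧸ L.fixingSubgroup) m p)) :
    fmEquiv L m p (g • f) = g • fmEquiv L m p f := by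
  apply Subtype.ext
  funext σ i
  show (show FM (GQ ⧸ L.fixingSubgroup) m p from f) i ((QuotientGroup.mk g)⁻¹ *
    QuotientGroup.mk σ⁻¹) = (show FM (GQ ⧸ L.fixingSubgroup) m p from f) i
      (QuotientGroup.mk (σ * g)⁻¹)
  rw [mul_inv_rev]
  rfl

/-- every module is coinduced from the whole group -/
def topEquiv (X : Type*) [AddCommGroup X] [DistribMulAction GQ X] :
    X ≃+ CoInd (⊤ : Subgroup GQ).subtype X where
  toFun x := ⟨fun g => g • x, fun d g => mul_smul (d : GQ) g x⟩
  invFun F := F.1 1
  left_inv x := one_smul GQ x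
  right_inv F := by
    apply Subtype.ext
    funext g
    show g • F.1 1 = F.1 g
    have h := F.2 ⟨g, trivial⟩ 1
    have h2 : (⊤ : Subgroup GQ).subtype ⟨g, trivial⟩ * 1 = g := mul_one g
    rw [h2] at h
    exact h.symm
  map_add' x y := Subtype.ext (funext fun g => smul_add g x y)

theorem topEquiv_smul (X : Type*) [AddCommGroup X] [DistribMulAction GQ X] (g : GQ) (x : X) :
    topEquiv X (g • x) = g • topEquiv X x := by
  apply Subtype.ext
  funext σ
  exact (mul_smul σ g x).symm

section ind

variable (B : Subgroup (GQ ⧸ L.fixingSubgroup))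

/-- the inverse image of a subgroup -/
abbrev preB : Subgroup GQ := B.comap (QuotientGroup.mk' L.fixingSubgroup)

/-- inflation of a module over a subgroup -/
def InfB (_B : Subgroup (GQ ⧸ L.fixingSubgroup)) (W : Type*) : Type _ := W

instance (W : Type*) [AddCommGroup W] : AddCommGroup (InfB L B W) :=
  inferInstanceAs (AddCommGroup W)

instance (W : Type*) [Finite W] : Finite (InfB L B W) := inferInstanceAs (Finite W)

/-- the homomorphism to `B` -/
def toB : preB L B →* B where
  toFun γ := ⟨QuotientGroup.mk (γ : GQ), γ.2⟩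
  map_one' := rfl
  map_mul' _ _ := rfl

instance infBAct (W : Type*) [AddCommGroup W] [DistribMulAction B W] :
    DistribMulAction (preB L B) (InfB L B W) where
  smul γ x := toB L B γ • (show W from x)
  one_smul x := by
    show toB L B 1 • (show W from x) = x
    rw [map_one]; exact one_smul _ (show W from x)
  mul_smul γ δ x := by
    show toB L B (γ * δ) • (show W from x) = toB L B γ • toB L B δ • (show W from x)
    rw [map_mul, mul_smul]
  smul_zero γ := smul_zero (A := W) (toB L B γ)
  smul_add γ x y := smul_add (toB L B γ) (show W from x) y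

theorem infB_smul (W : Type*) [AddCommGroup W] [DistribMulAction B W] (γ : preB L B)
    (x : InfB L B W) : γ • x = (toB L B γ • (show W from x) : W) := rfl

theorem infB_triv (W : Type*) [AddCommGroup W] [DistribMulAction B W] (γ : preB L B)
    (hγ : (γ : GQ) ∈ L.fixingSubgroup) (x : InfB L B W) : γ • x = x := by
  have h1 : toB L B γ = 1 := Subtype.ext ((QuotientGroup.eq_one_iff _).mpr hγ)
  rw [infB_smul, h1]
  exact one_smul _ (show W from x)

theorem le_preB : L.fixingSubgroup ≤ preB L B := by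
  intro n hn
  show (QuotientGroup.mk n : GQ ⧸ L.fixingSubgroup) ∈ B
  rw [(QuotientGroup.eq_one_iff n).mpr hn]
  exact B.one_mem

/-- inflation and coinduction -/
def indEquiv (W : Type*) [AddCommGroup W] [DistribMulAction B W] :
    Infl L (CoInd B.subtype W) ≃+ CoInd (preB L B).subtype (InfB L B W) where
  toFun F := ⟨fun σ => (show CoInd B.subtype W from F).1 (QuotientGroup.mk σ),
    fun γ σ => (show CoInd B.subtype W from F).2 (toB L B γ) (QuotientGroup.mk σ)⟩
  invFun F := (⟨fun x => F.1 x.out, fun b x => by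
    obtain ⟨γ, hγ⟩ := QuotientGroup.mk_surjective (b : GQ ⧸ L.fixingSubgroup)
    have hγB : γ ∈ preB L B := by
      show (QuotientGroup.mk γ : GQ ⧸ L.fixingSubgroup) ∈ B
      rw [hγ]; exact b.2
    have h1 := F.2 ⟨γ, hγB⟩ x.out
    have h2 : toB L B ⟨γ, hγB⟩ = b := Subtype.ext hγ
    have h3 : F.1 ((preB L B).subtype ⟨γ, hγB⟩ * x.out) = F.1 (B.subtype b * x).out := by
      refine coind_congr (le_preB L B) (fun γ hγ a => infB_triv L B W γ hγ a) F ?_
      rw [QuotientGroup.out_eq', QuotientGroup.mk_mul, QuotientGroup.out_eq']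
      show QuotientGroup.mk γ * x = (b : GQ ⧸ L.fixingSubgroup) * x
      rw [hγ]
    refine h3.symm.trans (h1.trans ?_)
    rw [infB_smul, h2]⟩ : CoInd B.subtype W)
  left_inv F := by
    apply Subtype.ext
    funext x
    show (show CoInd B.subtype W from F).1 (QuotientGroup.mk x.out) = _
    rw [QuotientGroup.out_eq']
  right_inv F := by
    apply Subtype.ext
    funext σ
    show F.1 (QuotientGroup.mk σ : GQ ⧸ L.fixingSubgroup).out = F.1 σ
    refine coind_congr (le_preB L B) (fun γ hγ a => infB_triv L B W γ hγ a) F ?_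
    rw [QuotientGroup.out_eq']
  map_add' F F' := rfl

theorem indEquiv_smul (W : Type*) [AddCommGroup W] [DistribMulAction B W] (g : GQ)
    (F : Infl L (CoInd B.subtype W)) : indEquiv L B W (g • F) = g • indEquiv L B W F := rfl

end ind

end

end Fermat.Agent.EulerC
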