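import Fermat.Agent.EulerC.Fin1
import Fermat.Agent.CFT.GLayer

set_option autoImplicit false
set_option maxHeartbeats 400000

/-! Higman's criterion for the modules of the final assembly. -/

namespace Fermat.Agent.EulerC

open Finset Fermat.Agent.CFT Fermat.Agent.CFTSec Fermat.Agent.EqDir

noncomputable section

theorem hig_of_index {p : ℕ} [hp : Fact p.Prime] {M : IntermediateField ℚ Qb} {Γ : Subgroup GQ}
    {Q : Type*} [AddCommGroup Q] [DistribMulAction Γ Q] (hpQ : ∀ x : Q, p • x = 0)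
    (hidx : (M.fixingSubgroup.subgroupOf Γ).index.Coprime p) : HigM M Γ Q := by
  obtain ⟨c, hc⟩ := exists_inverse (p := p) hidx
  refine ⟨nsmulAddMonoidHom c, ?_⟩
  intro _ x
  have h1 : ∀ y : Γ ⧸ M.fixingSubgroup.subgroupOf Γ,
      y.out • (nsmulAddMonoidHom c) (y.out⁻¹ • x) = c • x := by
    intro y
    show y.out • c • y.out⁻¹ • x = c • x
    rw [smul_comm, smul_inv_smul]
  rw [sum_congr rfl fun y _ => h1 y, sum_const, card_univ, ← Nat.card_eq_fintype_card,
    ← Subgroup.index_eq_card, smul_comm]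
  exact hc Q hpQ x

section proj

variable {G : Type*} [Group G] [Fintype G] [DecidableEq G] {m p : ℕ} [hp : Fact p.Prime]

/-- the part supported at the identity -/
def pi1 : FM G m p →+ FM G m p where
  toFun f := fun i h => if h = 1 then f i h else 0
  map_zero' := by
    funext i h
    show (if h = 1 then (0 : ZMod p) else 0) = 0
    rw [ite_self]
  map_add' f f' := by
    funext i h
    show (if h = 1 then f i h + f' i h else 0) =
      (if h = 1 then f i h else 0) + (if h = 1 then f' i h else 0)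
    split_ifs
    · rfl
    · rw [add_zero]

theorem sum_pi1 (f : FM G m p) : ∑ g : G, g • pi1 (g⁻¹ • f) = f := by
  funext i h
  have h1 : (∑ g : G, g • pi1 (g⁻¹ • f)) i h = ∑ g : G, (g • pi1 (g⁻¹ • f)) i h := by
    show evF i h (∑ g : G, g • pi1 (g⁻¹ • f)) = _
    rw [map_sum]
    rfl
  rw [h1]
  have h3 : ∀ g : G, (g • pi1 (g⁻¹ • f)) i h = if g = h then f i h else 0 := by
    intro g
    show (if g⁻¹ * h = 1 then f i ((g⁻¹)⁻¹ * (g⁻¹ * h)) else 0) = _
    rw [inv_inv, mul_inv_cancel_left]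
    by_cases hgh : g = h
    · rw [if_pos hgh, if_pos (by rw [hgh, inv_mul_cancel])]
    · rw [if_neg hgh, if_neg (fun h0 => hgh (inv_mul_eq_one.mp h0))]
  rw [sum_congr rfl fun g _ => h3 g, sum_ite_eq' univ h (fun _ => f i h), if_pos (mem_univ h)]

theorem isPr_hig {X : Type*} [AddCommGroup X] [DistribMulAction G X]
    (h : IsPr G p X) : ∃ φ : X →+ X, ∀ x, ∑ g : G, g • φ (g⁻¹ • x) = x := by
  obtain ⟨m, s, r, hs, hr, hrs⟩ := h
  refine ⟨r.comp (pi1.comp s), fun x => ?_⟩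
  have h1 : ∀ g : G, g • (r.comp (pi1.comp s)) (g⁻¹ • x) = r (g • pi1 (g⁻¹ • s x)) := by
    intro g
    show g • r (pi1 (s (g⁻¹ • x))) = _
    rw [hs, hr]
  rw [sum_congr rfl fun g _ => h1 g, ← map_sum, sum_pi1, hrs]

end proj

variable (L : IntermediateField ℚ Qb) [hN : L.fixingSubgroup.Normal]

theorem hig_top [Finite (GQ ⧸ L.fixingSubgroup)] {p : ℕ} [Fact p.Prime] (X : Type*)
    [AddCommGroup X] [DistribMulAction (GQ ⧸ L.fixingSubgroup) X]
    (h : IsPr (GQ ⧸ L.fixingSubgroup) p X) : HigM L ⊤ (Infl L X) := by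
  classical
  haveI := Fintype.ofFinite (GQ ⧸ L.fixingSubgroup)
  obtain ⟨φ, hφ⟩ := isPr_hig h
  refine ⟨(φ : X →+ X), ?_⟩
  intro _ x
  refine Eq.trans ?_ (hφ (show X from x))
  refine Fintype.sum_bijective (fun y : (⊤ : Subgroup GQ) ⧸ L.fixingSubgroup.subgroupOf ⊤ =>
    (QuotientGroup.mk (y.out : GQ) : GQ ⧸ L.fixingSubgroup)) ⟨?_, ?_⟩ _ _ ?_
  · intro y y' hyy
    have h1 : (y.out : GQ)⁻¹ * y'.out ∈ L.fixingSubgroup := QuotientGroup.eq.mp hyy
    have h2 : y.out⁻¹ * y'.out ∈ L.fixingSubgroup.subgroupOf ⊤ := h1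
    rw [← QuotientGroup.out_eq' y, ← QuotientGroup.out_eq' y']
    exact QuotientGroup.eq.mpr h2
  · intro x
    obtain ⟨g, rfl⟩ := QuotientGroup.mk_surjective x
    refine ⟨QuotientGroup.mk ⟨g, trivial⟩, ?_⟩
    have h1 : (⟨g, trivial⟩ : (⊤ : Subgroup GQ))⁻¹ *
        (QuotientGroup.mk ⟨g, trivial⟩ : (⊤ : Subgroup GQ) ⧸ L.fixingSubgroup.subgroupOf ⊤).out ∈
          L.fixingSubgroup.subgroupOf ⊤ := QuotientGroup.eq.mp (QuotientGroup.out_eq' _).symm
    exact (QuotientGroup.eq.mpr (show (g : GQ)⁻¹ * _ ∈ L.fixingSubgroup from h1)).symm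
  · intro y
    rfl

section fld

variable {L} {S : Finset Nat.Primes} {p : ℕ} [hp : Fact p.Prime]

/-- the field attached to the Sylow subgroup -/
theorem exists_sylow_field (hL : L.IsUnramifiedOutside S) {ζ : Qb} (hζ : IsPrimitiveRoot ζ p)
    (hζL : ζ ∈ L) (P : Subgroup (GQ ⧸ L.fixingSubgroup)) (hP : IsPGroup p P) :
    ∃ M : IntermediateField ℚ Qb, M.IsUnramifiedOutside S ∧ ζ ∈ M ∧
      M.fixingSubgroup = preB L P := by
  obtain ⟨M, hM, -, hMe⟩ := exists_field hL (preB L P) (le_preB L P)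
  refine ⟨M, hM, ?_, hMe⟩
  apply mem_of_fixed
  intro g hg
  rw [hMe] at hg
  obtain ⟨n, hn⟩ := hP ⟨_, hg⟩
  have hn' : (QuotientGroup.mk g : GQ ⧸ L.fixingSubgroup) ^ p ^ n = 1 := congrArg Subtype.val hn
  rw [← QuotientGroup.mk_pow, QuotientGroup.eq_one_iff] at hn'
  have h1 : (g ^ p ^ n) ζ = ζ := gal_fix hn' hζL
  have h2 : chi hζ g ^ p ^ n = 1 := by rw [← map_pow, chi_eq_one hζ h1]
  have h3 : chi hζ g = 1 := by
    have h4 : orderOf (chi hζ g) ∣ p ^ n := orderOf_dvd_of_pow_eq_one h2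
    have h5 : orderOf (chi hζ g) ∣ p - 1 := by
      have := orderOf_dvd_card (x := chi hζ g)
      rwa [ZMod.card_units p] at this
    have h6 : Nat.Coprime (p ^ n) (p - 1) := by
      apply Nat.Coprime.pow_left
      rw [Nat.Prime.coprime_iff_not_dvd hp.out]
      intro h
      have := Nat.le_of_dvd (Nat.sub_pos_of_lt hp.out.one_lt) h
      have := hp.out.pos
      omega
    exact orderOf_eq_one_iff.mp (Nat.eq_one_of_dvd_coprimes h6 h4 h5)
  rw [chi_spec hζ g, h3, Units.val_one, ZMod.val_one, pow_one]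

theorem index_preB (P B : Subgroup (GQ ⧸ L.fixingSubgroup)) (hPB : P ≤ B) :
    ((preB L P).subgroupOf (preB L B)).index ∣ P.index := by
  have h1 : ((preB L P).subgroupOf (preB L B)).index = (preB L P).relIndex (preB L B) := rfl
  rw [h1, Subgroup.relIndex_comap,
    Subgroup.map_comap_eq_self_of_surjective (QuotientGroup.mk'_surjective _),
    ← Subgroup.relIndex_mul_index hPB]
  exact dvd_mul_right _ _

end fld

end

end Fermat.Agent.EulerC
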