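import Fermat.Agent.EulerC.Les

set_option autoImplicit false
set_option maxHeartbeats 400000

/-! Invariance of the counts under equivariant isomorphisms. -/

namespace Fermat.Agent.EulerC

open Finset Fermat.Agent.CFT Fermat.Agent.CFTSec

namespace FinInv

section fwd

variable {T : Finset Nat.Primes} {U : Type*} [Group U] {π : U →* GQ}
  {A B : Type*} [AddCommGroup A] [DistribMulAction U A] [AddCommGroup B] [DistribMulAction U B]
  (e : A →+ B) (he : ∀ (g : U) a, e (g • a) = g • e a)

include he

theorem mapZ1 {c : U → A} (hc : c ∈ Z1L T π A) : (fun g => e (c g)) ∈ Z1L T π B :=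
  ⟨fun g h => by show e (c (g * h)) = e (c g) + g • e (c h); rw [hc.1 g h, map_add, he],
    hc.2.comp e⟩

theorem mapB1 {c : U → A} (hc : c ∈ B1 U A) : (fun g => e (c g)) ∈ B1 U B := by
  obtain ⟨a, ha⟩ := hc
  exact ⟨e a, fun g => by show e (c g) = g • e a - e a; rw [ha, map_sub, he]⟩

theorem mapZ2 {c : U → U → A} (hc : c ∈ Z2L T π A) : (fun g h => e (c g h)) ∈ Z2L T π B := by
  refine ⟨fun g h k => ?_, hc.2.comp e⟩
  have h1 := congrArg e (hc.1 g h k)
  rw [map_add, map_add, he] at h1
  exact h1

theorem mapB2 {c : U → U → A} (hc : c ∈ B2L T π A) : (fun g h => e (c g h)) ∈ B2L T π B := by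
  obtain ⟨b, hb, hb'⟩ := hc
  exact ⟨fun g => e (b g), hb.comp e, fun g h => by
    show e (c g h) = e (b g) + g • e (b h) - e (b (g * h))
    rw [hb', map_sub, map_add, he]⟩

end fwd

section eqv

variable {T : Finset Nat.Primes} {U : Type*} [Group U] {π : U →* GQ}
  {A B : Type*} [AddCommGroup A] [DistribMulAction U A] [AddCommGroup B] [DistribMulAction U B]
  (e : A ≃+ B) (he : ∀ (g : U) a, e (g • a) = g • e a)

include he

theorem hes (g : U) (b : B) : e.symm (g • b) = g • e.symm b := by
  apply e.injective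
  rw [e.apply_symm_apply, he, e.apply_symm_apply]

theorem eqv_h1 : h1 T π A = h1 T π B := by
  refine relIndex_corr
    { carrier := {r : (U → A) × (U → B) | r.1 ∈ Z1L T π A ∧ r.2 = fun g => e (r.1 g)}
      zero_mem' := ⟨zero_mem _, by funext g; exact (map_zero e).symm⟩
      add_mem' := fun ha hb => ⟨add_mem ha.1 hb.1, by
        funext g
        have h1 := congrFun ha.2 g
        have h2 := congrFun hb.2 g
        simp only [Prod.snd_add, Prod.fst_add, Pi.add_apply, map_add] at h1 h2 ⊢
        rw [h1, h2]⟩
      neg_mem' := fun ha => ⟨neg_mem ha.1, by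
        funext g
        have h1 := congrFun ha.2 g
        simp only [Prod.snd_neg, Prod.fst_neg, Pi.neg_apply, map_neg] at h1 ⊢
        rw [h1]⟩ } _ _ _ _ ?_ ?_ ?_ ?_ ?_
  · rintro r ⟨hr, -⟩; exact hr
  · intro c hc
    exact ⟨fun g => e (c g), hc, rfl⟩
  · rintro r ⟨hr, hr2⟩
    rw [hr2]
    exact mapZ1 e.toAddMonoidHom he hr
  · intro c hc
    refine ⟨fun g => e.symm (c g), mapZ1 e.symm.toAddMonoidHom (hes e he) hc, ?_⟩
    funext g
    exact (e.apply_symm_apply _).symm
  · rintro ⟨a, b⟩ ⟨hr, hr2⟩
    constructor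
    · intro h
      have h1 := mapB1 e.toAddMonoidHom he h
      have h2 : b = fun g => e (a g) := hr2
      show b ∈ B1 U B
      rw [h2]; exact h1
    · intro h
      have := mapB1 e.symm.toAddMonoidHom (hes e he) h
      have h2 : (fun g => e.symm (b g)) = a := by
        funext g
        have h3 := congrFun hr2 g
        show e.symm (b g) = a g
        rw [show b g = e (a g) from h3, e.symm_apply_apply]
      rw [← h2]; exact this

theorem eqv_h2 : h2 T π A = h2 T π B := by
  refine relIndex_corr
    { carrier := {r : (U → U → A) × (U → U → B) | r.1 ∈ Z2L T π A ∧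
        r.2 = fun g h => e (r.1 g h)}
      zero_mem' := ⟨zero_mem _, by funext g h; exact (map_zero e).symm⟩
      add_mem' := fun ha hb => ⟨add_mem ha.1 hb.1, by
        funext g h
        have h1 := congrFun (congrFun ha.2 g) h
        have h2 := congrFun (congrFun hb.2 g) h
        simp only [Prod.snd_add, Prod.fst_add, Pi.add_apply, map_add] at h1 h2 ⊢
        rw [h1, h2]⟩
      neg_mem' := fun ha => ⟨neg_mem ha.1, by
        funext g h
        have h1 := congrFun (congrFun ha.2 g) h
        simp only [Prod.snd_neg, Prod.fst_neg, Pi.neg_apply, map_neg] at h1 ⊢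
        rw [h1]⟩ } _ _ _ _ ?_ ?_ ?_ ?_ ?_
  · rintro r ⟨hr, -⟩; exact hr
  · intro c hc
    exact ⟨fun g h => e (c g h), hc, rfl⟩
  · rintro r ⟨hr, hr2⟩
    rw [hr2]
    exact mapZ2 e.toAddMonoidHom he hr
  · intro c hc
    refine ⟨fun g h => e.symm (c g h), mapZ2 e.symm.toAddMonoidHom (hes e he) hc, ?_⟩
    funext g h
    exact (e.apply_symm_apply _).symm
  · rintro ⟨a, b⟩ ⟨hr, hr2⟩
    constructor
    · intro h
      have h1 := mapB2 e.toAddMonoidHom he h
      have h2 : b = fun g h => e (a g h) := hr2
      show b ∈ B2L T π B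
      rw [h2]; exact h1
    · intro h
      have := mapB2 e.symm.toAddMonoidHom (hes e he) h
      have h2 : (fun g h => e.symm (b g h)) = a := by
        funext g h
        have h3 := congrFun (congrFun hr2 g) h
        show e.symm (b g h) = a g h
        rw [show b g h = e (a g h) from h3, e.symm_apply_apply]
      rw [← h2]; exact this

theorem eqv_fix (D : Subgroup U) : Nat.card (fix A D) = Nat.card (fix B D) :=
  Nat.card_congr
    { toFun := fun a => ⟨e a.1, fun d hd => by
        have h1 : d • a.1 = a.1 := a.2 d hd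
        rw [← he, h1]⟩
      invFun := fun b => ⟨e.symm b.1, fun d hd => by
        have h1 : d • b.1 = b.1 := b.2 d hd
        rw [← hes e he, h1]⟩
      left_inv := fun a => Subtype.ext (e.symm_apply_apply _)
      right_inv := fun b => Subtype.ext (e.apply_symm_apply _) }

theorem eqv_h0 : h0 U A = h0 U B := eqv_fix e he ⊤

end eqv

end FinInv

end Fermat.Agent.EulerC
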