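import Fermat.Agent.EqDir.EulerAbs

set_option autoImplicit false
set_option maxHeartbeats 400000

/-! Trivial intersections of Sylow subgroups. -/

namespace Fermat.Agent.EulerC

open Fermat.Agent.EqDir

section grp

variable {G : Type*} [Group G] [Finite G] {p : ℕ} [hp : Fact p.Prime]

theorem mem_of_pow_normalizer (P : Sylow p G) {h : G} (hh : h ∈ Subgroup.normalizer (P : Set G))
    {n : ℕ} (hn : h ^ p ^ n = 1) : h ∈ P := by
  have h1 : IsPGroup p (Subgroup.zpowers h) := by
    rintro ⟨x, hx⟩
    obtain ⟨k, rfl⟩ := hx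
    refine ⟨n, Subtype.ext ?_⟩
    show (h ^ k) ^ p ^ n = 1
    rw [← zpow_natCast, ← zpow_mul, mul_comm, zpow_mul, zpow_natCast, hn, one_zpow]
  have h2 : Subgroup.zpowers h ≤ Subgroup.normalizer (P : Set G) := by
    rw [Subgroup.zpowers_le]; exact hh
  have h3 : IsPGroup p (Subgroup.zpowers h ⊔ (P : Subgroup G) : Subgroup G) :=
    IsPGroup.to_sup_of_normal_right' h1 P.2 h2
  have h4 : Subgroup.zpowers h ⊔ (P : Subgroup G) = P := P.3 h3 le_sup_right
  have h5 : Subgroup.zpowers h ≤ (P : Subgroup G) := by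
    rw [← h4]; exact le_sup_left
  exact h5 (Subgroup.mem_zpowers h)

/-- criterion for an element to be in the normalizer -/
theorem mem_normalizer_of_finite (P : Subgroup G) {g : G} (hg : ∀ h ∈ P, g * h * g⁻¹ ∈ P) :
    g ∈ Subgroup.normalizer (P : Set G) := by
  rw [Subgroup.mem_normalizer_iff_map_conj_eq]
  have h1 : P.map (MulAut.conj g).toMonoidHom ≤ P := by
    rintro _ ⟨h, hh, rfl⟩
    exact hg h hh
  have h2 : Nat.card P ≤ Nat.card (P.map (MulAut.conj g).toMonoidHom) :=
    (Nat.card_congr (P.equivMapOfInjective (MulAut.conj g).toMonoidHom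
      (MulAut.conj g).injective).toEquiv).le
  exact Subgroup.eq_of_le_of_card_ge h1 h2

end grp

section eul

variable {G : Type} [Group G] [Finite G] {p : ℕ} [hp : Fact p.Prime]

/-- **Lower bound for the Euler characteristic**, for groups with trivially intersecting Sylow
subgroups -/
theorem ge_one_TI (P : Sylow p G)
    (D : EulerData G p (Subgroup.normalizer (P : Set G)) (P : Subgroup G))
    (hTI : ∀ g : G, g ∉ Subgroup.normalizer (P : Set G) → ∀ h ∈ P, g⁻¹ * h * g ∈ P → h = 1)
    {N : Type} [AddCommGroup N] [DistribMulAction G N] [Finite N] (hN : ∀ x : N, p • x = 0) :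
    1 ≤ D.δ N := by
  classical
  haveI : Fintype (G ⧸ Subgroup.normalizer (P : Set G)) := Fintype.ofFinite _
  refine D.ge_one (fun b x hx => ?_) P.2 Subgroup.le_normalizer ?_ ?_ ?_ hN
  · exact ((Subgroup.mem_normalizer_iff).mp b.2 x).mp hx
  · have h1 : Nat.card (Sylow p G) ≡ 1 [MOD p] := card_sylow_modEq_one p G
    rw [Sylow.card_eq_card_quotient_normalizer P, Nat.card_eq_fintype_card] at h1
    have h2 : 1 ≤ Fintype.card (G ⧸ Subgroup.normalizer (P : Set G)) := Fintype.card_pos
    obtain ⟨k, hk⟩ := (Nat.modEq_iff_dvd' h2).mp h1.symm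
    exact ⟨k, by omega⟩
  · exact ((Nat.Prime.coprime_iff_not_dvd hp.out).mpr (Sylow.not_dvd_index P)).symm
  · intro x
    induction x using QuotientGroup.induction_on with
    | H g =>
      intro hg h hh hx
      have hg' : g ∉ Subgroup.normalizer (P : Set G) := by
        intro hg2
        apply hg
        rw [QuotientGroup.eq]
        rw [mul_one]
        exact Subgroup.inv_mem _ hg2
      apply hTI g hg' h hh
      have h1 : g⁻¹ * h * g ∈ Subgroup.normalizer (P : Set G) := by
        have h2 : ((h * g : G) : G ⧸ Subgroup.normalizer (P : Set G)) = (g : G) := hx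
        rw [eq_comm, QuotientGroup.eq, ← mul_assoc] at h2
        exact h2
      obtain ⟨n, hn⟩ := P.2 ⟨h, hh⟩
      have hn' : h ^ p ^ n = 1 := congrArg Subtype.val hn
      refine mem_of_pow_normalizer P h1 (n := n) ?_
      have h3 : (g⁻¹ * h * g) ^ p ^ n = g⁻¹ * h ^ p ^ n * g := by
        have := conj_pow (i := p ^ n) (a := g⁻¹) (b := h)
        rwa [inv_inv] at this
      rw [h3, hn', mul_one, inv_mul_cancel]

end eul

end Fermat.Agent.EulerC
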