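import Fermat.Agent.EulerC.UC2

set_option autoImplicit false
set_option maxHeartbeats 400000

/-! **The equivariant unit theorem**, final form. -/

namespace Fermat.Agent.EulerC

open Fermat.Agent.CFT Fermat.Agent.CFTSec Fermat.Agent.EqDir Finset
open NumberField IsDedekindDomain WithZero

theorem unitCount (T : Finset Nat.Primes) (M : IntermediateField ℚ Qb) (p : ℕ) (Γ : Subgroup GQ)
    (Q : Type*) [AddCommGroup Q] [DistribMulAction Γ Q] [hp : Fact p.Prime] :
    UnitCount T M p Γ Q := by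
  classical
  intro hp2 hpT hM ⟨ζ, hζ, hζM⟩ hle hn hfin hpQ hact hhig ι c hc
  haveI : NM M Γ := ⟨hle, hn⟩
  haveI : TrivM M Γ Q := ⟨hact⟩
  haveI hfd : FiniteDimensional ℚ M := hM.1
  haveI : NumberField M := ⟨⟩
  haveI : M.fixingSubgroup.FiniteIndex := finiteIndex_fixingSubgroup M
  haveI : (NN M Γ).FiniteIndex := inferInstance
  haveI : Finite (GG M Γ) := inferInstance
  letI : Fintype (GG M Γ) := Fintype.ofFinite _
  letI : Fintype (SfT T M) := Fintype.ofFinite _
  have hH : IsHig (GG M Γ) Q := isHig_of M Γ Q hhig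
  obtain ⟨m, s, r, hs, hr, hrs⟩ := hH.isPr (p := p) hpQ
  have h1 := eqdir (sdat T M Γ hM) (p := p) s r hs hr hrs
    (QuotientAddGroup.mk' (mulN ↥(SU T M) p).range) (QuotientAddGroup.mk'_surjective _)
    (fun g u => rfl) (fun u => by
      rw [QuotientAddGroup.mk'_apply, QuotientAddGroup.eq_zero_iff]
      constructor
      · rintro ⟨v, hv⟩
        exact ⟨v, hv.symm⟩
      · rintro ⟨v, hv⟩
        exact ⟨v, hv.symm⟩)
    (mulN ↥(SU T M) p).ker.subtype Subtype.val_injective (fun g x => rfl)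
    (fun u => ⟨fun hu => ⟨⟨u, hu⟩, rfl⟩, by rintro ⟨x, rfl⟩; exact x.2⟩)
  rw [card_homKH, card_homMH T M p Γ Q hζ hζM hpQ, card_homTriv_eq (p := p) hpQ hH, card_fixMD,
    card_hom_pfun hpQ hH, card_MapG_sum, card_fin, card_inf M Γ Q ι hc] at h1
  exact h1

end Fermat.Agent.EulerC
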