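import Fermat.Agent.EulerC.Fin2
import Fermat.Agent.EulerC.Fin3
import Fermat.Agent.EulerC.TI
import Fermat.Agent.EulerC.UC

set_option autoImplicit false
set_option maxHeartbeats 400000

/-! The Euler characteristic data. -/

namespace Fermat.Agent.EulerC

open Finset Fermat.Agent.CFT Fermat.Agent.CFTSec Fermat.Agent.EqDir FinInv

noncomputable section

section card

variable {A M C : Type*} [AddCommGroup A] [AddCommGroup M] [AddCommGroup C]

theorem card_ses {i : A →+ M} {j : M →+ C} (hi : Function.Injective i)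
    (hj : Function.Surjective j) (hex : ∀ m, j m = 0 ↔ ∃ a, i a = m) :
    Nat.card M = Nat.card A * Nat.card C := by
  have h1 : Nat.card j.ker = Nat.card A := by
    refine (Nat.card_congr (Equiv.ofBijective (fun a : A => (⟨i a, (hex _).mpr ⟨a, rfl⟩⟩ : j.ker))
      ⟨fun a b hab => hi (congrArg Subtype.val hab), ?_⟩)).symm
    rintro ⟨m, hm⟩
    obtain ⟨a, ha⟩ := (hex m).mp hm
    exact ⟨a, Subtype.ext ha⟩
  have h2 : j.ker.index = Nat.card C := by
    rw [AddSubgroup.index_ker, AddMonoidHom.range_eq_top.mpr hj]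
    exact Nat.card_congr AddSubgroup.topEquiv.toEquiv
  rw [← AddSubgroup.card_mul_index j.ker, h1, h2]

theorem mem_fix_zpowers {W : Type*} [AddCommGroup W] [DistribMulAction GQ W] {c : GQ} {y : W} :
    y ∈ fix W (Subgroup.zpowers c) ↔ c • y = y := by
  constructor
  · intro h
    exact h c (Subgroup.mem_zpowers c)
  · intro h
    have h1 : Subgroup.zpowers c ≤ MulAction.stabilizer GQ y := by
      rw [Subgroup.zpowers_le]
      exact h
    exact fun d hd => h1 hd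

variable [DistribMulAction GQ A] [DistribMulAction GQ M] [DistribMulAction GQ C]
  {i : A →+ M} {j : M →+ C} (h : Ses GQ i j)

include h in
theorem card_ses_fix {p : ℕ} [hp : Fact p.Prime] (hp2 : 2 < p) (hpM : ∀ x : M, p • x = 0)
    {c : GQ} (hcc : c * c = 1) :
    Nat.card (fix M (Subgroup.zpowers c)) =
      Nat.card (fix A (Subgroup.zpowers c)) * Nat.card (fix C (Subgroup.zpowers c)) := by
  let i' : fix A (Subgroup.zpowers c) →+ fix M (Subgroup.zpowers c) :=
    AddMonoidHom.mk' (fun a => ⟨i a.1, fun d hd => by rw [← h.ieq, a.2 d hd]⟩)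
      (fun a b => Subtype.ext (map_add i a.1 b.1))
  let j' : fix M (Subgroup.zpowers c) →+ fix C (Subgroup.zpowers c) :=
    AddMonoidHom.mk' (fun a => ⟨j a.1, fun d hd => by rw [← h.jeq, a.2 d hd]⟩)
      (fun a b => Subtype.ext (map_add j a.1 b.1))
  refine card_ses (i := i') (j := j') ?_ ?_ ?_
  · intro a b hab
    exact Subtype.ext (h.inj (congrArg Subtype.val hab))
  · rintro ⟨x, hx⟩
    obtain ⟨m, rfl⟩ := h.surj x
    obtain ⟨k, hk⟩ : ∃ k, p = 2 * k + 1 := by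
      rcases hp.out.eq_two_or_odd' with h | h
      · omega
      · obtain ⟨k, hk⟩ := h; exact ⟨k, hk⟩
    have hx' : c • j m = j m := mem_fix_zpowers.mp hx
    have hpC : p • j m = 0 := by rw [← map_nsmul, hpM, map_zero]
    refine ⟨⟨(k + 1) • (m + c • m), mem_fix_zpowers.mpr ?_⟩, Subtype.ext ?_⟩
    · rw [smul_comm, smul_add, smul_smul, hcc, one_smul, add_comm (c • m) m]
    · show j ((k + 1) • (m + c • m)) = j m
      rw [map_nsmul, map_add, h.jeq, hx', ← two_nsmul, smul_smul]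
      have : (k + 1) * 2 = p + 1 := by omega
      rw [this, add_smul, hpC, one_smul, zero_add]
  · rintro ⟨m, hm⟩
    constructor
    · intro h0
      obtain ⟨a, ha⟩ := (h.exact m).mp (congrArg Subtype.val h0)
      refine ⟨⟨a, fun d hd => h.inj ?_⟩, Subtype.ext ha⟩
      rw [h.ieq, ha, hm d hd]
    · rintro ⟨a, ha⟩
      apply Subtype.ext
      show j m = 0
      rw [← show i a.1 = m from congrArg Subtype.val ha]
      exact (h.exact _).mpr ⟨a.1, rfl⟩

end card

section data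

variable {p : ℕ} [hp : Fact p.Prime] (T : Finset Nat.Primes) (L : IntermediateField ℚ Qb)
  [hN : L.fixingSubgroup.Normal] (c : GQ)

/-- the defect -/
def dl0 (X : Type) [AddCommGroup X] [DistribMulAction (GQ ⧸ L.fixingSubgroup) X] : ℚ :=
  ((h0 GQ (Infl L X) * h2 T (MonoidHom.id GQ) (Infl L X) * Nat.card (Infl L X) : ℕ) : ℚ) /
  ((h1 T (MonoidHom.id GQ) (Infl L X) *
    Nat.card (fix (Infl L X) (Subgroup.zpowers c)) : ℕ) : ℚ)

variable {T L c}

theorem dl0_le_one {X : Type} [AddCommGroup X] [DistribMulAction (GQ ⧸ L.fixingSubgroup) X]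
    {Y : Type*} [AddCommGroup Y] [DistribMulAction GQ Y] (e : Infl L X ≃+ Y)
    (he : ∀ (g : GQ) a, e (g • a) = g • e a)
    (hY : h0 GQ Y * h2 T (MonoidHom.id GQ) Y * Nat.card Y ≤
      h1 T (MonoidHom.id GQ) Y * Nat.card (fix Y (Subgroup.zpowers c))) : dl0 T L c X ≤ 1 := by
  unfold dl0
  rw [eqv_h0 e he, eqv_h1 e he, eqv_h2 e he, eqv_fix e he, Nat.card_congr e.toEquiv]
  exact div_le_one_of_le₀ (by exact_mod_cast hY) (Nat.cast_nonneg _)

variable (hp2 : 2 < p) {ζ : Qb} (hζ : IsPrimitiveRoot ζ p) (hpT : pP p ∈ T)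
  (hL : L.IsUnramifiedOutside T) (hζL : ζ ∈ L)

include hL in
theorem lvInfl (X : Type) [AddCommGroup X] [DistribMulAction (GQ ⧸ L.fixingSubgroup) X] :
    LvM T (MonoidHom.id GQ) (Infl L X) := ⟨L, hL, fun _ hs n => infl_triv L X hs n⟩

include hp2 hζ hpT hL in
theorem h1ne (X : Type) [AddCommGroup X] [DistribMulAction (GQ ⧸ L.fixingSubgroup) X] [Finite X]
    (hX : ∀ x : X, p • x = 0) : h1 T (MonoidHom.id GQ) (Infl L X) ≠ 0 :=
  h1_ne_zero hp2 hζ hpT (N := Infl L X) hX (lvInfl hL X)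

theorem h0ne (X : Type) [AddCommGroup X] [DistribMulAction (GQ ⧸ L.fixingSubgroup) X] [Finite X] :
    h0 GQ (Infl L X) ≠ 0 := Nat.card_pos.ne'

theorem fixne (X : Type) [AddCommGroup X] [DistribMulAction (GQ ⧸ L.fixingSubgroup) X] [Finite X] :
    Nat.card (fix (Infl L X) (Subgroup.zpowers c)) ≠ 0 := Nat.card_pos.ne'

theorem hig_self (m : ℕ) : HigM L L.fixingSubgroup (TrW m p) := by
  refine hig_of_index (p := p) TrW.tors ?_
  rw [Subgroup.subgroupOf_self, Subgroup.index_top]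
  exact Nat.coprime_one_left p

variable (hcl : Hcl T L)

include hp2 hζ hpT hL hζL hcl in
theorem h2ne_FM (m : ℕ) :
    h2 T (MonoidHom.id GQ) (Infl L (FM (GQ ⧸ L.fixingSubgroup) m p)) ≠ 0 := by
  rw [eqv_h2 (fmEquiv L m p) (fmEquiv_smul L m p)]
  exact (h2_coind hp2 hζ hpT hL hζL hcl le_rfl TrW.tors (fun _ _ _ => rfl)
    (fun g hg k hk => L.fixingSubgroup.mul_mem (L.fixingSubgroup.mul_mem hg hk)
      (L.fixingSubgroup.inv_mem hg)) (hig_self m)).1

/-- inflation of exact sequences -/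
theorem ses_infl {A M C : Type} [AddCommGroup A] [DistribMulAction (GQ ⧸ L.fixingSubgroup) A]
    [AddCommGroup M] [DistribMulAction (GQ ⧸ L.fixingSubgroup) M] [AddCommGroup C]
    [DistribMulAction (GQ ⧸ L.fixingSubgroup) C] (i : A →+ M) (π : M →+ C)
    (hiG : ∀ (g : GQ ⧸ L.fixingSubgroup) x, i (g • x) = g • i x)
    (hπG : ∀ (g : GQ ⧸ L.fixingSubgroup) x, π (g • x) = g • π x) (hi : Function.Injective i)
    (hπ : Function.Surjective π) (hex : ∀ x, π x = 0 ↔ ∃ a, i a = x) :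
    Ses GQ (show Infl L A →+ Infl L M from i) (show Infl L M →+ Infl L C from π) where
  inj := hi
  surj := hπ
  exact := hex
  ieq g a := hiG (QuotientGroup.mk g) a
  jeq g a := hπG (QuotientGroup.mk g) a

include hp2 hζ hpT hL hζL hcl in
theorem h2ne (X : Type) [AddCommGroup X] [DistribMulAction (GQ ⧸ L.fixingSubgroup) X] [Finite X]
    (hX : ∀ x : X, p • x = 0) : h2 T (MonoidHom.id GQ) (Infl L X) ≠ 0 := by
  haveI := hL.1
  haveI : L.fixingSubgroup.FiniteIndex := finiteIndex_fixingSubgroup L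
  haveI : Finite (GQ ⧸ L.fixingSubgroup) := inferInstance
  obtain ⟨m, i, hi, hiG⟩ := exists_embedding (G := GQ ⧸ L.fixingSubgroup) hX
  have hst : ∀ (g : GQ ⧸ L.fixingSubgroup), ∀ w ∈ i.range, g • w ∈ i.range := by
    rintro g _ ⟨x, rfl⟩
    exact ⟨g • x, hiG g x⟩
  letI := quotMod i.range hst
  haveI : Finite (FM (GQ ⧸ L.fixingSubgroup) m p) :=
    inferInstanceAs (Finite (Fin m → (GQ ⧸ L.fixingSubgroup) → ZMod p))
  have hs := ses_infl (L := L) i (QuotientAddGroup.mk' i.range) hiG (fun g x => rfl) hi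
    (QuotientAddGroup.mk'_surjective _) (fun x => by
      rw [QuotientAddGroup.mk'_apply, QuotientAddGroup.eq_zero_iff]; rfl)
  refine hs.h2A_ne (lvInfl hL _) (h2ne_FM hp2 hζ hpT hL hζL hcl m)
    (h1ne hp2 hζ hpT hL (FM (GQ ⧸ L.fixingSubgroup) m p ⧸ i.range) ?_)
  intro x
  obtain ⟨y, rfl⟩ := QuotientAddGroup.mk_surjective x
  have h1 : p • y = 0 := by
    funext a b
    show p • (y a b) = 0
    rw [nsmul_eq_mul, CharP.cast_eq_zero, zero_mul]
  rw [← QuotientAddGroup.mk_nsmul, h1]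
  rfl

variable (hc1 : c * c = 1)

include hp2 hζ hpT hL hζL hcl in
theorem dl0_pos (X : Type) [AddCommGroup X] [DistribMulAction (GQ ⧸ L.fixingSubgroup) X]
    [Finite X] (hX : ∀ x : X, p • x = 0) : 0 < dl0 T L c X := by
  unfold dl0
  refine div_pos ?_ ?_
  · exact_mod_cast Nat.pos_of_ne_zero (mul_ne_zero (mul_ne_zero (h0ne X)
      (h2ne hp2 hζ hpT hL hζL hcl X hX)) Nat.card_pos.ne')
  · exact_mod_cast Nat.pos_of_ne_zero (mul_ne_zero (h1ne hp2 hζ hpT hL X hX) (fixne X))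

include hp2 hζ hpT hL hζL hcl hc1 in
theorem dl0_sub (A M C : Type) [AddCommGroup A] [DistribMulAction (GQ ⧸ L.fixingSubgroup) A]
    [AddCommGroup M] [DistribMulAction (GQ ⧸ L.fixingSubgroup) M] [AddCommGroup C]
    [DistribMulAction (GQ ⧸ L.fixingSubgroup) C] [Finite A] [Finite M] [Finite C]
    (i : A →+ M) (π : M →+ C) (hpM : ∀ x : M, p • x = 0)
    (hiG : ∀ (g : GQ ⧸ L.fixingSubgroup) x, i (g • x) = g • i x)
    (hπG : ∀ (g : GQ ⧸ L.fixingSubgroup) x, π (g • x) = g • π x) (hi : Function.Injective i)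
    (hπ : Function.Surjective π) (hex : ∀ x, π x = 0 ↔ ∃ a, i a = x) :
    dl0 T L c M ≤ dl0 T L c A * dl0 T L c C := by
  have hs := ses_infl (L := L) i π hiG hπG hi hπ hex
  have hpA : ∀ x : A, p • x = 0 := fun x => hi (by rw [map_nsmul, hpM, map_zero])
  have hpC : ∀ x : C, p • x = 0 := fun x => by
    obtain ⟨m, rfl⟩ := hπ x
    rw [← map_nsmul, hpM, map_zero]
  have e1 : Nat.card (Infl L M) = Nat.card (Infl L A) * Nat.card (Infl L C) :=
    card_ses hs.inj hs.surj hs.exact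
  have e2 : Nat.card (fix (Infl L M) (Subgroup.zpowers c)) =
      Nat.card (fix (Infl L A) (Subgroup.zpowers c)) *
        Nat.card (fix (Infl L C) (Subgroup.zpowers c)) :=
    card_ses_fix hs hp2 (p := p) hpM hc1
  have e3 := hs.count (lvInfl hL M) (h2ne hp2 hζ hpT hL hζL hcl C hpC)
  have n1 := h1ne hp2 hζ hpT hL A hpA
  have n2 := h1ne hp2 hζ hpT hL C hpC
  have n3 := h1ne hp2 hζ hpT hL M hpM
  have n4 := fixne (L := L) (c := c) A
  have n5 := fixne (L := L) (c := c) C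
  unfold dl0
  rw [div_mul_div_comm, div_le_div_iff₀ (by
      exact_mod_cast Nat.pos_of_ne_zero (mul_ne_zero n3 (fixne (L := L) (c := c) M))) (by
      exact_mod_cast Nat.pos_of_ne_zero (mul_ne_zero (mul_ne_zero n1 n4) (mul_ne_zero n2 n5)))]
  norm_cast
  rw [e1, e2]
  have e4 := Nat.mul_le_mul_right (Nat.card (Infl L A) * Nat.card (Infl L C) *
    (Nat.card (fix (Infl L A) (Subgroup.zpowers c)) *
        Nat.card (fix (Infl L C) (Subgroup.zpowers c)))) e3
  refine le_trans (le_of_eq ?_) (e4.trans (le_of_eq ?_)) <;> ring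

variable {ι : Qb →+* ℂ} (hc : ∀ x, ι (c x) = (starRingEnd ℂ) (ι x))

include hp2 hζ hpT hL hζL hcl hc in
theorem dl0_free (hlow : H2Low T L p hζ) (m : ℕ) :
    1 ≤ dl0 T L c (FM (GQ ⧸ L.fixingSubgroup) m p) := by
  haveI := hL.1
  haveI : L.fixingSubgroup.FiniteIndex := finiteIndex_fixingSubgroup L
  haveI : Finite (GQ ⧸ L.fixingSubgroup) := inferInstance
  haveI : Finite (FM (GQ ⧸ L.fixingSubgroup) m p) :=
    inferInstanceAs (Finite (Fin m → (GQ ⧸ L.fixingSubgroup) → ZMod p))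
  have hnorm : ∀ g ∈ L.fixingSubgroup, ∀ k ∈ L.fixingSubgroup, g * k * g⁻¹ ∈ L.fixingSubgroup :=
    fun g hg k hk => L.fixingSubgroup.mul_mem (L.fixingSubgroup.mul_mem hg hk)
      (L.fixingSubgroup.inv_mem hg)
  have h1 := delta_coind_ge hp2 hζ hpT hL hζL (Γ := L.fixingSubgroup) (W := TrW m p) le_rfl
    TrW.tors (fun _ _ _ => rfl) hnorm (hig_self m) (unitCount T L p L.fixingSubgroup _) hc
    (hlow m) (h1_free hp2 hζ hpT hL hζL TrW.tors (fun _ _ => rfl) hcl)
  have hX : ∀ x : FM (GQ ⧸ L.fixingSubgroup) m p, p • x = 0 := by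
    intro y
    funext a b
    show p • (y a b) = 0
    rw [nsmul_eq_mul, CharP.cast_eq_zero, zero_mul]
  have hd := Nat.pos_of_ne_zero (mul_ne_zero (h1ne hp2 hζ hpT hL _ hX)
    (fixne (L := L) (c := c) (FM (GQ ⧸ L.fixingSubgroup) m p)))
  unfold dl0
  rw [one_le_div (by exact_mod_cast hd)]
  have e := fmEquiv L m p
  rw [eqv_h0 (fmEquiv L m p) (fmEquiv_smul L m p), eqv_h1 (fmEquiv L m p) (fmEquiv_smul L m p),
    eqv_h2 (fmEquiv L m p) (fmEquiv_smul L m p), eqv_fix (fmEquiv L m p) (fmEquiv_smul L m p),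
    Nat.card_congr (fmEquiv L m p).toEquiv]
  exact_mod_cast h1

include hp2 hζ hpT hL hζL hcl hc in
theorem dl0_proj (X : Type) [AddCommGroup X] [DistribMulAction (GQ ⧸ L.fixingSubgroup) X]
    [Finite X] (hX : ∀ x : X, p • x = 0) (hPr : IsPr (GQ ⧸ L.fixingSubgroup) p X) :
    dl0 T L c X ≤ 1 := by
  haveI := hL.1
  haveI : L.fixingSubgroup.FiniteIndex := finiteIndex_fixingSubgroup L
  haveI : Finite (GQ ⧸ L.fixingSubgroup) := inferInstance
  refine dl0_le_one (topEquiv (Infl L X)) (topEquiv_smul _) ?_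
  exact delta_coind_le hp2 hζ hpT hL hζL (Γ := ⊤) (W := Infl L X) le_top hX
    (fun γ hγ x => infl_triv L X hγ x) (fun g _ k hk => hN.conj_mem k hk g) (hig_top L X hPr) hcl
    (unitCount T L p ⊤ _) hc

include hp2 hζ hpT hc in
theorem dl0_ind (P : Sylow p (GQ ⧸ L.fixingSubgroup)) [Finite (GQ ⧸ L.fixingSubgroup)]
    {M : IntermediateField ℚ Qb} (hM : M.IsUnramifiedOutside T) (hζM : ζ ∈ M)
    (hMe : M.fixingSubgroup = preB L P) (hclM : Hcl T M) (W : Type) [AddCommGroup W]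
    [DistribMulAction (Subgroup.normalizer (P : Set (GQ ⧸ L.fixingSubgroup))) W] [Finite W]
    (hW : ∀ x : W, p • x = 0)
    (htr : ∀ b : Subgroup.normalizer (P : Set (GQ ⧸ L.fixingSubgroup)),
      (b : GQ ⧸ L.fixingSubgroup) ∈ (P : Subgroup (GQ ⧸ L.fixingSubgroup)) →
        ∀ w : W, b • w = w) :
    dl0 T L c (CoInd (Subgroup.normalizer (P : Set (GQ ⧸ L.fixingSubgroup))).subtype W) ≤ 1 := by
  refine dl0_le_one (indEquiv L _ W) (indEquiv_smul L _ W) ?_
  refine delta_coind_le hp2 hζ hpT hM hζM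
    (Γ := preB L (Subgroup.normalizer (P : Set (GQ ⧸ L.fixingSubgroup))))
    (W := InfB L (Subgroup.normalizer (P : Set (GQ ⧸ L.fixingSubgroup))) W) ?_ hW ?_ ?_ ?_ hclM
    (unitCount T M p _ _) hc
  · rw [hMe]
    exact Subgroup.comap_mono Subgroup.le_normalizer
  · intro γ hγ x
    rw [hMe] at hγ
    exact htr (toB L _ γ) hγ x
  · intro g hg k hk
    rw [hMe] at hk ⊢
    show (QuotientGroup.mk (g * k * g⁻¹) : GQ ⧸ L.fixingSubgroup) ∈
      (P : Subgroup (GQ ⧸ L.fixingSubgroup))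
    exact ((Subgroup.mem_normalizer_iff).mp hg _).mp hk
  · refine hig_of_index (p := p) hW ?_
    rw [hMe]
    have h1 := index_preB (L := L) (P : Subgroup (GQ ⧸ L.fixingSubgroup))
      (Subgroup.normalizer (P : Set (GQ ⧸ L.fixingSubgroup))) Subgroup.le_normalizer
    have h2 : ¬ p ∣ (P : Subgroup (GQ ⧸ L.fixingSubgroup)).index := Sylow.not_dvd_index P
    exact (((Nat.Prime.coprime_iff_not_dvd hp.out).mpr fun h => h2 (h.trans h1))).symm

/-- the Euler characteristic data -/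
def eulerData (hlow : H2Low T L p hζ) [Finite (GQ ⧸ L.fixingSubgroup)]
    (P : Sylow p (GQ ⧸ L.fixingSubgroup))
    {M : IntermediateField ℚ Qb} (hM : M.IsUnramifiedOutside T) (hζM : ζ ∈ M)
    (hMe : M.fixingSubgroup = preB L P) (hclM : Hcl T M) :
    EulerData (GQ ⧸ L.fixingSubgroup) p
      (Subgroup.normalizer (P : Set (GQ ⧸ L.fixingSubgroup)))
      (P : Subgroup (GQ ⧸ L.fixingSubgroup)) where
  δ X := dl0 T L c X
  pos X _ _ _ hX := dl0_pos hp2 hζ hpT hL hζL hcl X hX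
  sub A M C _ _ _ _ _ _ _ _ _ i π h1 h2 h3 h4 h5 h6 :=
    dl0_sub hp2 hζ hpT hL hζL hcl (conj_sq hc) A M C i π h1 h2 h3 h4 h5 h6
  free m := dl0_free hp2 hζ hpT hL hζL hcl hc hlow m
  proj X _ _ _ hX hPr := dl0_proj hp2 hζ hpT hL hζL hcl hc X hX hPr
  ind W _ _ _ hW htr := dl0_ind hp2 hζ hpT hc P hM hζM hMe hclM W hW htr

end data

end

end Fermat.Agent.EulerC
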