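import Fermat.Agent.EulerC.TI

set_option autoImplicit false
set_option maxHeartbeats 400000

/-! Sylow subgroups of subgroups of `PGL₂(k) × C` intersect trivially. -/

namespace Fermat.Agent.EulerC

open Matrix

section mat

variable {k : Type*} [Field k]

/-- nilpotent `2 × 2` matrices -/
theorem nil_sq {A : Matrix (Fin 2) (Fin 2) k} {n : ℕ} (h : A ^ n = 0) :
    A.trace = 0 ∧ A.det = 0 := by
  have h1 : IsNilpotent A := ⟨n, h⟩
  refine ⟨(Matrix.isNilpotent_trace_of_isNilpotent h1).eq_zero, ?_⟩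
  have h2 : A.det ^ n = 0 := by
    rw [← Matrix.det_pow, h]
    rcases n with _ | n
    · exfalso
      rw [pow_zero] at h
      exact one_ne_zero h
    · exact Matrix.det_zero
  exact pow_eq_zero_iff (by rintro rfl; rw [pow_zero] at h; exact one_ne_zero h) |>.mp h2

theorem eta2 (A : Matrix (Fin 2) (Fin 2) k) : A = !![A 0 0, A 0 1; A 1 0, A 1 1] := by
  ext i j; fin_cases i <;> fin_cases j <;> rfl

/-- two nilpotent matrices -/
theorem exists_smul_of_trace {A B : Matrix (Fin 2) (Fin 2) k} (hA : A.trace = 0) (hA' : A.det = 0)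
    (hB : B.trace = 0) (hB' : B.det = 0) (hne : A ≠ 0) (hAB : (A * B).trace = 0) :
    ∃ c : k, B = c • A := by
  rw [Matrix.trace_fin_two] at hA hB hAB
  rw [Matrix.det_fin_two] at hA' hB'
  simp only [Matrix.mul_apply, Fin.sum_univ_two] at hAB
  obtain ⟨a, b, c, d, rfl⟩ : ∃ a b c d, A = !![a, b; c, d] := ⟨_, _, _, _, eta2 A⟩
  obtain ⟨a', b', c', d', rfl⟩ : ∃ a b c d, B = !![a, b; c, d] := ⟨_, _, _, _, eta2 B⟩
  simp only [Matrix.of_apply, Matrix.cons_val', Matrix.cons_val_zero, Matrix.cons_val_one,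
    Matrix.cons_val_fin_one] at hA hA' hB hB' hAB
  have hd : d = -a := by linear_combination hA
  have hd' : d' = -a' := by linear_combination hB
  subst hd hd'
  by_cases hb : b = 0
  · subst hb
    have ha : a = 0 := by
      have : a ^ 2 = 0 := by linear_combination -hA'
      exact pow_eq_zero_iff (two_ne_zero) |>.mp this
    subst ha
    have hc : c ≠ 0 := by
      rintro rfl
      apply hne
      ext i j; fin_cases i <;> fin_cases j <;> simp
    have hb' : b' = 0 := by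
      have : c * b' = 0 := by linear_combination hAB
      exact (mul_eq_zero.mp this).resolve_left hc
    subst hb'
    have ha' : a' = 0 := by
      have : a' ^ 2 = 0 := by linear_combination -hB'
      exact pow_eq_zero_iff (two_ne_zero) |>.mp this
    subst ha'
    refine ⟨c' / c, ?_⟩
    ext i j; fin_cases i <;> fin_cases j <;> simp [hc]
  · have h1 : c = -(a * a) / b := by
      field_simp
      linear_combination -hA'
    have h2 : a' * b - a * b' = 0 := by
      have : (a' * b - a * b') ^ 2 = 0 := by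
        have h3 : c * b = - (a * a) := by linear_combination -hA'
        linear_combination -b ^ 2 * hB' + b * b' * (-hAB) * (-1 : k) * (-1) + b' ^ 2 * (-1 : k) * hA' * (-1 : k) * (-1)
      exact pow_eq_zero_iff (two_ne_zero) |>.mp this
    have ha' : a' = b' / b * a := by
      field_simp
      linear_combination h2
    refine ⟨b' / b, ?_⟩
    have hc' : c' = b' / b * c := by
      have : b * (c' * b - b' * c) = 0 := by
        linear_combination b * hAB - 2 * a * h2 + 2 * b' * hA'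
      have h4 := (mul_eq_zero.mp this).resolve_left hb
      field_simp
      linear_combination h4
    ext i j; fin_cases i <;> fin_cases j
    · exact ha'
    · show b' = b' / b * b
      field_simp
    · exact hc'
    · show -a' = b' / b * (-a)
      rw [ha']; ring

end mat

section main

variable {Γ : Type*} [Group Γ] {k : Type*} [Field k] {p : ℕ} [hp : Fact p.Prime]
  {C : Type*} [Group C] (ρ : Γ →* GL (Fin 2) k) (χ : Γ →* C) (N : Subgroup Γ) [N.Normal]

theorem sq_eq_zero_of {A : Matrix (Fin 2) (Fin 2) k} (hA : A.trace = 0) (hA' : A.det = 0) :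
    A * A = 0 := by
  rw [Matrix.trace_fin_two] at hA
  rw [Matrix.det_fin_two] at hA'
  ext i j
  rw [Matrix.mul_apply, Fin.sum_univ_two]
  fin_cases i <;> fin_cases j
  · show A 0 0 * A 0 0 + A 0 1 * A 1 0 = 0
    linear_combination A 0 0 * hA - hA'
  · show A 0 0 * A 0 1 + A 0 1 * A 1 1 = 0
    linear_combination A 0 1 * hA
  · show A 1 0 * A 0 0 + A 1 1 * A 1 0 = 0
    linear_combination A 1 0 * hA
  · show A 1 0 * A 0 1 + A 1 1 * A 1 1 = 0
    linear_combination A 1 1 * hA - hA'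

theorem det_one_add {A : Matrix (Fin 2) (Fin 2) k} (hA : A.trace = 0) (hA' : A.det = 0) :
    (1 + A).det = 1 := by
  rw [Matrix.trace_fin_two] at hA
  rw [Matrix.det_fin_two] at hA' ⊢
  simp only [Matrix.add_apply, Matrix.one_apply_eq, Matrix.one_apply_ne (zero_ne_one (α := Fin 2)),
    Matrix.one_apply_ne (one_ne_zero (α := Fin 2))]
  linear_combination hA + hA'

/-- elements of `p`-power order -/
theorem pelt [Finite k] [CharP k p] (hC : ∀ x : C, x ^ p = 1 → x = 1)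
    (hN : ∀ g, g ∈ N ↔ (∃ c : k, (ρ g : Matrix (Fin 2) (Fin 2) k) = c • 1) ∧ χ g = 1)
    {γ : Γ} {n : ℕ} (hγ : (QuotientGroup.mk γ : Γ ⧸ N) ^ p ^ n = 1) :
    χ γ = 1 ∧ ∃ d : k, d ≠ 0 ∧ ∃ A : Matrix (Fin 2) (Fin 2) k,
      (ρ γ : Matrix (Fin 2) (Fin 2) k) = d • (1 + A) ∧ A.trace = 0 ∧ A.det = 0 := by
  rw [← QuotientGroup.mk_pow, QuotientGroup.eq_one_iff] at hγ
  obtain ⟨⟨c, hc⟩, h2⟩ := (hN _).mp hγ
  rw [map_pow] at hc h2
  have hχ : ∀ (n : ℕ) (x : C), x ^ p ^ n = 1 → x = 1 := by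
    intro n
    induction n with
    | zero => intro x hx; rwa [pow_zero, pow_one] at hx
    | succ n ih =>
      intro x hx
      rw [pow_succ, pow_mul] at hx
      exact ih x (hC _ hx)
  refine ⟨hχ n _ h2, ?_⟩
  have hsurj : Function.Surjective (iterateFrobenius k p n) :=
    Finite.injective_iff_surjective.mp (iterateFrobenius k p n).injective
  obtain ⟨d, hd⟩ := hsurj c
  rw [iterateFrobenius_def] at hd
  have hd0 : d ≠ 0 := by
    rintro rfl
    rw [zero_pow (pow_ne_zero _ hp.out.ne_zero)] at hd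
    rw [← hd, zero_smul] at hc
    have h3 : ((ρ γ ^ p ^ n : GL (Fin 2) k) : Matrix (Fin 2) (Fin 2) k) *
        (((ρ γ ^ p ^ n)⁻¹ : GL (Fin 2) k) : Matrix (Fin 2) (Fin 2) k) = 1 := by
      rw [← Units.val_mul, mul_inv_cancel, Units.val_one]
    rw [hc, zero_mul] at h3
    exact zero_ne_one h3
  have h3 : ((ρ γ : Matrix (Fin 2) (Fin 2) k) - d • 1) ^ p ^ n = 0 := by
    rw [sub_pow_char_pow_of_commute, ← Units.val_pow_eq_pow_val, hc, smul_pow, one_pow, hd,
      sub_self]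
    exact (Commute.one_right _).smul_right d
  obtain ⟨h4, h5⟩ := nil_sq h3
  refine ⟨d, hd0, d⁻¹ • ((ρ γ : Matrix (Fin 2) (Fin 2) k) - d • 1), ?_, ?_, ?_⟩
  · rw [smul_add, smul_smul, mul_inv_cancel₀ hd0, one_smul, add_sub_cancel]
  · rw [Matrix.trace_smul, h4, smul_zero]
  · rw [Matrix.det_smul, h5, mul_zero]

theorem trace_of_pelt {A B E : Matrix (Fin 2) (Fin 2) k} {d e : k} (hd : d ≠ 0)
    (hA : A.trace = 0) (hA' : A.det = 0) (hB : B.trace = 0) (hB' : B.det = 0)
    (hE : E.trace = 0) (hE' : E.det = 0)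
    (h : d • ((1 + A) * (1 + B)) = e • (1 + E)) : (A * B).trace * ((A * B).trace + 4) = 0 := by
  have h1 : d ^ 2 = e ^ 2 := by
    have := congrArg Matrix.det h
    rw [Matrix.det_smul, Matrix.det_smul, Matrix.det_mul, det_one_add hA hA', det_one_add hB hB',
      det_one_add hE hE', Fintype.card_fin, mul_one, mul_one, mul_one] at this
    exact this
  have h2 : d * (2 + (A * B).trace) = e * 2 := by
    have := congrArg Matrix.trace h
    have hx : (1 + A) * (1 + B) = 1 + A + B + A * B := by noncomm_ring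
    rw [Matrix.trace_smul, Matrix.trace_smul, hx,
      Matrix.trace_add, Matrix.trace_add, Matrix.trace_add, Matrix.trace_add, hA, hB, hE,
      Matrix.trace_one, Fintype.card_fin, smul_eq_mul, smul_eq_mul] at this
    push_cast at this
    linear_combination this
  have h3 : d ^ 2 * ((A * B).trace * ((A * B).trace + 4)) = 0 := by
    linear_combination (d * (2 + (A * B).trace) + e * 2) * h2 - 4 * h1
  exact (mul_eq_zero.mp h3).resolve_left (pow_ne_zero 2 hd)

/-- the unipotent subgroup attached to a nilpotent matrix -/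
def UU (A : Matrix (Fin 2) (Fin 2) k) (hA : A * A = 0) : Subgroup (Γ ⧸ N) where
  carrier := {h | ∃ γ : Γ, QuotientGroup.mk γ = h ∧ χ γ = 1 ∧ ∃ d : k, d ≠ 0 ∧ ∃ c : k,
    (ρ γ : Matrix (Fin 2) (Fin 2) k) = d • (1 + c • A)}
  one_mem' := ⟨1, rfl, map_one χ, 1, one_ne_zero, 0, by
    rw [map_one, Units.val_one, zero_smul, add_zero, one_smul]⟩
  mul_mem' := by
    rintro _ _ ⟨γ, rfl, h1, d, hd, c, h2⟩ ⟨γ', rfl, h1', d', hd', c', h2'⟩
    refine ⟨γ * γ', rfl, by rw [map_mul, h1, h1', one_mul], d * d', mul_ne_zero hd hd', c + c', ?_⟩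
    rw [map_mul, Units.val_mul, h2, h2', smul_mul_smul_comm]
    congr 1
    rw [add_mul, one_mul, mul_add, mul_one, smul_mul_smul_comm, hA, smul_zero, add_zero, add_smul]
    abel
  inv_mem' := by
    rintro _ ⟨γ, rfl, h1, d, hd, c, h2⟩
    refine ⟨γ⁻¹, rfl, by rw [map_inv, h1, inv_one], d⁻¹, inv_ne_zero hd, -c, ?_⟩
    rw [map_inv]
    have h3 : ((ρ γ : GL (Fin 2) k) : Matrix (Fin 2) (Fin 2) k) * (d⁻¹ • (1 + (-c) • A)) = 1 := by
      rw [h2, smul_mul_smul_comm, mul_inv_cancel₀ hd, one_smul, add_mul, one_mul, mul_add, mul_one,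
        smul_mul_smul_comm, hA, smul_zero, add_zero, neg_smul]
      abel
    exact Units.inv_eq_of_mul_eq_one_right h3

theorem isPGroup_UU [CharP k p]
    (hN : ∀ g, g ∈ N ↔ (∃ c : k, (ρ g : Matrix (Fin 2) (Fin 2) k) = c • 1) ∧ χ g = 1)
    (A : Matrix (Fin 2) (Fin 2) k) (hA : A * A = 0) : IsPGroup p (UU ρ χ N A hA) := by
  rintro ⟨_, γ, rfl, h1, d, hd, c, h2⟩
  refine ⟨1, Subtype.ext ?_⟩
  show (QuotientGroup.mk γ : Γ ⧸ N) ^ p ^ 1 = 1
  rw [pow_one, ← QuotientGroup.mk_pow, QuotientGroup.eq_one_iff]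
  refine (hN _).mpr ⟨⟨d ^ p, ?_⟩, by rw [map_pow, h1, one_pow]⟩
  rw [map_pow, Units.val_pow_eq_pow_val, h2, smul_pow]
  congr 1
  have h3 : ∀ n : ℕ, (1 + c • A) ^ n = 1 + (n : k) • (c • A) := by
    intro n
    induction n with
    | zero => rw [pow_zero, Nat.cast_zero, zero_smul, add_zero]
    | succ n ih =>
      rw [pow_succ, ih, add_mul, one_mul, mul_add, mul_one, smul_mul_smul_comm,
        smul_mul_assoc, hA, smul_zero, smul_zero, add_zero, Nat.cast_succ, add_smul, one_smul]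
      abel
  rw [h3, CharP.cast_eq_zero, zero_smul, add_zero]

/-- a `p`-group containing a nontrivial element is contained in the unipotent subgroup -/
theorem le_UU [Finite k] [CharP k p] (hp2 : p ≠ 2) (hC : ∀ x : C, x ^ p = 1 → x = 1)
    (hN : ∀ g, g ∈ N ↔ (∃ c : k, (ρ g : Matrix (Fin 2) (Fin 2) k) = c • 1) ∧ χ g = 1)
    (R : Subgroup (Γ ⧸ N)) (hR : IsPGroup p R) {γ : Γ} (hγ : (QuotientGroup.mk γ : Γ ⧸ N) ∈ R)
    {d : k} (hd : d ≠ 0) {A : Matrix (Fin 2) (Fin 2) k}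
    (h : (ρ γ : Matrix (Fin 2) (Fin 2) k) = d • (1 + A)) (hA : A.trace = 0) (hA' : A.det = 0)
    (hne : A ≠ 0) : R ≤ UU ρ χ N A (sq_eq_zero_of hA hA') := by
  have hpow : ∀ x : Γ, (QuotientGroup.mk x : Γ ⧸ N) ∈ R →
      ∃ n : ℕ, (QuotientGroup.mk x : Γ ⧸ N) ^ p ^ n = 1 := by
    intro x hx
    obtain ⟨n, hn⟩ := hR ⟨_, hx⟩
    exact ⟨n, congrArg Subtype.val hn⟩
  intro h' hh'
  obtain ⟨γ', rfl⟩ := QuotientGroup.mk_surjective h'
  obtain ⟨n', hn'⟩ := hpow γ' hh'
  obtain ⟨hχ', d', hd', B, h2, hB, hB'⟩ := pelt ρ χ N hC hN hn'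
  obtain ⟨n1, hn1⟩ := hpow (γ * γ') (R.mul_mem hγ hh')
  obtain ⟨-, e1, he1, E1, h3, hE1, hE1'⟩ := pelt ρ χ N hC hN hn1
  obtain ⟨n2, hn2⟩ := hpow (γ * (γ * γ')) (R.mul_mem hγ (R.mul_mem hγ hh'))
  obtain ⟨-, e2, he2, E2, h4, hE2, hE2'⟩ := pelt ρ χ N hC hN hn2
  have hAA := sq_eq_zero_of hA hA'
  have t1 : (A * B).trace * ((A * B).trace + 4) = 0 := by
    refine trace_of_pelt (mul_ne_zero hd hd') hA hA' hB hB' hE1 hE1' (e := e1) ?_
    rw [← h3, map_mul, Units.val_mul, h, h2, smul_mul_smul_comm]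
  have h2A : ((2 : k) • A).trace = 0 := by rw [Matrix.trace_smul, hA, smul_zero]
  have h2A' : ((2 : k) • A).det = 0 := by rw [Matrix.det_smul, hA', mul_zero]
  have t2 : (((2 : k) • A) * B).trace * ((((2 : k) • A) * B).trace + 4) = 0 := by
    refine trace_of_pelt (mul_ne_zero hd (mul_ne_zero hd hd')) h2A h2A' hB hB' hE2 hE2'
      (e := e2) ?_
    rw [← h4, map_mul, map_mul, Units.val_mul, Units.val_mul, h, h2, smul_mul_smul_comm,
      smul_mul_smul_comm, ← mul_assoc (1 + A)]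
    congr 2
    rw [add_mul, one_mul, mul_add, mul_one, hAA, add_zero, two_smul]
    abel
  rw [smul_mul_assoc, Matrix.trace_smul, smul_eq_mul] at t2
  have h20 : (2 : k) ≠ 0 := by
    intro h0
    have h1 : ((2 : ℕ) : k) = 0 := by exact_mod_cast h0
    rw [CharP.cast_eq_zero_iff k p] at h1
    exact hp2 ((Nat.prime_dvd_prime_iff_eq hp.out Nat.prime_two).mp h1)
  have ht : (A * B).trace = 0 := by
    have h5 : (2 : k) ^ 3 * (A * B).trace = 0 := by linear_combination 4 * t1 - t2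
    exact (mul_eq_zero.mp h5).resolve_left (pow_ne_zero 3 h20)
  obtain ⟨c, hc⟩ := exists_smul_of_trace hA hA' hB hB' hne ht
  exact ⟨γ', rfl, hχ', d', hd', c, by rw [h2, hc]⟩

/-- **Sylow subgroups intersect trivially** in subgroups of `PGL₂(k) × C` -/
theorem hTI_of [Finite k] [CharP k p] (hp2 : p ≠ 2) (hC : ∀ x : C, x ^ p = 1 → x = 1)
    (hN : ∀ g, g ∈ N ↔ (∃ c : k, (ρ g : Matrix (Fin 2) (Fin 2) k) = c • 1) ∧ χ g = 1)
    [Finite (Γ ⧸ N)] (P : Sylow p (Γ ⧸ N)) (g : Γ ⧸ N)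
    (hg : g ∉ Subgroup.normalizer (P : Set (Γ ⧸ N))) (h : Γ ⧸ N) (hh : h ∈ P)
    (hgh : g⁻¹ * h * g ∈ P) : h = 1 := by
  by_contra hne
  apply hg
  obtain ⟨γ, rfl⟩ := QuotientGroup.mk_surjective h
  obtain ⟨n, hn⟩ := P.2 ⟨_, hh⟩
  obtain ⟨hχ, d, hd, A, h1, hA, hA'⟩ := pelt ρ χ N hC hN (congrArg Subtype.val hn)
  have hA0 : A ≠ 0 := by
    rintro rfl
    apply hne
    rw [QuotientGroup.eq_one_iff]
    exact (hN γ).mpr ⟨⟨d, by rw [h1, add_zero]⟩, hχ⟩
  have h2 := le_UU ρ χ N hp2 hC hN (P : Subgroup (Γ ⧸ N)) P.2 hh hd h1 hA hA' hA0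
  have h3 : UU ρ χ N A (sq_eq_zero_of hA hA') = P := P.3 (isPGroup_UU ρ χ N hN A _) h2
  have h4 : IsPGroup p ((P : Subgroup (Γ ⧸ N)).map (MulAut.conj g).toMonoidHom) :=
    P.2.map _
  have h5 : (QuotientGroup.mk γ : Γ ⧸ N) ∈
      (P : Subgroup (Γ ⧸ N)).map (MulAut.conj g).toMonoidHom := by
    refine ⟨g⁻¹ * QuotientGroup.mk γ * g, hgh, ?_⟩
    show g * (g⁻¹ * QuotientGroup.mk γ * g) * g⁻¹ = _
    group
  have h6 := le_UU ρ χ N hp2 hC hN _ h4 h5 hd h1 hA hA' hA0
  rw [h3] at h6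
  exact mem_normalizer_of_finite _ fun x hx => h6 ⟨x, hx, rfl⟩

/-- scalars are the elements acting trivially on traceless matrices -/
theorem scalar_iff_ad {g : GL (Fin 2) k} :
    (∃ c : k, (g : Matrix (Fin 2) (Fin 2) k) = c • 1) ↔
      ∀ X : Matrix (Fin 2) (Fin 2) k, X.trace = 0 →
        (g : Matrix (Fin 2) (Fin 2) k) * X * ((g⁻¹ : GL (Fin 2) k) : Matrix (Fin 2) (Fin 2) k) =
          X := by
  have key : ∀ X : Matrix (Fin 2) (Fin 2) k, ((g : Matrix (Fin 2) (Fin 2) k) * X *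
      ((g⁻¹ : GL (Fin 2) k) : Matrix (Fin 2) (Fin 2) k) = X) ↔
      (g : Matrix (Fin 2) (Fin 2) k) * X = X * (g : Matrix (Fin 2) (Fin 2) k) := by
    intro X
    constructor
    · intro h
      conv_rhs => rw [← h]
      rw [mul_assoc, mul_assoc, ← Units.val_mul, inv_mul_cancel, Units.val_one, mul_one]
    · intro h
      rw [h, mul_assoc, ← Units.val_mul, mul_inv_cancel, Units.val_one, mul_one]
  constructor
  · rintro ⟨c, hc⟩ X _
    rw [key, hc, smul_mul_assoc, mul_smul_comm, one_mul, mul_one]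
  · intro h
    have h1 := (key !![0, 1; 0, 0]).mp (h _ (by simp [Matrix.trace_fin_two]))
    have h2 := (key !![0, 0; 1, 0]).mp (h _ (by simp [Matrix.trace_fin_two]))
    have e1 := congrFun (congrFun h1 0) 0
    have e2 := congrFun (congrFun h1 0) 1
    have e3 := congrFun (congrFun h2 0) 0
    simp [Matrix.mul_apply, Fin.sum_univ_two] at e1 e2 e3
    refine ⟨g.1 0 0, ?_⟩
    ext i j
    fin_cases i <;> fin_cases j
    · simp
    · simp [e3]
    · simp [← e1]
    · simp [e2]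

end main

end Fermat.Agent.EulerC
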