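import Fermat.Agent.EulerC.Fin4
import Fermat.Agent.EulerC.TI2

set_option autoImplicit false
set_option maxHeartbeats 400000

/-! **The global Euler characteristic formula** (lower bound). -/

namespace Fermat.Agent.EulerC

open Finset Fermat.Agent.CFT Fermat.Agent.CFTSec Fermat.Agent.EqDir FinInv

noncomputable section

/-- the statement of the Euler characteristic bound for a module -/
def ECB (T : Finset Nat.Primes) (c : GQ) (N : Type*) [AddCommGroup N] [DistribMulAction GQ N] :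
    Prop :=
  h1 T (MonoidHom.id GQ) N ≠ 0 ∧ h2 T (MonoidHom.id GQ) N ≠ 0 ∧
    h1 T (MonoidHom.id GQ) N * Nat.card (fix N (Subgroup.zpowers c)) ≤
      h0 GQ N * h2 T (MonoidHom.id GQ) N * Nat.card N

theorem ECB.congr {T : Finset Nat.Primes} {c : GQ} {A B : Type*} [AddCommGroup A]
    [DistribMulAction GQ A] [AddCommGroup B] [DistribMulAction GQ B] (e : A ≃+ B)
    (he : ∀ (g : GQ) a, e (g • a) = g • e a) (h : ECB T c A) : ECB T c B := by
  unfold ECB at h ⊢
  rwa [eqv_h0 e he, eqv_h1 e he, eqv_h2 e he, eqv_fix e he, Nat.card_congr e.toEquiv] at h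

section conv

variable (T : Finset Nat.Primes) (V : Type*) [AddCommGroup V] [DistribMulAction GQ V]

theorem Z1L_id : Z1L T (MonoidHom.id GQ) V = Z1S T V := rfl

theorem Z2L_id : Z2L T (MonoidHom.id GQ) V = Z2S T V := by
  ext x
  constructor
  · rintro ⟨h1, E, hE, h2⟩
    exact ⟨h1, E, hE, fun g h s hs s' hs' => h2 g h s s' hs hs'⟩
  · rintro ⟨h1, E, hE, h2⟩
    exact ⟨h1, E, hE, fun g h s s' hs hs' => h2 g h s hs s' hs'⟩

theorem B2L_id : B2L T (MonoidHom.id GQ) V = B2S T V := rfl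

variable {T V}

/-- the bound in terms of quotients -/
theorem ECB.gw {c : GQ} (h : ECB T c V) :
    Finite (Z1S T V ⧸ (B1 GQ V).addSubgroupOf (Z1S T V)) ∧
    Finite (Z2S T V ⧸ (B2S T V).addSubgroupOf (Z2S T V)) ∧
    Nat.card (Z1S T V ⧸ (B1 GQ V).addSubgroupOf (Z1S T V)) *
      Nat.card (fix V (Subgroup.zpowers c)) ≤
        Nat.card (fix V (⊤ : Subgroup GQ)) *
          Nat.card (Z2S T V ⧸ (B2S T V).addSubgroupOf (Z2S T V)) * Nat.card V := by
  unfold ECB h1 h2 h0 at h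
  rw [Z1L_id, Z2L_id, B2L_id] at h
  exact ⟨Nat.finite_of_card_ne_zero h.1, Nat.finite_of_card_ne_zero h.2.1, h.2.2⟩

end conv

variable {p : ℕ} [hp : Fact p.Prime] (hp2 : 2 < p) {S₀ : Finset Nat.Primes} (hpS : pP p ∈ S₀)
  {L : IntermediateField ℚ Qb} (hL : L.IsUnramifiedOutside S₀) [hN : L.fixingSubgroup.Normal]
  {ζ : Qb} (hζ : IsPrimitiveRoot ζ p) (hζL : ζ ∈ L) (P : Sylow p (GQ ⧸ L.fixingSubgroup))
  (hTI : ∀ g : GQ ⧸ L.fixingSubgroup,
    g ∉ Subgroup.normalizer (P : Set (GQ ⧸ L.fixingSubgroup)) → ∀ h ∈ P, g⁻¹ * h * g ∈ P → h = 1)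
  (hlow : ∀ T : Finset Nat.Primes, S₀ ⊆ T → Hcl T L → H2Low T L p hζ)

include hp2 hpS hL hζ hζL hTI hlow in
/-- **the global Euler characteristic**, modules in `Type` -/
theorem euler_char0 : ∃ T₁ : Finset Nat.Primes, S₀ ⊆ T₁ ∧ ∀ T, T₁ ⊆ T →
    ∀ (N : Type) [AddCommGroup N] [DistribMulAction GQ N] [Finite N],
      (∀ x : N, p • x = 0) → (∀ g ∈ L.fixingSubgroup, ∀ x : N, g • x = x) →
      ∀ (ι : Qb →+* ℂ) (c : GQ), (∀ x, ι (c x) = (starRingEnd ℂ) (ι x)) → ECB T c N := by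
  haveI := hL.1
  haveI : L.fixingSubgroup.FiniteIndex := finiteIndex_fixingSubgroup L
  haveI : Finite (GQ ⧸ L.fixingSubgroup) := inferInstance
  obtain ⟨M, hM, hζM, hMe⟩ := exists_sylow_field hL hζ hζL (P : Subgroup (GQ ⧸ L.fixingSubgroup))
    P.2
  obtain ⟨T₁, hT₁, hcl⟩ := exists_hcl hL hM
  refine ⟨T₁, hT₁, fun T hT N _ _ _ hpN htr ι c hc => ?_⟩
  obtain ⟨hclL, hclM⟩ := hcl T hT
  have hST : S₀ ⊆ T := hT₁.trans hT
  have hLT : L.IsUnramifiedOutside T := hL.mono hST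
  have hMT : M.IsUnramifiedOutside T := hM.mono hST
  letI : DistribMulAction (GQ ⧸ L.fixingSubgroup) N := qAct L.fixingSubgroup htr
  have e : Infl L N ≃+ N := AddEquiv.refl _
  have h1 := ge_one_TI P (eulerData hp2 hζ (hST hpS) hLT hζL hclL hc (hlow T hST hclL) P hMT hζM
    hMe hclM) hTI hpN
  have h2 : 1 ≤ dl0 T L c N := h1
  have n1 := h1ne hp2 hζ (hST hpS) hLT N hpN
  have n2 := h2ne hp2 hζ (hST hpS) hLT hζL hclL N hpN
  unfold dl0 at h2
  rw [one_le_div (by exact_mod_cast Nat.pos_of_ne_zero (mul_ne_zero n1 (fixne N)))] at h2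
  have h3 : ECB T c (Infl L N) := ⟨n1, n2, by exact_mod_cast h2⟩
  exact h3.congr (AddEquiv.refl N : Infl L N ≃+ N) (fun _ _ => rfl)

include hp2 hpS hL hζ hζL hTI hlow in
/-- **the global Euler characteristic** -/
theorem euler_char : ∃ T₁ : Finset Nat.Primes, S₀ ⊆ T₁ ∧ ∀ T, T₁ ⊆ T →
    ∀ (N : Type*) [AddCommGroup N] [DistribMulAction GQ N] [Finite N],
      (∀ x : N, p • x = 0) → (∀ g ∈ L.fixingSubgroup, ∀ x : N, g • x = x) →
      ∀ (ι : Qb →+* ℂ) (c : GQ), (∀ x, ι (c x) = (starRingEnd ℂ) (ι x)) → ECB T c N := by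
  obtain ⟨T₁, hT₁, h⟩ := euler_char0 hp2 hpS hL hζ hζL P hTI hlow
  refine ⟨T₁, hT₁, fun T hT N _ _ _ hpN htr ι c hc => ?_⟩
  let s := (equivShrink.{0} N).symm
  letI : AddCommGroup (Shrink.{0} N) := s.addCommGroup
  letI : DistribMulAction GQ (Shrink.{0} N) := s.distribMulAction GQ
  haveI : Finite (Shrink.{0} N) := Finite.of_equiv _ s.symm
  have h1 : ECB T c (Shrink.{0} N) := h T hT (Shrink.{0} N) (fun x => by
      apply s.injective
      have h2 : s (p • x) = p • s x := map_nsmul s.addEquiv p x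
      rw [h2, hpN]
      exact (map_zero s.addEquiv).symm) (fun g hg x => by
      apply s.injective
      have h2 : s (g • x) = g • s x := s.apply_symm_apply _
      rw [h2, htr g hg]) ι c hc
  exact h1.congr s.addEquiv (fun g a => s.apply_symm_apply _)

/-- the lower bound for `H²` of free modules, all levels -/
def H2LowAll (p : ℕ) [Fact p.Prime] {ζ : Qb} (hζ : IsPrimitiveRoot ζ p) : Prop :=
  ∀ (T : Finset Nat.Primes) (L : IntermediateField ℚ Qb) [L.fixingSubgroup.Normal], pP p ∈ T →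
    L.IsUnramifiedOutside T → ζ ∈ L → Hcl T L → H2Low T L p hζ

section rep

variable {k : Type*} [Field k] [Finite k] [CharP k p] (ρ : GQ →* GL (Fin 2) k)

/-- the kernel of the projectivisation and of the cyclotomic character -/
def projKer : Subgroup GQ where
  carrier := {g | (∃ c : k, (ρ g : Matrix (Fin 2) (Fin 2) k) = c • 1) ∧ chi hζ g = 1}
  one_mem' := ⟨⟨1, by rw [map_one, Units.val_one, one_smul]⟩, map_one _⟩
  mul_mem' := by
    rintro g h ⟨⟨c, hc⟩, h1⟩ ⟨⟨d, hd⟩, h2⟩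
    refine ⟨⟨c * d, ?_⟩, by rw [map_mul, h1, h2, one_mul]⟩
    rw [map_mul, Units.val_mul, hc, hd, smul_mul_smul_comm, one_mul]
  inv_mem' := by
    rintro g ⟨⟨c, hc⟩, h1⟩
    have hc0 : c ≠ 0 := by
      rintro rfl
      have h3 : (ρ g : Matrix (Fin 2) (Fin 2) k) * ((ρ g)⁻¹ : GL (Fin 2) k) = 1 := by
        rw [← Units.val_mul, mul_inv_cancel, Units.val_one]
      rw [hc, zero_smul, zero_mul] at h3
      exact zero_ne_one h3
    refine ⟨⟨c⁻¹, ?_⟩, by rw [map_inv, h1, inv_one]⟩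
    rw [map_inv]
    apply Units.inv_eq_of_mul_eq_one_right
    rw [hc, smul_mul_smul_comm, mul_inv_cancel₀ hc0, one_smul, one_mul]

instance projKer_normal : (projKer hζ ρ).Normal := by
  constructor
  rintro n ⟨⟨c, hc⟩, h1⟩ g
  refine ⟨⟨c, ?_⟩, ?_⟩
  · rw [map_mul, map_mul, Units.val_mul, Units.val_mul, hc, mul_smul_comm, mul_one,
      smul_mul_assoc, ← Units.val_mul, ← map_mul, mul_inv_cancel, map_one, Units.val_one]
  · rw [map_mul, map_mul, h1, mul_one, ← map_mul, mul_inv_cancel, map_one]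

include hp2 hpS in
/-- **the global Euler characteristic** for modules attached to a two-dimensional representation -/
theorem euler_char_rep
    (hρ : ∃ E : IntermediateField ℚ Qb, E.IsUnramifiedOutside S₀ ∧ ∀ g ∈ E.fixingSubgroup, ρ g = 1)
    (hlow : H2LowAll p hζ) : ∃ T₁ : Finset Nat.Primes, S₀ ⊆ T₁ ∧ ∀ T, T₁ ⊆ T →
    ∀ (N : Type*) [AddCommGroup N] [DistribMulAction GQ N] [Finite N],
      (∀ x : N, p • x = 0) →
      (∀ g : GQ, (∃ c : k, (ρ g : Matrix (Fin 2) (Fin 2) k) = c • 1) → g ζ = ζ →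
        ∀ x : N, g • x = x) →
      ∀ (ι : Qb →+* ℂ) (c : GQ), (∀ x, ι (c x) = (starRingEnd ℂ) (ι x)) → ECB T c N := by
  obtain ⟨E₀, hE₀, h0⟩ := hρ
  obtain ⟨E, hE, -, hE₀E, hζE, -⟩ := exists_big hp2 hpS hE₀ hζ
  have hle : E.fixingSubgroup ≤ projKer hζ ρ := by
    intro g hg
    refine ⟨⟨1, ?_⟩, chi_eq_one hζ (gal_fix hg hζE)⟩
    rw [h0 g (IntermediateField.fixingSubgroup_antitone hE₀E hg), Units.val_one, one_smul]
  obtain ⟨L, hL, -, hLe⟩ := exists_field hE (projKer hζ ρ) hle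
  haveI : L.fixingSubgroup.Normal := by rw [hLe]; infer_instance
  have hζL : ζ ∈ L := by
    apply mem_of_fixed
    intro g hg
    rw [hLe] at hg
    rw [chi_spec hζ g, hg.2, Units.val_one, ZMod.val_one, pow_one]
  haveI := hL.1
  haveI : L.fixingSubgroup.FiniteIndex := finiteIndex_fixingSubgroup L
  haveI : Finite (GQ ⧸ L.fixingSubgroup) := inferInstance
  obtain ⟨P⟩ : Nonempty (Sylow p (GQ ⧸ L.fixingSubgroup)) := Sylow.nonempty
  have hC : ∀ x : (ZMod p)ˣ, x ^ p = 1 → x = 1 := by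
    intro x hx
    have h5 : orderOf x ∣ p - 1 := by
      have := orderOf_dvd_card (x := x)
      rwa [ZMod.card_units p] at this
    have h6 : Nat.Coprime p (p - 1) := by
      rw [Nat.Prime.coprime_iff_not_dvd hp.out]
      intro h
      have := Nat.le_of_dvd (Nat.sub_pos_of_lt hp.out.one_lt) h
      have := hp.out.pos
      omega
    exact orderOf_eq_one_iff.mp
      (Nat.eq_one_of_dvd_coprimes h6 (orderOf_dvd_of_pow_eq_one hx) h5)
  have hTI := hTI_of ρ (chi hζ) L.fixingSubgroup (p := p) (by omega) hC (fun g => by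
    rw [hLe]; rfl) P
  obtain ⟨T₁, hT₁, h⟩ := euler_char hp2 hpS hL hζ hζL P hTI
    (fun T hT hcl => hlow T L (hT hpS) (hL.mono hT) hζL hcl)
  refine ⟨T₁, hT₁, fun T hT N _ _ _ hpN htr ι c hc => h T hT N hpN (fun g hg x => ?_) ι c hc⟩
  rw [hLe] at hg
  refine htr g hg.1 ?_ x
  rw [chi_spec hζ g, hg.2, Units.val_one, ZMod.val_one, pow_one]

end rep

end

end Fermat.Agent.EulerC
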