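import Fermat.Agent.EqDir.Main
import Fermat.Agent.EqDir.Higman
import Fermat.Agent.CFT.EPair

set_option autoImplicit false
set_option maxHeartbeats 400000

/-! Duality for modules satisfying Higman's criterion. -/

namespace Fermat.Agent.EulerC

open Fermat.Agent.CFT Fermat.Agent.EqDir Finset

section fix

variable {G V : Type*} [Group G] [Fintype G] [AddCommGroup V] [DistribMulAction G V]
  {p : ℕ} [hp : Fact p.Prime]

/-- augmentation submodule -/
def augV (G V : Type*) [Group G] [AddCommGroup V] [DistribMulAction G V] : AddSubgroup V :=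
  AddSubgroup.closure {x | ∃ (g : G) (v : V), x = g • v - v}

theorem mem_augV (g : G) (v : V) : g • v - v ∈ augV G V :=
  AddSubgroup.subset_closure ⟨g, v, rfl⟩

/-- norm -/
def nmV (G V : Type*) [Group G] [Fintype G] [AddCommGroup V] [DistribMulAction G V] : V →+ V :=
  AddMonoidHom.mk' (fun v => ∑ g : G, g • v) (fun v w => by
    rw [← sum_add_distrib]
    exact sum_congr rfl fun g _ => smul_add g v w)

theorem nmV_apply (v : V) : nmV G V v = ∑ g : G, g • v := rfl

theorem nmV_smul (g : G) (v : V) : nmV G V (g • v) = nmV G V v := by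
  rw [nmV_apply, nmV_apply]
  refine Fintype.sum_equiv (Equiv.mulRight g) _ _ (fun h => ?_)
  rw [Equiv.coe_mulRight, mul_smul]

theorem smul_nmV (g : G) (v : V) : g • nmV G V v = nmV G V v := by
  rw [nmV_apply, smul_sum]
  refine Fintype.sum_equiv (Equiv.mulLeft g) _ _ (fun h => ?_)
  rw [Equiv.coe_mulLeft, mul_smul]

theorem card_homTriv_eq [Finite V] (hV : ∀ v : V, p • v = 0) (h : IsHig G V) :
    Nat.card (HomG G V (Triv (ZMod p))) = Nat.card {v : V // ∀ g : G, g • v = v} := by
  classical
  obtain ⟨φ, hφ⟩ := h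
  have hker : (nmV G V).ker = augV G V := by
    apply le_antisymm
    · intro v hv
      rw [AddMonoidHom.mem_ker, nmV_apply] at hv
      have h1 : ∑ g : G, φ (g⁻¹ • v) = 0 := by
        rw [← map_sum, ← map_zero φ, ← hv]
        congr 1
        exact Fintype.sum_equiv (Equiv.inv G) _ _ (fun g => rfl)
      have h2 : v = ∑ g : G, (g • φ (g⁻¹ • v) - φ (g⁻¹ • v)) := by
        rw [sum_sub_distrib, h1, sub_zero, hφ]
      rw [h2]
      exact AddSubgroup.sum_mem _ fun g _ => mem_augV g _
    · unfold augV
      rw [AddSubgroup.closure_le]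
      rintro _ ⟨g, v, rfl⟩
      show nmV G V (g • v - v) = 0
      rw [map_sub, nmV_smul, sub_self]
  have hrange : ∀ v : V, v ∈ (nmV G V).range ↔ ∀ g : G, g • v = v := by
    intro v
    constructor
    · rintro ⟨w, rfl⟩ g
      exact smul_nmV g w
    · intro hv
      refine ⟨φ v, ?_⟩
      rw [nmV_apply]
      conv_rhs => rw [← hφ v]
      refine sum_congr rfl fun g _ => ?_
      have : g⁻¹ • v = v := hv g⁻¹
      rw [this]
  have e1 : Nat.card {v : V // ∀ g : G, g • v = v} = Nat.card (V ⧸ augV G V) := by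
    rw [← hker, Nat.card_congr (QuotientAddGroup.quotientKerEquivRange (nmV G V)).toEquiv]
    exact Nat.card_congr (Equiv.subtypeEquivRight (fun v => (hrange v).symm))
  have hVq : ∀ x : V ⧸ augV G V, p • x = 0 := by
    intro x
    induction x using QuotientAddGroup.induction_on with
    | H v => rw [← QuotientAddGroup.mk_nsmul, hV]; rfl
  letI mod : Module (ZMod p) (V ⧸ augV G V) := AddCommGroup.zmodModule (n := p) hVq
  rw [e1, ← card_dual (M := V ⧸ augV G V) (p := p)]
  refine Nat.card_congr
    { toFun := fun θ => QuotientAddGroup.lift (augV G V) (θ.1 : V →+ ZMod p) (by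
        intro v hv
        have h3 : augV G V ≤ (θ.1 : V →+ ZMod p).ker := by
          unfold augV
          rw [AddSubgroup.closure_le]
          rintro _ ⟨g, v, rfl⟩
          show (θ.1 : V →+ ZMod p) (g • v - v) = 0
          rw [map_sub, sub_eq_zero]
          exact θ.2 g v
        exact h3 hv)
      invFun := fun f => ⟨(f.comp (QuotientAddGroup.mk' (augV G V)) : V →+ ZMod p), fun g v => by
        show f (QuotientAddGroup.mk (g • v)) = f (QuotientAddGroup.mk v)
        congr 1
        rw [QuotientAddGroup.eq, neg_add_eq_sub, ← neg_sub]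
        exact (augV G V).neg_mem (mem_augV g v)⟩
      left_inv := fun θ => Subtype.ext (by ext v; rfl)
      right_inv := fun f => by
        ext v
        rfl }

end fix

section perm

variable {G Q P : Type*} [Group G] [Fintype G] [AddCommGroup Q] [DistribMulAction G Q]
  [MulAction G P] {p : ℕ} [hp : Fact p.Prime]

theorem isHig_TF (h : IsHig G Q) : IsHig G (TF P Q) := by
  obtain ⟨φ, hφ⟩ := h
  refine ⟨AddMonoidHom.mk' (fun F => (fun w => φ (F w) : TF P Q)) (fun F F' => by
    funext w
    exact map_add φ (F w) (F' w)), fun F => ?_⟩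
  funext w
  have h1 : (∑ g : G, g • (AddMonoidHom.mk' (fun F => (fun w => φ (F w) : TF P Q)) (fun F F' => by
      funext w
      exact map_add φ (F w) (F' w)) : TF P Q →+ TF P Q) (g⁻¹ • F)) w =
      ∑ g : G, g • φ (g⁻¹ • F w) := by
    refine (Finset.sum_apply w _ _).trans (sum_congr rfl fun g _ => ?_)
    show g • φ (g⁻¹ • F ((g⁻¹)⁻¹ • g⁻¹ • w)) = g • φ (g⁻¹ • F w)
    rw [inv_inv, smul_inv_smul]
  rw [h1, hφ]

/-- equivariant functions -/
def MapG (G P Q : Type*) [Group G] [AddCommGroup Q] [DistribMulAction G Q] [MulAction G P] :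
    Type _ := {F : P → Q // ∀ (g : G) (w : P), F (g • w) = g • F w}

theorem card_hom_pfun [Finite Q] [Fintype P] (hQ : ∀ x : Q, p • x = 0) (h : IsHig G Q) :
    Nat.card (HomG G Q (EqDir.PFun P (ZMod p))) = Nat.card (MapG G P Q) := by
  classical
  haveI : Finite (TF P Q) := inferInstanceAs (Finite (P → Q))
  have h1 := card_homTriv_eq (p := p) (V := TF P Q) (fun F => by funext w; exact hQ (F w))
    (isHig_TF (P := P) h)
  have h2 : Nat.card {v : TF P Q // ∀ g : G, g • v = v} = Nat.card (MapG G P Q) := by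
    refine Nat.card_congr (Equiv.subtypeEquivRight (fun F => ⟨fun hF g w => ?_, fun hF g => ?_⟩))
    · have := congrFun (hF g) (g • w)
      rw [TF.smul_apply, inv_smul_smul] at this
      exact this.symm
    · funext w
      rw [TF.smul_apply, ← hF, smul_inv_smul]
  rw [← h2, ← h1]
  let sg : P → Q →+ TF P Q := fun w => AddMonoidHom.single (fun _ : P => Q) w
  have hsg : ∀ (g : G) (w : P) (x : Q), g • sg w x = sg (g • w) (g • x) := by
    intro g w x
    funext w'
    show g • (Pi.single w x : P → Q) (g⁻¹ • w') = (Pi.single (g • w) (g • x) : P → Q) w'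
    by_cases hw : w' = g • w
    · subst hw
      rw [inv_smul_smul, Pi.single_eq_same, Pi.single_eq_same]
    · rw [Pi.single_eq_of_ne hw, Pi.single_eq_of_ne, smul_zero]
      intro h; apply hw; rw [← h, smul_inv_smul]
  have hexp : ∀ F : TF P Q, F = ∑ w : P, sg w (F w) := by
    intro F
    exact (Finset.univ_sum_single (f := (F : P → Q))).symm
  refine Nat.card_congr
    { toFun := fun φ => ⟨(AddMonoidHom.mk' (fun F => ∑ w : P, (φ.1 (F w)) w) (fun F F' => by
        rw [← sum_add_distrib]
        refine sum_congr rfl fun w _ => ?_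
        show (φ.1 (F w + F' w)) w = _
        rw [map_add]; rfl) : TF P Q →+ ZMod p), fun g F => ?_⟩
      invFun := fun l => ⟨AddMonoidHom.mk' (fun x => (fun w => (l.1 : TF P Q →+ ZMod p) (sg w x) :
        EqDir.PFun P (ZMod p))) (fun x y => by
          funext w
          show (l.1 : TF P Q →+ ZMod p) (sg w (x + y)) = _
          rw [map_add, map_add]; rfl), fun g x => ?_⟩
      left_inv := fun φ => ?_
      right_inv := fun l => ?_ }
  · show ∑ w : P, (φ.1 (g • F (g⁻¹ • w))) w = ∑ w : P, (φ.1 (F w)) w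
    rw [← Equiv.sum_comp (MulAction.toPerm g)]
    refine sum_congr rfl fun w _ => ?_
    rw [MulAction.toPerm_apply, inv_smul_smul, φ.2, PFun.smul_apply, inv_smul_smul]
  · funext w
    show (l.1 : TF P Q →+ ZMod p) (sg w (g • x)) = (l.1 : TF P Q →+ ZMod p) (sg (g⁻¹ • w) x)
    have h3 := l.2 g (sg (g⁻¹ • w) x)
    rw [hsg, smul_inv_smul] at h3
    exact h3
  · apply Subtype.ext
    ext x
    funext w
    show ∑ w' : P, (φ.1 ((sg w x) w')) w' = (φ.1 x) w
    rw [Finset.sum_eq_single w]
    · show (φ.1 ((Pi.single w x : P → Q) w)) w = _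
      rw [Pi.single_eq_same]
    · intro w' _ hw'
      show (φ.1 ((Pi.single w x : P → Q) w')) w' = 0
      rw [Pi.single_eq_of_ne hw', map_zero]; rfl
    · intro h; exact absurd (mem_univ _) h
  · apply Subtype.ext
    ext F
    show ∑ w : P, (l.1 : TF P Q →+ ZMod p) (sg w (F w)) = (l.1 : TF P Q →+ ZMod p) F
    conv_rhs => rw [hexp F]
    rw [map_sum]

end perm

end Fermat.Agent.EulerC
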