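import Fermat.Agent.EulerC.Defs
import Fermat.Agent.EulerC.PD
import Fermat.Agent.CFT.Count2

set_option autoImplicit false
set_option maxHeartbeats 400000

/-! The data of the equivariant unit theorem for the `T`-units of `M`. -/

namespace Fermat.Agent.EulerC

open Fermat.Agent.CFT Fermat.Agent.CFTSec Fermat.Agent.EqDir Finset
open NumberField IsDedekindDomain WithZero

noncomputable section

section qact

variable {Γ : Type*} [Group Γ] (N : Subgroup Γ) [N.Normal] {X : Type*} [AddCommGroup X]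
  [DistribMulAction Γ X]

/-- action of a quotient -/
@[reducible] def qAct (h : ∀ n ∈ N, ∀ x : X, n • x = x) : DistribMulAction (Γ ⧸ N) X where
  smul r x := Quotient.liftOn' r (fun g => g • x) (fun g g' hg => by
    have h1 : g⁻¹ * g' ∈ N := QuotientGroup.leftRel_apply.mp hg
    have h2 := h _ h1 x
    rw [mul_smul, inv_smul_eq_iff] at h2
    exact h2.symm)
  one_smul x := one_smul Γ x
  mul_smul r s x := by
    induction r using QuotientGroup.induction_on with
    | H g => induction s using QuotientGroup.induction_on with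
      | H g' => exact mul_smul g g' x
  smul_zero r := by
    induction r using QuotientGroup.induction_on with
    | H g => exact smul_zero g
  smul_add r x y := by
    induction r using QuotientGroup.induction_on with
    | H g => exact smul_add g x y

end qact

variable (T : Finset Nat.Primes) (M : IntermediateField ℚ Qb) (Γ : Subgroup GQ)

/-- normalisation hypothesis -/
class NM : Prop where
  le : M.fixingSubgroup ≤ Γ
  nrm : ∀ g ∈ Γ, ∀ k ∈ M.fixingSubgroup, g * k * g⁻¹ ∈ M.fixingSubgroup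

/-- the kernel -/
abbrev NN : Subgroup Γ := M.fixingSubgroup.subgroupOf Γ

instance NN_normal [h : NM M Γ] : (NN M Γ).Normal :=
  ⟨fun n hn g => Subgroup.mem_subgroupOf.mpr (h.nrm g g.2 n (Subgroup.mem_subgroupOf.mp hn))⟩

/-- the quotient group -/
abbrev GG : Type := Γ ⧸ NN M Γ

section field

variable [h : NM M Γ]

include h in
theorem stabM {g : GQ} (hg : g ∈ Γ) {x : Qb} (hx : x ∈ M) : g x ∈ M := by
  apply mem_of_fixed
  intro k hk
  have h1 := h.nrm g⁻¹ (Γ.inv_mem hg) k hk
  rw [inv_inv] at h1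
  have h2 := (IntermediateField.mem_fixingSubgroup_iff M _).mp h1 x hx
  have h3 : (g⁻¹ * k * g) x = g⁻¹ (k (g x)) := rfl
  rw [h3] at h2
  have h4 := congrArg g h2
  rw [← AlgEquiv.mul_apply, mul_inv_cancel, AlgEquiv.one_apply] at h4
  exact h4

/-- the restriction to `M` -/
def rho0 : Γ →* (M ≃ₐ[ℚ] M) where
  toFun g :=
    { toFun := fun x => ⟨(g : GQ) x, stabM M Γ g.2 x.2⟩
      invFun := fun x => ⟨(g : GQ)⁻¹ x, stabM M Γ (Γ.inv_mem g.2) x.2⟩
      left_inv := fun x => Subtype.ext (by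
        show (g : GQ)⁻¹ ((g : GQ) x) = x
        rw [← AlgEquiv.mul_apply, inv_mul_cancel, AlgEquiv.one_apply])
      right_inv := fun x => Subtype.ext (by
        show (g : GQ) ((g : GQ)⁻¹ x) = x
        rw [← AlgEquiv.mul_apply, mul_inv_cancel, AlgEquiv.one_apply])
      map_mul' := fun x y => Subtype.ext (map_mul (g : GQ) (x : Qb) y)
      map_add' := fun x y => Subtype.ext (map_add (g : GQ) (x : Qb) y)
      commutes' := fun r => Subtype.ext ((g : GQ).commutes r) }
  map_one' := by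
    ext x
    rfl
  map_mul' g g' := by
    ext x
    rfl

theorem rho0_apply (g : Γ) (x : M) : ((rho0 M Γ g x : M) : Qb) = (g : GQ) x := rfl

/-- the action on `M` -/
def rho : GG M Γ →* (M ≃ₐ[ℚ] M) := QuotientGroup.lift (NN M Γ) (rho0 M Γ) (by
  intro n hn
  rw [MonoidHom.mem_ker]
  ext x
  exact (IntermediateField.mem_fixingSubgroup_iff M _).mp (Subgroup.mem_subgroupOf.mp hn) _ x.2)

theorem rho_mk (g : Γ) : rho M Γ (QuotientGroup.mk g) = rho0 M Γ g := rfl

instance actM : MulSemiringAction (GG M Γ) M := MulSemiringAction.compHom M (rho M Γ)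

theorem coe_smul_M (g : Γ) (x : M) :
    (((QuotientGroup.mk g : GG M Γ) • x : M) : Qb) = (g : GQ) (x : Qb) := rfl

instance actInf : MulAction (GG M Γ) (InfinitePlace M) :=
  MulAction.compHom (InfinitePlace M) (rho M Γ)

theorem inf_smul_smul (g : GG M Γ) (w : InfinitePlace M) (x : M) : (g • w) (g • x) = w x := by
  show ((rho M Γ g) • w) ((rho M Γ g) x) = w x
  rw [InfinitePlace.smul_apply, AlgEquiv.symm_apply_apply]

theorem inf_smul_apply (g : Γ) (w : InfinitePlace M) (x : M) :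
    ((QuotientGroup.mk g : GG M Γ) • w) x = w ((QuotientGroup.mk g⁻¹ : GG M Γ) • x) := by
  have h1 := inf_smul_smul M Γ (QuotientGroup.mk g) w ((QuotientGroup.mk g⁻¹ : GG M Γ) • x)
  rw [← h1, QuotientGroup.mk_inv, smul_inv_smul]

end field

section primes

variable [hf : FiniteDimensional ℚ M]

theorem vq_primeOf (q : Nat.Primes) (σ : GQ) : vq M (primeOf q M σ) = q :=
  Subtype.ext (primeOf_inj M (primeOf_vs M (primeOf q M σ)))

theorem primeOf_mul_right (q : Nat.Primes) (σ : GQ) {n : GQ} (hn : n ∈ M.fixingSubgroup) :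
    primeOf q M (σ * n) = primeOf q M σ := by
  have := primeOf_mul q M σ 1 hn
  rwa [map_one, one_mul] at this

/-- places above `T` -/
def SfT : Set (HeightOneSpectrum (𝓞 M)) := {v | vq M v ∈ T}

theorem mem_SfT {v : HeightOneSpectrum (𝓞 M)} : v ∈ SfT T M ↔ vq M v ∈ T := Iff.rfl

theorem primeOf_mem {q : Nat.Primes} (hq : q ∈ T) (σ : GQ) : primeOf q M σ ∈ SfT T M := by
  rw [mem_SfT, vq_primeOf]; exact hq

instance finite_SfT : Finite (SfT T M) := by
  haveI : M.fixingSubgroup.FiniteIndex := finiteIndex_fixingSubgroup M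
  haveI : Finite (GQ ⧸ M.fixingSubgroup) := inferInstance
  refine Finite.of_surjective (fun r : T × (GQ ⧸ M.fixingSubgroup) =>
    (⟨primeOf r.1.1 M r.2.out, primeOf_mem T M r.1.2 _⟩ : SfT T M)) ?_
  rintro ⟨v, hv⟩
  refine ⟨(⟨vq M v, hv⟩, QuotientGroup.mk (vs M v)), Subtype.ext ?_⟩
  obtain ⟨n, hn⟩ := QuotientGroup.mk_out_eq_mul M.fixingSubgroup (vs M v)
  show primeOf (vq M v) M (QuotientGroup.mk (vs M v) : GQ ⧸ M.fixingSubgroup).out = v
  rw [hn, primeOf_mul_right M _ _ n.2, primeOf_vs]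

variable [h : NM M Γ]

/-- action on places -/
def actS (g : Γ) (v : HeightOneSpectrum (𝓞 M)) : HeightOneSpectrum (𝓞 M) :=
  primeOf (vq M v) M (vs M v * (g : GQ)⁻¹)

include h in
theorem actS_primeOf (g : Γ) (q : Nat.Primes) (σ : GQ) :
    actS M Γ g (primeOf q M σ) = primeOf q M (σ * (g : GQ)⁻¹) := by
  have key : ∀ (q' : Nat.Primes) (_ : q' = q) (σ' : GQ), primeOf q' M σ' = primeOf q M σ →
      primeOf q' M (σ' * (g : GQ)⁻¹) = primeOf q M (σ * (g : GQ)⁻¹) := by
    rintro q' rfl σ' h1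
    obtain ⟨τ, n, hn, rfl⟩ := exists_lg_of_primeOf_eq q' M h1
    have h2 : localGaloisToGlobal (q' : ℕ) τ * σ' * n * (g : GQ)⁻¹ =
        localGaloisToGlobal (q' : ℕ) τ * (σ' * (g : GQ)⁻¹) * ((g : GQ) * n * (g : GQ)⁻¹) := by group
    rw [h2, primeOf_mul q' M _ τ (h.nrm g g.2 n hn)]
  exact key _ (vq_primeOf M q σ) _ (primeOf_vs M _)

theorem vq_actS (g : Γ) (v : HeightOneSpectrum (𝓞 M)) : vq M (actS M Γ g v) = vq M v :=
  vq_primeOf M _ _

instance actSf : MulAction (GG M Γ) (SfT T M) where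
  smul r v := Quotient.liftOn' r (fun g => (⟨actS M Γ g v.1, by
    rw [mem_SfT, vq_actS]; exact v.2⟩ : SfT T M)) (fun g g' hg => by
      apply Subtype.ext
      have h1 : g⁻¹ * g' ∈ NN M Γ := QuotientGroup.leftRel_apply.mp hg
      have h2 : (g : GQ)⁻¹ * g' ∈ M.fixingSubgroup := Subgroup.mem_subgroupOf.mp h1
      have h3 := h.nrm g g.2 _ (M.fixingSubgroup.inv_mem h2)
      show primeOf _ M _ = primeOf _ M _
      have h4 : vs M v.1 * (g' : GQ)⁻¹ = vs M v.1 * (g : GQ)⁻¹ *
          ((g : GQ) * ((g : GQ)⁻¹ * (g' : GQ))⁻¹ * (g : GQ)⁻¹) := by group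
      rw [h4, primeOf_mul_right M _ _ h3])
  one_smul v := by
    apply Subtype.ext
    show primeOf _ M (vs M v.1 * ((1 : Γ) : GQ)⁻¹) = v.1
    rw [Subgroup.coe_one, inv_one, mul_one, primeOf_vs]
  mul_smul r s v := by
    induction r using QuotientGroup.induction_on with
    | H g => induction s using QuotientGroup.induction_on with
      | H g' =>
        apply Subtype.ext
        show primeOf _ M (vs M v.1 * ((g * g' : Γ) : GQ)⁻¹) = actS M Γ g (primeOf _ M (vs M v.1 *
          (g' : GQ)⁻¹))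
        rw [actS_primeOf, Subgroup.coe_mul, mul_inv_rev, mul_assoc]

theorem smul_primeOf (g : Γ) {q : Nat.Primes} (hq : q ∈ T) (σ : GQ) :
    (QuotientGroup.mk g : GG M Γ) • (⟨primeOf q M σ, primeOf_mem T M hq σ⟩ : SfT T M) =
      ⟨primeOf q M (σ * (g : GQ)⁻¹), primeOf_mem T M hq _⟩ :=
  Subtype.ext (actS_primeOf M Γ g q σ)

/-- a real number in `(0,1)` -/
theorem int_eq_one_of {a b : ℝ} (ha : 0 < a) (ha1 : a < 1) (hb : 0 < b) (hb1 : b < 1) {k l : ℤ}
    (h1 : a = b ^ k) (h2 : b = a ^ l) : a = b := by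
  have h3 : a ^ (1 : ℤ) = a ^ (l * k) := by
    rw [zpow_one, zpow_mul, ← h2, ← h1]
  have h4 : l * k = 1 := (zpow_right_injective₀ ha ha1.ne h3).symm
  have hl : 0 < l := by
    by_contra hcon
    push Not at hcon
    have : 1 ≤ a ^ l := one_le_zpow_of_nonpos₀ ha ha1.le hcon
    rw [← h2] at this
    exact absurd hb1 (not_lt.mpr this)
  have hl1 : l = 1 := by
    rcases Int.mul_eq_one_iff_eq_one_or_neg_one.mp h4 with ⟨h5, -⟩ | ⟨h5, -⟩
    · exact h5
    · rw [h5] at hl; exact absurd hl (by norm_num)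
  rw [h2, hl1, zpow_one]

theorem cq_conj (g : Γ) (q : Nat.Primes) (σ : GQ) :
    cq M q (σ * (g : GQ)⁻¹) = cq M q σ := by
  have key : ∀ (σ : GQ) (g : Γ), ∃ k : ℤ, cq M q σ = cq M q (σ * (g : GQ)⁻¹) ^ k := by
    intro σ g
    let y : M := (QuotientGroup.mk g : GG M Γ) • vpi M (primeOf q M σ)
    have hy : y ≠ 0 := by
      intro h0
      apply vpi_ne_zero M (primeOf q M σ)
      have := congrArg (fun t => (QuotientGroup.mk g : GG M Γ)⁻¹ • t) h0
      rw [inv_smul_smul, smul_zero] at this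
      exact this
    obtain ⟨k, hk⟩ := exists_valuation_eq (primeOf q M (σ * (g : GQ)⁻¹)) hy
    refine ⟨k, ?_⟩
    rw [← (av_eq_cq_zpow q (σ * (g : GQ)⁻¹) hy k).mpr hk]
    show av q (σ (vpi M (primeOf q M σ) : Qb)) = av q ((σ * (g : GQ)⁻¹) ((g : GQ) _))
    congr 1
    show _ = σ ((g : GQ)⁻¹ ((g : GQ) _))
    rw [← AlgEquiv.mul_apply (g : GQ)⁻¹, inv_mul_cancel, AlgEquiv.one_apply]
  obtain ⟨k, hk⟩ := key σ g
  obtain ⟨l, hl⟩ := key (σ * (g : GQ)⁻¹) g⁻¹
  have h1 : σ * (g : GQ)⁻¹ * ((g⁻¹ : Γ) : GQ)⁻¹ = σ := by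
    rw [Subgroup.coe_inv, inv_inv, inv_mul_cancel_right]
  rw [h1] at hl
  exact (int_eq_one_of (cq_pos q _) (cq_lt_one q _) (cq_pos q _) (cq_lt_one q _) hl hk)

theorem val_smul_M (g : Γ) (q : Nat.Primes) (σ : GQ) (x : M) :
    (primeOf q M (σ * (g : GQ)⁻¹)).valuation M ((QuotientGroup.mk g : GG M Γ) • x) =
      (primeOf q M σ).valuation M x := by
  rcases eq_or_ne x 0 with rfl | hx
  · rw [smul_zero, map_zero, map_zero]
  obtain ⟨k, hk⟩ := exists_valuation_eq (primeOf q M σ) hx
  have hy : (QuotientGroup.mk g : GG M Γ) • x ≠ 0 := by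
    intro h0
    apply hx
    have := congrArg (fun t => (QuotientGroup.mk g : GG M Γ)⁻¹ • t) h0
    rw [inv_smul_smul, smul_zero] at this
    exact this
  rw [hk, ← av_eq_cq_zpow q (σ * (g : GQ)⁻¹) hy k, cq_conj M Γ g q σ,
    ← (av_eq_cq_zpow q σ hx k).mpr hk]
  congr 1
  show σ ((g : GQ)⁻¹ ((g : GQ) _)) = _
  rw [← AlgEquiv.mul_apply (g : GQ)⁻¹, inv_mul_cancel, AlgEquiv.one_apply]

end primes

section units

variable [h : NM M Γ]

instance actSU' : DistribMulAction Γ (SU T M) where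
  smul g u := ⟨(g : GQ) • u.1, by
    have hu := mem_SU.mp u.2
    refine mem_SU.mpr ⟨?_, by rw [divQ_smul, hu.2, smul_zero]⟩
    rw [mem_fixQS]
    exact stabM M Γ g.2 (mem_fixQS.mp hu.1)⟩
  one_smul u := Subtype.ext (one_smul GQ u.1)
  mul_smul g g' u := Subtype.ext (mul_smul (g : GQ) (g' : GQ) u.1)
  smul_zero g := Subtype.ext (smul_zero (g : GQ))
  smul_add g u u' := Subtype.ext (smul_add (g : GQ) u.1 u'.1)

theorem coe_smul_SU' (g : Γ) (u : SU T M) : ((g • u : SU T M) : QS T) = (g : GQ) • u.1 := rfl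

instance actSU : DistribMulAction (GG M Γ) (SU T M) :=
  qAct (NN M Γ) (fun n hn u => Subtype.ext ((mem_SU.mp u.2).1 n (Subgroup.mem_subgroupOf.mp hn)))

theorem coe_smul_SU (g : Γ) (u : SU T M) :
    (((QuotientGroup.mk g : GG M Γ) • u : SU T M) : QS T) = (g : GQ) • u.1 := rfl

/-- the embedding of units -/
def jSU : SU T M →+ Additive Mˣ where
  toFun u := Additive.ofMul (Units.mk0 (⟨qv u.1, mem_fixQS.mp (mem_SU.mp u.2).1⟩ : M)
    (fun h0 => qv_ne_zero u.1 (congrArg Subtype.val h0)))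
  map_zero' := by
    apply Additive.toMul.injective
    apply Units.ext
    exact Subtype.ext (qv_zero (S := T))
  map_add' u v := by
    apply Additive.toMul.injective
    apply Units.ext
    exact Subtype.ext (qv_add u.1 v.1)

theorem jSU_val (u : SU T M) : ((((jSU T M u).toMul : Mˣ) : M) : Qb) = qv u.1 := rfl

/-- the data of the equivariant unit theorem -/
def sdat [hf : FiniteDimensional ℚ M] (hM : M.IsUnramifiedOutside T) :
    SData M (GG M Γ) (SU T M) (SfT T M) where
  j := jSU T M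
  inj := by
    intro u v huv
    have h1 := congrArg (fun t : Additive Mˣ => (((t.toMul : Mˣ) : M) : Qb)) huv
    exact Subtype.ext (qv_injective h1)
  smul := by
    intro g u
    induction g using QuotientGroup.induction_on with
    | H g => exact Subtype.ext (qv_smul (g : GQ) u.1)
  range := by
    intro x
    have hx0 : ((x : M) : Qb) ≠ 0 := fun h0 => x.ne_zero (Subtype.ext h0)
    constructor
    · rintro ⟨u, hu⟩ v hv
      rw [mem_SfT] at hv
      have h1 : ((x : M) : Qb) = qv u.1 := by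
        rw [← jSU_val, hu]; rfl
      have h2 := av_eq_one_of_SU (mem_SU.mp u.2).2 hv (vs M v)
      rw [← h1, av_eq_one_iff _ M _ x.ne_zero, primeOf_vs] at h2
      exact h2
    · intro hx
      have hdiv : divQ (mkU hM ((x : M) : Qb) (x : M).2 hx0) = 0 := by
        apply Subtype.ext
        funext q σ
        by_cases hq : q ∈ T
        · exact divQ_apply_mem _ hq σ
        · rw [divQ_apply _ hq]
          apply ordq_eq
          show av q (σ ((x : M) : Qb)) = ((q : ℕ) : ℝ) ^ (-(0 : ℤ))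
          rw [neg_zero, zpow_zero]
          rw [av_eq_one_iff _ M _ x.ne_zero]
          apply hx
          rw [mem_SfT, vq_primeOf]; exact hq
      refine ⟨⟨mkU hM ((x : M) : Qb) (x : M).2 hx0, mem_SU.mpr ⟨mem_fixQS.mpr ?_, hdiv⟩⟩, ?_⟩
      · exact (x : M).2
      · apply Additive.toMul.injective
        apply Units.ext
        exact Subtype.ext rfl
  hf := by
    intro g v x
    induction g using QuotientGroup.induction_on with
    | H g =>
      have h1 : v = ⟨primeOf (vq M v.1) M (vs M v.1), primeOf_mem T M v.2 _⟩ :=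
        Subtype.ext (primeOf_vs M v.1).symm
      rw [h1, smul_primeOf T M Γ g v.2]
      exact val_smul_M M Γ g _ _ x
  hi := fun g w x => inf_smul_smul M Γ g w x

end units

end

end Fermat.Agent.EulerC
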