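import Fermat.Agent.EulerC.HFam

set_option autoImplicit false
set_option maxHeartbeats 400000

/-! Abstract part of the construction of global classes. -/

namespace Fermat.Agent.EulerC

open Finset Fermat.Agent.CFT Fermat.Agent.CFTSec Fermat.Agent.TWLocal

noncomputable section

section subgroups

variable (N Γ : Subgroup GQ) (A : Type*) [AddCommGroup A] [DistribMulAction GQ A]

/-- cochains with a level, as a subgroup -/
def lnS : AddSubgroup (Γ → A) where
  carrier := {b | LN N b}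
  zero_mem' := LN.zero
  add_mem' := fun ha hb => LN.add ha hb
  neg_mem' := fun ha => LN.neg ha

/-- 2-cochains with a level, as a subgroup -/
def ln2S : AddSubgroup (Γ → Γ → A) where
  carrier := {b | LN2 N b}
  zero_mem' := LN2.zero
  add_mem' := fun ha hb => LN2.add ha hb
  neg_mem' := fun ha => LN2.neg ha

variable {Γ A} in
/-- the coboundary map -/
def ddH : (Γ → A) →+ (Γ → Γ → A) := AddMonoidHom.mk' (fun b => dd b) dd_add'

variable {Γ A} in
/-- composition -/
def mp2 {B : Type*} [AddCommGroup B] (φ : A →+ B) : (Γ → Γ → A) →+ (Γ → Γ → B) where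
  toFun x := fun g h => φ (x g h)
  map_zero' := funext fun g => funext fun h => map_zero φ
  map_add' x y := funext fun g => funext fun h => map_add φ _ _

variable {N Γ A} in
/-- the coboundary of a cochain with a level -/
theorem LN.dd [hN : N.Normal] {b : Γ → A} (hb : LN N b) : LN2 N (dd b) := by
  refine ⟨fun g h n n' hn hn' => ?_, fun g h => ?_⟩
  · show b (g * n) + (g * n) • b (h * n') - b (g * n * (h * n')) = b g + g • b h - b (g * h)
    have h1 : (g * n) • b (h * n') = g • b h := by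
      rw [hb.1 h n' hn', mul_smul]
      congr 1
      exact hb.2 h n hn
    have h2 : g * n * (h * n') = g * h * (h⁻¹ * n * h * n') := by group
    have h3 : ((h⁻¹ * n * h * n' : Γ) : GQ) ∈ N := by
      refine N.mul_mem ?_ hn'
      have := hN.conj_mem _ hn (h : GQ)⁻¹
      rw [inv_inv] at this
      exact this
    rw [hb.1 g n hn, h1, h2, hb.1 _ _ h3]
  · refine (fix A N).sub_mem ((fix A N).add_mem (hb.2 g) ?_) (hb.2 _)
    exact smul_mem_fix (g : GQ) (hb.2 h)

end subgroups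

section lin

variable {Γ N : Subgroup GQ} {J : Type*} [AddCommGroup J] [DistribMulAction GQ J]
  {W : Type*} [Fintype W] {p : ℕ}

/-- linear combinations of 2-cochains -/
def lc2 (Y : W → Γ → Γ → J) (c : W → ZMod p) : Γ → Γ → J := ∑ w, (c w).val • Y w

/-- linear combinations of 1-cochains -/
def lc1 (e : W → Γ → J) (c : W → ZMod p) : Γ → J := ∑ w, (c w).val • e w

variable {Y : W → Γ → Γ → J} {e : W → Γ → J}

theorem lc2_z2 (h : ∀ w, Y w ∈ Z2 Γ J) (c : W → ZMod p) : lc2 Y c ∈ Z2 Γ J :=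
  AddSubgroup.sum_mem _ fun w _ => (Z2 Γ J).nsmul_mem (h w) _

theorem lc2_lev (h : ∀ w, LN2 N (Y w)) (c : W → ZMod p) : LN2 N (lc2 Y c) := by
  have h1 : lc2 Y c ∈ ln2S N Γ J :=
    AddSubgroup.sum_mem _ fun w _ => (ln2S N Γ J).nsmul_mem (show Y w ∈ ln2S N Γ J from h w) _
  exact h1

theorem lc1_lev (h : ∀ w, LN N (e w)) (c : W → ZMod p) : LN N (lc1 e c) := by
  have h1 : lc1 e c ∈ lnS N Γ J :=
    AddSubgroup.sum_mem _ fun w _ => (lnS N Γ J).nsmul_mem (show e w ∈ lnS N Γ J from h w) _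
  exact h1

theorem p_lc2 (h : ∀ w g h, p • Y w g h = dd (e w) g h) (c : W → ZMod p) (g k : Γ) :
    p • lc2 Y c g k = dd (lc1 e c) g k := by
  have h1 : p • lc2 Y c = ddH (lc1 e c) := by
    rw [lc2, lc1, Finset.smul_sum, map_sum]
    refine Finset.sum_congr rfl fun w _ => ?_
    rw [smul_comm, map_nsmul]
    congr 1
    funext g k
    exact h w g k
  exact congrFun (congrFun h1 g) k

theorem map_lc2 {B : Type*} [AddCommGroup B] (φ : J →+ B) (c : W → ZMod p) :
    mp2 φ (lc2 Y c) = ∑ w, (c w).val • mp2 φ (Y w) := by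
  rw [lc2, map_sum]
  refine Finset.sum_congr rfl fun w _ => ?_
  rw [map_nsmul]

theorem phi_lc2 {B : Type*} [AddCommGroup B] (φ : J →+ B) (h : ∀ w g h, φ (Y w g h) = 0)
    (c : W → ZMod p) (g k : Γ) : φ (lc2 Y c g k) = 0 := by
  have h1 : mp2 φ (lc2 Y c) = 0 := by
    rw [map_lc2]
    refine Finset.sum_eq_zero fun w _ => ?_
    have : mp2 φ (Y w) = 0 := funext fun g => funext fun k => h w g k
    rw [this, smul_zero]
  exact congrFun (congrFun h1 g) k

end lin

section abs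

variable {Γ N : Subgroup GQ} [hN : N.Normal] (hNΓ : N ≤ Γ) {K J C D : Type*} [AddCommGroup K]
  [DistribMulAction GQ K] [AddCommGroup J] [DistribMulAction GQ J] [AddCommGroup C]
  [DistribMulAction GQ C] [AddCommGroup D] [DistribMulAction GQ D]
  {dg : K →+ J} (hdi : Function.Injective dg) (hds : ∀ (g : GQ) x, dg (g • x) = g • dg x)
  {tc : J →+ C} (hts : ∀ (g : GQ) x, tc (g • x) = g • tc x)
  (hker : ∀ j, tc j = 0 ↔ ∃ a, dg a = j)
  (hlift : ∀ c ∈ fix C N, ∃ j ∈ fix J N, tc j = c)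
  {φ : J →+ D} (hφs : ∀ (g : GQ) x, φ (g • x) = g • φ x) {p m : ℕ}
  {Y : Γ → Γ → J} {e : Γ → J} (hYz : Y ∈ Z2 Γ J) (hYl : LN2 N Y) (hel : LN N e)
  (hpY : ∀ g h, p • Y g h = dd e g h) (hφY : ∀ g h, φ (Y g h) = 0)
  {b : Γ → C} (hb : LN N b) (hYb : ∀ g h, tc (Y g h) = dd b g h)
  (hm1 : ∀ z : Γ → C, (∀ g h, z (g * h) = z g + g • z h) → LN N z →
      ∃ y ∈ fix C N, ∀ g : Γ, m • z g = (g : GQ) • y - y)

include hNΓ hdi hds hts hker hlift hφs hYz hYl hel hpY hφY hb hYb hm1 in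
theorem glob_abs : ∃ (b' : Γ → J) (x : Γ → Γ → K) (f : Γ → K), LN N b' ∧
    (∀ g h, dg (x g h) = Y g h - dd b' g h) ∧ x ∈ Z2 Γ K ∧ LN2 N x ∧ LN N f ∧
    (∀ g h, p • (m • x) g h = dd f g h) ∧
    ∀ g h, φ (dg ((m • x) g h)) = dd (fun g => φ ((-(m • b')) g)) g h := by
  classical
  have hlift' : ∀ c : C, ∃ j : J, c ∈ fix C N → j ∈ fix J N ∧ tc j = c := by
    intro c
    by_cases hc : c ∈ fix C N
    · obtain ⟨j, hj, hj'⟩ := hlift c hc
      exact ⟨j, fun _ => ⟨hj, hj'⟩⟩
    · exact ⟨0, fun h => absurd h hc⟩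
  choose Lf hLf using hlift'
  set b' : Γ → J := fun g => Lf (b g) with hb'
  have hb'l : LN N b' := ⟨fun g n hn => congrArg Lf (hb.1 g n hn), fun g => (hLf _ (hb.2 g)).1⟩
  have hb't : ∀ g, tc (b' g) = b g := fun g => (hLf _ (hb.2 g)).2
  have hk0 : ∀ g h, tc (Y g h - dd b' g h) = 0 := by
    intro g h
    rw [map_sub, hYb, dd_map' tc hts]
    have : (fun g => tc (b' g)) = b := funext hb't
    rw [this, sub_self]
  have hx' : ∀ g h, ∃ a : K, dg a = Y g h - dd b' g h := fun g h => (hker _).mp (hk0 g h)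
  choose x hx using hx'
  have hxZ : x ∈ Z2 Γ K := by
    intro g h k
    apply hdi
    have h1 : (Y - dd b') ∈ Z2 Γ J := (Z2 _ _).sub_mem hYz (B2_le_Z2 (dd_mem_B2 b'))
    have h2 := h1 g h k
    rw [map_add, map_add]
    have h3 : dg (g • x h k) = g • dg (x h k) := hds (g : GQ) _
    rw [h3, hx, hx, hx, hx]
    exact h2
  have hxl : LN2 N x := by
    have h2 := hb'l.dd
    refine ⟨fun g h n n' hn hn' => hdi ?_, fun g h n hn => hdi ?_⟩
    · rw [hx, hx, hYl.1 g h n n' hn hn', h2.1 g h n n' hn hn']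
    · rw [hds, hx, smul_sub, hYl.2 g h n hn, h2.2 g h n hn]
  obtain ⟨y₀, hy₀, hzy⟩ := hm1 (fun g => tc ((e - p • b') g)) (by
    intro g h
    have h1 : dd (e - p • b') g h = p • dg (x g h) := by
      rw [dd_sub', dd_nsmul', hx, smul_sub, hpY]
      rfl
    have h2 : tc (dd (e - p • b') g h) = 0 := by
      rw [h1, map_nsmul, (hker _).mpr ⟨_, rfl⟩, smul_zero]
    rw [dd_map' tc hts] at h2
    have h3 : tc ((e - p • b') g) + g • tc ((e - p • b') h) - tc ((e - p • b') (g * h)) = 0 := h2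
    exact (sub_eq_zero.mp h3).symm)
    ((hel.sub (hb'l.nsmul p)).map tc hts)
  obtain ⟨y₁, hy₁, hy₁'⟩ := hlift _ hy₀
  have hf' : ∀ g : Γ, ∃ a : K, dg a = m • (e - p • b') g - ((g : GQ) • y₁ - y₁) := by
    intro g
    apply (hker _).mp
    rw [map_sub, map_nsmul, hzy, map_sub, hts, hy₁', sub_self]
  choose f hf using hf'
  have hfl : LN N f := by
    have h1 := ((hel.sub (hb'l.nsmul p)).nsmul m).sub
      (LN.cob (fun g _ k hk => hN.conj_mem k hk g) hNΓ hy₁)
    refine ⟨fun g n hn => hdi ?_, fun g n hn => hdi ?_⟩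
    · rw [hf, hf]
      exact h1.1 g n hn
    · rw [hds, hf]
      exact h1.2 g n hn
  refine ⟨b', x, f, hb'l, hx, hxZ, hxl, hfl, fun g h => ?_, fun g h => ?_⟩
  · apply hdi
    have h2 : (fun g => dg (f g)) = m • (e - p • b') -
      (fun g : Γ => ((g : GQ) • y₁ - y₁)) := funext fun g => hf g
    have h3 : dd (fun g : Γ => ((g : GQ) • y₁ - y₁)) = 0 := by
      funext g h
      show ((g : GQ) • y₁ - y₁) + (g : GQ) • ((h : GQ) • y₁ - y₁) -
        (((g * h : Γ) : GQ) • y₁ - y₁) = 0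
      rw [smul_sub, Subgroup.coe_mul, mul_smul]; abel
    rw [dd_map' dg hds, h2, dd_sub', h3, sub_zero, dd_nsmul', dd_sub', dd_nsmul']
    show dg (p • m • x g h) = m • (dd e g h - p • dd b' g h)
    rw [map_nsmul, map_nsmul, hx, ← hpY, ← smul_sub, smul_comm p m]
  · have h2 : dg ((m • x) g h) = m • (Y g h - dd b' g h) := by
      show dg (m • x g h) = _
      rw [map_nsmul, hx]
    have h5 : φ (dd b' g h) = dd (fun g => φ (b' g)) g h := dd_map' φ hφs b' g h
    rw [h2, map_nsmul, map_sub, hφY, zero_sub, h5]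
    have h4 : (fun g => φ ((-(m • b')) g)) = -(m • fun g => φ (b' g)) := by
      funext g
      show φ (-(m • b' g)) = -(m • φ (b' g))
      rw [map_neg, map_nsmul]
    rw [h4, dd_neg', dd_nsmul']
    show m • -(dd (fun g => φ (b' g)) g h) = -(m • dd (fun g => φ (b' g)) g h)
    rw [smul_neg]

end abs

section inj

variable {Γ : Subgroup GQ} {J : Type*} [AddCommGroup J] [DistribMulAction GQ J] {p m : ℕ}
  [hp : Fact p.Prime] (hm : ¬ p ∣ m) {R : Type*} [AddCommGroup R] {Z : AddSubgroup R}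

include hm in
/-- elements of order `p` modulo a subgroup -/
theorem coef_inj {x : R} (hx : x ∉ Z) (hpx : p • x ∈ Z) {c c' : ZMod p}
    (h : m • (c.val • x - c'.val • x) ∈ Z) : c = c' := by
  have h6 : ((m : ℤ) * (c.val - c'.val)) • x ∈ Z := by
    rw [mul_smul, sub_smul, natCast_zsmul, natCast_zsmul, natCast_zsmul]
    exact h
  by_contra hne
  have h7 : ¬ (p : ℤ) ∣ (m : ℤ) * (c.val - c'.val) := by
    intro hdvd
    rcases (Nat.prime_iff_prime_int.mp hp.out).dvd_or_dvd hdvd with h | h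
    · exact hm (by exact_mod_cast h)
    · apply hne
      have h8 : ((c.val - c'.val : ℤ) : ZMod p) = 0 :=
        (ZMod.intCast_zmod_eq_zero_iff_dvd _ _).mpr h
      push_cast at h8
      rw [ZMod.natCast_zmod_val, ZMod.natCast_zmod_val, sub_eq_zero] at h8
      exact h8
  have hcop : IsCoprime (p : ℤ) ((m : ℤ) * (c.val - c'.val)) :=
    (Prime.coprime_iff_not_dvd (Nat.prime_iff_prime_int.mp hp.out)).mpr h7
  obtain ⟨u, v, huv⟩ := hcop
  apply hx
  have h9 : x = u • (p • x) + v • (((m : ℤ) * (c.val - c'.val)) • x) := by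
    rw [← natCast_zsmul, smul_smul, smul_smul, ← add_smul, huv, one_smul]
  rw [h9]
  exact Z.add_mem (Z.zsmul_mem hpx u) (Z.zsmul_mem h6 v)

end inj

end

end Fermat.Agent.EulerC
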