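import Fermat.Agent.EulerC.HInv

set_option autoImplicit false
set_option maxHeartbeats 400000

/-! The family of classes of order `p` indexed by the places above `T`. -/

namespace Fermat.Agent.EulerC

open Finset Fermat.Agent.CFT Fermat.Agent.CFTSec Fermat.Agent.TWLocal

noncomputable section

section places

variable (q : Nat.Primes) (Γ : Subgroup GQ)

/-- the relation defining places -/
def plS : Setoid GQ where
  r x y := ∃ (d : LG q) (e : GQ), e ∈ Γ ∧ y = localGaloisToGlobal (q : ℕ) d * x * e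
  iseqv :=
    ⟨fun x => ⟨1, 1, Γ.one_mem, by simp⟩, fun {x y} ⟨d, e, he, h⟩ => ⟨d⁻¹, e⁻¹, Γ.inv_mem he, by
      rw [h, map_inv]; group⟩, fun {x y z} ⟨d, e, he, h⟩ ⟨d', e', he', h'⟩ =>
      ⟨d' * d, e * e', Γ.mul_mem he he', by rw [h', h, map_mul]; group⟩⟩

/-- the places above `q` -/
def Pl : Type := Quotient (plS q Γ)

instance [Γ.FiniteIndex] : Finite (Pl q Γ) := by
  refine Finite.of_surjective (fun x : GQ ⧸ Γ => (Quotient.mk (plS q Γ) x.out : Pl q Γ)) ?_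
  intro y
  induction y using Quotient.inductionOn with
  | h x =>
    refine ⟨QuotientGroup.mk x, Quotient.sound ?_⟩
    refine ⟨1, (QuotientGroup.mk x : GQ ⧸ Γ).out⁻¹ * x, ?_, ?_⟩
    · have := mk_out_mem Γ x
      have h2 := Γ.inv_mem this
      rwa [mul_inv_rev, inv_inv] at h2
    · rw [map_one, one_mul, mul_inv_cancel_left]

variable {q Γ}

theorem db_iff {g x : GQ} : Db q Γ g x ↔ (Quotient.mk (plS q Γ) g : Pl q Γ) = Quotient.mk _ x := by
  constructor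
  · rintro ⟨⟨d, e⟩, he, h⟩
    exact Quotient.sound ⟨d, e, he, h⟩
  · intro h
    obtain ⟨d, e, he, h'⟩ := Quotient.exact h
    exact ⟨⟨d, e⟩, he, h'⟩

theorem not_db {y y' : Pl q Γ} (h : y' ≠ y) : ¬ Db q Γ y.out y'.out := by
  intro h'
  apply h
  have h1 := db_iff.mp h'
  have h2 : (Quotient.mk (plS q Γ) y.out : Pl q Γ) = y := Quotient.out_eq y
  have h3 : (Quotient.mk (plS q Γ) y'.out : Pl q Γ) = y' := Quotient.out_eq y'
  rw [← h2, ← h3]
  exact h1.symm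

/-- counting equivariant functions on places -/
theorem card_MD_places {Q : Type*} [AddCommGroup Q] [DistribMulAction Γ Q]
    (htriv : ∀ (γ : Γ) (x : Q), γ • x = x) [Γ.FiniteIndex] :
    Nat.card (MD Γ Q (Dq q)) = Nat.card Q ^ Nat.card (Pl q Γ) := by
  have h1 : Nat.card (Pl q Γ → Q) = Nat.card Q ^ Nat.card (Pl q Γ) := by
    rw [Nat.card_fun]
  rw [← h1]
  refine Nat.card_congr ⟨fun F y => Quotient.lift (fun x => F.1 x⁻¹) ?_ y,
    fun G => ⟨fun x => G (Quotient.mk _ x⁻¹), ?_⟩, ?_, ?_⟩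
  · rintro x y ⟨d, e, he, h⟩
    show F.1 x⁻¹ = F.1 y⁻¹
    have h2 := F.2 ⟨e⁻¹, Γ.inv_mem he⟩ x⁻¹ (localGaloisToGlobal (q : ℕ) d⁻¹) ⟨d⁻¹, rfl⟩
    rw [htriv] at h2
    rw [← h2, h]
    refine congrArg F.1 ?_
    rw [map_inv, mul_inv_rev, mul_inv_rev]
    show e⁻¹ * x⁻¹ * _ = e⁻¹ * (x⁻¹ * _)
    rw [mul_assoc]
  · rintro γ g _ ⟨d, rfl⟩
    rw [htriv]
    refine congrArg G ?_
    have h3 : (plS q Γ).r g⁻¹ ((γ : GQ) * g * localGaloisToGlobal (q : ℕ) d)⁻¹ :=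
      ⟨d⁻¹, (γ : GQ)⁻¹, Γ.inv_mem γ.2, by rw [map_inv]; group⟩
    exact (Quotient.sound h3).symm
  · intro F
    apply Subtype.ext
    funext x
    show F.1 (x⁻¹)⁻¹ = F.1 x
    rw [inv_inv]
  · intro G
    funext y
    induction y using Quotient.inductionOn with
    | h x =>
      show G (Quotient.mk _ (x⁻¹)⁻¹) = G (Quotient.mk _ x)
      rw [inv_inv]

theorem card_MD_top' {Q : Type*} [AddCommGroup Q] [DistribMulAction Γ Q]
    (htriv : ∀ (γ : Γ) (x : Q), γ • x = x) : Nat.card (MD Γ Q ⊤) = Nat.card Q := by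
  refine Nat.card_congr ⟨fun F => F.1 1, fun x => ⟨fun _ => x, fun γ _ _ _ => (htriv γ x).symm⟩,
    fun F => ?_, fun x => rfl⟩
  apply Subtype.ext
  funext x
  have := F.2 1 1 x trivial
  rw [one_smul, Subgroup.coe_one, one_mul, one_mul] at this
  exact this.symm

end places

section ev

variable {T : Finset Nat.Primes} {q : Nat.Primes} (hq : q ∈ T) (g : GQ)

/-- evaluation at a place -/
def evq : Jm T →+ LM q where
  toFun j := (cmp q hq j).1 g
  map_zero' := by rw [map_zero]; rfl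
  map_add' x y := by rw [map_add]; rfl

variable {Γ : Subgroup GQ} [hΓ : Γ.Normal]

/-- the conjugated embedding -/
def iog (q : Nat.Primes) (g : GQ) (t : dN q Γ) : Γ :=
  ⟨g⁻¹ * localGaloisToGlobal (q : ℕ) (t : LG q) * g, by
    have := hΓ.conj_mem _ (show localGaloisToGlobal (q : ℕ) (t : LG q) ∈ Γ from t.2) g⁻¹
    rwa [inv_inv] at this⟩

theorem iog_mul (t s : dN q Γ) : iog q g (t * s) = iog q g t * iog q g s := by
  apply Subtype.ext
  show g⁻¹ * localGaloisToGlobal (q : ℕ) ((t : LG q) * s) * g =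
    (g⁻¹ * localGaloisToGlobal (q : ℕ) (t : LG q) * g) *
      (g⁻¹ * localGaloisToGlobal (q : ℕ) (s : LG q) * g)
  rw [map_mul]; group

theorem evq_smul (t : dN q Γ) (j : Jm T) : evq hq g (iog q g t • j) = t • evq hq g j := by
  show (cmp q hq ((iog q g t : GQ) • j)).1 g = (t : LG q) • (cmp q hq j).1 g
  rw [cmp_smul, coind_smul_apply, ← (cmp q hq j).2 (t : LG q) g]
  refine congrArg (cmp q hq j).1 ?_
  show g * (g⁻¹ * localGaloisToGlobal (q : ℕ) (t : LG q) * g) = _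
  group

theorem evq_dd (b : Γ → Jm T) (t s : dN q Γ) : evq hq g (dd b (iog q g t) (iog q g s)) =
    dd (fun t => evq hq g (b (iog q g t))) t s := by
  show evq hq g (b (iog q g t) + iog q g t • b (iog q g s) - b (iog q g t * iog q g s)) =
    evq hq g (b (iog q g t)) + t • evq hq g (b (iog q g s)) - evq hq g (b (iog q g (t * s)))
  rw [map_sub, map_add, evq_smul, iog_mul]

theorem evq_B2l {E : IntermediateField ℚ Qb} (hE : E.IsUnramifiedOutside T) {b : Γ → Jm T}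
    (hb : ∀ g n : Γ, (n : GQ) ∈ E.fixingSubgroup → b (g * n) = b g) :
    (fun t s : dN q Γ => evq hq g (dd b (iog q g t) (iog q g s))) ∈ B2l (dN q Γ) (LM q) := by
  obtain ⟨N, hN1, hN2, hN3⟩ := exists_galois_unram hE
  haveI := fixing_normal hN2.1 hN3
  haveI := hN2.1
  have hle := IntermediateField.fixingSubgroup_antitone hN1
  refine ⟨fun t => evq hq g (b (iog q g t)), ?_, fun t s => evq_dd hq g b t s⟩
  refine ⟨(dN q N.fixingSubgroup).subgroupOf (dN q Γ),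
    (dN_open q N).preimage continuous_subtype_val, fun t s hs => ?_⟩
  show evq hq g (b (iog q g (t * s))) = evq hq g (b (iog q g t))
  rw [iog_mul, hb]
  apply hle
  have h1 : localGaloisToGlobal (q : ℕ) (s : LG q) ∈ N.fixingSubgroup := hs
  have := (inferInstance : N.fixingSubgroup.Normal).conj_mem _ h1 g⁻¹
  rwa [inv_inv] at this

end ev

section fam

variable {p : ℕ} [hp : Fact p.Prime] (hp2 : 2 < p) {T : Finset Nat.Primes} (hpT : pP p ∈ T)
  {L : IntermediateField ℚ Qb} (hL : L.IsUnramifiedOutside T) [hLn : L.fixingSubgroup.Normal]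

/-- the embedding of a local component -/
def sJ {E : IntermediateField ℚ Qb} (hE : E.IsUnramifiedOutside T) (q : Nat.Primes) (hq : q ∈ T) :
    ↥(fix (JQ q) E.fixingSubgroup) →+ Jm T :=
  (fix (Jm T) E.fixingSubgroup).subtype.comp (sgN hE q hq)

theorem sJ_val {E : IntermediateField ℚ Qb} (hE : E.IsUnramifiedOutside T) (q : Nat.Primes)
    (hq : q ∈ T) (f : ↥(fix (JQ q) E.fixingSubgroup)) : (sJ hE q hq f).1 = sgT q hq f.1 := rfl

theorem sJ_mem {E : IntermediateField ℚ Qb} (hE : E.IsUnramifiedOutside T) (q : Nat.Primes)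
    (hq : q ∈ T) (f : ↥(fix (JQ q) E.fixingSubgroup)) :
    sJ hE q hq f ∈ fix (Jm T) E.fixingSubgroup := (sgN hE q hq f).2

theorem evq_sJ_self {E : IntermediateField ℚ Qb} (hE : E.IsUnramifiedOutside T) (q : Nat.Primes)
    (hq : q ∈ T) (f : ↥(fix (JQ q) E.fixingSubgroup)) (g : GQ) :
    evq hq g (sJ hE q hq f) = f.1.1 g := by
  show ((sgT q hq f.1).1 ⟨q, hq⟩).1 g = f.1.1 g
  rw [sgT_fst]

theorem evq_sJ_ne {E : IntermediateField ℚ Qb} (hE : E.IsUnramifiedOutside T) {q q' : Nat.Primes}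
    (hq : q ∈ T) (hq' : q' ∈ T) (h : q' ≠ q) (f : ↥(fix (JQ q) E.fixingSubgroup)) (g : GQ) :
    evq hq' g (sJ hE q hq f) = 0 := by
  show ((sgT q hq f.1).1 ⟨q', hq'⟩).1 g = 0
  rw [sgT_ne q hq f.1 ⟨q', hq'⟩ h]; rfl

/-- the places of `L` above `T` -/
abbrev PlT (T : Finset Nat.Primes) (Γ : Subgroup GQ) : Type := Σ q : T, Pl q.1 Γ

/-- a class of order `p` supported at one place -/
structure PCls (p : ℕ) (T : Finset Nat.Primes) (Γ N : Subgroup GQ) [Γ.Normal] (w : PlT T Γ)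
    (Y : Γ → Γ → Jm T) (e : Γ → Jm T) : Prop where
  z2 : Y ∈ Z2 Γ (Jm T)
  lev : LN2 N Y
  le : LN N e
  pe : ∀ g h, p • Y g h = dd e g h
  dv : ∀ g h, (Y g h).1.2 = 0
  ne : ∀ w' : PlT T Γ, w' ≠ w → ∀ t s : dN w'.1.1 Γ,
    evq w'.1.2 w'.2.out (Y (iog w'.1.1 w'.2.out t) (iog w'.1.1 w'.2.out s)) = 0
  self : (fun t s : dN w.1.1 Γ =>
    evq w.1.2 w.2.out (Y (iog w.1.1 w.2.out t) (iog w.1.1 w.2.out s))) ∉
      B2l (dN w.1.1 Γ) (LM w.1.1)

section one

variable {E : IntermediateField ℚ Qb} (hE : E.IsUnramifiedOutside T)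
  [hEn : E.fixingSubgroup.Normal] {Γ : Subgroup GQ} [hΓ : Γ.Normal] (hEΓ : E.fixingSubgroup ≤ Γ)
  (w : PlT T Γ) {m : ℕ} {a : LM w.1.1} (ha : ∀ t ∈ dN w.1.1 Γ, t • a = a)
  {ψ : GQ → ZMod (p ^ (m + 1))} (hψ : ∀ x y, ψ (x * y) = ψ x + ψ y)
  (hψU : ∀ t ∈ dN w.1.1 Γ, p • ψ (localGaloisToGlobal (w.1.1 : ℕ) t) = 0)
  (hψN : ∀ s ∈ E.fixingSubgroup, ψ s = 0)
  (hcup : cup (p ^ (m + 1)) (lft (fun t : dN w.1.1 Γ => ψ
        (localGaloisToGlobal (w.1.1 : ℕ) (t : LG w.1.1)))) a ∉ B2l (dN w.1.1 Γ) (LM w.1.1))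

include hψ in
theorem nn_z2 (γ δ ε : GQ) : nn ψ γ δ + nn ψ (γ * δ) ε = nn ψ δ ε + nn ψ γ (δ * ε) := by
  have hpm : ((p ^ (m + 1) : ℕ) : ℤ) ≠ 0 := by exact_mod_cast (pow_pos hp.out.pos (m + 1)).ne'
  apply mul_right_cancel₀ hpm
  rw [add_mul, add_mul, nn_spec hψ, nn_spec hψ, nn_spec hψ, nn_spec hψ, mul_assoc]
  ring

include hψU hψN hcup in
theorem pcls : PCls p T Γ E.fixingSubgroup w
    (fun γ δ => nn ψ γ δ • sJ hE w.1.1 w.1.2 ⟨jw w.2.out ha, fix_mono hEΓ (jw_fix ha)⟩)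
    (fun γ => sJ hE w.1.1 w.1.2 ⟨ew w.2.out ψ hψ hψU ha γ, ew_fix hψ hψU ha hEΓ hψN γ⟩) where
  z2 := by
    intro γ δ ε
    have h1 : ∀ k : ℤ, (γ : Γ) • (k • sJ hE w.1.1 w.1.2
        ⟨jw w.2.out ha, fix_mono hEΓ (jw_fix ha)⟩) = k • sJ hE w.1.1 w.1.2
        ⟨jw w.2.out ha, fix_mono hEΓ (jw_fix ha)⟩ := by
      intro k
      rw [smul_comm]
      congr 1
      apply Subtype.ext
      exact sgT_fix w.1.1 w.1.2 (jw_fix ha) γ γ.2
    beta_reduce
    rw [h1, ← add_smul, ← add_smul]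
    congr 1
    exact nn_z2 hψ _ _ _
  lev := by
    refine ⟨fun g h n n' hn hn' => ?_, fun g h => (fix _ _).zsmul_mem (sJ_mem hE _ _ _) _⟩
    beta_reduce
    congr 1
    have h1 : ∀ (x : GQ) (s : GQ), s ∈ E.fixingSubgroup → lft ψ (x * s) = lft ψ x := by
      intro x s hs
      show ((ψ (x * s)).val : ℤ) = _
      rw [psi_N hψ hψN x hs]; rfl
    rw [nn, nn]
    congr 1
    have h2 : ((g * n : Γ) : GQ) * ((h * n' : Γ) : GQ) =
        (g : GQ) * h * (((h : GQ)⁻¹ * n * h) * n') := by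
      rw [Subgroup.coe_mul, Subgroup.coe_mul]; group
    have h3 : ((h : GQ)⁻¹ * n * h) * n' ∈ E.fixingSubgroup := by
      refine E.fixingSubgroup.mul_mem ?_ hn'
      have := hEn.conj_mem _ hn (h : GQ)⁻¹
      rwa [inv_inv] at this
    rw [h2, h1 _ _ h3, Subgroup.coe_mul, Subgroup.coe_mul, h1 _ _ hn, h1 _ _ hn']
  le := by
    refine ⟨fun g n hn => ?_, fun g => sJ_mem hE _ _ _⟩
    exact congrArg (sJ hE w.1.1 w.1.2) (Subtype.ext (ew_N hψ hψU ha hEΓ hψN g n hn))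
  pe := by
    intro γ δ
    apply Subtype.ext
    show p • nn ψ γ δ • sgT w.1.1 w.1.2 (jw w.2.out ha) =
      (sgT w.1.1 w.1.2 (ew w.2.out ψ hψ hψU ha γ) +
      (γ : GQ) • sgT w.1.1 w.1.2 (ew w.2.out ψ hψ hψU ha δ)) -
      sgT w.1.1 w.1.2 (ew w.2.out ψ hψ hψU ha (γ * δ))
    rw [← sgT_smul, ← map_add, ← map_sub, ← map_zsmul, ← map_nsmul]
    exact congrArg _ (ew_coc hψ hψU ha γ δ)
  dv := by
    intro γ δ
    show nn ψ γ δ • (sgT w.1.1 w.1.2 (jw w.2.out ha)).2 = 0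
    rw [sgT_snd, smul_zero]
  ne := by
    rintro w' hw' t s
    rw [map_zsmul]
    by_cases h : w'.1.1 = w.1.1
    · obtain ⟨⟨q, hq⟩, y⟩ := w
      obtain ⟨⟨q', hq'⟩, y'⟩ := w'
      have h' : q' = q := h
      subst h'
      have hy : y' ≠ y := fun hyy => hw' (by rw [hyy])
      rw [evq_sJ_self]
      have h2 : (jw y.out ha).1 y'.out = 0 := jwF_ne (not_db hy)
      rw [h2, smul_zero]
    · rw [evq_sJ_ne hE w.1.2 w'.1.2 h, smul_zero]
  self := by
    intro hmem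
    apply hcup
    have h1 : (fun t s : dN w.1.1 Γ =>
        evq w.1.2 w.2.out (nn ψ (iog w.1.1 w.2.out t) (iog w.1.1 w.2.out s) •
          sJ hE w.1.1 w.1.2 ⟨jw w.2.out ha, fix_mono hEΓ (jw_fix ha)⟩)) =
        cup (p ^ (m + 1)) (lft (fun t : dN w.1.1 Γ => ψ
        (localGaloisToGlobal (w.1.1 : ℕ) (t : LG w.1.1)))) a := by
      funext t s
      rw [map_zsmul, evq_sJ_self]
      have h2 : (jw w.2.out ha).1 w.2.out = a := by
        have := jwF_rep (q := w.1.1) (Γ := Γ) (g := w.2.out) ha 1 Γ.one_mem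
        rw [map_one, one_mul, mul_one, one_smul] at this
        exact this
      rw [h2]
      show ((lft ψ (iog w.1.1 w.2.out t) + lft ψ (iog w.1.1 w.2.out s) -
        lft ψ ((iog w.1.1 w.2.out t : GQ) * iog w.1.1 w.2.out s)) / _) • a = _
      have h3 : ∀ t : dN w.1.1 Γ, lft ψ (iog w.1.1 w.2.out t) =
          lft (fun t : dN w.1.1 Γ => ψ (localGaloisToGlobal (w.1.1 : ℕ) (t : LG w.1.1))) t := by
        intro t
        show ((ψ (w.2.out⁻¹ * localGaloisToGlobal (w.1.1 : ℕ) (t : LG w.1.1) * w.2.out)).val : ℤ) =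
          _
        rw [psi_conj hψ]; rfl
      have h4 : ((iog w.1.1 w.2.out t : GQ) * iog w.1.1 w.2.out s) = iog w.1.1 w.2.out (t * s) := by
        rw [iog_mul]; rfl
      rw [h4, h3, h3, h3]
      rfl
    rw [← h1]
    exact hmem

end one

include hp2 hpT hL in
/-- **the family of classes** -/
theorem exists_family : ∃ E : IntermediateField ℚ Qb, E.IsUnramifiedOutside T ∧
    E.fixingSubgroup.Normal ∧ L ≤ E ∧ ∃ (Y : PlT T L.fixingSubgroup → L.fixingSubgroup →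
      L.fixingSubgroup → Jm T) (e : PlT T L.fixingSubgroup → L.fixingSubgroup → Jm T),
      ∀ w, PCls p T L.fixingSubgroup E.fixingSubgroup w (Y w) (e w) := by
  haveI := hL.1
  have h1 := fun q : T => exists_loc hp2 q.1 (dN q.1 L.fixingSubgroup) (dN_open q.1 L)
  choose m r a ha hψU hcup using h1
  have hsub : ({pP p} : Finset Nat.Primes) ⊆ T := Finset.singleton_subset_iff.mpr hpT
  have h4 : (⨆ q : T, EF (m q + 1) hp2).IsUnramifiedOutside T :=
    IsUnramifiedOutside.iSup fun q => (EF_unram (m q + 1) hp2).mono hsub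
  obtain ⟨E, hE1, hE2, hE3⟩ := exists_galois_unram (hL.sup h4)
  haveI hEn := fixing_normal hE2.1 hE3
  have hEΓ : E.fixingSubgroup ≤ L.fixingSubgroup :=
    IntermediateField.fixingSubgroup_antitone (le_sup_left.trans hE1)
  have hψN : ∀ q : T, ∀ s ∈ E.fixingSubgroup, ps hp2 (m q + 1) (r q) s = 0 := by
    intro q s hs
    refine ps_of_EF hp2 ?_
    exact IntermediateField.fixingSubgroup_antitone
      ((le_iSup (fun q : T => EF (m q + 1) hp2) q).trans (le_sup_right.trans hE1)) hs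
  refine ⟨E, hE2, hEn, le_sup_left.trans hE1, _, _, fun w =>
    pcls hE2 hEΓ w (ha w.1) (ps_mul hp2 (m w.1 + 1) (r w.1)) (hψU w.1) (hψN w.1) (hcup w.1)⟩

end fam

end

end Fermat.Agent.EulerC
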