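import Fermat.Agent.EulerC.HAbs

set_option autoImplicit false
set_option maxHeartbeats 400000

/-! Global classes with given local invariants. -/

namespace Fermat.Agent.EulerC

open Finset Fermat.Agent.CFT Fermat.Agent.CFTSec Fermat.Agent.TWLocal

noncomputable section

section comb

variable {p : ℕ} [hp : Fact p.Prime] {T : Finset Nat.Primes} {Γ N : Subgroup GQ}
  [hΓ : Γ.Normal] [hN : N.Normal] [hfin : Fintype (PlT T Γ)]
  {Y : PlT T Γ → Γ → Γ → Jm T} {e : PlT T Γ → Γ → Jm T}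
  (hP : ∀ w, PCls p T Γ N w (Y w) (e w))

/-- the divisor part -/
def dvJ (T : Finset Nat.Primes) : Jm T →+ DivG T where
  toFun j := j.1.2
  map_zero' := rfl
  map_add' _ _ := rfl

theorem dvJ_smul (g : GQ) (j : Jm T) : dvJ T (g • j) = g • dvJ T j := rfl

/-- evaluation of a cochain at a place -/
def rW (w : PlT T Γ) : (Γ → Γ → Jm T) →+ (dN w.1.1 Γ → dN w.1.1 Γ → LM w.1.1) where
  toFun x := fun t s => evq w.1.2 w.2.out (x (iog w.1.1 w.2.out t) (iog w.1.1 w.2.out s))
  map_zero' := funext fun _ => funext fun _ => map_zero _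
  map_add' x y := funext fun _ => funext fun _ => map_add _ _ _

include hP in
theorem rW_lc2 (w : PlT T Γ) (c : PlT T Γ → ZMod p) :
    rW w (lc2 Y c) = (c w).val • rW w (Y w) := by
  classical
  rw [lc2, map_sum, Finset.sum_eq_single w]
  · rw [map_nsmul]
  · intro w' _ hw'
    rw [map_nsmul]
    have : rW w (Y w') = 0 := funext fun t => funext fun s => (hP w').ne w hw'.symm t s
    rw [this, smul_zero]
  · intro h
    exact absurd (Finset.mem_univ w) h

/-- the class of a family member in the idele class group -/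
def tCw (hP : ∀ w, PCls p T Γ N w (Y w) (e w)) (w : PlT T Γ) : T2N p N Γ (Cm T) :=
  ⟨mp2 (toC T) (Y w), mapZ2 (hP w).z2 (toC T) (fun g j => toC_smul (g : GQ) j),
    ⟨fun g h n n' hn hn' => congrArg (toC T) ((hP w).lev.1 g h n n' hn hn'), fun g h n hn => by
      show n • toC T (Y w g h) = toC T (Y w g h)
      rw [← toC_smul, (hP w).lev.2 g h n hn]⟩,
    ⟨fun g => toC T (e w g), (hP w).le.map (toC T) (fun g j => toC_smul g j), fun g h => by
      show p • toC T (Y w g h) = _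
      rw [← map_nsmul, (hP w).pe]
      exact dd_map' (toC T) (fun g j => toC_smul g j) (e w) g h⟩⟩

/-- the relation on the invariants -/
def KP (hP : ∀ w, PCls p T Γ N w (Y w) (e w)) (I : T2N p N Γ (Cm T) →+ ZMod p) :
    (PlT T Γ → ZMod p) →+ ZMod p where
  toFun c := ∑ w, c w * I (tCw hP w)
  map_zero' := Finset.sum_eq_zero fun w _ => zero_mul _
  map_add' c c' := by
    rw [← Finset.sum_add_distrib]
    exact Finset.sum_congr rfl fun w _ => add_mul _ _ _

theorem KP_spec (I : T2N p N Γ (Cm T) →+ ZMod p) (hI : ∀ x, I x = 0 ↔ x.1 ∈ B2N N Γ (Cm T))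
    {c : PlT T Γ → ZMod p} (hc : KP hP I c = 0) :
    ∃ b : Γ → Cm T, LN N b ∧ ∀ g h, toC T (lc2 Y c g h) = dd b g h := by
  have h1 : I (∑ w, (c w).val • tCw hP w) = 0 := by
    rw [map_sum, ← hc]
    show _ = ∑ w, c w * I (tCw hP w)
    refine Finset.sum_congr rfl fun w _ => ?_
    rw [map_nsmul, nsmul_eq_mul, ZMod.natCast_zmod_val]
  obtain ⟨b, hb, h2⟩ := (hI _).mp h1
  refine ⟨b, hb, fun g h => ?_⟩
  rw [← h2 g h]
  have h3 : ((∑ w, (c w).val • tCw hP w : T2N p N Γ (Cm T)) : Γ → Γ → Cm T) =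
      mp2 (toC T) (lc2 Y c) := by
    rw [map_lc2, AddSubgroup.val_finset_sum]
    rfl
  rw [h3]; rfl

/-- counting -/
theorem card_KP (I : T2N p N Γ (Cm T) →+ ZMod p) :
    p ^ Nat.card (PlT T Γ) ≤ Nat.card (KP hP I).ker * p := by
  haveI : Finite (PlT T Γ → ZMod p) := inferInstance
  have h1 : Nat.card (PlT T Γ → ZMod p) = p ^ Nat.card (PlT T Γ) := by
    rw [Nat.card_fun, Nat.card_zmod]
  have h2 := AddSubgroup.card_mul_index (KP hP I).ker
  rw [h1, AddSubgroup.index_ker] at h2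
  rw [← h2]
  refine Nat.mul_le_mul_left _ ?_
  have h3 : Nat.card (KP hP I).range ≤ Nat.card (ZMod p) :=
    Nat.card_le_card_of_injective _ (KP hP I).range.subtype_injective
  rwa [Nat.card_zmod] at h3

end comb

section main

variable {p : ℕ} [hp : Fact p.Prime] {ζ : Qb} (hζ : IsPrimitiveRoot ζ p)
  {T : Finset Nat.Primes} (hpT : pP p ∈ T) {L : IntermediateField ℚ Qb}
  (hL : L.IsUnramifiedOutside T) [hLn : L.fixingSubgroup.Normal] (hζL : ζ ∈ L)
  {E : IntermediateField ℚ Qb} (hE : E.IsUnramifiedOutside T) [hEn : E.fixingSubgroup.Normal]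
  (hLE : L ≤ E) [hfin : Fintype (PlT T L.fixingSubgroup)]
  {Y : PlT T L.fixingSubgroup → L.fixingSubgroup → L.fixingSubgroup → Jm T}
  {e : PlT T L.fixingSubgroup → L.fixingSubgroup → Jm T}
  (hP : ∀ w, PCls p T L.fixingSubgroup E.fixingSubgroup w (Y w) (e w))
  (I : T2N p E.fixingSubgroup L.fixingSubgroup (Cm T) →+ ZMod p)
  (hI : ∀ x, I x = 0 ↔ x.1 ∈ B2N E.fixingSubgroup L.fixingSubgroup (Cm T))
  {m : ℕ} (hm : ¬ p ∣ m)
  (hm1 : ∀ z : L.fixingSubgroup → Cm T, (∀ g h, z (g * h) = z g + g • z h) →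
      LN E.fixingSubgroup z →
      ∃ y ∈ fix (Cm T) E.fixingSubgroup, ∀ g : L.fixingSubgroup, m • z g = (g : GQ) • y - y)

theorem zQ_inv (g : L.fixingSubgroup) (a : ZMod p) :
    g • zQ hL hζ hζL a = zQ hL hζ hζL a := by
  have h5 := zQ_smul hL hζ hζL (g : GQ) 1 (by
    rw [ZMod.val_one, pow_one]
    exact (IntermediateField.mem_fixingSubgroup_iff L _).mp g.2 ζ hζL) a
  rw [one_mul] at h5
  exact h5

include hpT hE hLE hI hm1 in
/-- **global classes with given invariants** -/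
theorem exists_glob {c : PlT T L.fixingSubgroup → ZMod p} (hc : KP hP I c = 0) :
    ∃ (y : L.fixingSubgroup → L.fixingSubgroup → ZMod p) (B : L.fixingSubgroup → Jm T)
      (E' : IntermediateField ℚ Qb), E'.IsUnramifiedOutside T ∧
      (∀ g n : L.fixingSubgroup, (n : GQ) ∈ E'.fixingSubgroup → B (g * n) = B g) ∧
      (∀ g h k, y g h + y (g * h) k = y h k + y g (h * k)) ∧
      (∀ g h n n' : L.fixingSubgroup, (n : GQ) ∈ E'.fixingSubgroup →
        (n' : GQ) ∈ E'.fixingSubgroup → y (g * n) (h * n') = y g h) ∧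
      ∀ g h, diag T (zQ hL hζ hζL (y g h)) = m • lc2 Y c g h - dd B g h := by
  classical
  have hT : T.Nonempty := ⟨_, hpT⟩
  have hEΓ : E.fixingSubgroup ≤ L.fixingSubgroup := IntermediateField.fixingSubgroup_antitone hLE
  obtain ⟨b, hb, hYb⟩ := KP_spec hP I hI hc
  obtain ⟨b', x, f, hb'l, hx, hxZ, hxl, hfl, hpx, hdivx⟩ := glob_abs (p := p) hEΓ
    (diag_injective hT)
    (fun g x => diag_smul g x) (tc := toC T) (fun g x => toC_smul g x)
    (fun j => toC_eq_zero) (fun c hc => exists_fix_lift hT hE hc) (φ := dvJ T)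
    (fun g x => dvJ_smul g x) (lc2_z2 (fun w => (hP w).z2) c) (lc2_lev (fun w => (hP w).lev) c)
    (lc1_lev (fun w => (hP w).le) c) (p_lc2 (fun w g h => (hP w).pe g h) c)
    (phi_lc2 (dvJ T) (fun w g h => (hP w).dv g h) c) hb hYb hm1
  have hdivx' : ∀ g h, divQ ((m • x) g h) = dd (fun g => dvJ T ((-(m • b')) g)) g h := hdivx
  obtain ⟨k, E', hE', hEE', hkl, hpk⟩ := lift_class hpT hE hEΓ
    (fun g _ k hk => hEn.conj_mem k hk g) hpx hdivx' hfl
    ((hb'l.nsmul m).neg.map (dvJ T) (fun g x => dvJ_smul g x))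
  obtain ⟨E'', hE1, hE2, hE3⟩ := exists_galois_unram hE'
  haveI := fixing_normal hE2.1 hE3
  have hle : E''.fixingSubgroup ≤ E'.fixingSubgroup := IntermediateField.fixingSubgroup_antitone hE1
  have hle' : E''.fixingSubgroup ≤ E.fixingSubgroup :=
    IntermediateField.fixingSubgroup_antitone (hEE'.trans hE1)
  have hy : ∀ g h, ∃ a, zQ hL hζ hζL a = (m • x) g h - dd k g h := fun g h =>
    zQ_surj hL hζ hζL _ (hpk g h)
  choose y hy using hy
  refine ⟨y, m • b' + fun g => diag T (k g), E'', hE2, fun g n hn => ?_, fun g h l => ?_,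
    fun g h n n' hn hn' => ?_, fun g h => ?_⟩
  · show m • b' (g * n) + diag T (k (g * n)) = m • b' g + diag T (k g)
    rw [hb'l.1 g n (hle' hn), hkl.1 g n (hle hn)]
  · apply zQ_inj hL hζ hζL
    have h1 : (m • x - dd k) ∈ Z2 L.fixingSubgroup (QS T) :=
      (Z2 _ _).sub_mem ((Z2 _ _).nsmul_mem hxZ m) (B2_le_Z2 (dd_mem_B2 k))
    have h2 := h1 g h l
    have h0 : ∀ g h, (m • x - dd k) g h = zQ hL hζ hζL (y g h) := fun g h => (hy g h).symm
    rw [h0, h0, h0, h0, zQ_inv] at h2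
    rw [map_add, map_add]
    exact h2
  · apply zQ_inj hL hζ hζL
    rw [hy, hy]
    have h1 := (hkl.mono hle).dd
    rw [h1.1 g h n n' hn hn']
    show m • x (g * n) (h * n') - _ = m • x g h - _
    rw [hxl.1 g h n n' (hle' hn) (hle' hn')]
  · rw [hy, map_sub]
    have h1 : dd (m • b' + fun g => diag T (k g)) g h = m • dd b' g h + diag T (dd k g h) := by
      rw [dd_add', dd_nsmul']
      have h2 : diag T (dd k g h) = dd (fun g => diag T (k g)) g h :=
        dd_map' (diag T) (fun g j => diag_smul g j) k g h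
      rw [h2]
      rfl
    have h3 : diag T ((m • x) g h) = m • (lc2 Y c g h - dd b' g h) := by
      show diag T (m • x g h) = _
      rw [map_nsmul, hx]
    rw [h1, h3, smul_sub]
    abel

include hm hE hP in
/-- **injectivity** -/
theorem glob_inj {c c' : PlT T L.fixingSubgroup → ZMod p}
    {y y' : L.fixingSubgroup → L.fixingSubgroup → ZMod p} {B B' : L.fixingSubgroup → Jm T}
    {E₁ : IntermediateField ℚ Qb} (hE₁ : E₁.IsUnramifiedOutside T)
    (hB : ∀ g n : L.fixingSubgroup, (n : GQ) ∈ E₁.fixingSubgroup → B (g * n) = B g)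
    (hB' : ∀ g n : L.fixingSubgroup, (n : GQ) ∈ E₁.fixingSubgroup → B' (g * n) = B' g)
    (hy : ∀ g h, diag T (zQ hL hζ hζL (y g h)) = m • lc2 Y c g h - dd B g h)
    (hy' : ∀ g h, diag T (zQ hL hζ hζL (y' g h)) = m • lc2 Y c' g h - dd B' g h)
    {β : L.fixingSubgroup → ZMod p}
    (hβ : ∀ g n : L.fixingSubgroup, (n : GQ) ∈ E₁.fixingSubgroup → β (g * n) = β g)
    (hyβ : ∀ g h, y g h - y' g h = β g + β h - β (g * h)) : c = c' := by
  classical
  have h1 : ∀ g h, dd (fun g => diag T (zQ hL hζ hζL (β g))) g h =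
      diag T (zQ hL hζ hζL (y g h)) - diag T (zQ hL hζ hζL (y' g h)) := by
    intro g h
    have h2 : diag T (dd (fun g => zQ hL hζ hζL (β g)) g h) =
        dd (fun g => diag T (zQ hL hζ hζL (β g))) g h :=
      dd_map' (diag T) (fun g j => diag_smul g j) _ g h
    rw [← h2, ← map_sub, ← map_sub, hyβ]
    congr 1
    show zQ hL hζ hζL (β g) + g • zQ hL hζ hζL (β h) - zQ hL hζ hζL (β (g * h)) = _
    rw [zQ_inv, map_sub, map_add]
  have h2 : m • (lc2 Y c - lc2 Y c') = dd (B - B' + fun g => diag T (zQ hL hζ hζL (β g))) := by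
    funext g h
    rw [dd_add', dd_sub']
    show m • (lc2 Y c g h - lc2 Y c' g h) = dd B g h - dd B' g h +
      dd (fun g => diag T (zQ hL hζ hζL (β g))) g h
    rw [h1, hy, hy', smul_sub]
    abel
  funext w
  have h3 : rW w (m • (lc2 Y c - lc2 Y c')) ∈ B2l (dN w.1.1 L.fixingSubgroup) (LM w.1.1) := by
    rw [h2]
    refine evq_B2l w.1.2 w.2.out hE₁ (b := B - B' + fun g => diag T (zQ hL hζ hζL (β g)))
      (fun g n hn => ?_)
    show B (g * n) - B' (g * n) + diag T (zQ hL hζ hζL (β (g * n))) =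
      B g - B' g + diag T (zQ hL hζ hζL (β g))
    rw [hB g n hn, hB' g n hn, hβ g n hn]
  rw [map_nsmul, map_sub, rW_lc2 hP, rW_lc2 hP] at h3
  have h4 : p • rW w (Y w) ∈ B2l (dN w.1.1 L.fixingSubgroup) (LM w.1.1) := by
    have h5 : p • rW w (Y w) = rW w (dd (e w)) := by
      rw [← map_nsmul]
      congr 1
      funext g h
      exact (hP w).pe g h
    rw [h5]
    exact evq_B2l w.1.2 w.2.out hE (fun g n hn => (hP w).le.1 g n hn)
  exact coef_inj hm (hP w).self h4 h3

end main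

end

end Fermat.Agent.EulerC
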