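import Fermat.Agent.EulerC.HLift

set_option autoImplicit false
set_option maxHeartbeats 400000

/-! Invariants of classes on subgroups, in terms of cochains with a level. -/

namespace Fermat.Agent.EulerC

open Finset Fermat.Agent.CFT Fermat.Agent.CFTSec Fermat.Agent.TWLocal

noncomputable section

section inv

variable (p : ℕ) (N Γ : Subgroup GQ) (A : Type*) [AddCommGroup A] [DistribMulAction GQ A]

theorem LN2.add {N Γ : Subgroup GQ} {A : Type*} [AddCommGroup A] [DistribMulAction GQ A]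
    {x y : Γ → Γ → A} (hx : LN2 N x) (hy : LN2 N y) : LN2 N (x + y) :=
  ⟨fun g h n n' hn hn' => congrArg₂ (· + ·) (hx.1 g h n n' hn hn') (hy.1 g h n n' hn hn'),
    fun g h => (fix A N).add_mem (hx.2 g h) (hy.2 g h)⟩

theorem LN2.neg {N Γ : Subgroup GQ} {A : Type*} [AddCommGroup A] [DistribMulAction GQ A]
    {x : Γ → Γ → A} (hx : LN2 N x) : LN2 N (-x) :=
  ⟨fun g h n n' hn hn' => congrArg (- ·) (hx.1 g h n n' hn hn'),
    fun g h => (fix A N).neg_mem (hx.2 g h)⟩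

theorem LN2.zero {N Γ : Subgroup GQ} {A : Type*} [AddCommGroup A] [DistribMulAction GQ A] :
    LN2 N (0 : Γ → Γ → A) := ⟨fun _ _ _ _ _ _ => rfl, fun _ _ => (fix A N).zero_mem⟩

theorem dd_zero' {Γ : Subgroup GQ} {A : Type*} [AddCommGroup A] [DistribMulAction GQ A] :
    dd (0 : Γ → A) = 0 := by
  funext g h
  show (0 : A) + g • (0 : A) - 0 = 0
  rw [smul_zero, add_zero, sub_zero]

theorem dd_neg' {Γ : Subgroup GQ} {A : Type*} [AddCommGroup A] [DistribMulAction GQ A]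
    (b : Γ → A) : dd (-b) = -dd b := by
  funext g h
  show -b g + g • (-b h) - -b (g * h) = -(b g + g • b h - b (g * h))
  rw [smul_neg]; abel

/-- coboundaries with a level -/
def B2N : AddSubgroup (Γ → Γ → A) where
  carrier := {x | ∃ b : Γ → A, LN N b ∧ ∀ g h, x g h = dd b g h}
  zero_mem' := ⟨0, LN.zero, fun g h => by rw [dd_zero']⟩
  add_mem' := by
    rintro x y ⟨b, hb, hx⟩ ⟨b', hb', hy⟩
    exact ⟨b + b', hb.add hb', fun g h => by
      rw [dd_add']; exact congrArg₂ (· + ·) (hx g h) (hy g h)⟩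
  neg_mem' := by
    rintro x ⟨b, hb, hx⟩
    exact ⟨-b, hb.neg, fun g h => by rw [dd_neg']; exact congrArg (- ·) (hx g h)⟩

/-- 2-cocycles with a level, killed by `p` up to coboundaries -/
def T2N : AddSubgroup (Γ → Γ → A) where
  carrier := {x | x ∈ Z2 Γ A ∧ LN2 N x ∧ p • x ∈ B2N N Γ A}
  zero_mem' := ⟨(Z2 Γ A).zero_mem, LN2.zero, by rw [smul_zero]; exact (B2N N Γ A).zero_mem⟩
  add_mem' := fun hx hy => ⟨(Z2 Γ A).add_mem hx.1 hy.1, hx.2.1.add hy.2.1, by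
    rw [smul_add]; exact (B2N N Γ A).add_mem hx.2.2 hy.2.2⟩
  neg_mem' := fun hx => ⟨(Z2 Γ A).neg_mem hx.1, hx.2.1.neg, by
    rw [smul_neg]; exact (B2N N Γ A).neg_mem hx.2.2⟩

variable {N Γ A}

variable [hN : N.Normal]

/-- a section of the projection -/
def scU (N Γ : Subgroup GQ) [N.Normal] (y : PU N Γ) : Γ := (piU_surj N Γ y).choose

omit hN in
theorem scU_spec [hN : N.Normal] (y : PU N Γ) : piU N Γ (scU N Γ y) = y :=
  (piU_surj N Γ y).choose_spec

theorem scU_mul (g : Γ) : ∃ n : Γ, (n : GQ) ∈ N ∧ scU N Γ (piU N Γ g) = g * n := by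
  refine ⟨g⁻¹ * scU N Γ (piU N Γ g), ?_, by group⟩
  exact piU_eq N Γ (scU_spec (piU N Γ g)).symm

/-- descent of cochains in two variables -/
def dc2 (x : Γ → Γ → A) (hx : LN2 N x) : PU N Γ → PU N Γ → fix A N :=
  fun y z => ⟨x (scU N Γ y) (scU N Γ z), hx.2 _ _⟩

theorem dc2_spec {x : Γ → Γ → A} (hx : LN2 N x) (g h : Γ) :
    ((dc2 x hx (piU N Γ g) (piU N Γ h) : fix A N) : A) = x g h := by
  obtain ⟨n, hn, h1⟩ := scU_mul (N := N) g
  obtain ⟨n', hn', h2⟩ := scU_mul (N := N) h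
  show x (scU N Γ (piU N Γ g)) (scU N Γ (piU N Γ h)) = x g h
  rw [h1, h2, hx.1 g h n n' hn hn']

/-- descent of cochains in one variable -/
def dc1 (b : Γ → A) (hb : LN N b) : PU N Γ → fix A N := fun y => ⟨b (scU N Γ y), hb.2 _⟩

theorem dc1_spec {b : Γ → A} (hb : LN N b) (g : Γ) :
    ((dc1 b hb (piU N Γ g) : fix A N) : A) = b g := by
  obtain ⟨n, hn, h1⟩ := scU_mul (N := N) g
  show b (scU N Γ (piU N Γ g)) = b g
  rw [h1, hb.1 g n hn]

theorem dc2_B2 {x : Γ → Γ → A} (hx : LN2 N x) :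
    dc2 x hx ∈ B2 (PU N Γ) (fix A N) ↔ x ∈ B2N N Γ A := by
  constructor
  · rintro ⟨b', hb'⟩
    refine ⟨fun g => (b' (piU N Γ g) : A), ⟨fun g n hn => ?_, fun g => (b' _).2⟩, fun g h => ?_⟩
    · have h1 : piU N Γ (g * n) = piU N Γ g := by
        apply Subtype.ext
        show (QuotientGroup.mk ((g : GQ) * n) : GQ ⧸ N) = QuotientGroup.mk (g : GQ)
        rw [QuotientGroup.eq, mul_inv_rev, inv_mul_cancel_right]
        exact N.inv_mem hn
      beta_reduce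
      rw [h1]
    · rw [← dc2_spec hx g h, hb']
      show ((b' (piU N Γ g) : A) + ((piU N Γ g • b' (piU N Γ h) : fix A N) : A)) -
        (b' (piU N Γ g * piU N Γ h) : A) = _
      rw [piU_smul, ← map_mul]
      rfl
  · rintro ⟨b, hb, hxb⟩
    exact ⟨dc1 b hb, desc_B2 N Γ (fun g => dc1_spec hb g) (fun g k => dc2_spec hx g k) hxb⟩

/-- the invariant of classes on a subgroup -/
theorem exists_invN [Fact p.Prime] [Finite (PU N Γ)] {u : PU N Γ → PU N Γ → fix A N}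
    (hcf : CFLayer p (PU N Γ) (fix A N) u) :
    ∃ I : T2N p N Γ A →+ ZMod p, ∀ x, I x = 0 ↔ x.1 ∈ B2N N Γ A := by
  obtain ⟨I, hI⟩ := exists_inv hcf
  let D : T2N p N Γ A →+ T2p p (PU N Γ) (fix A N) :=
    { toFun := fun x => ⟨dc2 x.1 x.2.2.1, desc_Z2 N Γ (fun g k => dc2_spec x.2.2.1 g k) x.2.1, by
        have hl : LN2 N (p • x.1) := ⟨fun g h n n' hn hn' =>
            congrArg (p • ·) (x.2.2.1.1 g h n n' hn hn'),
            fun g h => (fix A N).nsmul_mem (x.2.2.1.2 g h) p⟩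
        have h1 : dc2 (p • x.1) hl ∈ B2 (PU N Γ) (fix A N) := (dc2_B2 hl).mpr x.2.2.2
        exact h1⟩
      map_zero' := rfl
      map_add' := fun x y => rfl }
  refine ⟨I.comp D, fun x => ?_⟩
  rw [AddMonoidHom.comp_apply, hI]
  exact dc2_B2 x.2.2.1

/-- vanishing of `H¹` up to a prime-to-`p` factor -/
theorem exists_h1N [hp : Fact p.Prime] [Finite (PU N Γ)] {u : PU N Γ → PU N Γ → fix A N}
    (hcf : CFLayer p (PU N Γ) (fix A N) u) :
    ∃ m : ℕ, ¬ p ∣ m ∧ ∀ z : Γ → A, (∀ g h, z (g * h) = z g + g • z h) → LN N z →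
      ∃ y ∈ fix A N, ∀ g : Γ, m • z g = (g : GQ) • y - y := by
  obtain ⟨P, hP, hPi⟩ := exists_sylow_index (PU N Γ) p
  refine ⟨P.index, hPi, fun z hz hl => ?_⟩
  have h1 : dc1 z hl ∈ Z1 (PU N Γ) (fix A N) := desc_Z1 N Γ (fun g => dc1_spec hl g) hz
  haveI : P.FiniteIndex := inferInstance
  obtain ⟨y, hy⟩ := cor_res1 P h1 (hcf.h1 P hP (fun g h => h1 g h))
  refine ⟨y.1, y.2, fun g => ?_⟩
  have h2 := congrArg Subtype.val (hy (piU N Γ g))
  have h3 : P.index • z g = ((P.index • dc1 z hl) (piU N Γ g) : A) := by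
    show _ = P.index • ((dc1 z hl (piU N Γ g) : fix A N) : A)
    rw [dc1_spec]
  rw [h3, h2]
  show ((piU N Γ g • y : fix A N) : A) - y.1 = _
  rw [piU_smul]
  rfl

end inv

section pack

variable {p : ℕ} [hp : Fact p.Prime] (hp2 : 2 < p) {ζ : Qb} (hζ : IsPrimitiveRoot ζ p)
  {T : Finset Nat.Primes} (hpT : pP p ∈ T) {E : IntermediateField ℚ Qb}
  (hE : E.IsUnramifiedOutside T) [hEn : E.fixingSubgroup.Normal] (hζE : ζ ∈ E)

include hp2 hζ hpT hE hζE in
theorem glob_pack (Γ : Subgroup GQ) :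
    (∃ I : T2N p E.fixingSubgroup Γ (Cm T) →+ ZMod p, ∀ x, I x = 0 ↔
      x.1 ∈ B2N E.fixingSubgroup Γ (Cm T)) ∧
    ∃ m : ℕ, ¬ p ∣ m ∧ ∀ z : Γ → Cm T, (∀ g h, z (g * h) = z g + g • z h) →
      LN E.fixingSubgroup z →
      ∃ y ∈ fix (Cm T) E.fixingSubgroup, ∀ g : Γ, m • z g = (g : GQ) • y - y := by
  haveI := hE.1
  haveI : Finite (GQ ⧸ E.fixingSubgroup) := inferInstance
  obtain ⟨u, hu⟩ := exists_global_class hp2 hpT hE hζ hζE
  have hcf := cfLayer_sub hu (PU E.fixingSubgroup Γ)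
  exact ⟨exists_invN p hcf, exists_h1N p hcf⟩

end pack

end

end Fermat.Agent.EulerC
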