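import Fermat.Agent.EulerC.HPl
import Fermat.Agent.EulerC.Ext

set_option autoImplicit false
set_option maxHeartbeats 400000

/-! Lifting classes to coefficients in roots of unity. -/

namespace Fermat.Agent.EulerC

open Finset Fermat.Agent.CFT Fermat.Agent.CFTSec Fermat.Agent.TWLocal

noncomputable section

section levels

variable {Γ : Subgroup GQ} {A : Type*} [AddCommGroup A] [DistribMulAction GQ A]

/-- cochains of level `N` -/
def LN (N : Subgroup GQ) (b : Γ → A) : Prop :=
  (∀ g n : Γ, (n : GQ) ∈ N → b (g * n) = b g) ∧ ∀ g, b g ∈ fix A N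

/-- 2-cochains of level `N` -/
def LN2 (N : Subgroup GQ) (x : Γ → Γ → A) : Prop :=
  (∀ g h n n' : Γ, (n : GQ) ∈ N → (n' : GQ) ∈ N → x (g * n) (h * n') = x g h) ∧
    ∀ g h, x g h ∈ fix A N

theorem LN.mono {N N' : Subgroup GQ} (h : N' ≤ N) {b : Γ → A} (hb : LN N b) : LN N' b :=
  ⟨fun g n hn => hb.1 g n (h hn), fun g => fix_mono h (hb.2 g)⟩

theorem LN.add {N : Subgroup GQ} {b b' : Γ → A} (hb : LN N b) (hb' : LN N b') :
    LN N (b + b') :=
  ⟨fun g n hn => congrArg₂ (· + ·) (hb.1 g n hn) (hb'.1 g n hn),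
    fun g => (fix A N).add_mem (hb.2 g) (hb'.2 g)⟩

theorem LN.neg {N : Subgroup GQ} {b : Γ → A} (hb : LN N b) : LN N (-b) :=
  ⟨fun g n hn => congrArg (- ·) (hb.1 g n hn), fun g => (fix A N).neg_mem (hb.2 g)⟩

theorem LN.sub {N : Subgroup GQ} {b b' : Γ → A} (hb : LN N b) (hb' : LN N b') :
    LN N (b - b') :=
  ⟨fun g n hn => congrArg₂ (· - ·) (hb.1 g n hn) (hb'.1 g n hn),
    fun g => (fix A N).sub_mem (hb.2 g) (hb'.2 g)⟩

theorem LN.zero {N : Subgroup GQ} : LN N (0 : Γ → A) := ⟨fun _ _ _ => rfl, fun _ => (fix A N).zero_mem⟩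

theorem LN.nsmul {N : Subgroup GQ} {b : Γ → A} (hb : LN N b) (k : ℕ) :
    LN N (k • b) :=
  ⟨fun g n hn => congrArg (k • ·) (hb.1 g n hn), fun g => (fix A N).nsmul_mem (hb.2 g) k⟩

theorem LN.map {N : Subgroup GQ} {b : Γ → A} (hb : LN N b) {B : Type*} [AddCommGroup B]
    [DistribMulAction GQ B] (φ : A →+ B) (hφ : ∀ (g : GQ) a, φ (g • a) = g • φ a) :
    LN N (fun g => φ (b g)) :=
  ⟨fun g n hn => congrArg φ (hb.1 g n hn), fun g n hn => by rw [← hφ, hb.2 g n hn]⟩

theorem dd_add' (b b' : Γ → A) : dd (b + b') = dd b + dd b' := by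
  funext g h
  show (b g + b' g) + g • (b h + b' h) - (b (g * h) + b' (g * h)) =
    (b g + g • b h - b (g * h)) + (b' g + g • b' h - b' (g * h))
  rw [smul_add]; abel

theorem dd_sub' (b b' : Γ → A) : dd (b - b') = dd b - dd b' := by
  funext g h
  show (b g - b' g) + g • (b h - b' h) - (b (g * h) - b' (g * h)) =
    (b g + g • b h - b (g * h)) - (b' g + g • b' h - b' (g * h))
  rw [smul_sub]; abel

theorem dd_nsmul' (k : ℕ) (b : Γ → A) : dd (k • b) = k • dd b := by
  funext g h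
  show k • b g + g • (k • b h) - k • b (g * h) = k • (b g + g • b h - b (g * h))
  rw [smul_comm g k, smul_sub, smul_add]

theorem dd_map' {B : Type*} [AddCommGroup B] [DistribMulAction GQ B] (φ : A →+ B)
    (hφ : ∀ (g : GQ) a, φ (g • a) = g • φ a) (b : Γ → A) (g h : Γ) :
    φ (dd b g h) = dd (fun g => φ (b g)) g h := by
  show φ (b g + g • b h - b (g * h)) = φ (b g) + g • φ (b h) - φ (b (g * h))
  rw [map_sub, map_add]
  congr 2
  exact hφ g _

/-- the coboundary of an element -/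
theorem LN.cob {N : Subgroup GQ} (hN : ∀ g ∈ Γ, ∀ k ∈ N, g * k * g⁻¹ ∈ N) (hNΓ : N ≤ Γ) {a : A}
    (ha : a ∈ fix A N) :
    LN N (fun g : Γ => (g : GQ) • a - a) := by
  refine ⟨fun g n hn => ?_, fun g => (fix A N).sub_mem (fun k hk => ?_) ha⟩
  · show ((g * n : Γ) : GQ) • a - a = _
    rw [Subgroup.coe_mul, mul_smul, ha _ hn]
  · have h1 : (g : GQ)⁻¹ * k * g ∈ N := by
      have := hN (g : GQ)⁻¹ (Γ.inv_mem g.2) k hk
      rwa [inv_inv] at this
    calc k • (g : GQ) • a = (g : GQ) • ((g : GQ)⁻¹ * k * g) • a := by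
          rw [smul_smul, smul_smul]; congr 1; group
      _ = (g : GQ) • a := by rw [ha _ h1]

end levels

section divh1

variable {T : Finset Nat.Primes} {Γ : Subgroup GQ}

/-- integer division of a divisor -/
def divZ (D : DivG T) (n : ℤ) : DivG T :=
  ⟨fun q σ => D.1 q σ / n, fun q τ σ => congrArg (· / n) (D.2.1 q τ σ), by
    refine D.2.2.1.subset fun q hq h0 => hq ?_
    funext σ
    show D.1 q σ / n = 0
    rw [h0]
    exact Int.zero_ediv n, fun q hq => by
    funext σ
    show D.1 q σ / n = 0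
    rw [D.2.2.2 q hq]
    exact Int.zero_ediv n⟩

/-- cocycles with values in divisors are coboundaries -/
theorem h1_div {N : Subgroup GQ} [N.FiniteIndex] (hN : ∀ g ∈ Γ, ∀ k ∈ N, g * k * g⁻¹ ∈ N)
    (hNΓ : N ≤ Γ) {c : Γ → DivG T} (hc : ∀ g h, c (g * h) = c g + g • c h) (hl : LN N c) :
    ∃ D ∈ fix (DivG T) N, ∀ g : Γ, c g = g • D - D := by
  classical
  haveI : (N.subgroupOf Γ).FiniteIndex := inferInstance
  haveI : Fintype (Γ ⧸ N.subgroupOf Γ) := Fintype.ofFinite _
  set n := Fintype.card (Γ ⧸ N.subgroupOf Γ) with hn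
  have hn0 : (n : ℤ) ≠ 0 := by
    rw [hn]
    exact_mod_cast Fintype.card_ne_zero
  set D₀ : DivG T := -∑ y : Γ ⧸ N.subgroupOf Γ, c y.out with hD₀
  have hout : ∀ g : Γ, c ((QuotientGroup.mk g : Γ ⧸ N.subgroupOf Γ).out) = c g := fun g =>
    out_eqΓ (N := N.subgroupOf Γ) c (fun g d hd => hl.1 g d hd) g
  have h1 : ∀ g : Γ, n • c g = g • D₀ - D₀ := by
    intro g
    have h2 : ∑ y : Γ ⧸ N.subgroupOf Γ, c y.out = ∑ y : Γ ⧸ N.subgroupOf Γ, c (g * y.out) := by
      have h3 : ∀ y : Γ ⧸ N.subgroupOf Γ, c (g * y.out) = c ((g • y).out) := by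
        intro y
        induction y using QuotientGroup.induction_on with
        | H y =>
          have h4 : g • (QuotientGroup.mk y : Γ ⧸ N.subgroupOf Γ) = QuotientGroup.mk (g * y) := rfl
          rw [h4, hout, hc, hc, hout]
      rw [Finset.sum_congr rfl fun y _ => h3 y]
      exact (Equiv.sum_comp (MulAction.toPerm g) fun y : Γ ⧸ N.subgroupOf Γ => c y.out).symm
    have h5 : ∑ y : Γ ⧸ N.subgroupOf Γ, c (g * y.out) =
        n • c g + g • ∑ y : Γ ⧸ N.subgroupOf Γ, c y.out := by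
      rw [Finset.sum_congr rfl fun y _ => hc g y.out, Finset.sum_add_distrib, Finset.sum_const,
        Finset.card_univ, Finset.smul_sum]
    rw [hD₀, smul_neg]
    have h6 := h2.trans h5
    have h7 : n • c g = ∑ y : Γ ⧸ N.subgroupOf Γ, c y.out -
        g • ∑ y : Γ ⧸ N.subgroupOf Γ, c y.out := eq_sub_of_add_eq h6.symm
    rw [h7]; abel
  have hD₀f : D₀ ∈ fix (DivG T) N := (fix _ _).neg_mem (AddSubgroup.sum_mem _ fun y _ => hl.2 _)
  refine ⟨divZ D₀ n, fun k hk => ?_, fun g => ?_⟩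
  · apply Subtype.ext
    funext q σ
    show D₀.1 q (σ * k) / n = D₀.1 q σ / n
    have h8 := congrArg (fun z : DivG T => z.1 q σ) (hD₀f k hk)
    have h9 : D₀.1 q (σ * k) = D₀.1 q σ := h8
    rw [h9]
  · apply Subtype.ext
    funext q σ
    show (c g).1 q σ = D₀.1 q (σ * g) / n - D₀.1 q σ / n
    have h8 := congrArg (fun z : DivG T => z.1 q σ) (h1 g)
    have h9 : n * (c g).1 q σ = D₀.1 q (σ * g) - D₀.1 q σ := by
      have h10 : (n • c g).1 q σ = n * (c g).1 q σ := divG_nsmul_apply n (c g) q σ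
      rw [← h10]
      exact h8
    have h11 : D₀.1 q (σ * g) = D₀.1 q σ + n * (c g).1 q σ := by rw [h9]; ring
    rw [h11, Int.add_mul_ediv_left _ _ hn0]
    ring

end divh1

section lift

variable {T : Finset Nat.Primes} {p : ℕ} [hp : Fact p.Prime] (hpT : pP p ∈ T)
  {Γ : Subgroup GQ} {E : IntermediateField ℚ Qb} (hE : E.IsUnramifiedOutside T)
  (hEΓ : E.fixingSubgroup ≤ Γ)

include hpT hE hEΓ in
/-- **lifting lemma** -/
theorem lift_class (hEn : ∀ g ∈ Γ, ∀ k ∈ E.fixingSubgroup, g * k * g⁻¹ ∈ E.fixingSubgroup)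
    {X : Γ → Γ → QS T} {f : Γ → QS T} {β : Γ → DivG T}
    (hf : ∀ g h, p • X g h = dd f g h) (hβ : ∀ g h, divQ (X g h) = dd β g h)
    (hfl : LN E.fixingSubgroup f) (hβl : LN E.fixingSubgroup β) :
    ∃ (k : Γ → QS T) (E' : IntermediateField ℚ Qb), E'.IsUnramifiedOutside T ∧ E ≤ E' ∧
      LN E'.fixingSubgroup k ∧ ∀ g h, p • (X g h - dd k g h) = 0 := by
  classical
  haveI := hE.1
  haveI : E.fixingSubgroup.FiniteIndex := finiteIndex_fixingSubgroup E
  -- the cocycle of divisors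
  obtain ⟨D, hDf, hD⟩ := h1_div hEn hEΓ (c := fun g => divH T (f g) - p • β g) (by
      intro g h
      have h1 := congrArg (divH T) (hf g h)
      rw [map_nsmul, divH_apply, hβ, dd_map' (divH T) (fun g x => divQ_smul g x)] at h1
      have h2 : p • (β g + g • β h - β (g * h)) =
        divH T (f g) + g • divH T (f h) - divH T (f (g * h)) := h1
      have h3 : divH T (f (g * h)) = divH T (f g) + g • divH T (f h) -
          p • (β g + g • β h - β (g * h)) := by rw [h2]; abel
      rw [h3, smul_sub, smul_sub, smul_add, smul_comm g p]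
      abel)
    ((hfl.map (divH T) (fun g x => divQ_smul g x)).sub (hβl.nsmul p))
  obtain ⟨a, D', ha⟩ := cap (p := p) hpT (mkD hE D hDf)
  have ha' : D = divQ a + p • D' := ha
  obtain ⟨F, hF, haF⟩ := a.2
  -- the modified cochain
  have hdiv : ∀ g : Γ, divQ (f g - (g • a - a)) = p • (β g + g • D' - D') := by
    intro g
    have h1 : divH T (f g - (g • a - a)) = divH T (f g) - (g • divH T a - divH T a) := by
      rw [map_sub, map_sub]
      congr 2
    have h2 : divH T (f g) = p • β g + (g • D - D) := by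
      rw [← hD g]; abel
    show divH T (f g - (g • a - a)) = _
    rw [h1, h2, ha', divH_apply, smul_add, smul_sub, smul_add, smul_comm g p]
    abel
  let R : QS T → QS T := fun x => if h : ∃ y : QS T, p • y = x then h.choose else 0
  have hR : ∀ x : QS T, (∃ y : QS T, p • y = x) → p • R x = x := fun x h => by
    show p • (if h : ∃ y : QS T, p • y = x then h.choose else 0) = x
    rw [dif_pos h]
    exact h.choose_spec
  let k : Γ → QS T := fun g => R (f g - (g • a - a))
  have hk : ∀ g, p • k g = f g - (g • a - a) := fun g => hR _ (by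
    obtain ⟨y, hy, -⟩ := exists_root_of_div hpT _ _ (hdiv g)
    exact ⟨y, hy⟩)
  have hEF : (E ⊔ F).IsUnramifiedOutside T := hE.sup hF
  have hkc : ∀ g n : Γ, (n : GQ) ∈ (E ⊔ F).fixingSubgroup → k (g * n) = k g := by
    intro g n hn
    show R _ = R _
    congr 1
    have h1 : (n : GQ) • a = a :=
      Subtype.ext (haF _ (IntermediateField.fixingSubgroup_antitone le_sup_right hn))
    have h2 : (g * n) • a = g • a := by
      show ((g : GQ) * n) • a = (g : GQ) • a
      rw [mul_smul, h1]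
    rw [hfl.1 g n (IntermediateField.fixingSubgroup_antitone le_sup_left hn), h2]
  haveI := hEF.1
  haveI : (E ⊔ F).fixingSubgroup.FiniteIndex := finiteIndex_fixingSubgroup (E ⊔ F)
  haveI : Finite (Γ ⧸ (E ⊔ F).fixingSubgroup.subgroupOf Γ) := inferInstance
  have hlev : ∀ y : Γ ⧸ (E ⊔ F).fixingSubgroup.subgroupOf Γ, ∃ G : IntermediateField ℚ Qb,
      G.IsUnramifiedOutside T ∧ k y.out ∈ fix (QS T) G.fixingSubgroup := by
    intro y
    obtain ⟨G, hG, h⟩ := (k y.out).2
    exact ⟨G, hG, fun g hg => Subtype.ext (h g hg)⟩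
  choose G hG hkG using hlev
  refine ⟨k, (E ⊔ F) ⊔ ⨆ y, G y, hEF.sup (IsUnramifiedOutside.iSup hG),
    le_sup_left.trans le_sup_left, ⟨fun g n hn => hkc g n
      (IntermediateField.fixingSubgroup_antitone le_sup_left hn), fun g => ?_⟩, fun g h => ?_⟩
  · have h1 : k ((QuotientGroup.mk g : Γ ⧸ (E ⊔ F).fixingSubgroup.subgroupOf Γ).out) = k g :=
      out_eqΓ (N := (E ⊔ F).fixingSubgroup.subgroupOf Γ) k (fun g d hd => hkc g d hd) g
    rw [← h1]
    exact fix_mono (IntermediateField.fixingSubgroup_antitone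
      ((le_iSup G _).trans le_sup_right)) (hkG _)
  · rw [smul_sub, hf, sub_eq_zero]
    have h1 : p • dd k g h = dd (p • k) g h := by rw [dd_nsmul']; rfl
    rw [h1]
    have h2 : p • k = f - fun g : Γ => (g • a - a) := funext fun g => hk g
    rw [h2, dd_sub']
    show dd f g h = dd f g h - ((g • a - a) + g • (h • a - a) - ((g * h) • a - a))
    rw [smul_sub, mul_smul]
    abel

end lift

end

end Fermat.Agent.EulerC
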