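import Fermat.Agent.EulerC.Pair
import Fermat.Agent.CFT.FDual2

set_option autoImplicit false
set_option maxHeartbeats 400000

/-! Upper bound for the second cohomology. -/

namespace Fermat.Agent.EulerC

open Finset Fermat.Agent.CFT Fermat.Agent.CFTSec Fermat.Agent.TWLocal

noncomputable section

/-- good levels -/
def Good (p : ℕ) [hp : Fact p.Prime] (hp2 : 2 < p) (T : Finset Nat.Primes) (hpT : pP p ∈ T)
    (E : IntermediateField ℚ Qb) : Prop :=
  ∀ (q : Nat.Primes) (hq : q ∈ T), ∃ (m c : ℕ) (a : ↥(fix (JQ q) (⊤ : Subgroup GQ))),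
      rS m hp2 hpT (sgl q hq (c • a)) ≠ 0 ∧
      (∀ t : LG q, ((p * c : ℕ) : ZMod (p ^ m)) * ch m hp2 (localGaloisToGlobal (q : ℕ) t) = 0) ∧
      E.fixingSubgroup ≤ (EF m hp2).fixingSubgroup

section big

variable {p : ℕ} [hp : Fact p.Prime] (hp2 : 2 < p) {T : Finset Nat.Primes} (hpT : pP p ∈ T)

theorem fixing_normal {N : IntermediateField ℚ Qb} (hN : FiniteDimensional ℚ N)
    (h : @IsGalois ℚ _ N _ N.algebra') : N.fixingSubgroup.Normal := by
  haveI := Fermat.Agent.Frob.isGalois_Qbar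
  exact ((InfiniteGalois.isOpen_and_normal_iff_finite_and_isGalois N).mpr ⟨hN, h⟩).2

/-- existence of large good levels -/
theorem exists_big {E₀ : IntermediateField ℚ Qb} (hE₀ : E₀.IsUnramifiedOutside T) {ζ : Qb}
    (hζ : IsPrimitiveRoot ζ p) :
    ∃ E : IntermediateField ℚ Qb, E.IsUnramifiedOutside T ∧ E.fixingSubgroup.Normal ∧ E₀ ≤ E ∧
      ζ ∈ E ∧ Good p hp2 T hpT E := by
  classical
  have h1 := fun q : T => exists_good hp2 hpT q.1 q.2
  choose m c a h2 h3 using h1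
  have hsub : ({pP p} : Finset Nat.Primes) ⊆ T := Finset.singleton_subset_iff.mpr hpT
  have h4 : (⨆ q : T, EF (m q) hp2).IsUnramifiedOutside T :=
    IsUnramifiedOutside.iSup fun q => (EF_unram (m q) hp2).mono hsub
  have h5 : (Zf p 0).IsUnramifiedOutside T := (Zf_unram p 0).mono hsub
  obtain ⟨N, hN1, hN2, hN3⟩ := exists_galois_unram ((hE₀.sup h4).sup h5)
  refine ⟨N, hN2, fixing_normal hN2.1 hN3, (le_sup_left.trans le_sup_left).trans hN1, ?_,
    fun q hq => ⟨m ⟨q, hq⟩, c ⟨q, hq⟩, a ⟨q, hq⟩, h2 ⟨q, hq⟩, h3 ⟨q, hq⟩, ?_⟩⟩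
  · have h6 : zN p 0 ∈ N := hN1 (le_sup_right (a := E₀ ⊔ ⨆ q : T, EF (m q) hp2) (zN_mem p 0))
    have h7 : IsPrimitiveRoot (zN p 0) p := by
      have := zN_spec p 0
      rwa [zero_add, pow_one] at this
    obtain ⟨i, -, hi⟩ := h7.eq_pow_of_pow_eq_one hζ.pow_eq_one
    rw [← hi]
    exact pow_mem h6 i
  · refine IntermediateField.fixingSubgroup_antitone ?_
    exact (le_iSup (fun q : T => EF (m q) hp2) ⟨q, hq⟩).trans
      ((le_sup_right.trans le_sup_left).trans hN1)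

end big

section ker

variable {p : ℕ} [hp : Fact p.Prime] (hp2 : 2 < p) {T : Finset Nat.Primes} (hpT : pP p ∈ T)
  {E : IntermediateField ℚ Qb} (hET : E.IsUnramifiedOutside T)
  [hE : E.fixingSubgroup.Normal] {X : Type*} [AddCommGroup X] [DistribMulAction GQ X]
  (hX : ∀ s ∈ E.fixingSubgroup, ∀ x : X, s • x = x) (hpX : ∀ x : X, p • x = 0)
  {ζ : Qb} (hζ : IsPrimitiveRoot ζ p) (hζE : ζ ∈ E)

/-- restriction of a cochain to the decomposition group -/
def rsq (q : Nat.Primes) (x : GQ → GQ → X) : LG q → LG q → Rs q X :=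
  fun d d' => x (localGaloisToGlobal (q : ℕ) d) (localGaloisToGlobal (q : ℕ) d')

include hET hX in
theorem sm_Rs (q : Nat.Primes) : Sm (LG q) (Rs q X) := by
  haveI := hET.1
  exact ⟨dN q E.fixingSubgroup, dN_open q E, fun n hn m => hX _ hn m⟩

include hET in
theorem rsq_Z2l (q : Nat.Primes) {x : GQ → GQ → X} (hx : x ∈ ZE E X) :
    rsq q x ∈ Z2l (LG q) (Rs q X) := by
  haveI := hET.1
  refine ⟨fun d d' d'' => ?_, dN q E.fixingSubgroup, dN_open q E, fun g h n hn n' hn' => ?_⟩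
  · have h1 := hx.1 (localGaloisToGlobal (q : ℕ) d) (localGaloisToGlobal (q : ℕ) d')
      (localGaloisToGlobal (q : ℕ) d'')
    rw [← map_mul, ← map_mul] at h1
    exact h1
  · show x (localGaloisToGlobal (q : ℕ) (g * n)) (localGaloisToGlobal (q : ℕ) (h * n')) = _
    rw [map_mul, map_mul]
    exact hx.2 _ _ _ hn _ hn'

include hζ hζE in
/-- the kernel of the pairing -/
theorem loc_of_Psi [Finite X] (hG : Good p hp2 T hpT E)
    (I : ↥(T2p p (GQ ⧸ E.fixingSubgroup) ↥(fix (Cm T) E.fixingSubgroup)) →+ ZMod p)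
    (hI : ∀ x, I x = 0 ↔ x.1 ∈ B2 (GQ ⧸ E.fixingSubgroup) ↥(fix (Cm T) E.fixingSubgroup))
    (x : ZE E X) (hx : Psi hET hX hpX I x = 0) (q : Nat.Primes) (hq : q ∈ T) :
    rsq q x.1 ∈ B2l (LG q) (Rs q X) := by
  classical
  haveI := hET.1
  have hζq : IsPrimitiveRoot (padicEmbedding (q : ℕ) ζ) p :=
    hζ.map_of_injective (padicEmbedding (q : ℕ)).injective
  refine glob (globAx hζq) (M := Rs q X) hpX (sm_Rs hET hX q) _ (rsq_Z2l hET q x.2) ?_
  intro φ hφ
  let φ' : HomEq (LG q) (Rs q X) (LM q) := ⟨φ, hφ⟩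
  have h1 : Psi hET hX hpX I x (Pi.single ⟨q, hq⟩ φ') = 0 := by rw [hx]; rfl
  rw [Psi_apply] at h1
  have h2 := (hI _).mp h1
  obtain ⟨m, c, a, hg1, hg2, hg3⟩ := hG q hq
  have e1 : (dsc E fun g h => cC hET hX (Pi.single ⟨q, hq⟩ φ') (x.1 g h)) =
      fun g h => inC hET q hq (dsc E (fun g h => coE q hX φ' (x.1 g h)) g h) := by
    funext g h
    exact cC_single hET hX ⟨q, hq⟩ φ' _
  change (dsc E fun g h => cC hET hX (Pi.single ⟨q, hq⟩ φ') (x.1 g h)) ∈ _ at h2
  rw [e1] at h2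
  have h3 := dsc_mem_T2p hpX x.2 (coE q hX φ') (fun g r => by
    rw [coE_val, coE_val, coQ_smul])
  have h4 := local_global_inj hET hp2 hpT hζ hζE q hq hg1 hg2 hg3 h3.1 h3.2 h2
  obtain ⟨b, hb1, -, hb2⟩ := dsc_B2 (fun g h s hs s' hs' => by
    rw [x.2.2 g h s hs s' hs']) h4
  refine ⟨fun d => (b (localGaloisToGlobal (q : ℕ) d)).1 1, ⟨dN q E.fixingSubgroup, dN_open q E,
    fun g n hn => ?_⟩, fun d d' => ?_⟩
  · show (b (localGaloisToGlobal (q : ℕ) (g * n))).1 1 = _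
    rw [map_mul, hb1 _ _ hn]
  · have h5 := congrArg (fun z : JQ q => z.1 1)
      (hb2 (localGaloisToGlobal (q : ℕ) d) (localGaloisToGlobal (q : ℕ) d'))
    have e2 : ((coE q hX φ' (x.1 (localGaloisToGlobal (q : ℕ) d)
        (localGaloisToGlobal (q : ℕ) d'))) : JQ q).1 1 = φ (rsq q x.1 d d') := by
      rw [coE_val, coQ_apply, one_smul]
      rfl
    have e3 : (localGaloisToGlobal (q : ℕ) d • b (localGaloisToGlobal (q : ℕ) d')).1 1 =
        d • (b (localGaloisToGlobal (q : ℕ) d')).1 1 := by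
      rw [← (b (localGaloisToGlobal (q : ℕ) d')).2 d 1, mul_one]
      show (b (localGaloisToGlobal (q : ℕ) d')).1 (1 * localGaloisToGlobal (q : ℕ) d) = _
      rw [one_mul]
    refine e2.symm.trans (h5.trans ?_)
    show (b (localGaloisToGlobal (q : ℕ) d)).1 1 +
      (localGaloisToGlobal (q : ℕ) d • b (localGaloisToGlobal (q : ℕ) d')).1 1 -
      (b (localGaloisToGlobal (q : ℕ) d * localGaloisToGlobal (q : ℕ) d')).1 1 = _
    rw [e3, ← map_mul]

/-- the image of the pairing -/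
theorem Psi_dHom (I : ↥(T2p p (GQ ⧸ E.fixingSubgroup) ↥(fix (Cm T) E.fixingSubgroup)) →+ ZMod p)
    (x : ZE E X) (θ : HomEq GQ X (QS T)) : Psi hET hX hpX I x (dHom θ) = 0 := by
  rw [Psi_apply, ← map_zero I]
  congr 1
  apply Subtype.ext
  funext g h
  exact cC_dHom hET hX hpX θ _

end ker

section count

/-- a directed union argument -/
theorem relIndex_of_directed {A : Type*} [AddCommGroup A] (B Z : AddSubgroup A) (n : ℕ)
    (h : ∀ F : Finset A, (∀ x ∈ F, x ∈ Z) → ∃ W : AddSubgroup A, (∀ x ∈ F, x ∈ W) ∧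
      B.relIndex W ≠ 0 ∧ B.relIndex W ≤ n) : B.relIndex Z ≠ 0 ∧ B.relIndex Z ≤ n := by
  classical
  have key : ∀ s : Finset (Z ⧸ B.addSubgroupOf Z), s.card ≤ n := by
    intro s
    obtain ⟨W, hW1, hW2, hW3⟩ := h (s.image fun y => (y.out : A)) (by
      intro x hx
      obtain ⟨y, -, rfl⟩ := Finset.mem_image.mp hx
      exact y.out.2)
    let f : s → W ⧸ B.addSubgroupOf W := fun y => QuotientAddGroup.mk
      ⟨(y.1.out : A), hW1 _ (Finset.mem_image_of_mem _ y.2)⟩
    have hf : Function.Injective f := by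
      intro y y' hy
      have h1 := QuotientAddGroup.eq.mp hy
      have h2 : -(y.1.out : A) + (y'.1.out : A) ∈ B := h1
      apply Subtype.ext
      rw [← QuotientAddGroup.out_eq' y.1, ← QuotientAddGroup.out_eq' y'.1]
      exact QuotientAddGroup.eq.mpr h2
    haveI : Finite (W ⧸ B.addSubgroupOf W) := Nat.finite_of_card_ne_zero hW2
    have h3 := Nat.card_le_card_of_injective f hf
    rw [Nat.card_eq_fintype_card, Fintype.card_coe] at h3
    exact h3.trans hW3
  haveI : Finite (Z ⧸ B.addSubgroupOf Z) := by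
    by_contra hinf
    rw [not_finite_iff_infinite] at hinf
    obtain ⟨s, hs⟩ := Infinite.exists_subset_card_eq (Z ⧸ B.addSubgroupOf Z) (n + 1)
    have := key s
    omega
  haveI := Fintype.ofFinite (Z ⧸ B.addSubgroupOf Z)
  refine ⟨Nat.card_pos.ne', ?_⟩
  show Nat.card (Z ⧸ B.addSubgroupOf Z) ≤ n
  rw [Nat.card_eq_fintype_card]
  exact key Finset.univ

variable {p : ℕ} [hp : Fact p.Prime]

/-- abstract counting -/
theorem count_pairing {Z P D : Type*} [AddCommGroup Z] [AddCommGroup P] [AddCommGroup D] [Finite P]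
    (hP : ∀ x : P, p • x = 0) (Ψ : Z →+ (P →+ ZMod p)) (δ : D →+ P) (hδ : Function.Injective δ)
    (h0 : ∀ z d, Ψ z (δ d) = 0) (B : AddSubgroup Z) (hB : Ψ.ker ≤ B) :
    B.index ≠ 0 ∧ B.index * Nat.card D ≤ Nat.card P := by
  classical
  let Q := P ⧸ δ.range
  have hQ : ∀ x : Q, p • x = 0 := by
    intro x
    obtain ⟨y, rfl⟩ := QuotientAddGroup.mk'_surjective _ x
    rw [← map_nsmul, hP, map_zero]
  haveI : Finite Q := inferInstance
  haveI : Finite (Q →+ ZMod p) := by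
    apply Nat.finite_of_card_ne_zero
    rw [card_hom_zmod hQ]
    exact Nat.card_pos.ne'
  let Φ : Z →+ (Q →+ ZMod p) :=
    AddMonoidHom.mk' (fun z => QuotientAddGroup.lift δ.range (Ψ z) (by
      rintro _ ⟨d, rfl⟩
      exact h0 z d)) (fun z z' => by
        refine AddMonoidHom.ext fun x => ?_
        obtain ⟨y, rfl⟩ := QuotientAddGroup.mk'_surjective _ x
        show Ψ (z + z') y = Ψ z y + Ψ z' y
        rw [map_add]; rfl)
  have hk : Φ.ker ≤ B := by
    intro z hz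
    apply hB
    rw [AddMonoidHom.mem_ker] at hz ⊢
    refine AddMonoidHom.ext fun y => ?_
    exact DFunLike.congr_fun hz (QuotientAddGroup.mk' δ.range y)
  have h1 : Φ.ker.index = Nat.card Φ.range := AddSubgroup.index_ker Φ
  have h2 : Nat.card Φ.range ≤ Nat.card (Q →+ ZMod p) :=
    Nat.card_le_card_of_injective _ Subtype.val_injective
  rw [card_hom_zmod hQ] at h2
  have h3 : Φ.ker.index ≠ 0 := by
    rw [h1]
    exact Nat.card_pos.ne'
  have h4 : B.index ∣ Φ.ker.index := AddSubgroup.index_dvd_of_le hk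
  have h5 : B.index ≤ Nat.card Q := (Nat.le_of_dvd (Nat.pos_of_ne_zero h3) h4).trans (h1 ▸ h2)
  refine ⟨fun h => h3 (Nat.eq_zero_of_zero_dvd (h ▸ h4)), ?_⟩
  have h6 : Nat.card D = Nat.card δ.range := Nat.card_congr (Equiv.ofInjective δ hδ)
  have h7 : Nat.card δ.range * Nat.card Q = Nat.card P := by
    have := AddSubgroup.card_mul_index δ.range
    exact this
  rw [h6, ← h7, mul_comm]
  exact Nat.mul_le_mul_left _ h5

/-- **the upper bound for `H²`** -/
theorem h2_upper (hp2 : 2 < p) {T : Finset Nat.Primes} (hpT : pP p ∈ T)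
    {X : Type*} [AddCommGroup X] [DistribMulAction GQ X] [Finite X] (hpX : ∀ x : X, p • x = 0)
    (hlev : LvM T (MonoidHom.id GQ) X)
    (hsha : ∀ x ∈ Z2L T (MonoidHom.id GQ) X, (∀ q ∈ T, rsq q x ∈ B2l (LG q) (Rs q X)) →
      x ∈ B2L T (MonoidHom.id GQ) X) :
    h2 T (MonoidHom.id GQ) X ≠ 0 ∧ h2 T (MonoidHom.id GQ) X * Nat.card (HomEq GQ X (QS T)) ≤
      ∏ q : T, Nat.card (HomEq (LG q.1) (Rs q.1 X) (LM q.1)) := by
  classical
  obtain ⟨ζ, hζ⟩ : ∃ ζ : Qb, IsPrimitiveRoot ζ p :=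
    ⟨zN p 0, by have := zN_spec p 0; rwa [zero_add, pow_one] at this⟩
  obtain ⟨E₀, hE₀, hE₀X⟩ := hlev
  haveI hfinq : ∀ q : T, Finite (HomEq (LG q.1) (Rs q.1 X) (LM q.1)) := fun q => by
    have hζq : IsPrimitiveRoot (padicEmbedding (q.1 : ℕ) ζ) p :=
      hζ.map_of_injective (padicEmbedding (q.1 : ℕ)).injective
    haveI := finite_hom_LM (q := (q.1 : ℕ)) (p := p) hζq (M := Rs q.1 X) hpX
    exact Subtype.finite
  haveI : Finite (PL T X) := Pi.finite
  have hPL : ∀ x : PL T X, p • x = 0 := by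
    intro x
    funext q
    apply Subtype.ext
    refine AddMonoidHom.ext fun r => ?_
    show p • ((x q).1 r) = 0
    rw [← map_nsmul]
    show (x q).1 (p • (show X from r) : X) = 0
    rw [hpX]
    exact map_zero _
  have hcard : Nat.card (PL T X) = ∏ q : T, Nat.card (HomEq (LG q.1) (Rs q.1 X) (LM q.1)) :=
    Nat.card_pi
  rw [← hcard]
  have hDpos : 0 < Nat.card (HomEq GQ X (QS T)) := by
    haveI : Finite (HomEq GQ X (QS T)) := Finite.of_injective _ (dHom_injective ⟨_, hpT⟩)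
    exact Nat.card_pos
  have key : ∀ (E : IntermediateField ℚ Qb), E.IsUnramifiedOutside T → E₀ ≤ E →
      E.fixingSubgroup.Normal → ζ ∈ E → Good p hp2 T hpT E →
      (B2L T (MonoidHom.id GQ) X).relIndex (ZE E X) ≠ 0 ∧
        (B2L T (MonoidHom.id GQ) X).relIndex (ZE E X) * Nat.card (HomEq GQ X (QS T)) ≤
          Nat.card (PL T X) := by
    intro E hET h0E hE hζE hG
    haveI := hE
    haveI := hET.1
    haveI : E.fixingSubgroup.FiniteIndex := finiteIndex_fixingSubgroup E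
    haveI : Finite (GQ ⧸ E.fixingSubgroup) := inferInstance
    have hX : ∀ s ∈ E.fixingSubgroup, ∀ x : X, s • x = x := fun s hs =>
      hE₀X s (IntermediateField.fixingSubgroup_antitone h0E hs)
    obtain ⟨u, hu⟩ := exists_global_class hp2 hpT hET hζ hζE
    obtain ⟨I, hI⟩ := exists_inv hu
    refine count_pairing hPL (Psi hET hX hpX I) dHom (dHom_injective ⟨_, hpT⟩)
      (fun z d => Psi_dHom hET hX hpX I z d) _ ?_
    intro z hz
    refine hsha z.1 ⟨z.2.1, E, hET, fun g h s s' hs hs' => z.2.2 g h s hs s' hs'⟩ ?_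
    exact fun q hq => loc_of_Psi hp2 hpT hET hX hpX hζ hζE hG I hI z hz q hq
  have h1 := relIndex_of_directed (B2L T (MonoidHom.id GQ) X) (Z2L T (MonoidHom.id GQ) X)
    (Nat.card (PL T X) / Nat.card (HomEq GQ X (QS T))) (by
      intro F hF
      have h2 : ∀ x : F, ∃ E : IntermediateField ℚ Qb, E.IsUnramifiedOutside T ∧ LvE E x.1 := by
        intro x
        obtain ⟨E, hE, h⟩ := (hF x.1 x.2).2
        exact ⟨E, hE, fun g h' s hs s' hs' => h g h' s s' hs hs'⟩
      choose f hf1 hf2 using h2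
      obtain ⟨E, hE1, hE2, hE3, hE4, hE5⟩ := exists_big hp2 hpT
        (hE₀.sup (IsUnramifiedOutside.iSup hf1)) hζ
      obtain ⟨h3, h4⟩ := key E hE1 (le_sup_left.trans hE3) hE2 hE4 hE5
      refine ⟨ZE E X, fun x hx => ⟨(hF x hx).1, fun g h s hs s' hs' => ?_⟩, h3,
        (Nat.le_div_iff_mul_le hDpos).mpr h4⟩
      have h5 : f ⟨x, hx⟩ ≤ E := (le_iSup f ⟨x, hx⟩).trans (le_sup_right.trans hE3)
      exact hf2 ⟨x, hx⟩ g h s (IntermediateField.fixingSubgroup_antitone h5 hs) s'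
        (IntermediateField.fixingSubgroup_antitone h5 hs'))
  exact ⟨h1.1, (Nat.le_div_iff_mul_le hDpos).mp h1.2⟩

end count

end

end Fermat.Agent.EulerC
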