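import Fermat.Agent.EulerC.TrW
import Fermat.Agent.EulerC.Pair2

set_option autoImplicit false
set_option maxHeartbeats 400000

/-! Local classes of order `p` split by the cyclotomic tower. -/

namespace Fermat.Agent.EulerC

open Finset Fermat.Agent.CFT Fermat.Agent.CFTSec Fermat.Agent.TWLocal

noncomputable section

section growth

variable {p : ℕ} [hp : Fact p.Prime] (hp2 : 2 < p)

theorem nsmul_lq {q : Nat.Primes} (hpq : p ≠ (q : ℕ)) {N : ℕ} (hN : 0 < N) :
    ∃ m, N • lq m hp2 q ≠ 0 := by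
  by_contra hcon
  push Not at hcon
  set m := (q : ℕ) ^ (N * (p - 1)) with hm
  have h1 := hcon m
  rw [lq_of_ne m hp2 hpq] at h1
  have h2 : lgz p m hp2 ((ZMod.unitOfCoprime (q : ℕ) (coprime_of_ne m hpq)) ^ N) = 1 := by
    rw [map_pow]
    exact h1
  rw [lgz_eq_one] at h2
  have h3 := congrArg (fun u : (ZMod (p ^ (m + 1)))ˣ => (u : ZMod (p ^ (m + 1)))) h2
  simp only [Units.val_pow_eq_pow_val, ZMod.coe_unitOfCoprime, Units.val_one] at h3
  have h3' : (((q : ℕ) ^ (N * (p - 1)) : ℕ) : ZMod (p ^ (m + 1))) =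
      ((1 : ℕ) : ZMod (p ^ (m + 1))) := by
    rw [Nat.cast_pow, Nat.cast_one, pow_mul]; exact h3
  rw [ZMod.natCast_eq_natCast_iff] at h3'
  have hlt : (q : ℕ) ^ (N * (p - 1)) < p ^ (m + 1) := by
    calc m < p ^ m := Nat.lt_pow_self hp.out.one_lt
      _ ≤ p ^ (m + 1) := Nat.pow_le_pow_right hp.out.pos (Nat.le_succ _)
  have hpos : N * (p - 1) ≠ 0 := Nat.mul_ne_zero hN.ne' (by omega)
  have hgt : 1 < (q : ℕ) ^ (N * (p - 1)) := Nat.one_lt_pow hpos q.2.one_lt
  have := Nat.ModEq.eq_of_lt_of_lt h3' hlt (by omega)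
  omega

/-- unbounded local degrees in the cyclotomic tower -/
theorem exists_ch_ne (q : Nat.Primes) {N : ℕ} (hN : 0 < N) :
    ∃ (m : ℕ) (t : LG q), N • ch m hp2 (localGaloisToGlobal (q : ℕ) t) ≠ 0 := by
  by_cases hqp : q = pP p
  · subst hqp
    obtain ⟨s, hs⟩ := ch_surj N hp2 1
    obtain ⟨τ, k, hk, hsk⟩ := EF_total N hp2 s
    refine ⟨N, τ, ?_⟩
    have h1 : ch N hp2 k = 0 := (mem_EF_fixing N hp2).mp hk
    rw [hsk, ch_mul, h1, add_zero] at hs
    have h2 : ch N hp2 (localGaloisToGlobal ((pP p : Nat.Primes) : ℕ) τ) = 1 := hs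
    rw [h2, nsmul_eq_mul, mul_one]
    intro h3
    rw [ZMod.natCast_eq_zero_iff] at h3
    exact absurd (Nat.le_of_dvd hN h3) (not_le.mpr (Nat.lt_pow_self hp.out.one_lt))
  · have hpq : p ≠ (q : ℕ) := fun h => hqp (Subtype.ext h.symm)
    obtain ⟨m, hm⟩ := nsmul_lq hp2 hpq hN
    obtain ⟨φ, hφ⟩ := exists_phi (q : ℕ)
    have h1 := ch_frob m hp2 hpq hφ 1
    rw [inv_one, one_mul, mul_one] at h1
    exact ⟨m, φ, by rw [h1]; exact hm⟩

theorem exists_psi (q : Nat.Primes) (U : Subgroup (LG q)) [U.Normal] [U.FiniteIndex] :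
    ∃ m r : ℕ, (∀ t ∈ U, p • p ^ r • ch m hp2 (localGaloisToGlobal (q : ℕ) t) = 0) ∧
      ∃ t ∈ U, p ^ r • ch m hp2 (localGaloisToGlobal (q : ℕ) t) ≠ 0 := by
  classical
  obtain ⟨m, t, ht⟩ := exists_ch_ne hp2 q (N := U.index)
    (Nat.pos_of_ne_zero Subgroup.FiniteIndex.index_ne_zero)
  have h1 : ch m hp2 (localGaloisToGlobal (q : ℕ) (t ^ U.index)) ≠ 0 := by
    rw [map_pow, ch_pow, ← nsmul_eq_mul]
    exact ht
  have h2 : t ^ U.index ∈ U := U.pow_index_mem t
  have hex : ∃ s, ∀ t ∈ U, p ^ s • ch m hp2 (localGaloisToGlobal (q : ℕ) t) = 0 :=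
    ⟨m, fun t _ => by
      rw [nsmul_eq_mul, Nat.cast_pow]
      have : ((p : ZMod (p ^ m)) ^ m) = 0 := by
        rw [← Nat.cast_pow, ZMod.natCast_self]
      rw [this, zero_mul]⟩
  set s := Nat.find hex with hs
  have hs1 := Nat.find_spec hex
  have hs0 : s ≠ 0 := by
    intro h0
    have h3 := hs1 _ h2
    rw [← hs, h0, pow_zero, one_smul] at h3
    exact h1 h3
  obtain ⟨r, hr⟩ := Nat.exists_eq_succ_of_ne_zero hs0
  refine ⟨m, r, fun t ht => ?_, ?_⟩
  · have h3 := hs1 t ht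
    rw [← hs, hr, Nat.succ_eq_add_one, pow_succ, mul_comm, mul_smul] at h3
    exact h3
  · have h3 := Nat.find_min hex (m := r) (by omega)
    push Not at h3
    exact h3

end growth

section emb

variable {p : ℕ} [hp : Fact p.Prime] (n : ℕ)

/-- the generator of the `p`-torsion -/
theorem p_gen : p • ((p ^ n : ℕ) : ZMod (p ^ (n + 1))) = 0 := by
  rw [nsmul_eq_mul, ← Nat.cast_mul, ← pow_succ', ZMod.natCast_self]

/-- the embedding of `ℤ/p` -/
def eP : ZMod p →+ ZMod (p ^ (n + 1)) := mh _ (p_gen (p := p) n)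

theorem eP_val (c : ZMod p) : (eP n c).val = c.val * p ^ n := by
  have h1 : eP n c = ((c.val * p ^ n : ℕ) : ZMod (p ^ (n + 1))) := by
    show c.val • ((p ^ n : ℕ) : ZMod (p ^ (n + 1))) = _
    rw [nsmul_eq_mul, ← Nat.cast_mul]
  rw [h1, ZMod.val_natCast_of_lt]
  rw [pow_succ']
  exact Nat.mul_lt_mul_of_pos_right (ZMod.val_lt c) (pow_pos hp.out.pos n)

theorem eP_inj : Function.Injective (eP (p := p) n) := by
  intro a b h
  have h1 := congrArg ZMod.val h
  rw [eP_val, eP_val] at h1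
  exact ZMod.val_injective p (Nat.eq_of_mul_eq_mul_right (pow_pos hp.out.pos n) h1)

theorem eP_surj {z : ZMod (p ^ (n + 1))} (hz : p • z = 0) : ∃ c, eP n c = z := by
  have h1 : p ^ (n + 1) ∣ p * z.val := by
    rw [← ZMod.natCast_eq_zero_iff, Nat.cast_mul, ZMod.natCast_zmod_val, ← nsmul_eq_mul, hz]
  have h1' : p * p ^ n ∣ p * z.val := (dvd_of_eq (pow_succ' p n).symm).trans h1
  have h2 : p ^ n ∣ z.val := Nat.dvd_of_mul_dvd_mul_left hp.out.pos h1'
  obtain ⟨k, hk⟩ := h2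
  have hkp : k < p := by
    by_contra hcon
    push Not at hcon
    have h3 := ZMod.val_lt z
    rw [hk, pow_succ] at h3
    exact absurd h3 (not_lt.mpr (Nat.mul_le_mul_left _ hcon))
  refine ⟨(k : ZMod p), ZMod.val_injective _ ?_⟩
  rw [eP_val, ZMod.val_natCast_of_lt hkp, hk, mul_comm]

theorem lft_eP {G : Type*} (χ : G → ZMod p) (g : G) :
    lft (fun g => eP n (χ g)) g = lft χ g * (p ^ n : ℕ) := by
  show (((eP n (χ g)).val : ℕ) : ℤ) = ((χ g).val : ℤ) * _
  rw [eP_val, Nat.cast_mul]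

theorem cup_eP {G A : Type*} [Group G] [AddCommGroup A] (χ : G → ZMod p) (a : A) :
    cup (p ^ (n + 1)) (lft (fun g => eP n (χ g))) a = cup p (lft χ) a := by
  funext g h
  show ((lft (fun g => eP n (χ g)) g + lft (fun g => eP n (χ g)) h -
    lft (fun g => eP n (χ g)) (g * h)) / ((p ^ (n + 1) : ℕ) : ℤ)) • a =
    ((lft χ g + lft χ h - lft χ (g * h)) / ((p : ℕ) : ℤ)) • a
  rw [lft_eP, lft_eP, lft_eP, ← add_mul, ← sub_mul, pow_succ', Nat.cast_mul]
  congr 1
  refine Int.mul_ediv_mul_of_pos_left _ _ ?_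
  exact_mod_cast pow_pos hp.out.pos n

end emb

section main

variable {p : ℕ} [hp : Fact p.Prime] (hp2 : 2 < p)

/-- the scaled character -/
def ps (m r : ℕ) (g : GQ) : ZMod (p ^ m) := p ^ r • ch m hp2 g

theorem ps_mul (m r : ℕ) (g h : GQ) : ps hp2 m r (g * h) = ps hp2 m r g + ps hp2 m r h := by
  show p ^ r • ch m hp2 (g * h) = _
  rw [ch_mul, smul_add]; rfl

theorem ps_of_EF {m r : ℕ} {g : GQ} (hg : g ∈ (EF m hp2).fixingSubgroup) : ps hp2 m r g = 0 := by
  show p ^ r • ch m hp2 g = 0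
  rw [(mem_EF_fixing m hp2).mp hg, smul_zero]

/-- **local classes of order `p`** split by the cyclotomic tower -/
theorem exists_loc (q : Nat.Primes) (U : Subgroup (LG q)) [U.Normal]
    (hU : IsOpen (U : Set (LG q))) :
    ∃ (m r : ℕ) (a : LM q), (∀ t ∈ U, t • a = a) ∧
      (∀ t ∈ U, p • ps hp2 (m + 1) r (localGaloisToGlobal (q : ℕ) t) = 0) ∧
      cup (p ^ (m + 1)) (lft (fun t : U => ps hp2 (m + 1) r
        (localGaloisToGlobal (q : ℕ) (t : LG q)))) a ∉ B2l U (LM q) := by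
  haveI : U.FiniteIndex := open_finiteIndex hU
  obtain ⟨m, r, h1, t₀, ht₀, h2⟩ := exists_psi hp2 q U
  obtain ⟨n, rfl⟩ : ∃ n, m = n + 1 := by
    cases m with
    | zero =>
      exfalso
      apply h2
      have : Subsingleton (ZMod (p ^ 0)) := by
        rw [pow_zero]; infer_instance
      exact Subsingleton.elim _ _
    | succ n => exact ⟨n, rfl⟩
  have h3 : ∀ t : U, ∃ c : ZMod p, eP n c = ps hp2 (n + 1) r
      (localGaloisToGlobal (q : ℕ) (t : LG q)) := fun t => eP_surj n (h1 t t.2)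
  choose χ hχ using h3
  have hmul : ∀ g h, χ (g * h) = χ g + χ h := by
    intro g h
    apply eP_inj n
    rw [map_add, hχ, hχ, hχ, ← ps_mul, ← map_mul]
    rfl
  have hlc : LC1 χ := by
    refine ⟨((EF (n + 1) hp2).fixingSubgroup.comap (localGaloisToGlobal (q : ℕ))).subgroupOf U,
      ?_, fun g s hs => ?_⟩
    · exact (dN_open q (EF (n + 1) hp2)).preimage continuous_subtype_val
    · rw [hmul]
      have : χ s = 0 := by
        apply eP_inj n
        rw [hχ, map_zero]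
        exact ps_of_EF hp2 hs
      rw [this, add_zero]
  have hne : χ ≠ 0 := by
    intro h0
    apply h2
    have h4 := hχ ⟨t₀, ht₀⟩
    rw [h0] at h4
    rw [Pi.zero_apply, map_zero] at h4
    exact h4.symm
  obtain ⟨a, ha, hna⟩ := norm_U hU p χ hmul hlc hne
  refine ⟨n, r, a, fun t ht => ha ⟨t, ht⟩, h1, ?_⟩
  have h5 : (fun t : U => ps hp2 (n + 1) r (localGaloisToGlobal (q : ℕ) (t : LG q))) =
      fun t => eP n (χ t) := funext fun t => (hχ t).symm
  rw [h5, cup_eP]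
  exact hna

end main

end

end Fermat.Agent.EulerC
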