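import Fermat.Agent.EulerC.Sha2

set_option autoImplicit false
set_option maxHeartbeats 400000

/-! Shapiro's lemma with levels. -/

namespace Fermat.Agent.EulerC

open Finset Fermat.Agent.CFT Fermat.Agent.CFTSec

noncomputable section

/-- levels of one variable functions -/
theorem Lv1.mono_lev {T : Finset Nat.Primes} {U : Type*} [Group U] {π : U →* GQ} {Y : Type*}
    {b : U → Y} {E E' : IntermediateField ℚ Qb} (hle : E ≤ E')
    (h : ∀ g s, π s ∈ E.fixingSubgroup → b (g * s) = b g) :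
    ∀ g s, π s ∈ E'.fixingSubgroup → b (g * s) = b g :=
  fun g s hs => h g s (IntermediateField.fixingSubgroup_antitone hle hs)

section shap

variable {T : Finset Nat.Primes} {Γ : Subgroup GQ} {W : Type*} [AddCommGroup W]
  [DistribMulAction Γ W] {M : IntermediateField ℚ Qb}

/-- evaluation of cochains at `1` -/
def ev2 (x : GQ → GQ → CoInd Γ.subtype W) : Γ → Γ → W := fun γ δ => (x γ δ).1 1

/-- evaluation of cochains at `1` -/
def ev1 (c : GQ → CoInd Γ.subtype W) : Γ → W := fun γ => (c γ).1 1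

theorem coind_ev (f : CoInd Γ.subtype W) (γ : Γ) : f.1 (γ : GQ) = γ • f.1 1 := by
  have := f.2 γ 1
  rwa [mul_one] at this

theorem ev2_mem_Z2L {x : GQ → GQ → CoInd Γ.subtype W}
    (hx : x ∈ Z2L T (MonoidHom.id GQ) (CoInd Γ.subtype W)) :
    ev2 x ∈ Z2L T Γ.subtype W := by
  refine ⟨fun g h k => ?_, ?_⟩
  · have h1 := congrArg (fun f : CoInd Γ.subtype W => f.1 1) (hx.1 g h k)
    have h2 : ((g : GQ) • x h k : CoInd Γ.subtype W).1 1 = g • (x h k).1 1 := by
      rw [coind_smul_apply, one_mul]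
      exact coind_ev _ g
    calc ev2 x g h + ev2 x (g * h) k = (x g h + x (g * h) k : CoInd Γ.subtype W).1 1 := rfl
      _ = ((g : GQ) • x h k + x g (h * k) : CoInd Γ.subtype W).1 1 := h1
      _ = g • ev2 x h k + ev2 x g (h * k) := by
          show ((g : GQ) • x h k : CoInd Γ.subtype W).1 1 + _ = _
          rw [h2]; rfl
  · obtain ⟨E, hE, h⟩ := hx.2
    exact ⟨E, hE, fun g k s s' hs hs' =>
      congrArg (fun f : CoInd Γ.subtype W => f.1 1) (h g k s s' hs hs')⟩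

theorem ev2_mem_B2L {x : GQ → GQ → CoInd Γ.subtype W}
    (hx : x ∈ B2L T (MonoidHom.id GQ) (CoInd Γ.subtype W)) :
    (fun γ δ : Γ => (x γ δ).1 1) ∈ B2L T Γ.subtype W := by
  obtain ⟨b, ⟨E, hE, hbE⟩, hb⟩ := hx
  refine ⟨fun γ => (b γ).1 1, ⟨E, hE, fun g s hs =>
    congrArg (fun f : CoInd Γ.subtype W => f.1 1) (hbE g s hs)⟩, fun g h => ?_⟩
  have h2 : ((g : GQ) • b h : CoInd Γ.subtype W).1 1 = g • (b h).1 1 := by
    rw [coind_smul_apply, one_mul]
    exact coind_ev _ g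
  rw [← h2]
  exact congrArg (fun f : CoInd Γ.subtype W => f.1 1) (hb g h)

theorem ev1_mem_B1 {c : GQ → CoInd Γ.subtype W}
    (hc : c ∈ Z1L T (MonoidHom.id GQ) (CoInd Γ.subtype W))
    (h : (fun γ : Γ => (c γ).1 1) ∈ B1 Γ W) : c ∈ B1 GQ (CoInd Γ.subtype W) :=
  shapiro1 Γ.subtype Γ.subtype_injective hc.1 h

/-- a common Galois level -/
theorem exists_common (hM : M.IsUnramifiedOutside T) {E : IntermediateField ℚ Qb}
    (hE : E.IsUnramifiedOutside T) :
    ∃ N : IntermediateField ℚ Qb, N.IsUnramifiedOutside T ∧ N.fixingSubgroup.Normal ∧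
      N.fixingSubgroup ≤ M.fixingSubgroup ∧ N.fixingSubgroup ≤ E.fixingSubgroup := by
  obtain ⟨N, hN1, hN2, hN3⟩ := exists_galois_unram (hM.sup hE)
  exact ⟨N, hN2, fixing_normal hN2.1 hN3,
    IntermediateField.fixingSubgroup_antitone (le_sup_left.trans hN1),
    IntermediateField.fixingSubgroup_antitone (le_sup_right.trans hN1)⟩

/-- **Shapiro's lemma with levels**, surjectivity in degree two -/
theorem shap2_surj (hM : M.IsUnramifiedOutside T) (hMΓ : M.fixingSubgroup ≤ Γ)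
    {y : Γ → Γ → W} (hy : y ∈ Z2L T Γ.subtype W) :
    ∃ x ∈ Z2L T (MonoidHom.id GQ) (CoInd Γ.subtype W),
      (fun γ δ : Γ => (x γ δ).1 1) - y ∈ B2L T Γ.subtype W := by
  obtain ⟨hyc, E, hE, hyE⟩ := hy
  obtain ⟨N, hN, hNn, hNM, hNE⟩ := exists_common hM hE
  have hNΓ : N.fixingSubgroup ≤ Γ := hNM.trans hMΓ
  obtain ⟨ρ, hρ⟩ := exists_retraction Γ.subtype Γ.subtype_injective
  -- right translation
  have hρr : ∀ (g s : GQ), s ∈ N.fixingSubgroup →
      ∃ k : Γ, (k : GQ) ∈ N.fixingSubgroup ∧ ρ (g * s) = ρ g * k := by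
    intro g s hs
    have h1 : g * s * g⁻¹ ∈ N.fixingSubgroup := hNn.conj_mem s hs g
    refine ⟨(ρ g)⁻¹ * ⟨g * s * g⁻¹, hNΓ h1⟩ * ρ g, ?_, ?_⟩
    · have := hNn.conj_mem _ h1 ((ρ g : GQ)⁻¹)
      rw [inv_inv] at this
      exact this
    · have h2 := hρ ⟨g * s * g⁻¹, hNΓ h1⟩ g
      have h3 : Γ.subtype ⟨g * s * g⁻¹, hNΓ h1⟩ * g = g * s := by
        show g * s * g⁻¹ * g = g * s
        group
      rw [h3] at h2
      rw [h2]; group
  have hyN : ∀ (a b k k' : Γ), (k : GQ) ∈ N.fixingSubgroup → (k' : GQ) ∈ N.fixingSubgroup →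
      y (a * k) (k⁻¹ * b * k') = y a b := by
    intro a b k k' hk hk'
    have h1 : (b⁻¹ * k⁻¹ * b * k' : Γ) = b⁻¹ * k⁻¹ * (b⁻¹)⁻¹ * k' := by group
    have h2 : ((b⁻¹ * k⁻¹ * b * k' : Γ) : GQ) ∈ N.fixingSubgroup := by
      rw [h1]
      exact N.fixingSubgroup.mul_mem
        (hNn.conj_mem _ (N.fixingSubgroup.inv_mem hk) ((b : GQ)⁻¹)) hk'
    have h3 := hyE a b k (b⁻¹ * k⁻¹ * b * k') (hNE hk) (hNE h2)
    rw [← h3]
    congr 1
    group
  let η : GQ → GQ → GQ → W := fun g0 g1 g2 =>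
    ρ g0 • y ((ρ g0)⁻¹ * ρ g1) ((ρ g1)⁻¹ * ρ g2)
  have hη : ∀ (d : Γ) g0 g1 g2, η (Γ.subtype d * g0) (Γ.subtype d * g1) (Γ.subtype d * g2) =
      d • η g0 g1 g2 := by
    intro d g0 g1 g2
    simp only [η, hρ, mul_smul]
    rw [show (d * ρ g0)⁻¹ * (d * ρ g1) = (ρ g0)⁻¹ * ρ g1 by group,
      show (d * ρ g1)⁻¹ * (d * ρ g2) = (ρ g1)⁻¹ * ρ g2 by group]
  have hηc : ∀ g0 g1 g2 g3, η g0 g1 g2 + η g0 g2 g3 = η g1 g2 g3 + η g0 g1 g3 := by
    intro g0 g1 g2 g3
    have h := hyc ((ρ g0)⁻¹ * ρ g1) ((ρ g1)⁻¹ * ρ g2) ((ρ g2)⁻¹ * ρ g3)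
    rw [show (ρ g0)⁻¹ * ρ g1 * ((ρ g1)⁻¹ * ρ g2) = (ρ g0)⁻¹ * ρ g2 by group,
      show (ρ g1)⁻¹ * ρ g2 * ((ρ g2)⁻¹ * ρ g3) = (ρ g1)⁻¹ * ρ g3 by group] at h
    simp only [η, ← smul_add, h]
    rw [smul_add, smul_smul, show ρ g0 * ((ρ g0)⁻¹ * ρ g1) = ρ g1 by group]
  let x : GQ → GQ → CoInd Γ.subtype W := fun g h =>
    ⟨fun σ => η σ (σ * g) (σ * g * h), fun d σ => by
      have := hη d σ (σ * g) (σ * g * h)
      simpa only [mul_assoc] using this⟩
  refine ⟨x, ⟨?_, N, hN, ?_⟩, ?_⟩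
  · intro g h k
    apply Subtype.ext
    funext σ
    simp only [AddSubgroup.coe_add, Pi.add_apply, coind_smul_apply, x]
    have := hηc σ (σ * g) (σ * g * h) (σ * g * h * k)
    simpa only [mul_assoc] using this
  · intro g h s s' hs hs'
    apply Subtype.ext
    funext σ
    show η σ (σ * (g * s)) (σ * (g * s) * (h * s')) = η σ (σ * g) (σ * g * h)
    obtain ⟨k, hk, hk1⟩ := hρr (σ * g) s hs
    have h4 : h⁻¹ * s * h * s' ∈ N.fixingSubgroup := by
      have := hNn.conj_mem s hs h⁻¹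
      rw [inv_inv] at this
      exact N.fixingSubgroup.mul_mem this hs'
    obtain ⟨k', hk', hk1'⟩ := hρr (σ * g * h) _ h4
    have e1 : σ * (g * s) = σ * g * s := by group
    have e2 : σ * (g * s) * (h * s') = σ * g * h * (h⁻¹ * s * h * s') := by group
    show ρ σ • y ((ρ σ)⁻¹ * ρ (σ * (g * s))) ((ρ (σ * (g * s)))⁻¹ * ρ (σ * (g * s) * (h * s'))) =
      ρ σ • y ((ρ σ)⁻¹ * ρ (σ * g)) ((ρ (σ * g))⁻¹ * ρ (σ * g * h))
    rw [e2, e1, hk1, hk1']
    congr 1
    rw [← hyN ((ρ σ)⁻¹ * ρ (σ * g)) ((ρ (σ * g))⁻¹ * ρ (σ * g * h)) k k' hk hk']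
    congr 1 <;> group
  · have hρ1 : ∀ d : Γ, ρ (d : GQ) = d * ρ 1 := fun d => by
      have := hρ d 1
      rwa [mul_one] at this
    set r := ρ 1 with hr
    have hval : ∀ d d' : Γ, (x d d').1 1 = r • y (r⁻¹ * d * r) (r⁻¹ * d' * r) := by
      intro d d'
      show ρ 1 • y ((ρ 1)⁻¹ * ρ (1 * (d : GQ)))
        ((ρ (1 * (d : GQ)))⁻¹ * ρ (1 * (d : GQ) * (d' : GQ))) = _
      have e1 : (1 * (d : GQ) * (d' : GQ)) = ((d * d' : Γ) : GQ) := by rw [one_mul]; rfl
      rw [e1, one_mul, hρ1, hρ1, ← hr]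
      congr 2
      group
    refine ⟨fun d => y r (r⁻¹ * d * r) - y d r, ⟨N, hN, ?_⟩, fun d d' => ?_⟩
    · intro g s hs
      have hs' : s ∈ N.fixingSubgroup.comap Γ.subtype := hs
      have h5 : r⁻¹ * s * r ∈ N.fixingSubgroup.comap Γ.subtype := by
        have := hNn.conj_mem _ hs ((r : GQ)⁻¹)
        rw [inv_inv] at this
        exact this
      have e1 : y r (r⁻¹ * (g * s) * r) = y r (r⁻¹ * g * r) := by
        have h6 := hyE r (r⁻¹ * g * r) 1 (r⁻¹ * s * r) (by rw [map_one]; exact one_mem _) (hNE h5)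
        rw [← h6]
        congr 1
        group
      have e2 : y (g * s) r = y g r := by
        have h6 := hyE g r s 1 (hNE hs) (by rw [map_one]; exact one_mem _)
        rw [← h6, mul_one]
      show y r (r⁻¹ * (g * s) * r) - y (g * s) r = y r (r⁻¹ * g * r) - y g r
      rw [e1, e2]
    · simp only [Pi.sub_apply, hval]
      have e1 := hyc r (r⁻¹ * d * r) (r⁻¹ * d' * r)
      have e2 := hyc d r (r⁻¹ * d' * r)
      have e3 := hyc d d' r
      rw [show r * (r⁻¹ * d * r) = d * r by group,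
        show r⁻¹ * d * r * (r⁻¹ * d' * r) = r⁻¹ * (d * d') * r by group] at e1
      rw [show r * (r⁻¹ * d' * r) = d' * r by group] at e2
      have e1' : r • y (r⁻¹ * d * r) (r⁻¹ * d' * r) = y r (r⁻¹ * d * r) +
          y (d * r) (r⁻¹ * d' * r) - y r (r⁻¹ * (d * d') * r) := by
        rw [e1]; abel
      have e2' : y (d * r) (r⁻¹ * d' * r) = d • y r (r⁻¹ * d' * r) + y d (d' * r) - y d r := by
        rw [← e2]; abel
      have e3' : y d (d' * r) = y d d' + y (d * d') r - d • y d' r := by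
        rw [e3]; abel
      rw [e1', e2', e3', smul_sub]
      abel

variable (T W) in
/-- the evaluation map on classes -/
def evH (Γ : Subgroup GQ) [DistribMulAction Γ W] :
    Z2L T (MonoidHom.id GQ) (CoInd Γ.subtype W) →+
    (Z2L T Γ.subtype W ⧸ (B2L T Γ.subtype W).addSubgroupOf (Z2L T Γ.subtype W)) :=
  (QuotientAddGroup.mk' _).comp
    { toFun := fun x => ⟨ev2 x.1, ev2_mem_Z2L x.2⟩
      map_zero' := rfl
      map_add' := fun _ _ => rfl }

/-- **Shapiro's lemma**, orders of the second cohomology groups -/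
theorem h2_shap_le (hM : M.IsUnramifiedOutside T) (hMΓ : M.fixingSubgroup ≤ Γ)
    (h0 : h2 T (MonoidHom.id GQ) (CoInd Γ.subtype W) ≠ 0) :
    h2 T Γ.subtype W ≤ h2 T (MonoidHom.id GQ) (CoInd Γ.subtype W) := by
  set A := Z2L T (MonoidHom.id GQ) (CoInd Γ.subtype W) with hA
  set B := (B2L T (MonoidHom.id GQ) (CoInd Γ.subtype W)).addSubgroupOf A with hB
  have hfin : Finite (A ⧸ B) := Nat.finite_of_card_ne_zero h0
  have hker : B ≤ (evH T W Γ).ker := by
    intro x hx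
    rw [AddMonoidHom.mem_ker]
    refine (QuotientAddGroup.eq_zero_iff _).mpr ?_
    exact ev2_mem_B2L hx
  have hsurj : Function.Surjective (QuotientAddGroup.lift B (evH T W Γ) hker) := by
    intro q
    induction q using QuotientAddGroup.induction_on with
    | H y =>
      obtain ⟨x, hx, hxy⟩ := shap2_surj hM hMΓ y.2
      refine ⟨QuotientAddGroup.mk ⟨x, hx⟩, ?_⟩
      show (evH T W Γ) ⟨x, hx⟩ = _
      refine QuotientAddGroup.eq.mpr ?_
      rw [neg_add_eq_sub]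
      show y.1 - _ ∈ B2L T Γ.subtype W
      rw [← neg_sub]
      exact neg_mem hxy
  exact Nat.card_le_card_of_surjective _ hsurj

/-- Shapiro's lemma, nonvanishing of the order -/
theorem h2_shap_ne (hM : M.IsUnramifiedOutside T) (hMΓ : M.fixingSubgroup ≤ Γ)
    (h0 : h2 T (MonoidHom.id GQ) (CoInd Γ.subtype W) ≠ 0) :
    h2 T Γ.subtype W ≠ 0 := by
  set A := Z2L T (MonoidHom.id GQ) (CoInd Γ.subtype W) with hA
  set B := (B2L T (MonoidHom.id GQ) (CoInd Γ.subtype W)).addSubgroupOf A with hB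
  have hfin : Finite (A ⧸ B) := Nat.finite_of_card_ne_zero h0
  have hker : B ≤ (evH T W Γ).ker := by
    intro x hx
    rw [AddMonoidHom.mem_ker]
    refine (QuotientAddGroup.eq_zero_iff _).mpr ?_
    exact ev2_mem_B2L hx
  have hsurj : Function.Surjective (QuotientAddGroup.lift B (evH T W Γ) hker) := by
    intro q
    induction q using QuotientAddGroup.induction_on with
    | H y =>
      obtain ⟨x, hx, hxy⟩ := shap2_surj hM hMΓ y.2
      refine ⟨QuotientAddGroup.mk ⟨x, hx⟩, ?_⟩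
      show (evH T W Γ) ⟨x, hx⟩ = _
      refine QuotientAddGroup.eq.mpr ?_
      rw [neg_add_eq_sub]
      show y.1 - _ ∈ B2L T Γ.subtype W
      rw [← neg_sub]
      exact neg_mem hxy
  haveI := Finite.of_surjective _ hsurj
  exact Nat.card_pos.ne'

end shap

end

end Fermat.Agent.EulerC
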