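import Fermat.Agent.EulerC.HGlob
import Fermat.Agent.EulerC.Shap
import Fermat.Agent.EulerC.Final

set_option autoImplicit false
set_option maxHeartbeats 400000

/-! The lower bound for `H²` of free modules. -/

namespace Fermat.Agent.EulerC

open Finset Fermat.Agent.CFT Fermat.Agent.CFTSec Fermat.Agent.TWLocal

noncomputable section

variable {p : ℕ} [hp : Fact p.Prime] {ζ : Qb} (hζ : IsPrimitiveRoot ζ p)

theorem card_dl (m : ℕ) : Nat.card (Dl hζ (TrW m p)) = p ^ m := by
  have h1 : Nat.card (TrW m p →+ ZMod p) = Nat.card (TrW m p) := card_hom_zmod TrW.tors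
  have h2 : Nat.card (TrW m p) = p ^ m := by
    show Nat.card (Fin m → ZMod p) = p ^ m
    rw [Nat.card_fun, Nat.card_zmod, Nat.card_fin]
  exact h1.trans h2

/-- **the lower bound for `H²` of free modules** -/
theorem h2LowAll (hp2 : 2 < p) : H2LowAll p hζ := by
  classical
  intro T L hLn hpT hL hζL hcl m
  haveI := hL.1
  haveI : L.fixingSubgroup.FiniteIndex := finiteIndex_fixingSubgroup L
  haveI : ∀ q : T, Fintype (Pl q.1 L.fixingSubgroup) := fun q => Fintype.ofFinite _
  letI : Fintype (PlT T L.fixingSubgroup) := inferInstance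
  obtain ⟨E, hE, hEn, hLE, Y, e, hP⟩ := exists_family hp2 hpT hL
  obtain ⟨⟨I, hI⟩, mm, hmm, hm1⟩ := glob_pack hp2 hζ hpT hE (hLE hζL) L.fixingSubgroup
  have hex : ∀ c : (KP hP I).ker, _ := fun c => exists_glob hζ hpT hL hζL hE hLE hP I hI hm1 c.2
  choose y B E' hE' hB hyc hyl hyd using hex
  have htrivW : ∀ (γ : L.fixingSubgroup) (x : TrW m p), γ • x = x := fun γ x => TrW.smul_eq γ x
  -- tuples
  let Yt : (Fin m → (KP hP I).ker) → L.fixingSubgroup → L.fixingSubgroup → TrW m p :=
    fun C g h i => y (C i) g h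
  have hYt : ∀ C, Yt C ∈ Z2L T L.fixingSubgroup.subtype (TrW m p) := by
    intro C
    refine ⟨fun g h k => ?_, ⨆ i, E' (C i), IsUnramifiedOutside.iSup fun i => hE' (C i),
      fun g h s s' hs hs' => ?_⟩
    · rw [htrivW]
      funext i
      exact hyc (C i) g h k
    · funext i
      exact hyl (C i) g h s s'
        (IntermediateField.fixingSubgroup_antitone (le_iSup (fun i => E' (C i)) i) hs)
        (IntermediateField.fixingSubgroup_antitone (le_iSup (fun i => E' (C i)) i) hs')
  have hex2 := fun C => shap2_surj hL (le_refl L.fixingSubgroup) (hYt C)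
  choose x hx hxY using hex2
  -- finiteness
  have hhig : HigM L L.fixingSubgroup (TrW m p) := by
    refine hig_of_index TrW.tors ?_
    rw [Subgroup.subgroupOf_self, Subgroup.index_top]
    exact Nat.coprime_one_left p
  have hne := (h2_coind hp2 hζ hpT hL hζL hcl (le_refl L.fixingSubgroup) (W := TrW m p) TrW.tors
    (fun γ _ x => htrivW γ x) (fun g _ k hk => hLn.conj_mem k hk g) hhig).1
  let X := CoInd L.fixingSubgroup.subtype (TrW m p)
  haveI hfinQ : Finite (↥(Z2L T (MonoidHom.id GQ) X) ⧸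
      (B2L T (MonoidHom.id GQ) X).addSubgroupOf (Z2L T (MonoidHom.id GQ) X)) :=
    Nat.finite_of_card_ne_zero hne
  have hinj : Function.Injective (fun C : Fin m → (KP hP I).ker =>
      (QuotientAddGroup.mk ⟨x C, hx C⟩ : ↥(Z2L T (MonoidHom.id GQ) X) ⧸
      (B2L T (MonoidHom.id GQ) X).addSubgroupOf (Z2L T (MonoidHom.id GQ) X))) := by
    intro C C' h
    have h0 := QuotientAddGroup.eq.mp h
    have h1 : -x C + x C' ∈ B2L T (MonoidHom.id GQ) X := h0
    have h2 := ev2_mem_B2L ((B2L T (MonoidHom.id GQ) X).neg_mem h1)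
    have h3 : Yt C - Yt C' ∈ B2L T L.fixingSubgroup.subtype (TrW m p) := by
      have h4 : Yt C - Yt C' = (fun γ δ : L.fixingSubgroup => ((-(-x C + x C')) γ δ).1 1) -
          ((fun γ δ : L.fixingSubgroup => (x C γ δ).1 1) - Yt C) +
          ((fun γ δ : L.fixingSubgroup => (x C' γ δ).1 1) - Yt C') := by
        funext g k
        show Yt C g k - Yt C' g k = -(-(x C g k).1 1 + (x C' g k).1 1) -
          ((x C g k).1 1 - Yt C g k) + ((x C' g k).1 1 - Yt C' g k)
        abel
      rw [h4]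
      exact (B2L _ _ _).add_mem ((B2L _ _ _).sub_mem h2 (hxY C)) (hxY C')
    obtain ⟨β, ⟨E₂, hE₂, hβ⟩, hb⟩ := h3
    funext i
    apply Subtype.ext
    have hEi : (E' (C i) ⊔ E' (C' i) ⊔ E₂).IsUnramifiedOutside T :=
      ((hE' _).sup (hE' _)).sup hE₂
    refine glob_inj hζ hL hζL hE hP hmm hEi (fun g n hn => hB (C i) g n ?_)
      (fun g n hn => hB (C' i) g n ?_) (hyd (C i)) (hyd (C' i)) (β := fun g => β g i)
      (fun g n hn => congrFun (hβ g n ?_) i) (fun g h => ?_)
    · exact IntermediateField.fixingSubgroup_antitone (le_sup_left.trans le_sup_left) hn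
    · exact IntermediateField.fixingSubgroup_antitone (le_sup_right.trans le_sup_left) hn
    · exact IntermediateField.fixingSubgroup_antitone le_sup_right hn
    · exact congrFun (hb g h) i
  have hcard : Nat.card (KP hP I).ker ^ m ≤ h2 T (MonoidHom.id GQ) X := by
    have h1 : Nat.card (Fin m → (KP hP I).ker) = Nat.card (KP hP I).ker ^ m := by
      rw [Nat.card_fun, Nat.card_fin]
    rw [← h1]
    exact Nat.card_le_card_of_injective _ hinj
  -- counting
  have htrivD : ∀ (γ : L.fixingSubgroup) (l : Dl hζ (TrW m p)), γ • l = l := fun γ l =>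
    triv_dl hζ hζL (fun γ _ x => htrivW γ x) γ γ.2 l
  have e1 : ∏ q ∈ T, Nat.card (MD L.fixingSubgroup (Dl hζ (TrW m p)) (Dq q)) =
      (p ^ m) ^ Nat.card (PlT T L.fixingSubgroup) := by
    rw [← Finset.prod_coe_sort T (fun q => Nat.card (MD L.fixingSubgroup (Dl hζ (TrW m p)) (Dq q)))]
    have h1 : ∀ q : T, Nat.card (MD L.fixingSubgroup (Dl hζ (TrW m p)) (Dq q.1)) =
        (p ^ m) ^ Nat.card (Pl q.1 L.fixingSubgroup) := by
      intro q
      rw [card_MD_places htrivD, card_dl]
    rw [Finset.prod_congr rfl fun q _ => h1 q, Finset.prod_pow_eq_pow_sum, Nat.card_sigma]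
  rw [e1, card_MD_top' htrivD, card_dl, ← pow_mul, mul_comm m, pow_mul]
  calc (p ^ Nat.card (PlT T L.fixingSubgroup)) ^ m
      ≤ (Nat.card (KP hP I).ker * p) ^ m := Nat.pow_le_pow_left (card_KP hP I) m
    _ = Nat.card (KP hP I).ker ^ m * p ^ m := mul_pow _ _ _
    _ ≤ _ := Nat.mul_le_mul_right _ hcard

end

end Fermat.Agent.EulerC
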