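import Fermat.Agent.EulerC.HLoc

set_option autoImplicit false
set_option maxHeartbeats 400000

/-! Classes of order `p` supported at one place. -/

namespace Fermat.Agent.EulerC

open Finset Fermat.Agent.CFT Fermat.Agent.CFTSec Fermat.Agent.TWLocal

noncomputable section

section place

variable (q : Nat.Primes) (Γ : Subgroup GQ) [hΓ : Γ.Normal] (g : GQ)

/-- the double coset -/
def Db (x : GQ) : Prop :=
  ∃ de : LG q × GQ, de.2 ∈ Γ ∧ x = localGaloisToGlobal (q : ℕ) de.1 * g * de.2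

variable {q Γ g}

theorem Db.mul_right {x e : GQ} (h : Db q Γ g x) (he : e ∈ Γ) : Db q Γ g (x * e) := by
  obtain ⟨⟨d, e'⟩, he', hx⟩ := h
  exact ⟨⟨d, e' * e⟩, Γ.mul_mem he' he, by rw [hx, mul_assoc]⟩

theorem Db.mul_left {x : GQ} (h : Db q Γ g x) (t : LG q) :
    Db q Γ g (localGaloisToGlobal (q : ℕ) t * x) := by
  obtain ⟨⟨d, e'⟩, he', hx⟩ := h
  exact ⟨⟨t * d, e'⟩, he', by
    show _ = localGaloisToGlobal (q : ℕ) (t * d) * g * e'
    rw [hx, map_mul]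
    simp only [mul_assoc]⟩

theorem Db.of_mul_right {x e : GQ} (h : Db q Γ g (x * e)) (he : e ∈ Γ) : Db q Γ g x := by
  have := h.mul_right (Γ.inv_mem he)
  rwa [mul_inv_cancel_right] at this

theorem Db.of_mul_left {x : GQ} {t : LG q} (h : Db q Γ g (localGaloisToGlobal (q : ℕ) t * x)) :
    Db q Γ g x := by
  have := h.mul_left t⁻¹
  rwa [map_inv, inv_mul_cancel_left] at this

theorem Db.self : Db q Γ g g := ⟨⟨1, 1⟩, Γ.one_mem, by simp⟩

omit hΓ in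
/-- comparison of representations -/
theorem rep_cmp [hΓ : Γ.Normal] {d d' : LG q} {e e' : GQ} (he : e ∈ Γ) (he' : e' ∈ Γ)
    (h : localGaloisToGlobal (q : ℕ) d * g * e = localGaloisToGlobal (q : ℕ) d' * g * e') :
    d'⁻¹ * d ∈ dN q Γ ∧ e' = g⁻¹ * localGaloisToGlobal (q : ℕ) (d'⁻¹ * d) * g * e := by
  have h1 : e' = g⁻¹ * localGaloisToGlobal (q : ℕ) (d'⁻¹ * d) * g * e := by
    rw [map_mul, map_inv]
    have h2 : g⁻¹ * ((localGaloisToGlobal (q : ℕ) d')⁻¹ * localGaloisToGlobal (q : ℕ) d) * g * e =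
        g⁻¹ * (localGaloisToGlobal (q : ℕ) d')⁻¹ * (localGaloisToGlobal (q : ℕ) d * g * e) := by
      group
    rw [h2, h]
    group
  refine ⟨?_, h1⟩
  show localGaloisToGlobal (q : ℕ) (d'⁻¹ * d) ∈ Γ
  have h3 : localGaloisToGlobal (q : ℕ) (d'⁻¹ * d) = g * (e' * e⁻¹) * g⁻¹ := by
    rw [h1]; group
  rw [h3]
  exact hΓ.conj_mem _ (Γ.mul_mem he' (Γ.inv_mem he)) g

variable (q Γ g)

variable (a : LM q) (ha : ∀ t ∈ dN q Γ, t • a = a)

open Classical in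
/-- values of the local element supported at one place -/
def jwF (x : GQ) : LM q := if h : Db q Γ g x then h.choose.1 • a else 0

variable {q Γ g a}

include ha in
theorem jwF_rep (d : LG q) {e : GQ} (he : e ∈ Γ) :
    jwF q Γ g a (localGaloisToGlobal (q : ℕ) d * g * e) = d • a := by
  have h : Db q Γ g (localGaloisToGlobal (q : ℕ) d * g * e) := ⟨⟨d, e⟩, he, rfl⟩
  rw [jwF, dif_pos h]
  obtain ⟨h1, -⟩ := rep_cmp he h.choose_spec.1 h.choose_spec.2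
  have h2 := ha _ h1
  calc h.choose.1 • a = h.choose.1 • (h.choose.1⁻¹ * d) • a := by rw [h2]
    _ = d • a := by rw [smul_smul, mul_inv_cancel_left]

theorem jwF_ne {x : GQ} (h : ¬ Db q Γ g x) : jwF q Γ g a x = 0 := dif_neg h

include ha in
theorem jwF_left (t : LG q) (x : GQ) :
    jwF q Γ g a (localGaloisToGlobal (q : ℕ) t * x) = t • jwF q Γ g a x := by
  by_cases h : Db q Γ g x
  · obtain ⟨⟨d, e⟩, he, hx⟩ := h
    have h1 : localGaloisToGlobal (q : ℕ) t * x =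
        localGaloisToGlobal (q : ℕ) (t * d) * g * e := by
      rw [hx, map_mul]; simp only [mul_assoc]
    rw [h1, jwF_rep ha _ he, hx, jwF_rep ha _ he, mul_smul]
  · rw [jwF_ne h, jwF_ne (fun h' => h h'.of_mul_left), smul_zero]

include ha in
theorem jwF_right (x : GQ) {e : GQ} (he : e ∈ Γ) : jwF q Γ g a (x * e) = jwF q Γ g a x := by
  by_cases h : Db q Γ g x
  · obtain ⟨⟨d, e'⟩, he', hx⟩ := h
    have h1 : x * e = localGaloisToGlobal (q : ℕ) d * g * (e' * e) := by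
      rw [hx]; simp only [mul_assoc]
    rw [h1, jwF_rep ha _ (Γ.mul_mem he' he), hx, jwF_rep ha _ he']
  · rw [jwF_ne h, jwF_ne (fun h' => h (h'.of_mul_right he))]

/-- the local element supported at one place -/
def jw (g : GQ) (ha : ∀ t ∈ dN q Γ, t • a = a) : JQ q := ⟨jwF q Γ g a, fun t x => jwF_left ha t x⟩

theorem jw_fix : jw g ha ∈ fix (JQ q) Γ := fun e he =>
  Subtype.ext (funext fun x => jwF_right ha x he)

end place

section theta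

variable {p : ℕ} [hp : Fact p.Prime] {m : ℕ}

/-- reduction -/
def rd : ZMod (p ^ (m + 1)) →+* ZMod (p ^ m) := ZMod.castHom (pow_dvd_pow p (Nat.le_succ m)) _

theorem rd_tors {z : ZMod (p ^ (m + 1))} (hz : p • z = 0) : rd z = 0 := by
  obtain ⟨c, rfl⟩ := eP_surj m hz
  have h1 : eP m c = ((c.val * p ^ m : ℕ) : ZMod (p ^ (m + 1))) := by
    show c.val • ((p ^ m : ℕ) : ZMod (p ^ (m + 1))) = _
    rw [nsmul_eq_mul, ← Nat.cast_mul]
  rw [h1, map_natCast, Nat.cast_mul, ZMod.natCast_self, mul_zero]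

theorem rd_lft {G : Type*} (χ : G → ZMod (p ^ (m + 1))) (g : G) :
    ((lft χ g : ℤ) : ZMod (p ^ m)) = rd (χ g) := by
  show (((χ g).val : ℤ) : ZMod (p ^ m)) = _
  rw [Int.cast_natCast]
  conv_rhs => rw [← ZMod.natCast_zmod_val (χ g)]
  rw [map_natCast]

variable (q : Nat.Primes) (Γ : Subgroup GQ) [hΓ : Γ.Normal] (g : GQ)
  (ψ : GQ → ZMod (p ^ (m + 1)))

open Classical in
/-- the reduction of the character on the double coset -/
def thw (x : GQ) : ZMod (p ^ m) := if h : Db q Γ g x then rd (ψ h.choose.2) else 0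

variable {q Γ g ψ} (hψ : ∀ x y, ψ (x * y) = ψ x + ψ y)
  (hψU : ∀ t ∈ dN q Γ, p • ψ (localGaloisToGlobal (q : ℕ) t) = 0)

include hψ in
theorem psi_conj (x y : GQ) : ψ (y⁻¹ * x * y) = ψ x := by
  have h1 : ψ 1 = 0 := chi_one ψ hψ
  have h2 : ψ y⁻¹ + ψ y = 0 := by rw [← hψ, inv_mul_cancel, h1]
  rw [hψ, hψ, add_comm (ψ y⁻¹), add_assoc, h2, add_zero]

include hψ hψU in
theorem thw_rep (d : LG q) {e : GQ} (he : e ∈ Γ) :
    thw q Γ g ψ (localGaloisToGlobal (q : ℕ) d * g * e) = rd (ψ e) := by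
  have h : Db q Γ g (localGaloisToGlobal (q : ℕ) d * g * e) := ⟨⟨d, e⟩, he, rfl⟩
  rw [thw, dif_pos h]
  obtain ⟨h1, h2⟩ := rep_cmp he h.choose_spec.1 h.choose_spec.2
  rw [h2, hψ, psi_conj hψ, map_add, rd_tors (hψU _ h1), zero_add]

include hψ hψU in
theorem thw_left (t : LG q) (x : GQ) :
    thw q Γ g ψ (localGaloisToGlobal (q : ℕ) t * x) = thw q Γ g ψ x := by
  by_cases h : Db q Γ g x
  · obtain ⟨⟨d, e⟩, he, hx⟩ := h
    have h1 : localGaloisToGlobal (q : ℕ) t * x =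
        localGaloisToGlobal (q : ℕ) (t * d) * g * e := by
      rw [hx, map_mul]; simp only [mul_assoc]
    rw [h1, thw_rep hψ hψU _ he, hx, thw_rep hψ hψU _ he]
  · rw [thw, dif_neg (fun h' => h h'.of_mul_left), thw, dif_neg h]

include hψ hψU in
theorem thw_right {x : GQ} (h : Db q Γ g x) {e : GQ} (he : e ∈ Γ) :
    thw q Γ g ψ (x * e) = thw q Γ g ψ x + rd (ψ e) := by
  obtain ⟨⟨d, e'⟩, he', hx⟩ := h
  have h1 : x * e = localGaloisToGlobal (q : ℕ) d * g * (e' * e) := by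
    rw [hx]; simp only [mul_assoc]
  rw [h1, thw_rep hψ hψU _ (Γ.mul_mem he' he), hx, thw_rep hψ hψU _ he', hψ, map_add]

variable (q Γ g ψ) in
/-- the integer cochain -/
def kpw (γ x : GQ) : ℤ :=
  ((lft ψ γ : ℤ) - ((thw q Γ g ψ (x * γ)).val : ℤ) + ((thw q Γ g ψ x).val : ℤ)) / ((p ^ m : ℕ) : ℤ)

include hψ hψU in
theorem kpw_spec {x : GQ} (h : Db q Γ g x) {γ : GQ} (hγ : γ ∈ Γ) :
    kpw q Γ g ψ γ x * ((p ^ m : ℕ) : ℤ) =
      (lft ψ γ : ℤ) - ((thw q Γ g ψ (x * γ)).val : ℤ) + ((thw q Γ g ψ x).val : ℤ) := by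
  refine Int.ediv_mul_cancel ?_
  have h1 : (((lft ψ γ : ℤ) - ((thw q Γ g ψ (x * γ)).val : ℤ) + ((thw q Γ g ψ x).val : ℤ) : ℤ) :
      ZMod (p ^ m)) = 0 := by
    push_cast
    rw [rd_lft, ZMod.natCast_zmod_val, ZMod.natCast_zmod_val, thw_right hψ hψU h hγ]
    ring
  exact (ZMod.intCast_zmod_eq_zero_iff_dvd _ _).mp h1

variable (ψ) in
/-- the integer 2-cocycle -/
def nn (γ δ : GQ) : ℤ := (lft ψ γ + lft ψ δ - lft ψ (γ * δ)) / ((p ^ (m + 1) : ℕ) : ℤ)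

include hψ in
theorem nn_spec (γ δ : GQ) :
    nn ψ γ δ * ((p ^ (m + 1) : ℕ) : ℤ) = lft ψ γ + lft ψ δ - lft ψ (γ * δ) :=
  Int.ediv_mul_cancel (lft_dvd ψ hψ γ δ)

include hψ hψU in
theorem kpw_coc {x : GQ} (h : Db q Γ g x) {γ δ : GQ} (hγ : γ ∈ Γ) (hδ : δ ∈ Γ) :
    kpw q Γ g ψ γ x + kpw q Γ g ψ δ (x * γ) - kpw q Γ g ψ (γ * δ) x = p * nn ψ γ δ := by
  have hpm : ((p ^ m : ℕ) : ℤ) ≠ 0 := by exact_mod_cast (pow_pos hp.out.pos m).ne'
  apply mul_right_cancel₀ hpm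
  have h1 := kpw_spec hψ hψU h hγ
  have h2 := kpw_spec hψ hψU (h.mul_right hγ) hδ
  have h3 := kpw_spec hψ hψU h (Γ.mul_mem hγ hδ)
  have h4 := nn_spec hψ γ δ
  rw [mul_assoc x γ δ] at h2
  have h5 : ((p ^ (m + 1) : ℕ) : ℤ) = (p : ℤ) * ((p ^ m : ℕ) : ℤ) := by
    push_cast; ring
  rw [h5] at h4
  calc (kpw q Γ g ψ γ x + kpw q Γ g ψ δ (x * γ) - kpw q Γ g ψ (γ * δ) x) * ((p ^ m : ℕ) : ℤ)
      = kpw q Γ g ψ γ x * ((p ^ m : ℕ) : ℤ) + kpw q Γ g ψ δ (x * γ) * ((p ^ m : ℕ) : ℤ) -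
        kpw q Γ g ψ (γ * δ) x * ((p ^ m : ℕ) : ℤ) := by ring
    _ = lft ψ γ + lft ψ δ - lft ψ (γ * δ) := by rw [h1, h2, h3]; ring
    _ = _ := by rw [← h4]; ring

variable {a : LM q} (ha : ∀ t ∈ dN q Γ, t • a = a)

/-- the cochain with coboundary `p` times the class -/
def ew (g : GQ) (ψ : GQ → ZMod (p ^ (m + 1))) (hψ : ∀ x y, ψ (x * y) = ψ x + ψ y)
    (hψU : ∀ t ∈ dN q Γ, p • ψ (localGaloisToGlobal (q : ℕ) t) = 0)
    (ha : ∀ t ∈ dN q Γ, t • a = a) (γ : Γ) : JQ q :=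
  ⟨fun x => kpw q Γ g ψ γ x • jwF q Γ g a x, fun t x => by
    show kpw q Γ g ψ γ (localGaloisToGlobal (q : ℕ) t * x) •
      jwF q Γ g a (localGaloisToGlobal (q : ℕ) t * x) = t • (kpw q Γ g ψ γ x • jwF q Γ g a x)
    have h1 : kpw q Γ g ψ γ (localGaloisToGlobal (q : ℕ) t * x) = kpw q Γ g ψ γ x := by
      rw [kpw, kpw, mul_assoc, thw_left hψ hψU, thw_left hψ hψU]
    rw [h1, jwF_left ha, smul_comm]⟩

theorem smul_aux {A : Type*} [AddCommGroup A] {p : ℕ} {k1 k2 k3 k4 : ℤ}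
    (h : k1 + k2 - k3 = p * k4) (y : A) : p • k4 • y = k1 • y + k2 • y - k3 • y := by
  rw [← add_smul, ← sub_smul, h, ← natCast_zsmul, smul_smul]

theorem ew_coc (γ δ : Γ) : p • nn ψ γ δ • jw g ha =
    ew g ψ hψ hψU ha γ + γ • ew g ψ hψ hψU ha δ - ew g ψ hψ hψU ha (γ * δ) := by
  apply Subtype.ext
  funext x
  show p • nn ψ γ δ • jwF q Γ g a x = kpw q Γ g ψ γ x • jwF q Γ g a x +
    kpw q Γ g ψ δ (x * γ) • jwF q Γ g a (x * γ) - kpw q Γ g ψ (γ * δ) x • jwF q Γ g a x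
  rw [jwF_right ha x γ.2]
  by_cases h : Db q Γ g x
  · exact smul_aux (kpw_coc hψ hψU h γ.2 δ.2) _
  · rw [jwF_ne h]; simp only [smul_zero, add_zero, sub_zero]

variable {N : Subgroup GQ} [hN : N.Normal] (hNΓ : N ≤ Γ) (hψN : ∀ s ∈ N, ψ s = 0)

include hψ hψU hNΓ hψN in
theorem thw_N (x s : GQ) (hs : s ∈ N) : thw q Γ g ψ (x * s) = thw q Γ g ψ x := by
  by_cases h : Db q Γ g x
  · rw [thw_right hψ hψU h (hNΓ hs), hψN s hs, map_zero, add_zero]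
  · rw [thw, dif_neg (fun h' => h (h'.of_mul_right (hNΓ hs))), thw, dif_neg h]

include hψ hψN in
theorem psi_N (x : GQ) {s : GQ} (hs : s ∈ N) : ψ (x * s) = ψ x := by
  rw [hψ, hψN s hs, add_zero]

include hψU hN hNΓ hψN in
theorem ew_N (γ s : Γ) (hs : (s : GQ) ∈ N) :
    ew g ψ hψ hψU ha (γ * s) = ew g ψ hψ hψU ha γ := by
  apply Subtype.ext
  funext x
  show kpw q Γ g ψ (γ * s) x • _ = kpw q Γ g ψ γ x • _
  congr 1
  rw [kpw, kpw, ← mul_assoc, thw_N hψ hψU hNΓ hψN _ _ hs]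
  have : lft ψ ((γ : GQ) * s) = lft ψ γ := by
    show ((ψ ((γ : GQ) * s)).val : ℤ) = _
    rw [psi_N hψ hψN _ hs]; rfl
  rw [this]

include hψU hN hNΓ hψN in
theorem ew_fix (γ : Γ) : ew g ψ hψ hψU ha γ ∈ fix (JQ q) N := by
  intro s hs
  apply Subtype.ext
  funext x
  show kpw q Γ g ψ γ (x * s) • jwF q Γ g a (x * s) = kpw q Γ g ψ γ x • jwF q Γ g a x
  have h1 : x * s * γ = x * γ * ((γ : GQ)⁻¹ * s * γ) := by group
  have h2 : (γ : GQ)⁻¹ * s * γ ∈ N := by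
    have := hN.conj_mem s hs (γ : GQ)⁻¹
    rwa [inv_inv] at this
  have h3 : kpw q Γ g ψ γ (x * s) = kpw q Γ g ψ γ x := by
    rw [kpw, kpw, h1, thw_N hψ hψU hNΓ hψN _ _ h2, thw_N hψ hψU hNΓ hψN _ _ hs]
  rw [jwF_right ha x (hNΓ hs), h3]

end theta

end

end Fermat.Agent.EulerC
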