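import Fermat.Agent.EulerC.Defs

set_option autoImplicit false
set_option maxHeartbeats 400000

/-! Invariance of the cohomology counts under equivariant isomorphisms. -/

namespace Fermat.Agent.EulerC

open Fermat.Agent.CFT Fermat.Agent.CFTSec

noncomputable section

section inv

variable {T : Finset Nat.Primes} {U : Type*} [Group U] {π : U →* GQ}
  {A B : Type*} [AddCommGroup A] [DistribMulAction U A] [AddCommGroup B] [DistribMulAction U B]
  (e : A ≃+ B) (he : ∀ (u : U) (a : A), e (u • a) = u • e a)

include he

theorem symm_smul (u : U) (b : B) : e.symm (u • b) = u • e.symm b := by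
  apply e.injective
  rw [he, e.apply_symm_apply, e.apply_symm_apply]

theorem LvM.congr (h : LvM T π A) : LvM T π B := by
  obtain ⟨E, hE, h1⟩ := h
  refine ⟨E, hE, fun s hs n => ?_⟩
  have h2 := congrArg e (h1 s hs (e.symm n))
  rwa [he, e.apply_symm_apply] at h2

theorem h0_congr : h0 U A = h0 U B := by
  refine Nat.card_congr ⟨fun x => ⟨e x.1, fun n hn => ?_⟩, fun x => ⟨e.symm x.1, fun n hn => ?_⟩,
    fun x => Subtype.ext (e.symm_apply_apply _), fun x => Subtype.ext (e.apply_symm_apply _)⟩
  · rw [← he, x.2 n hn]
  · rw [← symm_smul e he, x.2 n hn]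

end inv

end

section rel

variable {X Y : Type*} [AddCommGroup X] [AddCommGroup Y] (e : X ≃+ Y)

theorem relIndex_map (H K : AddSubgroup X) :
    (H.map e.toAddMonoidHom).relIndex (K.map e.toAddMonoidHom) = H.relIndex K :=
  AddSubgroup.relIndex_map_map_of_injective H K e.injective

end rel

section inv2

variable {T : Finset Nat.Primes} {U : Type*} [Group U] {π : U →* GQ}
  {A B : Type*} [AddCommGroup A] [DistribMulAction U A] [AddCommGroup B] [DistribMulAction U B]

theorem map_Z1L_le (e : A ≃+ B) (he : ∀ (u : U) (a : A), e (u • a) = u • e a) {c : U → A}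
    (hc : c ∈ Z1L T π A) : (fun u => e (c u)) ∈ Z1L T π B := by
  refine ⟨fun g h => ?_, hc.2.comp _⟩
  show e (c (g * h)) = e (c g) + g • e (c h)
  rw [hc.1 g h, map_add, he]

theorem map_B1_le (e : A ≃+ B) (he : ∀ (u : U) (a : A), e (u • a) = u • e a) {c : U → A}
    (hc : c ∈ B1 U A) : (fun u => e (c u)) ∈ B1 U B := by
  obtain ⟨a, ha⟩ := hc
  exact ⟨e a, fun g => by show e (c g) = _; rw [ha, map_sub, he]⟩

theorem map_Z2L_le (e : A ≃+ B) (he : ∀ (u : U) (a : A), e (u • a) = u • e a) {c : U → U → A}
    (hc : c ∈ Z2L T π A) : (fun u v => e (c u v)) ∈ Z2L T π B := by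
  refine ⟨fun g h k => ?_, hc.2.comp _⟩
  show e (c g h) + e (c (g * h) k) = g • e (c h k) + e (c g (h * k))
  rw [← map_add, hc.1 g h k, map_add, he]

theorem map_B2L_le (e : A ≃+ B) (he : ∀ (u : U) (a : A), e (u • a) = u • e a) {c : U → U → A}
    (hc : c ∈ B2L T π A) : (fun u v => e (c u v)) ∈ B2L T π B := by
  obtain ⟨b, hb, h⟩ := hc
  refine ⟨fun u => e (b u), hb.comp _, fun g k => ?_⟩
  show e (c g k) = _
  rw [h, map_sub, map_add, he]

theorem h1_congr (e : A ≃+ B) (he : ∀ (u : U) (a : A), e (u • a) = u • e a) :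
    h1 T π A = h1 T π B := by
  let E : (U → A) ≃+ (U → B) :=
    { toFun := fun c => fun u => e (c u)
      invFun := fun c => fun u => e.symm (c u)
      left_inv := fun c => funext fun u => e.symm_apply_apply _
      right_inv := fun c => funext fun u => e.apply_symm_apply _
      map_add' := fun c d => funext fun u => map_add e _ _ }
  have h1 : (Z1L T π A).map E.toAddMonoidHom = Z1L T π B := by
    apply le_antisymm
    · rintro _ ⟨c, hc, rfl⟩
      exact map_Z1L_le e he hc
    · intro c hc
      exact ⟨fun u => e.symm (c u), map_Z1L_le e.symm (symm_smul e he) hc,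
        funext fun u => e.apply_symm_apply _⟩
  have h2 : (B1 U A).map E.toAddMonoidHom = B1 U B := by
    apply le_antisymm
    · rintro _ ⟨c, hc, rfl⟩
      exact map_B1_le e he hc
    · intro c hc
      exact ⟨fun u => e.symm (c u), map_B1_le e.symm (symm_smul e he) hc,
        funext fun u => e.apply_symm_apply _⟩
  unfold EulerC.h1
  rw [← h1, ← h2, relIndex_map]

theorem h2_congr (e : A ≃+ B) (he : ∀ (u : U) (a : A), e (u • a) = u • e a) :
    h2 T π A = h2 T π B := by
  let E : (U → U → A) ≃+ (U → U → B) :=
    { toFun := fun c => fun u v => e (c u v)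
      invFun := fun c => fun u v => e.symm (c u v)
      left_inv := fun c => funext fun u => funext fun v => e.symm_apply_apply _
      right_inv := fun c => funext fun u => funext fun v => e.apply_symm_apply _
      map_add' := fun c d => funext fun u => funext fun v => map_add e _ _ }
  have h1 : (Z2L T π A).map E.toAddMonoidHom = Z2L T π B := by
    apply le_antisymm
    · rintro _ ⟨c, hc, rfl⟩
      exact map_Z2L_le e he hc
    · intro c hc
      exact ⟨fun u v => e.symm (c u v), map_Z2L_le e.symm (symm_smul e he) hc,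
        funext fun u => funext fun v => e.apply_symm_apply _⟩
  have h2 : (B2L T π A).map E.toAddMonoidHom = B2L T π B := by
    apply le_antisymm
    · rintro _ ⟨c, hc, rfl⟩
      exact map_B2L_le e he hc
    · intro c hc
      exact ⟨fun u v => e.symm (c u v), map_B2L_le e.symm (symm_smul e he) hc,
        funext fun u => funext fun v => e.apply_symm_apply _⟩
  unfold EulerC.h2
  rw [← h1, ← h2, relIndex_map]

end inv2

end Fermat.Agent.EulerC
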