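import Fermat.Agent.EulerC.Sha

set_option autoImplicit false
set_option maxHeartbeats 400000

/-! Vanishing of `Sha²` for coinduced modules and the upper bound for `H²`. -/

namespace Fermat.Agent.EulerC

open Finset Fermat.Agent.CFT Fermat.Agent.CFTSec Fermat.Agent.TWLocal

noncomputable section

/-- open subgroups of the local Galois group contain global levels -/
theorem exists_E_of_open (q : Nat.Primes) {N : Subgroup (LG q)}
    (hN : IsOpen (N : Set (LG q))) : ∃ E : IntermediateField ℚ Qb, FiniteDimensional ℚ E ∧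
      ∀ s, localGaloisToGlobal (q : ℕ) s ∈ E.fixingSubgroup → s ∈ N := by
  have h1 : (N : Set (LG q)) ∈ nhds (1 : LG q) := hN.mem_nhds N.one_mem
  obtain ⟨K, hK, hKN⟩ := (krullTopology_mem_nhds_one_iff ℚ_[(q : ℕ)] (PadicAlgCl (q : ℕ)) _).mp h1
  haveI := hK
  obtain ⟨y, hy⟩ := Field.exists_primitive_element ℚ_[(q : ℕ)] K
  obtain ⟨E, hE, hEs⟩ := exists_level_local q (y : PadicAlgCl (q : ℕ))
  refine ⟨E, hE, fun s hs => hKN ?_⟩
  show s ∈ K.fixingSubgroup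
  rw [IntermediateField.mem_fixingSubgroup_iff]
  have h2 := hEs s hs
  intro x hx
  have h3 : K ≤ IntermediateField.fixedField (Subgroup.zpowers s) := by
    have h4 : (IntermediateField.adjoin ℚ_[(q : ℕ)] {(y : PadicAlgCl (q : ℕ))}) = K := by
      have h5 := congrArg (IntermediateField.map K.val) hy
      rw [IntermediateField.adjoin_map] at h5
      have h6 : (K.val '' {y}) = {(y : PadicAlgCl (q : ℕ))} := by simp
      rw [h6] at h5
      rw [h5, ← AlgHom.fieldRange_eq_map, IntermediateField.fieldRange_val]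
    rw [← h4, IntermediateField.adjoin_simple_le_iff, IntermediateField.mem_fixedField_iff]
    rintro _ ⟨n, rfl⟩
    have h7 : s ∈ MulAction.stabilizer (LG q) (y : PadicAlgCl (q : ℕ)) := h2
    exact (MulAction.stabilizer (LG q) (y : PadicAlgCl (q : ℕ))).zpow_mem h7 n
  have h8 := h3 hx
  rw [IntermediateField.mem_fixedField_iff] at h8
  exact h8 s (Subgroup.mem_zpowers s)

variable {p : ℕ} [hp : Fact p.Prime] (hp2 : 2 < p) {ζ : Qb} (hζ : IsPrimitiveRoot ζ p)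
  {T : Finset Nat.Primes} (hpT : pP p ∈ T) {M : IntermediateField ℚ Qb}
  (hM : M.IsUnramifiedOutside T) (hζM : ζ ∈ M) (hcl : Hcl T M)

/-- precomposition -/
def dlC {W : Type*} [AddCommGroup W] (φ : W →+ W) : Dl hζ W →+ Dl hζ W where
  toFun l := ((dlH hζ l).comp φ : W →+ ZMod p)
  map_zero' := rfl
  map_add' _ _ := rfl

theorem dlC_apply {W : Type*} [AddCommGroup W] (φ : W →+ W) (l : Dl hζ W) (w : W) :
    dlE hζ (dlC hζ φ l) w = dlE hζ l (φ w) := rfl

/-- Higman's criterion for the dual -/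
theorem hig_dl {Γ : Subgroup GQ} {W : Type*} [AddCommGroup W] [DistribMulAction Γ W]
    (h : HigM M Γ W) : HigM M Γ (Dl hζ W) := by
  obtain ⟨φ, hφ⟩ := h
  refine ⟨dlC hζ φ, ?_⟩
  intro hfin l
  apply Dl.ext
  intro w
  have hsum : ∀ (s : Finset (Γ ⧸ M.fixingSubgroup.subgroupOf Γ))
      (f : (Γ ⧸ M.fixingSubgroup.subgroupOf Γ) → Dl hζ W),
      dlE hζ (∑ y ∈ s, f y) w = ∑ y ∈ s, dlE hζ (f y) w := by
    intro s f
    classical
    induction s using Finset.induction_on with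
    | empty => rfl
    | insert a s ha ih => rw [Finset.sum_insert ha, Finset.sum_insert ha, dlE_add, ih]
  rw [hsum]
  have h1 : ∀ y : Γ ⧸ M.fixingSubgroup.subgroupOf Γ,
      dlE hζ (y.out • dlC hζ φ ((y.out)⁻¹ • l)) w = dlE hζ l (y.out • φ ((y.out)⁻¹ • w)) := by
    intro y
    rw [dlE_smul, dlC_apply, dlE_smul, inv_inv, ← mul_assoc, Subgroup.coe_inv, map_inv, Units.mul_inv, one_mul]
  rw [Finset.sum_congr rfl fun y _ => h1 y]
  have h2 : ∑ y : Γ ⧸ M.fixingSubgroup.subgroupOf Γ, dlE hζ l (y.out • φ ((y.out)⁻¹ • w)) =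
      dlH hζ l (∑ y : Γ ⧸ M.fixingSubgroup.subgroupOf Γ, y.out • φ ((y.out)⁻¹ • w)) := by
    rw [map_sum]; rfl
  rw [h2, hφ w]
  rfl

/-- the coinduced module has a level -/
theorem coind_level {Γ : Subgroup GQ} {V : Type*} [AddCommGroup V] [DistribMulAction Γ V]
    {E : IntermediateField ℚ Qb} [hE : E.fixingSubgroup.Normal] (hEΓ : E.fixingSubgroup ≤ Γ)
    (h : ∀ γ : Γ, (γ : GQ) ∈ E.fixingSubgroup → ∀ x : V, γ • x = x) (s : GQ)
    (hs : s ∈ E.fixingSubgroup) (f : CoInd Γ.subtype V) : s • f = f := by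
  apply Subtype.ext
  funext g
  show f.1 (g * s) = f.1 g
  have h1 : g * s * g⁻¹ ∈ E.fixingSubgroup := hE.conj_mem s hs g
  have h2 : g * s = Γ.subtype ⟨g * s * g⁻¹, hEΓ h1⟩ * g := by
    show g * s = g * s * g⁻¹ * g
    rw [inv_mul_cancel_right]
  rw [h2, f.2]
  exact h _ h1 _

section main

variable {Γ : Subgroup GQ} {W : Type*} [AddCommGroup W] [DistribMulAction Γ W] [Finite W]
  (hMΓ : M.fixingSubgroup ≤ Γ) (hpW : ∀ w : W, p • w = 0)
  (htriv : ∀ γ : Γ, (γ : GQ) ∈ M.fixingSubgroup → ∀ x : W, γ • x = x)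
  (hnorm : ∀ g ∈ Γ, ∀ k ∈ M.fixingSubgroup, g * k * g⁻¹ ∈ M.fixingSubgroup)
  (hhig : HigM M Γ W)

include hM hMΓ in
theorem finiteIndex_Γ : Γ.FiniteIndex := by
  haveI := hM.1
  haveI : M.fixingSubgroup.FiniteIndex := finiteIndex_fixingSubgroup M
  exact Subgroup.finiteIndex_of_le hMΓ

include hM hMΓ in
/-- a common level -/
theorem exists_level_coind {V : Type*} [AddCommGroup V] [DistribMulAction Γ V]
    (htriv : ∀ γ : Γ, (γ : GQ) ∈ M.fixingSubgroup → ∀ x : V, γ • x = x) :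
    ∃ E : IntermediateField ℚ Qb, E.IsUnramifiedOutside T ∧
      ∀ s ∈ E.fixingSubgroup, ∀ f : CoInd Γ.subtype V, s • f = f := by
  obtain ⟨N, hN1, hN2, hN3⟩ := exists_galois_unram hM
  haveI := fixing_normal hN2.1 hN3
  have hle := IntermediateField.fixingSubgroup_antitone hN1
  exact ⟨N, hN2, fun s hs f => coind_level (hle.trans hMΓ) (fun γ hγ => htriv γ (hle hγ)) s hs f⟩

include hp2 hζ hpT hM hζM hcl hMΓ hpW htriv hnorm hhig in
/-- locally trivial classes in degree two are trivial -/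
theorem sha2_coind (x : GQ → GQ → CoInd Γ.subtype W)
    (hx : x ∈ Z2L T (MonoidHom.id GQ) (CoInd Γ.subtype W))
    (hloc : ∀ q ∈ T, rsq q x ∈ B2l (LG q) (Rs q (CoInd Γ.subtype W))) :
    x ∈ B2L T (MonoidHom.id GQ) (CoInd Γ.subtype W) := by
  classical
  haveI := finiteIndex_Γ hM hMΓ
  haveI : Fintype (GQ ⧸ Γ) := Fintype.ofFinite _
  have hB := pdata hζ Γ W hpW
  have htriv' : ∀ γ : Γ, (γ : GQ) ∈ M.fixingSubgroup → ∀ l : Dl hζ W, γ • l = l := by
    intro γ hγ l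
    apply Dl.ext
    intro w
    rw [dlE_smul, htriv _ (M.fixingSubgroup.inv_mem hγ)]
    have h1 : (γ : GQ) ζ = ζ := (IntermediateField.mem_fixingSubgroup_iff M _).mp hγ ζ hζM
    rw [chi_eq_one hζ h1, Units.val_one, one_mul]
  obtain ⟨-, hfin, hcard⟩ := sha_count hp2 hpT hζ hB
    (exists_level_coind hM hMΓ htriv')
  have h1 : (B1 GQ (CoInd Γ.subtype (Dl hζ W))).addSubgroupOf
      (Sh1 T (CoInd Γ.subtype (Dl hζ W))) = ⊤ := by
    rw [eq_top_iff]
    rintro ⟨c, hc⟩ -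
    exact sh1_coind hp2 hζ hpT hM hζM hcl hMΓ (p_dl hζ) htriv' hnorm (hig_dl hζ hhig) hc
  rw [h1] at hcard
  have h2 : Nat.card (↥(Sh1 T (CoInd Γ.subtype (Dl hζ W))) ⧸
      (⊤ : AddSubgroup ↥(Sh1 T (CoInd Γ.subtype (Dl hζ W))))) = 1 := by
    exact AddSubgroup.index_top
  rw [h2] at hcard
  have h3 : (B2S T (CoInd Γ.subtype W)).addSubgroupOf (Sh2 T (CoInd Γ.subtype W)) = ⊤ :=
    AddSubgroup.index_eq_one.mp hcard
  have hxS : x ∈ Sh2 T (CoInd Γ.subtype W) := by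
    refine ⟨⟨hx.1, ?_⟩, fun q hq => ?_⟩
    · obtain ⟨E, hE, h⟩ := hx.2
      exact ⟨E, hE, fun g h' s hs s' hs' => h g h' s s' hs hs'⟩
    · obtain ⟨b, ⟨N, hN, hbN⟩, hb⟩ := hloc q hq
      obtain ⟨E, hE, hEN⟩ := exists_E_of_open q hN
      exact ⟨b, ⟨E, hE, fun d s hs => hbN d s (hEN s hs)⟩, fun d d' => hb d d'⟩
  have h4 : (⟨x, hxS⟩ : Sh2 T (CoInd Γ.subtype W)) ∈
      (B2S T (CoInd Γ.subtype W)).addSubgroupOf (Sh2 T (CoInd Γ.subtype W)) := by
    rw [h3]; trivial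
  obtain ⟨b, ⟨E, hE, hbE⟩, hb⟩ := h4
  exact ⟨b, ⟨E, hE, fun g s hs => hbE g s hs⟩, fun g h => hb g h⟩

include hp2 hζ hpT hM hζM hcl hMΓ hpW htriv hnorm hhig in
/-- **the upper bound for `H²`, coinduced modules** -/
theorem h2_coind : h2 T (MonoidHom.id GQ) (CoInd Γ.subtype W) ≠ 0 ∧
    h2 T (MonoidHom.id GQ) (CoInd Γ.subtype W) * Nat.card (MD Γ (Dl hζ W) ⊤) ≤
      ∏ q ∈ T, Nat.card (MD Γ (Dl hζ W) (Dq q)) := by
  classical
  haveI := finiteIndex_Γ hM hMΓ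
  haveI : Fintype (GQ ⧸ Γ) := Fintype.ofFinite _
  have hB := pdata hζ Γ W hpW
  obtain ⟨E, hE, hEX⟩ := exists_level_coind hM hMΓ htriv
  have h1 := h2_upper hp2 hpT (X := CoInd Γ.subtype W) (p_coind Γ hpW)
    ⟨E, hE, fun s hs f => hEX s hs f⟩
    (sha2_coind hp2 hζ hpT hM hζM hcl hMΓ hpW htriv hnorm hhig)
  have hMD : ∀ D : Subgroup GQ, Nat.card (MD Γ (Dl hζ W) D) =
      Nat.card (HomChi hζ D (CoInd Γ.subtype W)) := by
    intro D
    rw [← card_fix_eq hζ hB D]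
    refine Nat.card_congr ⟨fun F => ⟨⟨F.1, fun γ g => ?_⟩, fun d hd => ?_⟩,
      fun F => ⟨F.1.1, fun γ g d hd => ?_⟩, fun F => rfl, fun F => rfl⟩
    · have := F.2 γ g 1 D.one_mem
      rwa [mul_one] at this
    · apply Subtype.ext
      funext g
      have := F.2 1 g d hd
      rw [one_smul, Subgroup.coe_one, one_mul] at this
      exact this
    · have h2 := F.1.2 γ (g * d)
      have h3 := congrArg (fun z : CoInd Γ.subtype (Dl hζ W) => z.1 g) (F.2 d hd)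
      rw [mul_assoc]
      exact h2.trans (congrArg (γ • ·) h3)
  refine ⟨h1.1, ?_⟩
  rw [hMD, ← card_HomEq_glob hζ (p_coind Γ hpW) hM hζM]
  refine h1.2.trans (le_of_eq ?_)
  rw [Finset.prod_coe_sort T (fun q => Nat.card (HomEq (LG q) (Rs q (CoInd Γ.subtype W)) (LM q)))]
  refine Finset.prod_congr rfl fun q _ => ?_
  rw [hMD, card_HomEq_loc hζ (p_coind Γ hpW) hM hζM]

end main

end

end Fermat.Agent.EulerC
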