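import Fermat.Agent.EulerC.Ext
import Fermat.Agent.EulerC.Sha2

set_option autoImplicit false
set_option maxHeartbeats 400000

/-! The lower bound for `H¹` of coinduced modules. -/

namespace Fermat.Agent.EulerC

open Finset Fermat.Agent.CFT Fermat.Agent.CFTSec Fermat.Agent.TWLocal

noncomputable section

section kum

variable {p : ℕ} [hp : Fact p.Prime] {ζ : Qb} (hζ : IsPrimitiveRoot ζ p)
  {T : Finset Nat.Primes} {M : IntermediateField ℚ Qb} (hM : M.IsUnramifiedOutside T)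
  (hζM : ζ ∈ M)

include hζ in
theorem zeta_val_mul (c d : ZMod p) : ζ ^ (c * d).val = ζ ^ (c.val * d.val) := by
  have h1 : c * d = ((c.val * d.val : ℕ) : ZMod p) := by
    push_cast
    rw [ZMod.natCast_zmod_val, ZMod.natCast_zmod_val]
  rw [h1, zeta_val_natCast hζ]

include hζM in
/-- conjugation and the Kummer pairing -/
theorem kp_conj {γ n : GQ} (hn : n ∈ M.fixingSubgroup) (hγn : γ * n * γ⁻¹ ∈ M.fixingSubgroup)
    {a : Qb} (ha : a ∈ M) (ha0 : a ≠ 0) (hγa : γ a ∈ M) :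
    kp p ζ (γ * n * γ⁻¹) (γ a) = (chi hζ γ : ZMod p) * kp p ζ n a := by
  have hb : γ (rt p a) ^ p = γ a := by rw [← map_pow, rt_pow]
  refine kp_unique hζ hζM hγn hγa ((map_ne_zero γ).mpr ha0) hb ?_
  have h1 : (γ * n * γ⁻¹) (γ (rt p a)) = γ (n (rt p a)) := by
    show γ (n (γ⁻¹ (γ (rt p a)))) = _
    have : γ⁻¹ (γ (rt p a)) = rt p a := γ.symm_apply_apply _
    rw [this]
  rw [h1, kp_spec hζ hn ha ha0, map_mul, map_pow, chi_spec hζ, ← pow_mul, zeta_val_mul hζ]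

/-- the Kummer pairing on units -/
def kq0 (n : M.fixingSubgroup) : ↥(SU T M) →+ ZMod p :=
  AddMonoidHom.mk' (fun u => kp p ζ n (qv u.1)) (fun u v => by
    show kp p ζ n (qv (u.1 + v.1)) = _
    rw [qv_add]
    exact kp_mul hζ hζM n.2 (mem_fixQS.mp u.2.1) (qv_ne_zero _) (mem_fixQS.mp v.2.1)
      (qv_ne_zero _))

/-- the Kummer pairing on units modulo `p` -/
def kq (n : M.fixingSubgroup) : (↥(SU T M) ⧸ (mulN ↥(SU T M) p).range) →+ ZMod p :=
  QuotientAddGroup.lift _ (kq0 hζ hζM n) (by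
    rintro _ ⟨u, rfl⟩
    show kq0 hζ hζM n (p • u) = 0
    rw [map_nsmul, nsmul_eq_mul, CharP.cast_eq_zero, zero_mul])

theorem kq_mk (n : M.fixingSubgroup) (u : SU T M) :
    kq hζ hζM n (QuotientAddGroup.mk u) = kp p ζ n (qv u.1) := rfl

theorem kq_mul (n n' : M.fixingSubgroup) (x : ↥(SU T M) ⧸ (mulN ↥(SU T M) p).range) :
    kq hζ hζM (n * n') x = kq hζ hζM n x + kq hζ hζM n' x := by
  obtain ⟨u, rfl⟩ := QuotientAddGroup.mk_surjective x
  rw [kq_mk, kq_mk, kq_mk]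
  exact kp_gmul hζ hζM n.2 n'.2 (mem_fixQS.mp u.2.1) (qv_ne_zero _)

include hM in
theorem kq_sep {x : ↥(SU T M) ⧸ (mulN ↥(SU T M) p).range}
    (h : ∀ n : M.fixingSubgroup, kq hζ hζM n x = 0) : x = 0 := by
  obtain ⟨u, rfl⟩ := QuotientAddGroup.mk_surjective x
  have h1 : rt p (qv u.1) ∈ M := by
    refine mem_of_fixed fun g hg => ?_
    exact (kp_eq_zero_iff hζ hζM hg (mem_fixQS.mp u.2.1) (qv_ne_zero _) (rt_pow p _)).mp
      (h ⟨g, hg⟩)
  set v : QS T := mkU hM _ h1 (rt_ne_zero p (qv_ne_zero u.1)) with hv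
  have h2 : p • v = u.1 := by
    apply qv_injective
    rw [qv_nsmul, hv, qv_mkU, rt_pow]
  have h3 : divQ v = 0 := by
    have h4 : p • divH T v = 0 := by
      rw [← map_nsmul, h2]
      exact u.2.2
    apply Subtype.ext
    funext q σ
    have h5 : p • (divH T v).1 q σ = 0 := congrArg (fun z : DivG T => z.1 q σ) h4
    exact (smul_eq_zero.mp h5).resolve_left hp.out.ne_zero
  refine (QuotientAddGroup.eq_zero_iff _).mpr ⟨⟨v, mem_fixQS.mpr h1, h3⟩, Subtype.ext h2⟩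

end kum

section dd

variable {p : ℕ} [hp : Fact p.Prime] {ζ : Qb} (hζ : IsPrimitiveRoot ζ p)

theorem dd_surj_aux {W : Type*} [AddCommGroup W] [Finite W] [Module (ZMod p) W]
    (ψ : Dl hζ W →+ ZMod p) : ∃ w : W, ∀ l, ψ l = dlE hζ l w := by
  let e : (W →ₗ[ZMod p] ZMod p) →ₗ[ZMod p] ZMod p :=
    AddMonoidHom.toZModLinearMap p
      (ψ.comp ({ toFun := fun l => (l.toAddMonoidHom : W →+ ZMod p)
                 map_zero' := rfl
                 map_add' := fun _ _ => rfl } : (W →ₗ[ZMod p] ZMod p) →+ Dl hζ W))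
  haveI : Module.Finite (ZMod p) W := Module.Finite.of_finite
  obtain ⟨w, hw⟩ := (Module.evalEquiv (ZMod p) W).surjective e
  refine ⟨w, fun l => ?_⟩
  have h1 := LinearMap.congr_fun hw (AddMonoidHom.toZModLinearMap p (dlH hζ l))
  exact h1.symm

theorem dd_surj {W : Type*} [AddCommGroup W] [Finite W] (hW : ∀ w : W, p • w = 0)
    (ψ : Dl hζ W →+ ZMod p) : ∃ w : W, ∀ l, ψ l = dlE hζ l w := by
  letI : Module (ZMod p) W := AddCommGroup.zmodModule hW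
  exact dd_surj_aux hζ ψ

end dd

section kap

variable {p : ℕ} [hp : Fact p.Prime] {ζ : Qb} (hζ : IsPrimitiveRoot ζ p)
  {T : Finset Nat.Primes} {M : IntermediateField ℚ Qb} (hM : M.IsUnramifiedOutside T)
  (hζM : ζ ∈ M) {Γ : Subgroup GQ} {W : Type*} [AddCommGroup W] [DistribMulAction Γ W] [Finite W]
  (hpW : ∀ w : W, p • w = 0)

include hpW in
open Classical in
/-- the homomorphism attached to a Kummer homomorphism -/
def kap (θ : KH T M p Γ (Dl hζ W)) (g : GQ) : W :=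
  if h : g ∈ M.fixingSubgroup then
    (dd_surj hζ hpW ((kq hζ hζM ⟨g, h⟩).comp θ.1)).choose else 0

theorem kap_spec (θ : KH T M p Γ (Dl hζ W)) (g : M.fixingSubgroup) (l : Dl hζ W) :
    dlE hζ l (kap hζ hζM hpW θ g) = kq hζ hζM g (θ.1 l) := by
  have h1 : kap hζ hζM hpW θ g =
      (dd_surj hζ hpW ((kq hζ hζM g).comp θ.1)).choose := by
    rw [kap, dif_pos g.2]
  rw [h1]
  exact ((dd_surj hζ hpW ((kq hζ hζM g).comp θ.1)).choose_spec l).symm

theorem dl_eq {w w' : W} (hpW : ∀ w : W, p • w = 0) (h : ∀ l : Dl hζ W, dlE hζ l w = dlE hζ l w') :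
    w = w' := by
  rw [← sub_eq_zero]
  refine dl_sep hζ hpW fun l => ?_
  have h1 : dlH hζ l (w - w') = dlH hζ l w - dlH hζ l w' := map_sub _ _ _
  show dlH hζ l (w - w') = 0
  rw [h1, sub_eq_zero]
  exact h l

theorem kap_mul (θ : KH T M p Γ (Dl hζ W)) {g g' : GQ} (hg : g ∈ M.fixingSubgroup)
    (hg' : g' ∈ M.fixingSubgroup) :
    kap hζ hζM hpW θ (g * g') = kap hζ hζM hpW θ g + kap hζ hζM hpW θ g' := by
  refine dl_eq hζ hpW fun l => ?_
  rw [dlE_add']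
  have h1 := kap_spec hζ hζM hpW θ ⟨g, hg⟩ l
  have h2 := kap_spec hζ hζM hpW θ ⟨g', hg'⟩ l
  have h3 := kap_spec hζ hζM hpW θ (⟨g, hg⟩ * ⟨g', hg'⟩) l
  rw [kq_mul] at h3
  exact h3.trans (congrArg₂ (· + ·) h1.symm h2.symm)

/-- action on units -/
def smU (hnorm : ∀ g ∈ Γ, ∀ k ∈ M.fixingSubgroup, g * k * g⁻¹ ∈ M.fixingSubgroup) (γ : Γ)
    (u : SU T M) : SU T M :=
  ⟨(γ : GQ) • u.1, by
    refine ⟨fun n hn => ?_, ?_⟩
    · have h1 := hnorm γ⁻¹ (Γ.inv_mem γ.2) n hn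
      have h2 : (γ : GQ)⁻¹ * n * γ ∈ M.fixingSubgroup := by simpa using h1
      have h3 := u.2.1 _ h2
      calc n • (γ : GQ) • u.1 = (γ : GQ) • ((γ : GQ)⁻¹ * n * γ) • u.1 := by
            rw [smul_smul, smul_smul]
            congr 1
            group
        _ = (γ : GQ) • u.1 := by rw [h3]
    · rw [divQ_smul, u.2.2, smul_zero]⟩

theorem kap_conj (hnorm : ∀ g ∈ Γ, ∀ k ∈ M.fixingSubgroup, g * k * g⁻¹ ∈ M.fixingSubgroup)
    (θ : KH T M p Γ (Dl hζ W)) (γ : Γ) {g : GQ} (hg : g ∈ M.fixingSubgroup) :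
    kap hζ hζM hpW θ (γ * g * (γ : GQ)⁻¹) = γ • kap hζ hζM hpW θ g := by
  refine dl_eq hζ hpW fun l => ?_
  obtain ⟨l', rfl⟩ : ∃ l', l = γ • l' := ⟨γ⁻¹ • l, (smul_inv_smul γ l).symm⟩
  rw [dlE_smul']
  have h1 := kap_spec hζ hζM hpW θ ⟨g, hg⟩ l'
  have h2 := kap_spec hζ hζM hpW θ ⟨γ * g * (γ : GQ)⁻¹, hnorm _ γ.2 _ hg⟩ (γ • l')
  obtain ⟨u, hu⟩ := QuotientAddGroup.mk_surjective (θ.1 l')
  have h3 := θ.2 γ l' u (smU hnorm γ u) rfl hu.symm
  rw [← hu, kq_mk] at h1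
  rw [h3, kq_mk] at h2
  rw [h1]
  refine h2.trans ?_
  show kp p ζ (γ * g * (γ : GQ)⁻¹) (qv ((γ : GQ) • u.1)) = _
  rw [qv_smul]
  refine kp_conj hζ hζM hg (hnorm _ γ.2 _ hg) (mem_fixQS.mp u.2.1) (qv_ne_zero _) ?_
  have h4 := (smU hnorm γ u).2.1
  exact mem_fixQS.mp h4

include hM in
/-- the level of Kummer homomorphisms -/
theorem kap_level (hpT : pP p ∈ T) (θ : KH T M p Γ (Dl hζ W)) :
    ∃ E : IntermediateField ℚ Qb, E.IsUnramifiedOutside T ∧ E.fixingSubgroup.Normal ∧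
      E.fixingSubgroup ≤ M.fixingSubgroup ∧ ∀ g ∈ E.fixingSubgroup, kap hζ hζM hpW θ g = 0 := by
  have h1 : ∀ l : Dl hζ W, ∃ L : IntermediateField ℚ Qb, L.IsUnramifiedOutside T ∧
      ∀ g : M.fixingSubgroup, (g : GQ) ∈ L.fixingSubgroup → kq hζ hζM g (θ.1 l) = 0 := by
    intro l
    obtain ⟨u, hu⟩ := QuotientAddGroup.mk_surjective (θ.1 l)
    obtain ⟨L, hL, h2⟩ := kumm_unram hζ hζM hM hpT (x := ⟨u.1, u.2.1⟩)
      ⟨0, by
        rw [map_zero]
        exact (Subtype.ext u.2.2).symm⟩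
    refine ⟨L, hL, fun g hg => ?_⟩
    rw [← hu, kq_mk]
    exact kumm_eq_one hζ hζM |>.mp (h2 g hg)
  choose L hL h2 using h1
  obtain ⟨N, hN1, hN2, hN3⟩ := exists_galois_unram (hM.sup (IsUnramifiedOutside.iSup hL))
  refine ⟨N, hN2, fixing_normal hN2.1 hN3,
    IntermediateField.fixingSubgroup_antitone (le_sup_left.trans hN1), fun g hg => ?_⟩
  have hgM : g ∈ M.fixingSubgroup :=
    IntermediateField.fixingSubgroup_antitone (le_sup_left.trans hN1) hg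
  refine dl_sep hζ hpW fun l => ?_
  rw [kap_spec hζ hζM hpW θ ⟨g, hgM⟩ l]
  exact h2 l ⟨g, hgM⟩ (IntermediateField.fixingSubgroup_antitone
    ((le_iSup L l).trans (le_sup_right.trans hN1)) hg)

include hM in
theorem kap_inj {θ θ' : KH T M p Γ (Dl hζ W)}
    (h : ∀ g ∈ M.fixingSubgroup, kap hζ hζM hpW θ g = kap hζ hζM hpW θ' g) : θ = θ' := by
  apply Subtype.ext
  apply AddMonoidHom.ext
  intro l
  rw [← sub_eq_zero]
  refine kq_sep hζ hM hζM fun n => ?_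
  rw [map_sub, ← kap_spec hζ hζM hpW θ n l, ← kap_spec hζ hζM hpW θ' n l, h n n.2, sub_self]

end kap

section fin

variable {p : ℕ} [hp : Fact p.Prime] (hp2 : 2 < p) {ζ : Qb} (hζ : IsPrimitiveRoot ζ p)
  {T : Finset Nat.Primes} (hpT : pP p ∈ T)

include hp2 hζ hpT in
/-- finiteness of the group of cocycles -/
theorem finite_Z1L {N : Type*} [AddCommGroup N] [DistribMulAction GQ N] [Finite N]
    (hpN : ∀ x : N, p • x = 0) (hlev : LvM T (MonoidHom.id GQ) N) :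
    Finite (Z1L T (MonoidHom.id GQ) N) := by
  obtain ⟨E₀, hE₀, h0⟩ := hlev
  obtain ⟨E, hE, -, hE₀E, hζE, -⟩ := exists_big hp2 hpT hE₀ hζ
  have htr : ∀ s ∈ E.fixingSubgroup, ∀ x : N, s • x = x := fun s hs x =>
    h0 s (IntermediateField.fixingSubgroup_antitone hE₀E hs) x
  haveI := finite_HomS hp2 hpT hE hζ hζE
  haveI := hE.1
  haveI : Finite (GQ ⧸ E.fixingSubgroup) := inferInstance
  letI : Module (ZMod p) N := AddCommGroup.zmodModule hpN
  let F : Z1L T (MonoidHom.id GQ) N → (GQ ⧸ E.fixingSubgroup → N) ×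
      (Dl hζ N → HomS T E p) := fun c => ⟨fun y => c.1 y.out, fun l =>
      ⟨MonoidHom.mk' (fun g => Multiplicative.ofAdd (dlE hζ l (c.1 g))) (fun g h => by
        show Multiplicative.ofAdd (dlE hζ l (c.1 (g * h))) =
          Multiplicative.ofAdd (dlE hζ l (c.1 g) + dlE hζ l (c.1 h))
        rw [c.2.1, dlE_add', htr _ g.2]), by
        obtain ⟨E', hE', h1⟩ := c.2.2
        refine ⟨E', hE', fun g hg => ?_⟩
        have h2 : c.1 (1 * (g : GQ)) = c.1 1 := h1 1 g hg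
        rw [one_mul, Z1.one c.2.1] at h2
        show Multiplicative.ofAdd (dlE hζ l (c.1 g)) = 1
        rw [h2, dlE_zero']; rfl⟩⟩
  refine Finite.of_injective F fun c c' h => ?_
  apply Subtype.ext
  funext g
  have h1 : (QuotientGroup.mk g : GQ ⧸ E.fixingSubgroup).out⁻¹ * g ∈ E.fixingSubgroup := by
    have := mk_out_mem E.fixingSubgroup g
    have h2 := E.fixingSubgroup.inv_mem this
    rwa [mul_inv_rev, inv_inv] at h2
  have h2 : g = (QuotientGroup.mk g : GQ ⧸ E.fixingSubgroup).out *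
      ((QuotientGroup.mk g : GQ ⧸ E.fixingSubgroup).out⁻¹ * g) := by group
  have h3 : ∀ s ∈ E.fixingSubgroup, c.1 s = c'.1 s := by
    intro s hs
    have h4 : ∀ l : Dl hζ N, dlE hζ l (c.1 s) = dlE hζ l (c'.1 s) := fun l =>
      Multiplicative.ofAdd.injective (DFunLike.congr_fun
        (congrArg Subtype.val (congrFun (congrArg Prod.snd h) l)) ⟨s, hs⟩)
    exact dl_eq hζ hpN h4
  rw [h2, c.2.1, c'.2.1, h3 _ h1]
  congr 1
  exact congrFun (congrArg Prod.fst h) _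

include hp2 hζ hpT in
theorem h1_ne_zero {N : Type*} [AddCommGroup N] [DistribMulAction GQ N] [Finite N]
    (hpN : ∀ x : N, p • x = 0) (hlev : LvM T (MonoidHom.id GQ) N) :
    h1 T (MonoidHom.id GQ) N ≠ 0 := by
  haveI := finite_Z1L hp2 hζ hpT hpN hlev
  exact AddSubgroup.FiniteIndex.index_ne_zero

variable {M : IntermediateField ℚ Qb} (hM : M.IsUnramifiedOutside T)
  (hζM : ζ ∈ M) {Γ : Subgroup GQ} {W : Type*} [AddCommGroup W] [DistribMulAction Γ W] [Finite W]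
  (hMΓ : M.fixingSubgroup ≤ Γ) (hpW : ∀ w : W, p • w = 0)
  (htriv : ∀ γ : Γ, (γ : GQ) ∈ M.fixingSubgroup → ∀ x : W, γ • x = x)
  (hnorm : ∀ g ∈ Γ, ∀ k ∈ M.fixingSubgroup, g * k * g⁻¹ ∈ M.fixingSubgroup)
  (hhig : HigM M Γ W)

include hp2 hζ hpT hM hζM hMΓ hpW htriv hnorm hhig in
/-- **the lower bound for `H¹`, coinduced modules** -/
theorem h1_coind : h1 T (MonoidHom.id GQ) (CoInd Γ.subtype W) ≠ 0 ∧
    Nat.card (KH T M p Γ (Dl hζ W)) ≤ h1 T (MonoidHom.id GQ) (CoInd Γ.subtype W) := by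
  haveI := hM.1
  haveI : Γ.FiniteIndex := finiteIndex_Γ hM hMΓ
  haveI : Fintype (GQ ⧸ Γ) := Fintype.ofFinite _
  have hlev : LvM T (MonoidHom.id GQ) (CoInd Γ.subtype W) := by
    obtain ⟨E, hE, h⟩ := exists_level_coind hM hMΓ htriv
    exact ⟨E, hE, h⟩
  have hpX : ∀ f : CoInd Γ.subtype W, p • f = 0 := p_coind Γ hpW
  have hne := h1_ne_zero hp2 hζ hpT hpX hlev
  refine ⟨hne, ?_⟩
  have hex : ∀ θ : KH T M p Γ (Dl hζ W), ∃ c ∈ Z1L T (MonoidHom.id GQ) (CoInd Γ.subtype W),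
      ∀ g ∈ M.fixingSubgroup, (c g).1 1 = kap hζ hζM hpW θ g := by
    intro θ
    obtain ⟨E, hE1, hE2, hE3, hE4⟩ := kap_level hζ hM hζM hpW hpT θ
    exact ext_GQ hM.1 hMΓ htriv hnorm hhig hE2 hE3 hE1 (kap hζ hζM hpW θ)
      (fun g hg g' hg' => kap_mul hζ hζM hpW θ hg hg') hE4
      (fun γ g hg => kap_conj hζ hζM hpW hnorm θ γ hg)
  choose c hc1 hc2 using hex
  have hfin : Finite (Z1L T (MonoidHom.id GQ) (CoInd Γ.subtype W)) :=
    finite_Z1L hp2 hζ hpT hpX hlev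
  let Q := ↥(Z1L T (MonoidHom.id GQ) (CoInd Γ.subtype W)) ⧸
    (B1 GQ (CoInd Γ.subtype W)).addSubgroupOf (Z1L T (MonoidHom.id GQ) (CoInd Γ.subtype W))
  have hinj : Function.Injective (fun θ : KH T M p Γ (Dl hζ W) =>
      (QuotientAddGroup.mk ⟨c θ, hc1 θ⟩ : Q)) := by
    intro θ θ' h
    have h1 := QuotientAddGroup.eq.mp h
    obtain ⟨m, hm⟩ : -c θ + c θ' ∈ B1 GQ (CoInd Γ.subtype W) := h1
    refine kap_inj hζ hM hζM hpW fun g hg => ?_
    rw [← hc2 θ g hg, ← hc2 θ' g hg]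
    have h2 : -(c θ g).1 1 + (c θ' g).1 1 = m.1 (1 * g) - m.1 1 :=
      congrArg (fun f : CoInd Γ.subtype W => f.1 1) (hm g)
    have h3 : m.1 (1 * g) = m.1 1 := by
      rw [one_mul]
      have h4 := m.2 ⟨g, hMΓ hg⟩ 1
      have h5 : Γ.subtype ⟨g, hMΓ hg⟩ * 1 = g := mul_one _
      rw [h5] at h4
      rw [h4]
      exact htriv _ hg _
    rw [h3, sub_self, neg_add_eq_zero] at h2
    exact h2
  exact Nat.card_le_card_of_injective _ hinj

end fin

end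

end Fermat.Agent.EulerC
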