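import Fermat.Agent.EulerC.Defs
import Fermat.Agent.CFT.Rel4
import Fermat.Agent.CFT.LocGlob
import Fermat.Agent.CFT.FDual1
import Fermat.Agent.CFT.ClassG
import Fermat.Agent.TWLocal.Inst2

set_option autoImplicit false
set_option maxHeartbeats 400000

/-! The global pairing in degree two. -/

namespace Fermat.Agent.EulerC

open Finset Fermat.Agent.CFT Fermat.Agent.CFTSec Fermat.Agent.TWLocal

noncomputable section

section desc

variable (E : IntermediateField ℚ Qb)

/-- cochains of level `E` -/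
def LvE {Y : Type*} (x : GQ → GQ → Y) : Prop :=
  ∀ g h, ∀ s ∈ E.fixingSubgroup, ∀ s' ∈ E.fixingSubgroup, x (g * s) (h * s') = x g h

variable [hE : E.fixingSubgroup.Normal] {A : Type*} [AddCommGroup A] [DistribMulAction GQ A]

/-- descent of cochains -/
def dsc (x : GQ → GQ → ↥(fix A E.fixingSubgroup)) :
    (GQ ⧸ E.fixingSubgroup) → (GQ ⧸ E.fixingSubgroup) → ↥(fix A E.fixingSubgroup) :=
  fun g h => x g.out h.out

variable {E}

theorem dsc_mk {x : GQ → GQ → ↥(fix A E.fixingSubgroup)} (hx : LvE E x) (g h : GQ) :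
    dsc E x (QuotientGroup.mk g) (QuotientGroup.mk h) = x g h := by
  have h1 := hx g h _ (mk_out_mem E.fixingSubgroup g) _ (mk_out_mem E.fixingSubgroup h)
  rw [mul_inv_cancel_left, mul_inv_cancel_left] at h1
  exact h1

theorem dsc_Z2 {x : GQ → GQ → ↥(fix A E.fixingSubgroup)} (hx : LvE E x)
    (hz : (fun g h => (x g h : A)) ∈ Z2 GQ A) :
    dsc E x ∈ Z2 (GQ ⧸ E.fixingSubgroup) ↥(fix A E.fixingSubgroup) := by
  intro a b c
  induction a using QuotientGroup.induction_on with
  | H g =>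
  induction b using QuotientGroup.induction_on with
  | H h =>
  induction c using QuotientGroup.induction_on with
  | H k =>
  rw [← QuotientGroup.mk_mul, ← QuotientGroup.mk_mul, dsc_mk hx, dsc_mk hx, dsc_mk hx, dsc_mk hx]
  exact Subtype.ext (hz g h k)

theorem dsc_B2 {x : GQ → GQ → ↥(fix A E.fixingSubgroup)} (hx : LvE E x)
    (hb : dsc E x ∈ B2 (GQ ⧸ E.fixingSubgroup) ↥(fix A E.fixingSubgroup)) :
    ∃ b : GQ → A, (∀ g, ∀ s ∈ E.fixingSubgroup, b (g * s) = b g) ∧
      (∀ g, b g ∈ fix A E.fixingSubgroup) ∧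
      ∀ g h, (x g h : A) = b g + g • b h - b (g * h) := by
  obtain ⟨b, hb⟩ := hb
  refine ⟨fun g => (b (QuotientGroup.mk g)).1, fun g s hs => ?_, fun g => (b _).2, fun g h => ?_⟩
  · have : (QuotientGroup.mk (g * s) : GQ ⧸ E.fixingSubgroup) = QuotientGroup.mk g := by
      rw [QuotientGroup.mk_mul_of_mem g hs]
    exact congrArg (fun z => (b z).1) this
  · have h1 := congrArg Subtype.val (hb (QuotientGroup.mk g) (QuotientGroup.mk h))
    rw [dsc_mk hx] at h1
    exact h1

end desc

section loc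

variable (q : Nat.Primes) (X : Type*) [AddCommGroup X] [DistribMulAction GQ X]

/-- restriction to a decomposition group -/
def Rs (_q : Nat.Primes) (X : Type*) : Type _ := X

instance : AddCommGroup (Rs q X) := inferInstanceAs (AddCommGroup X)
instance [Finite X] : Finite (Rs q X) := inferInstanceAs (Finite X)

instance : DistribMulAction (LG q) (Rs q X) where
  smul t x := (localGaloisToGlobal (q : ℕ) t • (show X from x) : X)
  one_smul x := by
    show (localGaloisToGlobal (q : ℕ) 1 • (show X from x) : X) = x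
    rw [map_one, one_smul]
  mul_smul t t' x := by
    show (localGaloisToGlobal (q : ℕ) (t * t') • (show X from x) : X) =
      localGaloisToGlobal (q : ℕ) t • localGaloisToGlobal (q : ℕ) t' • (show X from x)
    rw [map_mul, mul_smul]
  smul_zero t := smul_zero (A := X) (localGaloisToGlobal (q : ℕ) t)
  smul_add t x y := smul_add (A := X) (localGaloisToGlobal (q : ℕ) t) x y

theorem rs_smul (t : LG q) (x : X) :
    (t • (show Rs q X from x) : Rs q X) = (localGaloisToGlobal (q : ℕ) t • x : X) := rfl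

variable {X}

/-- local homomorphisms as homomorphisms to the coinduced module -/
def coQ (φ : HomEq (LG q) (Rs q X) (LM q)) : X →+ JQ q where
  toFun r := ⟨fun σ => φ.1 (σ • r : X), fun t σ => by
    show φ.1 ((localGaloisToGlobal (q : ℕ) t * σ) • r : X) = t • φ.1 (σ • r : X)
    rw [mul_smul]
    exact φ.2 t _⟩
  map_zero' := Subtype.ext (funext fun σ => by
    show φ.1 (σ • (0 : X) : X) = 0
    rw [smul_zero]
    exact map_zero φ.1)
  map_add' r r' := Subtype.ext (funext fun σ => by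
    show φ.1 (σ • (r + r') : X) = φ.1 (σ • r : X) + φ.1 (σ • r' : X)
    rw [smul_add]
    exact map_add φ.1 _ _)

theorem coQ_apply (φ : HomEq (LG q) (Rs q X) (LM q)) (r : X) (σ : GQ) :
    (coQ q φ r).1 σ = φ.1 (σ • r : X) := rfl

theorem coQ_smul (φ : HomEq (LG q) (Rs q X) (LM q)) (g : GQ) (r : X) :
    coQ q φ (g • r) = g • coQ q φ r := Subtype.ext (funext fun σ => by
  show φ.1 (σ • g • r : X) = φ.1 ((σ * g) • r : X)
  rw [mul_smul])

variable {E : IntermediateField ℚ Qb} (hX : ∀ s ∈ E.fixingSubgroup, ∀ x : X, s • x = x)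

/-- values in the fixed elements -/
def coE (φ : HomEq (LG q) (Rs q X) (LM q)) : X →+ ↥(fix (JQ q) E.fixingSubgroup) :=
  (coQ q φ).codRestrict _ (fun r s hs => by rw [← coQ_smul, hX s hs])

theorem coE_val (φ : HomEq (LG q) (Rs q X) (LM q)) (r : X) : (coE q hX φ r).1 = coQ q φ r := rfl

theorem coE_add (φ φ' : HomEq (LG q) (Rs q X) (LM q)) (r : X) :
    coE q hX (φ + φ') r = coE q hX φ r + coE q hX φ' r := rfl

end loc

section pair

variable {T : Finset Nat.Primes} {E : IntermediateField ℚ Qb} (hET : E.IsUnramifiedOutside T)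
  [hE : E.fixingSubgroup.Normal] {X : Type*} [AddCommGroup X] [DistribMulAction GQ X]
  (hX : ∀ s ∈ E.fixingSubgroup, ∀ x : X, s • x = x)

/-- the product of the local homomorphism groups -/
abbrev PL (T : Finset Nat.Primes) (X : Type*) [AddCommGroup X] [DistribMulAction GQ X] : Type _ :=
  ∀ q : T, HomEq (LG q.1) (Rs q.1 X) (LM q.1)

/-- the homomorphism to the idele classes -/
def cC : PL T X →+ (X →+ ↥(fix (Cm T) E.fixingSubgroup)) where
  toFun φ := ∑ q : T, (inC hET q.1 q.2).comp (coE q.1 hX (φ q))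
  map_zero' := by
    refine Finset.sum_eq_zero fun q _ => ?_
    ext r
    have : coE q.1 hX ((0 : PL T X) q) r = 0 := rfl
    rw [AddMonoidHom.comp_apply, this, map_zero]; rfl
  map_add' φ φ' := by
    rw [← Finset.sum_add_distrib]
    refine Finset.sum_congr rfl fun q _ => ?_
    ext r
    have : coE q.1 hX ((φ + φ') q) r = coE q.1 hX (φ q) r + coE q.1 hX (φ' q) r := rfl
    rw [AddMonoidHom.comp_apply, this, map_add]; rfl

theorem cC_apply (φ : PL T X) (r : X) :
    cC hET hX φ r = ∑ q : T, inC hET q.1 q.2 (coE q.1 hX (φ q) r) := by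
  show (∑ q : T, (inC hET q.1 q.2).comp (coE q.1 hX (φ q))) r = _
  rw [AddMonoidHom.finsetSum_apply]
  rfl

theorem cC_smul (φ : PL T X) (g : GQ) (r : X) :
    ((cC hET hX φ (g • r)) : Cm T) = g • ((cC hET hX φ r) : Cm T) := by
  have h1 : cC hET hX φ (g • r) = (g : GQ ⧸ E.fixingSubgroup) • cC hET hX φ r := by
    rw [cC_apply, cC_apply, Finset.smul_sum]
    refine Finset.sum_congr rfl fun q _ => ?_
    rw [← inC_smul]
    congr 1
    exact Subtype.ext (coQ_smul q.1 (φ q) g r)
  rw [h1]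
  rfl

theorem cC_single [DecidableEq T] (q : T) (φ : HomEq (LG q.1) (Rs q.1 X) (LM q.1)) (r : X) :
    cC hET hX (Pi.single q φ) r = inC hET q.1 q.2 (coE q.1 hX φ r) := by
  rw [cC_apply, Finset.sum_eq_single q]
  · rw [Pi.single_eq_same]
  · intro q' _ hne
    rw [Pi.single_eq_of_ne hne]
    exact map_zero (inC hET q'.1 q'.2)
  · intro h
    exact absurd (Finset.mem_univ q) h

/-- 2-cocycles of level `E` -/
def ZE (E : IntermediateField ℚ Qb) (X : Type*) [AddCommGroup X] [DistribMulAction GQ X] :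
    AddSubgroup (GQ → GQ → X) where
  carrier := {x | x ∈ Z2 GQ X ∧ LvE E x}
  zero_mem' := ⟨(Z2 GQ X).zero_mem, fun _ _ _ _ _ _ => rfl⟩
  add_mem' := fun {a b} ha hb => ⟨(Z2 GQ X).add_mem ha.1 hb.1, fun g h s hs s' hs' => by
    show a (g * s) (h * s') + b (g * s) (h * s') = a g h + b g h
    rw [ha.2 g h s hs s' hs', hb.2 g h s hs s' hs']⟩
  neg_mem' := fun {a} ha => ⟨(Z2 GQ X).neg_mem ha.1, fun g h s hs s' hs' => by
    show - a (g * s) (h * s') = - a g h
    rw [ha.2 g h s hs s' hs']⟩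

theorem mem_ZE {x : GQ → GQ → X} : x ∈ ZE E X ↔ x ∈ Z2 GQ X ∧ LvE E x := Iff.rfl

variable {p : ℕ} [hp : Fact p.Prime] (hpX : ∀ x : X, p • x = 0)

include hpX in
/-- the descended cocycle -/
theorem dsc_mem_T2p {x : GQ → GQ → X} (hx : x ∈ ZE E X) {A : Type*} [AddCommGroup A]
    [DistribMulAction GQ A] (c : X →+ ↥(fix A E.fixingSubgroup))
    (hc : ∀ (g : GQ) r, (c (g • r) : A) = g • (c r : A)) :
    dsc E (fun g h => c (x g h)) ∈
      T2p p (GQ ⧸ E.fixingSubgroup) ↥(fix A E.fixingSubgroup) := by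
  refine ⟨dsc_Z2 (fun g h s hs s' hs' => ?_) (fun g h k => ?_), ?_⟩
  · show c (x (g * s) (h * s')) = c (x g h)
    rw [hx.2 g h s hs s' hs']
  · show (c (x g h) : A) + (c (x (g * h) k) : A) = g • (c (x h k) : A) + (c (x g (h * k)) : A)
    rw [← hc, ← AddSubgroup.coe_add, ← AddSubgroup.coe_add, ← map_add, ← map_add, hx.1]
  · have : p • dsc E (fun g h => c (x g h)) = 0 := by
      funext g h
      show p • c (x g.out h.out) = 0
      rw [← map_nsmul, hpX, map_zero]
    rw [this]
    exact (B2 _ _).zero_mem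

/-- the pairing -/
def Psi (I : ↥(T2p p (GQ ⧸ E.fixingSubgroup) ↥(fix (Cm T) E.fixingSubgroup)) →+ ZMod p) :
    ↥(ZE E X) →+ (PL T X →+ ZMod p) where
  toFun x := AddMonoidHom.mk' (fun φ => I ⟨dsc E (fun g h => cC hET hX φ (x.1 g h)),
      dsc_mem_T2p hpX x.2 _ (cC_smul hET hX φ)⟩) (fun φ φ' => by
    rw [← map_add]
    congr 1
    apply Subtype.ext
    funext g h
    show cC hET hX (φ + φ') (x.1 g.out h.out) = _
    rw [map_add]
    rfl)
  map_zero' := by
    refine AddMonoidHom.ext fun φ => ?_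
    show I _ = 0
    rw [← map_zero I]
    congr 1
    apply Subtype.ext
    funext g h
    exact map_zero (cC hET hX φ)
  map_add' x y := by
    refine AddMonoidHom.ext fun φ => ?_
    show I _ = I _ + I _
    rw [← map_add]
    congr 1
    apply Subtype.ext
    funext g h
    exact map_add (cC hET hX φ) _ _

theorem Psi_apply (I : ↥(T2p p (GQ ⧸ E.fixingSubgroup) ↥(fix (Cm T) E.fixingSubgroup)) →+ ZMod p)
    (x : ZE E X) (φ : PL T X) : Psi hET hX hpX I x φ =
      I ⟨dsc E (fun g h => cC hET hX φ (x.1 g h)),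
      dsc_mem_T2p hpX x.2 _ (cC_smul hET hX φ)⟩ := rfl

/-- global homomorphisms as families of local ones -/
def dHom : HomEq GQ X (QS T) →+ PL T X where
  toFun θ := fun q => ⟨(peQ T q.1).comp θ.1, fun t r => by
    show peQ T q.1 (θ.1 (localGaloisToGlobal (q.1 : ℕ) t • (show X from r))) = _
    rw [θ.2, peQ_smul]
    rfl⟩
  map_zero' := funext fun q => Subtype.ext (AddMonoidHom.ext fun r => map_zero (peQ T q.1))
  map_add' θ θ' := funext fun q => Subtype.ext (AddMonoidHom.ext fun r =>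
    map_add (peQ T q.1) (θ.1 r) (θ'.1 r))

theorem dHom_injective (hT : T.Nonempty) : Function.Injective (dHom (T := T) (X := X)) := by
  intro θ θ' h
  obtain ⟨q, hq⟩ := hT
  refine Subtype.ext (AddMonoidHom.ext fun r => ?_)
  have h1 : peQ T q (θ.1 r) = peQ T q (θ'.1 r) :=
    DFunLike.congr_fun (congrArg Subtype.val (congrFun h ⟨q, hq⟩)) r
  have h2 : padicEmbedding (q : ℕ) (((θ.1 r).1.toMul : Qbˣ) : Qb) =
      padicEmbedding (q : ℕ) (((θ'.1 r).1.toMul : Qbˣ) : Qb) :=
    congrArg (fun y : LM q => ((y.toMul : (PadicAlgCl q)ˣ) : PadicAlgCl q)) h1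
  exact Subtype.ext (congrArg Additive.ofMul (Units.ext ((padicEmbedding (q : ℕ)).injective h2)))

/-- global homomorphisms pair trivially -/
theorem cC_dHom (hpX : ∀ x : X, p • x = 0) (θ : HomEq GQ X (QS T)) (r : X) :
    cC hET hX (dHom θ) r = 0 := by
  have hfix : θ.1 r ∈ fix (QS T) E.fixingSubgroup := by
    intro s hs
    have := θ.2 s r
    rw [hX s hs] at this
    exact this.symm
  have hdiv : divQ (θ.1 r) = 0 := by
    refine divG_tf hp.out.ne_zero ?_
    have h1 : p • θ.1 r = 0 := by rw [← map_nsmul, hpX, map_zero]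
    have h2 : divH T (p • θ.1 r) = 0 := by rw [h1, map_zero]
    rw [map_nsmul] at h2
    rw [smul_zero]
    exact h2
  have h1 := sum_cmpN hET ⟨diag T (θ.1 r), diag_mem_fix hfix⟩ hdiv
  have h2 : cC hET hX (dHom θ) r = fixToC E T ⟨diag T (θ.1 r), diag_mem_fix hfix⟩ := by
    rw [h1, map_sum, cC_apply]
    refine Finset.sum_congr rfl fun q _ => ?_
    show fixToC E T (sgN hET q.1 q.2 _) = _
    congr 2
    apply Subtype.ext
    apply Subtype.ext
    funext σ
    show peQ T q.1 (θ.1 (σ • r : X)) = _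
    rw [θ.2 σ r]
    rfl
  rw [h2]
  exact Subtype.ext (toC_diag _)

end pair

end

end Fermat.Agent.EulerC
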