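import Fermat.Agent.EulerC.Dual2
import Fermat.Agent.CFT.EMain

set_option autoImplicit false
set_option maxHeartbeats 400000

/-! Vanishing of the Tate-Shafarevich groups for large sets of primes. -/

namespace Fermat.Agent.EulerC

open Finset Fermat.Agent.CFT Fermat.Agent.CFTSec Fermat.Agent.TWLocal

noncomputable section

/-- the `T`-class group is trivial -/
def Hcl (T : Finset Nat.Primes) (M : IntermediateField ℚ Qb) : Prop :=
  ∀ D ∈ fix (DivG T) M.fixingSubgroup, ∃ x ∈ fix (QS T) M.fixingSubgroup, divQ x = D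

theorem Hcl.mono {T T' : Finset Nat.Primes} (hT : T ⊆ T') {M : IntermediateField ℚ Qb}
    (h : Hcl T M) : Hcl T' M := by
  intro D hD
  let D' : DivG T := ⟨D.1, D.2.1, D.2.2.1, fun q hq => D.2.2.2 q (hT hq)⟩
  have hD' : D' ∈ fix (DivG T) M.fixingSubgroup := fun n hn =>
    Subtype.ext (congrArg (fun z : DivG T' => z.1) (hD n hn))
  obtain ⟨x, hx, hxD⟩ := h D' hD'
  refine ⟨inclQ hT x, inclQ_mem hT hx, ?_⟩
  apply divG_ext
  intro q σ
  by_cases hq : q ∈ T'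
  · rw [divQ_apply_mem _ hq, D.2.2.2 q hq]; rfl
  · rw [divQ_inclQ hT x hq, hxD]

theorem exists_hcl {S : Finset Nat.Primes} {M M' : IntermediateField ℚ Qb}
    (hM : M.IsUnramifiedOutside S) (hM' : M'.IsUnramifiedOutside S) :
    ∃ T₁ : Finset Nat.Primes, S ⊆ T₁ ∧ ∀ T, T₁ ⊆ T → Hcl T M ∧ Hcl T M' := by
  classical
  obtain ⟨T, hT, h⟩ := exists_kill_class hM
  obtain ⟨T', hT', h'⟩ := exists_kill_class hM'
  refine ⟨T ∪ T', hT.trans Finset.subset_union_left, fun T'' hT'' => ⟨?_, ?_⟩⟩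
  · exact Hcl.mono (Finset.subset_union_left.trans hT'') h
  · exact Hcl.mono (Finset.subset_union_right.trans hT'') h'

variable {p : ℕ} [hp : Fact p.Prime] (hp2 : 2 < p) {ζ : Qb} (hζ : IsPrimitiveRoot ζ p)
  {T : Finset Nat.Primes} (hpT : pP p ∈ T) {M : IntermediateField ℚ Qb}
  (hM : M.IsUnramifiedOutside T) (hζM : ζ ∈ M) (hcl : Hcl T M)

include hp2 hζ hpT hM hζM hcl in
/-- everywhere split characters are trivial -/
theorem homX_trivial (χ : HomX T M p) : χ.1.1 = 1 := by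
  by_contra hne
  obtain ⟨L, hL, hχL⟩ := χ.1.2
  obtain ⟨a, ha, hna⟩ := exists_not_nrm hp2 hpT hM hζ hζM (hL.sup hM)
    (IntermediateField.fixingSubgroup_antitone le_sup_right) hne (fun g hg =>
      hχL g (IntermediateField.fixingSubgroup_antitone le_sup_left hg))
  obtain ⟨j, hj, hja⟩ := exists_fix_lift ⟨_, hpT⟩ hM ha
  have hD : j.1.2 ∈ fix (DivG T) M.fixingSubgroup := fun n hn =>
    congrArg (fun z : Jm T => z.1.2) (hj n hn)
  obtain ⟨x, hx, hxD⟩ := hcl _ hD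
  apply hna
  refine locC_nrm hpT hM χ (c := ⟨a, ha⟩) ⟨j - diag T x, ?_, ?_, ?_⟩
  · exact (fix _ _).sub_mem hj (diag_mem_fix hx)
  · show j.1.2 - divQ x = 0
    rw [hxD, sub_self]
  · rw [map_sub, toC_diag, sub_zero, hja]

section hig

variable {Γ : Subgroup GQ} {V : Type*} [AddCommGroup V] [DistribMulAction Γ V]

/-- cocycles trivial on `Γ_M` are coboundaries under Higman's criterion -/
theorem hig_B1 (hMf : FiniteDimensional ℚ M)
    (htriv : ∀ γ : Γ, (γ : GQ) ∈ M.fixingSubgroup → ∀ x : V, γ • x = x)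
    (hnorm : ∀ g ∈ Γ, ∀ k ∈ M.fixingSubgroup, g * k * g⁻¹ ∈ M.fixingSubgroup)
    (hhig : HigM M Γ V) {c : Γ → V} (hc : c ∈ Z1 Γ V)
    (h0 : ∀ γ : Γ, (γ : GQ) ∈ M.fixingSubgroup → c γ = 0) : c ∈ B1 Γ V := by
  classical
  haveI := hMf
  haveI : M.fixingSubgroup.FiniteIndex := finiteIndex_fixingSubgroup M
  haveI : Fintype (Γ ⧸ M.fixingSubgroup.subgroupOf Γ) := Fintype.ofFinite _
  obtain ⟨φ, hφ⟩ := hhig
  let F : Γ → V := fun y => y • φ (y⁻¹ • c y)
  have hF : ∀ y n : Γ, n ∈ M.fixingSubgroup.subgroupOf Γ → F (y * n) = F y := by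
    intro y n hn
    have h1 : c (y * n) = c y := by rw [hc, h0 n hn, smul_zero, add_zero]
    show (y * n) • φ ((y * n)⁻¹ • c (y * n)) = y • φ (y⁻¹ • c y)
    rw [h1, mul_smul, mul_inv_rev, mul_smul]
    have h2 : n⁻¹ • (y⁻¹ • c y) = y⁻¹ • c y := htriv _ (M.fixingSubgroup.inv_mem hn) _
    rw [h2, htriv n hn]
  have hout : ∀ y : Γ, F (QuotientGroup.mk y : Γ ⧸ M.fixingSubgroup.subgroupOf Γ).out = F y := by
    intro y
    have h1 : y⁻¹ * (QuotientGroup.mk y : Γ ⧸ M.fixingSubgroup.subgroupOf Γ).out ∈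
        M.fixingSubgroup.subgroupOf Γ := QuotientGroup.eq.mp (QuotientGroup.out_eq' _).symm
    have h2 := hF y _ h1
    rwa [mul_inv_cancel_left] at h2
  refine ⟨-∑ y : Γ ⧸ M.fixingSubgroup.subgroupOf Γ, F y.out, fun g => ?_⟩
  have h1 : g • ∑ y : Γ ⧸ M.fixingSubgroup.subgroupOf Γ, F y.out =
      ∑ y : Γ ⧸ M.fixingSubgroup.subgroupOf Γ, (F y.out - y.out • φ ((y.out)⁻¹ • c g)) := by
    rw [← Equiv.sum_comp (MulAction.toPerm g : Equiv.Perm (Γ ⧸ M.fixingSubgroup.subgroupOf Γ))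
      (fun y => F y.out - y.out • φ ((y.out)⁻¹ • c g)), smul_sum]
    refine Finset.sum_congr rfl fun y _ => ?_
    induction y using QuotientGroup.induction_on with
    | H k =>
    have e1 : ((MulAction.toPerm g : Equiv.Perm (Γ ⧸ M.fixingSubgroup.subgroupOf Γ))
      (QuotientGroup.mk k)) = QuotientGroup.mk (g * k) := rfl
    have hG : ∀ y n : Γ, n ∈ M.fixingSubgroup.subgroupOf Γ →
        (y * n) • φ ((y * n)⁻¹ • c g) = y • φ (y⁻¹ • c g) := by
      intro y n hn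
      rw [mul_smul, mul_inv_rev, mul_smul]
      have h2 : n⁻¹ • (y⁻¹ • c g) = y⁻¹ • c g := htriv _ (M.fixingSubgroup.inv_mem hn) _
      rw [h2, htriv n hn]
    have hG' : (QuotientGroup.mk (g * k) : Γ ⧸ M.fixingSubgroup.subgroupOf Γ).out •
        φ ((QuotientGroup.mk (g * k) : Γ ⧸ M.fixingSubgroup.subgroupOf Γ).out⁻¹ • c g) =
        (g * k) • φ ((g * k)⁻¹ • c g) := by
      have h1 : (g * k)⁻¹ * (QuotientGroup.mk (g * k) : Γ ⧸ M.fixingSubgroup.subgroupOf Γ).out ∈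
          M.fixingSubgroup.subgroupOf Γ := QuotientGroup.eq.mp (QuotientGroup.out_eq' _).symm
      have h2 := hG (g * k) _ h1
      rwa [mul_inv_cancel_left] at h2
    rw [e1, hout, hout, hG']
    show g • k • φ (k⁻¹ • c k) = (g * k) • φ ((g * k)⁻¹ • c (g * k)) - _
    rw [hc g k, smul_add, map_add, smul_add, add_sub_cancel_left, mul_smul, mul_inv_rev, mul_smul,
      inv_smul_smul]
  rw [smul_neg, h1, Finset.sum_sub_distrib, hφ (c g)]
  abel

end hig

section sh1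

variable {Γ : Subgroup GQ} {V : Type*} [AddCommGroup V] [DistribMulAction Γ V]

include hp2 hζ hpT hM hζM hcl in
/-- locally trivial classes with values in coinduced modules are trivial -/
theorem sh1_coind (hMΓ : M.fixingSubgroup ≤ Γ) (hpV : ∀ v : V, p • v = 0)
    (htriv : ∀ γ : Γ, (γ : GQ) ∈ M.fixingSubgroup → ∀ x : V, γ • x = x)
    (hnorm : ∀ g ∈ Γ, ∀ k ∈ M.fixingSubgroup, g * k * g⁻¹ ∈ M.fixingSubgroup)
    (hhig : HigM M Γ V) {c : GQ → CoInd Γ.subtype V} (hc : c ∈ Sh1 T (CoInd Γ.subtype V)) :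
    c ∈ B1 GQ (CoInd Γ.subtype V) := by
  obtain ⟨⟨hc1, E, hE, hcE⟩, hloc⟩ := hc
  refine shapiro1 Γ.subtype Γ.subtype_injective hc1 ?_
  have hc0 : (fun γ : Γ => (c (Γ.subtype γ)).1 1) ∈ Z1 Γ V := by
    intro γ δ
    show (c ((γ * δ : Γ) : GQ)).1 1 = (c (γ : GQ)).1 1 + γ • (c (δ : GQ)).1 1
    rw [Subgroup.coe_mul, hc1]
    show (c (γ : GQ)).1 1 + (c (δ : GQ)).1 (1 * (γ : GQ)) = _
    have h1 := (c (δ : GQ)).2 γ 1
    rw [one_mul, ← h1, mul_one]
    rfl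
  refine hig_B1 (M := M) hM.1 htriv hnorm hhig hc0 ?_
  intro γ hγ
  show (c (γ : GQ)).1 1 = 0
  letI : Module (ZMod p) V := AddCommGroup.zmodModule hpV
  refine eq_zero_of_dual (p := p) fun l => ?_
  -- the character
  have hval : ∀ g ∈ M.fixingSubgroup, ∀ x : CoInd Γ.subtype V, x.1 g = x.1 1 := by
    intro g hg x
    have h1 := x.2 ⟨g, hMΓ hg⟩ 1
    rw [mul_one] at h1
    exact h1.trans (htriv _ hg _)
  let χ : M.fixingSubgroup →* Multiplicative (ZMod p) := MonoidHom.mk'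
    (fun g => Multiplicative.ofAdd (l ((c (g : GQ)).1 1))) (fun g g' => by
      show Multiplicative.ofAdd (l ((c ((g : GQ) * (g' : GQ))).1 1)) = _
      rw [hc1]
      show Multiplicative.ofAdd (l ((c (g : GQ)).1 1 + (c (g' : GQ)).1 (1 * (g : GQ)))) = _
      rw [one_mul, hval _ g.2, map_add]
      rfl)
  have hχ : ∀ g : M.fixingSubgroup, χ g = Multiplicative.ofAdd (l ((c (g : GQ)).1 1)) := fun _ => rfl
  have hc10 : c 1 = 0 := Z1.one hc1
  let χS : HomS T M p := ⟨χ, E, hE, fun g hg => by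
    rw [hχ]
    have h1 := hcE 1 _ hg
    rw [one_mul, hc10] at h1
    rw [h1]
    show Multiplicative.ofAdd (l 0) = 1
    rw [map_zero]; rfl⟩
  let χX : HomX T M p := ⟨χS, by
    intro q hq σ τ g hg
    show Multiplicative.ofAdd (l ((c (g : GQ)).1 1)) = 1
    obtain ⟨m, hm⟩ := hloc q hq
    have hinv : c σ⁻¹ = - (σ⁻¹ • c σ) := by
      have h1 := hc1 σ⁻¹ σ
      rw [inv_mul_cancel, hc10] at h1
      exact (neg_eq_of_add_eq_zero_left h1.symm).symm
    have h1 : c (g : GQ) = (g : GQ) • (σ⁻¹ • (m + c σ)) - σ⁻¹ • (m + c σ) := by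
      have e1 : (g : GQ) • (σ⁻¹ • (m + c σ)) = σ⁻¹ • localGaloisToGlobal (q : ℕ) τ • (m + c σ) := by
        rw [hg, smul_smul, smul_smul]
        congr 1
        group
      rw [e1, hg, hc1, hc1, hm τ, hinv, smul_add, smul_add, smul_add, smul_sub, mul_smul]
      abel
    rw [h1]
    have h2 : ((g : GQ) • (σ⁻¹ • (m + c σ)) - σ⁻¹ • (m + c σ)).1 1 =
        (σ⁻¹ • (m + c σ)).1 (1 * (g : GQ)) - (σ⁻¹ • (m + c σ)).1 1 := rfl
    rw [h2, one_mul, hval _ g.2, sub_self, map_zero]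
    rfl⟩
  have h1 := homX_trivial hp2 hζ hpT hM hζM hcl χX
  have h2 : χ ⟨(γ : GQ), hγ⟩ = 1 := by
    have : χ = 1 := h1
    rw [this]; rfl
  exact congrArg Multiplicative.toAdd h2

end sh1

end

end Fermat.Agent.EulerC
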