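import Fermat.Agent.EulerC.Dual

set_option autoImplicit false
set_option maxHeartbeats 400000

/-! Trivial modules and the `H²` lower bound (interface). -/

namespace Fermat.Agent.EulerC

open Finset Fermat.Agent.CFT Fermat.Agent.CFTSec

/-- the trivial module `F_p^m` -/
def TrW (m p : ℕ) : Type := Fin m → ZMod p

instance (m p : ℕ) : AddCommGroup (TrW m p) := inferInstanceAs (AddCommGroup (Fin m → ZMod p))

instance (m p : ℕ) [NeZero p] : Finite (TrW m p) := inferInstanceAs (Finite (Fin m → ZMod p))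

instance (m p : ℕ) (G : Type*) [Group G] : DistribMulAction G (TrW m p) where
  smul _ x := x
  one_smul _ := rfl
  mul_smul _ _ _ := rfl
  smul_zero _ := rfl
  smul_add _ _ _ := rfl

theorem TrW.smul_eq {m p : ℕ} {G : Type*} [Group G] (g : G) (x : TrW m p) : g • x = x := rfl

theorem TrW.tors {m p : ℕ} (x : TrW m p) : p • x = 0 := by
  funext i
  show p • (x i) = 0
  rw [nsmul_eq_mul, CharP.cast_eq_zero, zero_mul]

/-- **the lower bound for `H²` of free modules** (interface) -/
def H2Low (T : Finset Nat.Primes) (L : IntermediateField ℚ Qb) (p : ℕ) [Fact p.Prime] {ζ : Qb}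
    (hζ : IsPrimitiveRoot ζ p) : Prop :=
  ∀ m : ℕ, ∏ q ∈ T, Nat.card (MD L.fixingSubgroup (Dl hζ (TrW m p)) (Dq q)) ≤
    h2 T (MonoidHom.id GQ) (CoInd L.fixingSubgroup.subtype (TrW m p)) *
      Nat.card (MD L.fixingSubgroup (Dl hζ (TrW m p)) ⊤)

end Fermat.Agent.EulerC
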