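import Fermat.Agent.EulerC.GAct

set_option autoImplicit false
set_option maxHeartbeats 400000

/-! Identification of the four terms of the equivariant unit theorem. -/

namespace Fermat.Agent.EulerC

open Fermat.Agent.CFT Fermat.Agent.CFTSec Fermat.Agent.EqDir Finset
open NumberField IsDedekindDomain WithZero

noncomputable section

section gen

variable {G A : Type*} [Group G] [AddCommGroup A] [DistribMulAction G A]

/-- action on a quotient -/
@[reducible] def quotAct (B : AddSubgroup A) (hB : ∀ (g : G), ∀ b ∈ B, g • b ∈ B) :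
    DistribMulAction G (A ⧸ B) where
  smul g := QuotientAddGroup.map B B (DistribMulAction.toAddMonoidHom A g) (fun b hb => hB g b hb)
  one_smul x := by
    induction x using QuotientAddGroup.induction_on with
    | H a => exact congrArg QuotientAddGroup.mk (one_smul G a)
  mul_smul g g' x := by
    induction x using QuotientAddGroup.induction_on with
    | H a => exact congrArg QuotientAddGroup.mk (mul_smul g g' a)
  smul_zero g := map_zero _
  smul_add g x y := map_add _ x y

/-- action on a subgroup -/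
@[reducible] def subAct (B : AddSubgroup A) (hB : ∀ (g : G), ∀ b ∈ B, g • b ∈ B) :
    DistribMulAction G B where
  smul g b := ⟨g • b.1, hB g b b.2⟩
  one_smul b := Subtype.ext (one_smul G b.1)
  mul_smul g g' b := Subtype.ext (mul_smul g g' b.1)
  smul_zero g := Subtype.ext (smul_zero g)
  smul_add g b b' := Subtype.ext (smul_add g b.1 b'.1)

theorem range_stable (p : ℕ) (g : G) (b : A) (hb : b ∈ (mulN A p).range) :
    g • b ∈ (mulN A p).range := by
  obtain ⟨a, rfl⟩ := hb
  exact ⟨g • a, (smul_comm g p a).symm⟩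

theorem ker_stable (p : ℕ) (g : G) (b : A) (hb : b ∈ (mulN A p).ker) :
    g • b ∈ (mulN A p).ker := by
  have h1 : p • b = 0 := hb
  show p • (g • b) = 0
  rw [← smul_comm g p b, h1, smul_zero]

/-- equivariant functions on a disjoint union -/
theorem card_MapG_sum (P P' Q : Type*) [AddCommGroup Q] [DistribMulAction G Q] [MulAction G P]
    [MulAction G P'] :
    Nat.card (MapG G (P ⊕ P') Q) = Nat.card (MapG G P Q) * Nat.card (MapG G P' Q) := by
  rw [← Nat.card_prod]
  refine Nat.card_congr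
    { toFun := fun F => (⟨fun w => F.1 (Sum.inl w), fun g w => F.2 g (Sum.inl w)⟩,
        ⟨fun w => F.1 (Sum.inr w), fun g w => F.2 g (Sum.inr w)⟩)
      invFun := fun F => ⟨Sum.elim F.1.1 F.2.1, fun g w => by
        rcases w with w | w
        · exact F.1.2 g w
        · exact F.2.2 g w⟩
      left_inv := fun F => Subtype.ext (by funext w; rcases w with w | w <;> rfl)
      right_inv := fun F => rfl }

end gen

variable (T : Finset Nat.Primes) (M : IntermediateField ℚ Qb) (p : ℕ) (Γ : Subgroup GQ)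
  (Q : Type*) [AddCommGroup Q] [DistribMulAction Γ Q]

/-- triviality of the restriction to `Γ_M` -/
class TrivM : Prop where
  triv : ∀ γ : Γ, (γ : GQ) ∈ M.fixingSubgroup → ∀ x : Q, γ • x = x

variable [h : NM M Γ]

instance actQ [hQ : TrivM M Γ Q] : DistribMulAction (GG M Γ) Q :=
  qAct (NN M Γ) (fun n hn x => hQ.triv n (Subgroup.mem_subgroupOf.mp hn) x)

theorem mk_smul_Q [hQ : TrivM M Γ Q] (g : Γ) (x : Q) :
    (QuotientGroup.mk g : GG M Γ) • x = g • x := rfl

instance actW : DistribMulAction (GG M Γ) (↥(SU T M) ⧸ (mulN ↥(SU T M) p).range) :=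
  quotAct _ (range_stable p)

instance actK : DistribMulAction (GG M Γ) (mulN ↥(SU T M) p).ker :=
  subAct _ (ker_stable p)

theorem isHig_of [hQ : TrivM M Γ Q] [Fintype (GG M Γ)] (hh : HigM M Γ Q) : IsHig (GG M Γ) Q := by
  obtain ⟨φ, hφ⟩ := hh
  refine ⟨φ, fun x => ?_⟩
  conv_rhs => rw [← hφ x]
  refine sum_congr rfl fun g _ => ?_
  have h1 : ∀ y : Q, g • y = g.out • y := by
    intro y
    conv_lhs => rw [← QuotientGroup.out_eq' g]
    rfl
  have h2 : ∀ y : Q, g⁻¹ • y = (g.out)⁻¹ • y := by
    intro y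
    conv_lhs => rw [← QuotientGroup.out_eq' g]
    rfl
  rw [h1, h2]

theorem card_homKH [hQ : TrivM M Γ Q] :
    Nat.card (HomG (GG M Γ) Q (↥(SU T M) ⧸ (mulN ↥(SU T M) p).range)) =
      Nat.card (KH T M p Γ Q) := by
  refine Nat.card_congr (Equiv.subtypeEquivRight (fun φ => ⟨fun hφ γ x u u' hu hx => ?_,
    fun hφ g x => ?_⟩))
  · have h1 := hφ (QuotientGroup.mk γ) x
    rw [hx] at h1
    have h2 : u' = (QuotientGroup.mk γ : GG M Γ) • u := Subtype.ext hu
    rw [h2]
    exact h1
  · induction g using QuotientGroup.induction_on with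
    | H γ =>
      obtain ⟨u, hu⟩ := QuotientAddGroup.mk_surjective (φ x)
      have h1 := hφ γ x u ((QuotientGroup.mk γ : GG M Γ) • u) rfl hu.symm
      rw [← hu]
      exact h1

theorem card_homMH [hp : Fact p.Prime] [hQ : TrivM M Γ Q] {ζ : Qb} (hζ : IsPrimitiveRoot ζ p)
    (hζM : ζ ∈ M) (hpQ : ∀ x : Q, p • x = 0) :
    Nat.card (HomG (GG M Γ) Q (mulN ↥(SU T M) p).ker) = Nat.card (MH T p Γ Q) := by
  have hmem : ∀ y : QS T, p • y = 0 → y ∈ SU T M := by
    intro y hy
    refine mem_SU.mpr ⟨?_, ?_⟩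
    · rw [mem_fixQS]
      have h1 : qv y ^ p = 1 := by rw [← qv_nsmul, hy, qv_zero]
      obtain ⟨i, -, hi⟩ := hζ.eq_pow_of_pow_eq_one h1
      rw [← hi]
      exact pow_mem hζM i
    · have h1 : p • divQ y = 0 := by
        rw [← divH_apply, ← map_nsmul, hy, map_zero]
      apply Subtype.ext
      funext q σ
      have h2 : p • ((divQ y).1 q σ) = 0 := congrFun (congrFun (congrArg Subtype.val h1) q) σ
      rw [nsmul_eq_mul] at h2
      rcases mul_eq_zero.mp h2 with h | h
      · exact absurd (by exact_mod_cast h) hp.out.ne_zero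
      · exact h
  refine Nat.card_congr (Equiv.ofBijective (fun φ : HomG (GG M Γ) Q (mulN ↥(SU T M) p).ker =>
    (⟨(SU T M).subtype.comp ((mulN ↥(SU T M) p).ker.subtype.comp φ.1), fun x => ?_,
      fun γ x => ?_⟩ : MH T p Γ Q)) ⟨?_, ?_⟩)
  · show p • ((φ.1 x).1.1) = 0
    have h1 : p • (φ.1 x).1 = 0 := (φ.1 x).2
    exact congrArg Subtype.val h1
  · have h1 := φ.2 (QuotientGroup.mk γ) x
    exact congrArg (fun t : (mulN ↥(SU T M) p).ker => t.1.1) h1
  · intro φ ψ hφψ
    refine Subtype.ext (AddMonoidHom.ext fun x => Subtype.ext (Subtype.ext ?_))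
    exact DFunLike.congr_fun (congrArg Subtype.val hφψ) x
  · rintro ⟨θ, h1, h2⟩
    have h3 : ∀ x, (⟨θ x, hmem _ (h1 x)⟩ : SU T M) ∈ (mulN ↥(SU T M) p).ker := fun x =>
      Subtype.ext (h1 x)
    refine ⟨⟨AddMonoidHom.mk' (fun x => ⟨⟨θ x, hmem _ (h1 x)⟩, h3 x⟩) (fun x y =>
      Subtype.ext (Subtype.ext (map_add θ x y))), fun g x => ?_⟩, rfl⟩
    induction g using QuotientGroup.induction_on with
    | H γ => exact Subtype.ext (Subtype.ext (h2 γ x))

theorem card_fixMD [hQ : TrivM M Γ Q] :
    Nat.card {v : Q // ∀ g : GG M Γ, g • v = v} = Nat.card (MD Γ Q ⊤) := by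
  refine Nat.card_congr
    { toFun := fun v => ⟨fun _ => v.1, fun γ g d _ => (v.2 (QuotientGroup.mk γ)).symm⟩
      invFun := fun F => ⟨F.1 1, fun g => ?_⟩
      left_inv := fun v => rfl
      right_inv := fun F => Subtype.ext ?_ }
  · induction g using QuotientGroup.induction_on with
    | H γ =>
      have h1 := F.2 γ 1 ((γ : GQ)⁻¹) trivial
      rw [mul_one, mul_inv_cancel] at h1
      exact h1.symm
  · funext g
    have h1 := F.2 1 1 g trivial
    rw [one_smul, Subgroup.coe_one, one_mul, one_mul] at h1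
    exact h1.symm

end

end Fermat.Agent.EulerC
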