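import Fermat.Agent.EulerC.UC1

set_option autoImplicit false
set_option maxHeartbeats 400000

/-! The permutation modules of the places. -/

namespace Fermat.Agent.EulerC

open Fermat.Agent.CFT Fermat.Agent.CFTSec Fermat.Agent.EqDir Finset
open NumberField IsDedekindDomain WithZero

noncomputable section

variable (T : Finset Nat.Primes) (M : IntermediateField ℚ Qb) (Γ : Subgroup GQ)
  (Q : Type*) [AddCommGroup Q] [DistribMulAction Γ Q]

section md

variable [h : NM M Γ] [hQ : TrivM M Γ Q]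

include h hQ in
theorem MD_right {D : Subgroup GQ} (F : MD Γ Q D) {n : GQ} (hn : n ∈ M.fixingSubgroup) (σ : GQ) :
    F.1 (σ * n)⁻¹ = F.1 σ⁻¹ := by
  have h1 := F.2 ⟨n⁻¹, Γ.inv_mem (h.le hn)⟩ σ⁻¹ 1 D.one_mem
  rw [hQ.triv _ (M.fixingSubgroup.inv_mem hn), mul_one] at h1
  rw [mul_inv_rev]
  exact h1

include h hQ in
theorem MD_left {D : Subgroup GQ} (F : MD Γ Q D) {d : GQ} (hd : d ∈ D) (σ : GQ) :
    F.1 (d * σ)⁻¹ = F.1 σ⁻¹ := by
  have h1 := F.2 1 σ⁻¹ d⁻¹ (D.inv_mem hd)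
  rw [one_smul, Subgroup.coe_one, one_mul] at h1
  rw [mul_inv_rev]
  exact h1

end md

section fin

variable [hf : FiniteDimensional ℚ M]

theorem primeOf_mul_left (q : Nat.Primes) {d : GQ} (hd : d ∈ Dq q) (σ : GQ) :
    primeOf q M (d * σ) = primeOf q M σ := by
  obtain ⟨τ, rfl⟩ := hd
  have := primeOf_mul q M σ τ (one_mem M.fixingSubgroup)
  rwa [mul_one] at this

variable [h : NM M Γ] [hQ : TrivM M Γ Q]

include h hQ in
theorem MD_primeOf (F : ∀ q : T, MD Γ Q (Dq q.1)) (q : T) (σ : GQ)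
    (hv : vq M (primeOf q.1 M σ) ∈ T) :
    (F ⟨vq M (primeOf q.1 M σ), hv⟩).1 (vs M (primeOf q.1 M σ))⁻¹ = (F q).1 σ⁻¹ := by
  have key : ∀ (q' : Nat.Primes) (hq' : q' ∈ T) (_ : q' = q.1) (σ' : GQ),
      primeOf q' M σ' = primeOf q.1 M σ → (F ⟨q', hq'⟩).1 σ'⁻¹ = (F q).1 σ⁻¹ := by
    obtain ⟨q, hq⟩ := q
    rintro q' hq' rfl σ' h1
    obtain ⟨τ, n, hn, rfl⟩ := exists_lg_of_primeOf_eq q' M h1
    have hd : localGaloisToGlobal (q' : ℕ) τ ∈ Dq q' := ⟨τ, rfl⟩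
    rw [MD_right M Γ Q _ hn, MD_left M Γ Q _ hd]
  exact key _ hv (vq_primeOf M q.1 σ) _ (primeOf_vs M _)

theorem exists_primeOf (v : SfT T M) : ∃ (q : T) (σ : GQ),
    v = ⟨primeOf q.1 M σ, primeOf_mem T M q.2 σ⟩ :=
  ⟨⟨vq M v.1, v.2⟩, vs M v.1, Subtype.ext (primeOf_vs M v.1).symm⟩

/-- from functions on places to functions on `GQ` -/
def toMD (f : MapG (GG M Γ) (SfT T M) Q) (q : T) : MD Γ Q (Dq q.1) :=
  ⟨fun g => f.1 ⟨primeOf q.1 M g⁻¹, primeOf_mem T M q.2 _⟩, fun γ g d hd => by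
    have h1 := f.2 (QuotientGroup.mk γ) ⟨primeOf q.1 M g⁻¹, primeOf_mem T M q.2 _⟩
    rw [smul_primeOf T M Γ γ q.2] at h1
    refine Eq.trans (congrArg f.1 (Subtype.ext ?_)) h1
    show primeOf q.1 M ((γ : GQ) * g * d)⁻¹ = primeOf q.1 M (g⁻¹ * (γ : GQ)⁻¹)
    rw [mul_inv_rev, mul_inv_rev, primeOf_mul_left M q.1 ((Dq q.1).inv_mem hd)]⟩

/-- from functions on `GQ` to functions on places -/
def ofMD0 (F : ∀ q : T, MD Γ Q (Dq q.1)) (v : SfT T M) : Q :=
  (F ⟨vq M v.1, v.2⟩).1 (vs M v.1)⁻¹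

theorem ofMD0_primeOf (F : ∀ q : T, MD Γ Q (Dq q.1)) (q : T) (σ : GQ) :
    ofMD0 T M Γ Q F ⟨primeOf q.1 M σ, primeOf_mem T M q.2 σ⟩ = (F q).1 σ⁻¹ :=
  MD_primeOf T M Γ Q F q σ (primeOf_mem T M q.2 σ)

/-- from functions on `GQ` to functions on places -/
def ofMD (F : ∀ q : T, MD Γ Q (Dq q.1)) : MapG (GG M Γ) (SfT T M) Q :=
  ⟨ofMD0 T M Γ Q F, fun g v => by
    induction g using QuotientGroup.induction_on with
    | H γ =>
      obtain ⟨q, σ, rfl⟩ := exists_primeOf T M v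
      rw [smul_primeOf T M Γ γ q.2, ofMD0_primeOf, ofMD0_primeOf]
      have h3 := (F q).2 γ σ⁻¹ 1 (Subgroup.one_mem _)
      rw [mul_one] at h3
      rw [mul_inv_rev, inv_inv]
      exact h3⟩

theorem card_fin : Nat.card (MapG (GG M Γ) (SfT T M) Q) = ∏ q ∈ T, Nat.card (MD Γ Q (Dq q)) := by
  have e : MapG (GG M Γ) (SfT T M) Q ≃ ∀ q : T, MD Γ Q (Dq q.1) :=
    { toFun := toMD T M Γ Q
      invFun := ofMD T M Γ Q
      left_inv := fun f => by
        apply Subtype.ext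
        funext v
        obtain ⟨q, σ, rfl⟩ := exists_primeOf T M v
        refine (ofMD0_primeOf T M Γ Q (toMD T M Γ Q f) q σ).trans ?_
        refine congrArg f.1 (Subtype.ext ?_)
        show primeOf q.1 M (σ⁻¹)⁻¹ = primeOf q.1 M σ
        rw [inv_inv]
      right_inv := fun F => by
        funext q
        apply Subtype.ext
        funext g
        refine (ofMD0_primeOf T M Γ Q F q g⁻¹).trans ?_
        rw [inv_inv] }
  rw [Nat.card_congr e, Nat.card_pi]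
  exact Finset.prod_coe_sort T (fun q => Nat.card (MD Γ Q (Dq q)))

end fin

section inf

variable (ι : Qb →+* ℂ)

/-- the infinite place attached to `σ` -/
def wp (σ : GQ) : InfinitePlace M :=
  InfinitePlace.mk ((ι.comp (σ : Qb →+* Qb)).comp (algebraMap M Qb))

theorem wp_apply (σ : GQ) (x : M) : wp M ι σ x = ‖ι (σ (x : Qb))‖ := rfl

theorem wp_surj (w : InfinitePlace M) : ∃ σ : GQ, wp M ι σ = w := by
  letI : Algebra M ℂ := (w.embedding).toAlgebra
  haveI : Algebra.IsAlgebraic M Qb := Algebra.IsAlgebraic.tower_top (K := ℚ) M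
  haveI : IsGalois ℚ Qb := Fermat.Agent.Frob.isGalois_Qbar
  haveI : Normal ℚ Qb := IsGalois.to_normal
  let ψ : Qb →ₐ[M] ℂ := IsAlgClosed.lift
  have hψ' : ∀ r : ℚ, (ψ : Qb →+* ℂ) (algebraMap ℚ Qb r) = algebraMap ℚ ℂ r := fun r => by
    rw [eq_ratCast, eq_ratCast, map_ratCast]
  let ψ' : Qb →ₐ[ℚ] ℂ := AlgHom.mk (ψ : Qb →+* ℂ) hψ'
  letI : Algebra Qb ℂ := ι.toAlgebra
  haveI : IsScalarTower ℚ Qb ℂ := IsScalarTower.of_algebraMap_eq (fun r => by
    rw [eq_ratCast, eq_ratCast, map_ratCast])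
  let σ : GQ := Normal.algHomEquivAut ℚ ℂ Qb ψ'
  have h1 : ∀ x : Qb, ι (σ x) = ψ x := by
    intro x
    have h2 := (Normal.algHomEquivAut ℚ ℂ Qb).symm_apply_apply ψ'
    exact DFunLike.congr_fun h2 x
  refine ⟨σ, ?_⟩
  rw [← InfinitePlace.mk_embedding w]
  unfold wp
  congr 1
  ext x
  show ι (σ (x : Qb)) = w.embedding x
  rw [h1]
  exact ψ.commutes x

theorem wp_eq_of {c : GQ} (hc : ∀ x, ι (c x) = (starRingEnd ℂ) (ι x)) {d : GQ}
    (hd : d ∈ Subgroup.zpowers c) (σ : GQ) : wp M ι (d * σ) = wp M ι σ := by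
  have h1 : ∀ d ∈ Subgroup.zpowers c, ∀ σ, wp M ι (d * σ) = wp M ι σ := by
    intro d hd
    rw [Subgroup.zpowers_eq_closure] at hd
    induction hd using Subgroup.closure_induction with
    | mem x hx =>
      intro σ
      rw [Set.mem_singleton_iff] at hx
      subst hx
      ext y
      rw [wp_apply, wp_apply]
      show ‖ι (x (σ (y : Qb)))‖ = _
      rw [hc, RCLike.norm_conj]
    | one => intro σ; rw [one_mul]
    | mul x y _ _ hx hy => intro σ; rw [mul_assoc, hx, hy]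
    | inv x _ hx => intro σ; rw [← hx, mul_inv_cancel_left]
  exact h1 d hd σ

theorem wp_eq_iff {c : GQ} (hc : ∀ x, ι (c x) = (starRingEnd ℂ) (ι x)) {σ σ' : GQ}
    (h : wp M ι σ = wp M ι σ') :
    ∃ d ∈ Subgroup.zpowers c, ∃ n ∈ M.fixingSubgroup, σ' = d * σ * n := by
  rcases InfinitePlace.mk_eq_iff.mp h with h1 | h1
  · refine ⟨1, Subgroup.one_mem _, σ⁻¹ * σ', ?_, by group⟩
    rw [IntermediateField.mem_fixingSubgroup_iff]
    intro x hx
    have h2 : ι (σ x) = ι (σ' x) := DFunLike.congr_fun h1 (⟨x, hx⟩ : M)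
    have h3 := ι.injective h2
    show σ⁻¹ (σ' x) = x
    rw [← h3, ← AlgEquiv.mul_apply, inv_mul_cancel, AlgEquiv.one_apply]
  · refine ⟨c, Subgroup.mem_zpowers c, (c * σ)⁻¹ * σ', ?_, by group⟩
    rw [IntermediateField.mem_fixingSubgroup_iff]
    intro x hx
    have h2 : (starRingEnd ℂ) (ι (σ x)) = ι (σ' x) := DFunLike.congr_fun h1 (⟨x, hx⟩ : M)
    rw [← hc] at h2
    have h3 := ι.injective h2
    show (c * σ)⁻¹ (σ' x) = x
    rw [← h3, ← AlgEquiv.mul_apply c σ, ← AlgEquiv.mul_apply, inv_mul_cancel, AlgEquiv.one_apply]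

variable [h : NM M Γ]

theorem smul_wp (g : Γ) (σ : GQ) :
    (QuotientGroup.mk g : GG M Γ) • wp M ι σ = wp M ι (σ * (g : GQ)⁻¹) := by
  ext x
  rw [inf_smul_apply, wp_apply, wp_apply]
  rfl

variable [hQ : TrivM M Γ Q]

theorem card_inf {c : GQ} (hc : ∀ x, ι (c x) = (starRingEnd ℂ) (ι x)) :
    Nat.card (MapG (GG M Γ) (InfinitePlace M) Q) = Nat.card (MD Γ Q (Subgroup.zpowers c)) := by
  let sc : InfinitePlace M → GQ := fun w => (wp_surj M ι w).choose
  have hsc : ∀ w, wp M ι (sc w) = w := fun w => (wp_surj M ι w).choose_spec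
  have key : ∀ (F : MD Γ Q (Subgroup.zpowers c)) (σ : GQ), F.1 (sc (wp M ι σ))⁻¹ = F.1 σ⁻¹ := by
    intro F σ
    obtain ⟨d, hd, n, hn, h1⟩ := wp_eq_iff M ι hc (hsc (wp M ι σ))
    conv_rhs => rw [h1]
    rw [MD_right M Γ Q _ hn, MD_left M Γ Q _ hd]
  refine Nat.card_congr
    { toFun := fun f => ⟨fun g => f.1 (wp M ι g⁻¹), fun γ g d hd => by
          have h1 := f.2 (QuotientGroup.mk γ) (wp M ι g⁻¹)
          rw [smul_wp] at h1
          refine Eq.trans (congrArg f.1 ?_) h1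
          rw [mul_inv_rev, mul_inv_rev, wp_eq_of M ι hc (Subgroup.inv_mem _ hd)]⟩
      invFun := fun F => ⟨fun w => F.1 (sc w)⁻¹, fun g w => by
        induction g using QuotientGroup.induction_on with
        | H γ =>
          obtain ⟨σ, rfl⟩ := wp_surj M ι w
          rw [smul_wp]
          refine (key F _).trans (Eq.trans ?_ (congrArg (fun t => γ • t) (key F σ)).symm)
          have h3 := F.2 γ σ⁻¹ 1 (Subgroup.one_mem _)
          rw [mul_one] at h3
          rw [mul_inv_rev, inv_inv]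
          exact h3⟩
      left_inv := fun f => by
        apply Subtype.ext
        funext w
        show f.1 (wp M ι ((sc w)⁻¹)⁻¹) = f.1 w
        rw [inv_inv, hsc]
      right_inv := fun F => by
        apply Subtype.ext
        funext g
        show F.1 (sc (wp M ι g⁻¹))⁻¹ = F.1 g
        rw [key, inv_inv] }

end inf

end

end Fermat.Agent.EulerC
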